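import Mathlib

/-!
# P13 (S42/S29), part (B): shared definitions for the Frobenius density argument

All sums over prime ideals are Mathlib's `NumberField.Set.primeIdealZetaSum T s = ∑' 𝔭 : T, N𝔭 ^ (-s)`.
-/

set_option autoImplicit false

namespace Fermat.Agent.S42

open NumberField IsDedekindDomain

/-- The primes of absolute degree one: prime ideals whose absolute norm is a prime number. -/
def degOneSet (F : Type*) [Field F] [NumberField F] : Set (HeightOneSpectrum (𝓞 F)) :=
  {𝔭 | (Ideal.absNorm 𝔭.asIdeal).Prime}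

/-- `logPole s = log (1 / (s - 1))`. -/
noncomputable def logPole (s : ℝ) : ℝ := Real.log (1 / (s - 1))

/-- `f s = c * log (1 / (s - 1)) + O(1)` on `(1, 2]`. -/
def IsLogAsymp (f : ℝ → ℝ) (c : ℝ) : Prop :=
  ∃ C : ℝ, ∀ s : ℝ, 1 < s → s ≤ 2 → |f s - c * logPole s| ≤ C

/-- The degree-one primes of `M` that split completely in `M'`: there are `[M' : M]` primes of
`M'` above them. -/
def splitSet (M M' : Type*) [Field M] [NumberField M] [Field M'] [NumberField M'] [Algebra M M'] :
    Set (HeightOneSpectrum (𝓞 M)) :=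
  {𝔮 | (Ideal.absNorm 𝔮.asIdeal).Prime ∧
    (Ideal.primesOver 𝔮.asIdeal (𝓞 M')).ncard = Module.finrank M M'}

/-- The degree-one primes of `M` that remain prime in `L`. -/
def inertSet (M L : Type*) [Field M] [NumberField M] [Field L] [NumberField L] [Algebra M L] :
    Set (HeightOneSpectrum (𝓞 M)) :=
  {𝔮 | (Ideal.absNorm 𝔮.asIdeal).Prime ∧ (𝔮.asIdeal.map (algebraMap (𝓞 M) (𝓞 L))).IsPrime}

end Fermat.Agent.S42
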