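import Mathlib
import Fermat.Agent.S42.DensityDefs

/-!
# P13 (S42/S29), part (B), module B3b (core): the totient sieve

For a Galois extension `L / M` of number fields with cyclic Galois group, the set `inertSet M L`
of degree-one primes of `M` which remain prime in `L` is infinite.  This file proves the statement
(`ci_infinite_inertSet_of`) from three explicit hypotheses, which are exactly the statements of
the modules `ZetaPrimes` (summability of `∑ N𝔭 ^ (-s)` for `s > 1`), `SplitCount` (the partial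
zeta sum over the degree-one primes splitting completely in a Galois extension `E / M` is
`(1 / [E : M]) · log (1 / (s - 1)) + O(1)`) and `DecGroup` (existence of a decomposition-group
function `D` outside a finite set `B` of primes); the unconditional theorem `infinite_inertSet`
is assembled in `CyclicInert.lean`.

The proof is the "totient sieve": the partial zeta sums `a_C` over the primes with `D 𝔮 = C`
satisfy `∑_{C ≤ H} a_C = (|H| / n) · log (1 / (s - 1)) + O(1)` for every subgroup `H` (apply the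
splitting asymptotics to the fixed field of `H`), whence by induction on `H`
`a_H = (φ(|H|) / n) · log (1 / (s - 1)) + O(1)` (`ci_sieve`); for `H = ⊤` the constant is
positive, so the set of primes with `D 𝔮 = ⊤` cannot be finite.
-/

set_option autoImplicit false

namespace Fermat.Agent.S42

open NumberField IsDedekindDomain

/-! ### Closure properties of `IsLogAsymp` -/

theorem ci_isLogAsymp_zero : IsLogAsymp (fun _ => (0 : ℝ)) 0 :=
  ⟨0, fun s _ _ => by simp⟩

theorem ci_isLogAsymp_add {f g : ℝ → ℝ} {c d : ℝ} (hf : IsLogAsymp f c) (hg : IsLogAsymp g d) :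
    IsLogAsymp (fun s => f s + g s) (c + d) := by
  obtain ⟨C, hC⟩ := hf
  obtain ⟨D, hD⟩ := hg
  refine ⟨C + D, fun s hs hs' => ?_⟩
  have h1 := hC s hs hs'
  have h2 := hD s hs hs'
  have h3 : f s + g s - (c + d) * logPole s = (f s - c * logPole s) + (g s - d * logPole s) := by
    ring
  rw [h3]
  exact (abs_add_le _ _).trans (add_le_add h1 h2)

theorem ci_isLogAsymp_sub {f g : ℝ → ℝ} {c d : ℝ} (hf : IsLogAsymp f c) (hg : IsLogAsymp g d) :
    IsLogAsymp (fun s => f s - g s) (c - d) := by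
  obtain ⟨C, hC⟩ := hf
  obtain ⟨D, hD⟩ := hg
  refine ⟨C + D, fun s hs hs' => ?_⟩
  have h1 := hC s hs hs'
  have h2 := hD s hs hs'
  have h3 : f s - g s - (c - d) * logPole s = (f s - c * logPole s) - (g s - d * logPole s) := by
    ring
  rw [h3]
  exact (abs_sub _ _).trans (add_le_add h1 h2)

theorem ci_isLogAsymp_sum {ι : Type*} (S : Finset ι) (f : ι → ℝ → ℝ) (c : ι → ℝ)
    (h : ∀ i ∈ S, IsLogAsymp (f i) (c i)) :
    IsLogAsymp (fun s => ∑ i ∈ S, f i s) (∑ i ∈ S, c i) := by
  classical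
  induction S using Finset.induction_on with
  | empty => simpa using ci_isLogAsymp_zero
  | insert i S hi ih =>
    simp only [Finset.sum_insert hi]
    exact ci_isLogAsymp_add (h i (Finset.mem_insert_self i S))
      (ih fun j hj => h j (Finset.mem_insert_of_mem hj))

theorem ci_isLogAsymp_of_abs_sub_le {f g : ℝ → ℝ} {c K : ℝ} (hf : IsLogAsymp f c)
    (h : ∀ s : ℝ, 1 < s → s ≤ 2 → |g s - f s| ≤ K) : IsLogAsymp g c := by
  obtain ⟨C, hC⟩ := hf
  refine ⟨K + C, fun s hs hs' => ?_⟩
  have h3 : g s - c * logPole s = (g s - f s) + (f s - c * logPole s) := by ring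
  rw [h3]
  exact (abs_add_le _ _).trans (add_le_add (h s hs hs') (hC s hs hs'))

/-! ### Counting generators of subgroups -/

/-- A cyclic subgroup `C` of a finite group has exactly `φ(|C|)` generators. -/
theorem ci_card_generators {G : Type*} [Group G] [Fintype G] [DecidableEq G]
    [DecidableEq (Subgroup G)] (C : Subgroup G) [IsCyclic C] :
    (Finset.univ.filter (fun x : G => Subgroup.zpowers x = C)).card =
      Nat.totient (Nat.card C) := by
  classical
  have h1 : (Finset.univ.filter (fun a : C => orderOf a = Fintype.card C)).card =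
      Nat.totient (Fintype.card C) := IsCyclic.card_orderOf_eq_totient dvd_rfl
  rw [Nat.card_eq_fintype_card, ← h1,
    ← Finset.card_image_of_injective _ (Subtype.val_injective (p := fun x : G => x ∈ C))]
  congr 1
  ext x
  simp only [Finset.mem_filter, Finset.mem_univ, true_and, Finset.mem_image]
  constructor
  · intro hx
    have hxC : x ∈ C := hx ▸ Subgroup.mem_zpowers x
    refine ⟨⟨x, hxC⟩, ?_, rfl⟩
    rw [← Subgroup.orderOf_coe, ← Nat.card_zpowers, ← Nat.card_eq_fintype_card]
    exact congrArg (fun K : Subgroup G => Nat.card K) hx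
  · rintro ⟨a, ha, rfl⟩
    refine Subgroup.eq_of_le_of_card_ge ?_ ?_
    · rw [Subgroup.zpowers_le]
      exact a.2
    · rw [Nat.card_zpowers, Subgroup.orderOf_coe, ha, Nat.card_eq_fintype_card]

/-- In a finite cyclic group, `∑_{C ≤ H} φ(|C|) = |H|`. -/
theorem ci_sum_totient_le {G : Type*} [Group G] [Finite G] [IsCyclic G] [Fintype (Subgroup G)]
    (H : Subgroup G) [DecidablePred fun C : Subgroup G => C ≤ H] :
    ∑ C ∈ Finset.univ.filter (fun C : Subgroup G => C ≤ H), Nat.totient (Nat.card C) =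
      Nat.card H := by
  classical
  let _ : Fintype G := Fintype.ofFinite G
  have h1 : Nat.card H = (Finset.univ.filter (fun x : G => x ∈ H)).card := by
    rw [Nat.card_eq_fintype_card, Fintype.card_subtype]
  have h2 : Set.MapsTo (fun x : G => Subgroup.zpowers x)
      (Finset.univ.filter (fun x : G => x ∈ H) : Finset G)
      (Finset.univ.filter (fun C : Subgroup G => C ≤ H) : Finset (Subgroup G)) := by
    intro x hx
    simp only [Finset.coe_filter, Finset.mem_univ, true_and, Set.mem_ofPred_eq] at hx ⊢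
    rwa [Subgroup.zpowers_le]
  rw [h1, Finset.card_eq_sum_card_fiberwise h2]
  refine Finset.sum_congr rfl fun C hC => ?_
  rw [← ci_card_generators C]
  congr 1
  ext x
  simp only [Finset.mem_filter, Finset.mem_univ, true_and]
  have hC' : C ≤ H := (Finset.mem_filter.mp hC).2
  exact ⟨fun hx => ⟨hC' (hx ▸ Subgroup.mem_zpowers x), hx⟩, fun hx => hx.2⟩

/-! ### The abstract totient sieve -/

/-- If `∑_{C ≤ H} a_C = (|H| / n) · logPole + O(1)` for every subgroup `H` of a finite cyclic
group of order `n`, then `a_H = (φ(|H|) / n) · logPole + O(1)` for every `H`. -/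
theorem ci_sieve {G : Type*} [Group G] [Finite G] [IsCyclic G] [Fintype (Subgroup G)]
    [DecidableRel fun C H : Subgroup G => C ≤ H]
    (a : Subgroup G → ℝ → ℝ)
    (h : ∀ H : Subgroup G,
      IsLogAsymp (fun s => ∑ C ∈ Finset.univ.filter (fun C : Subgroup G => C ≤ H), a C s)
        ((Nat.card H : ℝ) / (Nat.card G : ℝ)))
    (H : Subgroup G) :
    IsLogAsymp (a H) ((Nat.totient (Nat.card H) : ℝ) / (Nat.card G : ℝ)) := by
  classical
  induction H using WellFoundedLT.induction with
  | _ H ih =>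
    have hfilter : Finset.univ.filter (fun C : Subgroup G => C ≤ H) =
        insert H (Finset.univ.filter (fun C : Subgroup G => C < H)) := by
      ext C
      simp only [Finset.mem_filter, Finset.mem_univ, true_and, Finset.mem_insert]
      exact le_iff_eq_or_lt
    have hnot : H ∉ Finset.univ.filter (fun C : Subgroup G => C < H) := by
      simp
    have h1 := h H
    have h2 : IsLogAsymp (fun s => ∑ C ∈ Finset.univ.filter (fun C : Subgroup G => C < H), a C s)
        (∑ C ∈ Finset.univ.filter (fun C : Subgroup G => C < H),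
          (Nat.totient (Nat.card C) : ℝ) / (Nat.card G : ℝ)) :=
      ci_isLogAsymp_sum _ _ _ fun C hC => ih C (Finset.mem_filter.mp hC).2
    have h3 := ci_isLogAsymp_sub h1 h2
    have h4 : (fun s => (∑ C ∈ Finset.univ.filter (fun C : Subgroup G => C ≤ H), a C s) -
        ∑ C ∈ Finset.univ.filter (fun C : Subgroup G => C < H), a C s) = a H := by
      funext s
      rw [hfilter, Finset.sum_insert hnot]
      ring
    have h5 : (Nat.card H : ℝ) / (Nat.card G : ℝ) -
        ∑ C ∈ Finset.univ.filter (fun C : Subgroup G => C < H),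
          (Nat.totient (Nat.card C) : ℝ) / (Nat.card G : ℝ) =
        (Nat.totient (Nat.card H) : ℝ) / (Nat.card G : ℝ) := by
      have h6 := ci_sum_totient_le H
      rw [hfilter, Finset.sum_insert hnot] at h6
      have h7 : (Nat.totient (Nat.card H) : ℝ) +
          ∑ C ∈ Finset.univ.filter (fun C : Subgroup G => C < H),
            (Nat.totient (Nat.card C) : ℝ) = (Nat.card H : ℝ) := by
        exact_mod_cast h6
      rw [← Finset.sum_div, ← sub_div]
      congr 1
      linarith
    rw [h4, h5] at h3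
    exact h3

/-! ### Partial zeta sums over sets of primes -/

theorem ci_summable_subtype (F : Type*) [Field F] [NumberField F] {s : ℝ}
    (hsum : Summable fun 𝔭 : HeightOneSpectrum (𝓞 F) => (Ideal.absNorm 𝔭.asIdeal : ℝ) ^ (-s))
    (T : Set (HeightOneSpectrum (𝓞 F))) :
    Summable ((fun 𝔭 : HeightOneSpectrum (𝓞 F) => (Ideal.absNorm 𝔭.asIdeal : ℝ) ^ (-s)) ∘
      (Subtype.val : T → HeightOneSpectrum (𝓞 F))) :=
  hsum.subtype (fun 𝔭 => 𝔭 ∈ T)

theorem ci_zeta_diff_add_inter (F : Type*) [Field F] [NumberField F] {s : ℝ}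
    (hsum : Summable fun 𝔭 : HeightOneSpectrum (𝓞 F) => (Ideal.absNorm 𝔭.asIdeal : ℝ) ^ (-s))
    (T B : Set (HeightOneSpectrum (𝓞 F))) :
    NumberField.Set.primeIdealZetaSum T s =
      NumberField.Set.primeIdealZetaSum (T \ B) s +
        NumberField.Set.primeIdealZetaSum (T ∩ B) s := by
  have hd : Disjoint (T \ B) (T ∩ B) := by
    rw [Set.disjoint_left]
    rintro 𝔭 ⟨_, h1⟩ ⟨_, h2⟩
    exact h1 h2
  have h := Summable.tsum_union_disjoint
    (f := fun 𝔭 : HeightOneSpectrum (𝓞 F) => (Ideal.absNorm 𝔭.asIdeal : ℝ) ^ (-s)) hd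
    (ci_summable_subtype F hsum _) (ci_summable_subtype F hsum _)
  rw [Set.sdiff_union_inter] at h
  exact h

theorem ci_zeta_biUnion (F : Type*) [Field F] [NumberField F] {s : ℝ}
    (hsum : Summable fun 𝔭 : HeightOneSpectrum (𝓞 F) => (Ideal.absNorm 𝔭.asIdeal : ℝ) ^ (-s))
    {ι : Type*} (I : Finset ι) (T : ι → Set (HeightOneSpectrum (𝓞 F)))
    (hd : (I : Set ι).Pairwise (Function.onFun Disjoint T)) :
    NumberField.Set.primeIdealZetaSum (⋃ i ∈ I, T i) s =
      ∑ i ∈ I, NumberField.Set.primeIdealZetaSum (T i) s :=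
  Summable.tsum_finset_bUnion_disjoint
    (f := fun 𝔭 : HeightOneSpectrum (𝓞 F) => (Ideal.absNorm 𝔭.asIdeal : ℝ) ^ (-s)) hd
    (fun i _ => ci_summable_subtype F hsum (T i))

theorem ci_abs_zeta_sub_le (F : Type*) [Field F] [NumberField F] {s : ℝ} (hs : 0 ≤ s)
    (hsum : Summable fun 𝔭 : HeightOneSpectrum (𝓞 F) => (Ideal.absNorm 𝔭.asIdeal : ℝ) ^ (-s))
    (T B : Set (HeightOneSpectrum (𝓞 F))) (hB : B.Finite) :
    |NumberField.Set.primeIdealZetaSum (T \ B) s - NumberField.Set.primeIdealZetaSum T s| ≤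
      (B.ncard : ℝ) := by
  rw [ci_zeta_diff_add_inter F hsum T B]
  have h0 := NumberField.Set.primeIdealZetaSum_nonneg (T ∩ B) s
  have h1 : NumberField.Set.primeIdealZetaSum (T ∩ B) s ≤ ((T ∩ B).ncard : ℝ) :=
    NumberField.Set.primeIdealZetaSum_le_card_of_finite (hB.subset Set.inter_subset_right) hs
  have h2 : ((T ∩ B).ncard : ℝ) ≤ (B.ncard : ℝ) := by
    exact_mod_cast Set.ncard_le_ncard Set.inter_subset_right hB
  rw [abs_le]
  constructor <;> linarith

/-- A set of primes whose partial zeta sum has a logarithmic pole with positive coefficient is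
infinite. -/
theorem ci_infinite_of_isLogAsymp_pos (F : Type*) [Field F] [NumberField F]
    (T : Set (HeightOneSpectrum (𝓞 F))) {c : ℝ} (hc : 0 < c)
    (h : IsLogAsymp (NumberField.Set.primeIdealZetaSum T) c) : T.Infinite := by
  intro hfin
  obtain ⟨K, hK⟩ := h
  set t : ℝ := (|K| + (T.ncard : ℝ)) / c + 1 with ht
  have ht0 : 0 < t := by positivity
  have he0 : 0 < Real.exp (-t) := Real.exp_pos _
  have he1 : Real.exp (-t) ≤ 1 := Real.exp_le_one_iff.mpr (by linarith)
  have hs1 : 1 < 1 + Real.exp (-t) := by linarith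
  have hs2 : 1 + Real.exp (-t) ≤ 2 := by linarith
  have hlog : logPole (1 + Real.exp (-t)) = t := by
    unfold logPole
    rw [add_sub_cancel_left, one_div, ← Real.exp_neg, neg_neg, Real.log_exp]
  have h1 := hK _ hs1 hs2
  rw [hlog, abs_le] at h1
  have h2 : NumberField.Set.primeIdealZetaSum T (1 + Real.exp (-t)) ≤ (T.ncard : ℝ) :=
    NumberField.Set.primeIdealZetaSum_le_card_of_finite hfin (by linarith)
  have h3 : c * t = |K| + (T.ncard : ℝ) + c := by
    rw [ht]
    field_simp
  have h4 := le_abs_self K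
  linarith [h1.1]

/-! ### The sieve for the decomposition groups -/

/-- Step 1: the primes outside `B` whose decomposition group is contained in `H` are, up to the
finite set `B`, the degree-one primes that split completely in the fixed field of `H`. -/
theorem ci_isLogAsymp_le (M L : Type*) [Field M] [NumberField M] [Field L] [NumberField L]
    [Algebra M L] [IsGalois M L] (hcomm : ∀ a b : L ≃ₐ[M] L, a * b = b * a)
    (hsum : ∀ s : ℝ, 1 < s →
      Summable fun 𝔭 : HeightOneSpectrum (𝓞 M) => (Ideal.absNorm 𝔭.asIdeal : ℝ) ^ (-s))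
    (hasymp : ∀ E : IntermediateField M L, IsGalois M E →
      IsLogAsymp (NumberField.Set.primeIdealZetaSum (splitSet M E))
        (1 / (Module.finrank M E : ℝ)))
    (D : HeightOneSpectrum (𝓞 M) → Subgroup (L ≃ₐ[M] L)) (B : Set (HeightOneSpectrum (𝓞 M)))
    (hB : B.Finite)
    (hsplit : ∀ 𝔮, 𝔮 ∉ B → ∀ E : IntermediateField M L,
      (𝔮 ∈ splitSet M E ↔ ((Ideal.absNorm 𝔮.asIdeal).Prime ∧ D 𝔮 ≤ E.fixingSubgroup)))
    [Fintype (Subgroup (L ≃ₐ[M] L))] [DecidableRel fun C H : Subgroup (L ≃ₐ[M] L) => C ≤ H]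
    (H : Subgroup (L ≃ₐ[M] L)) :
    IsLogAsymp (fun s => ∑ C ∈ Finset.univ.filter (fun C : Subgroup (L ≃ₐ[M] L) => C ≤ H),
        NumberField.Set.primeIdealZetaSum
          {𝔮 | 𝔮 ∉ B ∧ (Ideal.absNorm 𝔮.asIdeal).Prime ∧ D 𝔮 = C} s)
      ((Nat.card H : ℝ) / (Nat.card (L ≃ₐ[M] L) : ℝ)) := by
  have hnormal : H.Normal :=
    ⟨fun n hn g => by rw [hcomm g n, mul_inv_cancel_right]; exact hn⟩
  have hfix : (IntermediateField.fixedField H).fixingSubgroup = H :=
    IntermediateField.fixingSubgroup_fixedField H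
  have h1 := hasymp (IntermediateField.fixedField H) (IsGalois.of_fixedField_normal_subgroup H)
  have hrank : (1 : ℝ) / (Module.finrank M (IntermediateField.fixedField H) : ℝ) =
      (Nat.card H : ℝ) / (Nat.card (L ≃ₐ[M] L) : ℝ) := by
    have h2 := Module.finrank_mul_finrank M (IntermediateField.fixedField H) L
    rw [IntermediateField.finrank_fixedField_eq_card, ← IsGalois.card_aut_eq_finrank M L] at h2
    have h3 : (Module.finrank M (IntermediateField.fixedField H) : ℝ) * (Nat.card H : ℝ) =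
        (Nat.card (L ≃ₐ[M] L) : ℝ) := by
      exact_mod_cast h2
    have h4 : (Nat.card H : ℝ) ≠ 0 := by
      have : 0 < Nat.card H := Nat.card_pos
      positivity
    have h5 : (Module.finrank M (IntermediateField.fixedField H) : ℝ) ≠ 0 := by
      have : 0 < Module.finrank M (IntermediateField.fixedField H) := Module.finrank_pos
      positivity
    rw [← h3]
    field_simp
  rw [hrank] at h1
  have hset : splitSet M (IntermediateField.fixedField H) \ B =
      ⋃ C ∈ Finset.univ.filter (fun C : Subgroup (L ≃ₐ[M] L) => C ≤ H),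
        {𝔮 | 𝔮 ∉ B ∧ (Ideal.absNorm 𝔮.asIdeal).Prime ∧ D 𝔮 = C} := by
    ext 𝔮
    simp only [Set.mem_sdiff, Set.mem_iUnion, Finset.mem_filter, Finset.mem_univ, true_and,
      Set.mem_ofPred_eq, exists_prop]
    constructor
    · rintro ⟨h𝔮, h𝔮B⟩
      have h6 := (hsplit 𝔮 h𝔮B _).mp h𝔮
      rw [hfix] at h6
      exact ⟨D 𝔮, h6.2, h𝔮B, h6.1, rfl⟩
    · rintro ⟨C, hC, h𝔮B, hp, rfl⟩
      refine ⟨(hsplit 𝔮 h𝔮B _).mpr ⟨hp, ?_⟩, h𝔮B⟩
      rw [hfix]
      exact hC
  have hdisj : ((Finset.univ.filter (fun C : Subgroup (L ≃ₐ[M] L) => C ≤ H) :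
      Finset (Subgroup (L ≃ₐ[M] L))) : Set (Subgroup (L ≃ₐ[M] L))).Pairwise
      (Function.onFun Disjoint fun C : Subgroup (L ≃ₐ[M] L) =>
        {𝔮 : HeightOneSpectrum (𝓞 M) | 𝔮 ∉ B ∧ (Ideal.absNorm 𝔮.asIdeal).Prime ∧ D 𝔮 = C}) := by
    intro C _ C' _ hne
    rw [Function.onFun, Set.disjoint_left]
    rintro 𝔮 ⟨_, _, h7⟩ ⟨_, _, h8⟩
    exact hne (h7.symm.trans h8)
  refine ci_isLogAsymp_of_abs_sub_le (K := (B.ncard : ℝ)) h1 fun s hs _ => ?_
  rw [← ci_zeta_biUnion M (hsum s hs) _ _ hdisj, ← hset]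
  exact ci_abs_zeta_sub_le M (by linarith) (hsum s hs) _ B hB

/-- **Infinitely many inert degree-one primes in a cyclic extension**, from the three inputs
(summability of the prime zeta sum, asymptotics of the completely split primes, existence of
decomposition groups) stated as explicit hypotheses. -/
theorem ci_infinite_inertSet_of (M L : Type*) [Field M] [NumberField M] [Field L] [NumberField L]
    [Algebra M L] [IsGalois M L] [IsCyclic (L ≃ₐ[M] L)]
    (hsum : ∀ s : ℝ, 1 < s →
      Summable fun 𝔭 : HeightOneSpectrum (𝓞 M) => (Ideal.absNorm 𝔭.asIdeal : ℝ) ^ (-s))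
    (hasymp : ∀ E : IntermediateField M L, IsGalois M E →
      IsLogAsymp (NumberField.Set.primeIdealZetaSum (splitSet M E))
        (1 / (Module.finrank M E : ℝ)))
    (hdec : (∀ a b : L ≃ₐ[M] L, a * b = b * a) →
      ∃ (D : HeightOneSpectrum (𝓞 M) → Subgroup (L ≃ₐ[M] L))
        (B : Set (HeightOneSpectrum (𝓞 M))),
        B.Finite ∧
        (∀ 𝔮, 𝔮 ∉ B → ∀ E : IntermediateField M L,
          (𝔮 ∈ splitSet M E ↔ ((Ideal.absNorm 𝔮.asIdeal).Prime ∧ D 𝔮 ≤ E.fixingSubgroup))) ∧
        (∀ 𝔮, 𝔮 ∉ B → (𝔮 ∈ inertSet M L ↔ ((Ideal.absNorm 𝔮.asIdeal).Prime ∧ D 𝔮 = ⊤)))) :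
    (inertSet M L).Infinite := by
  classical
  have hcomm : ∀ a b : L ≃ₐ[M] L, a * b = b * a := fun a b =>
    (IsCyclic.commGroup (α := L ≃ₐ[M] L)).mul_comm a b
  obtain ⟨D, B, hB, hsplit, hinert⟩ := hdec hcomm
  let _ : Fintype (Subgroup (L ≃ₐ[M] L)) := Fintype.ofFinite _
  have h1 := ci_sieve
    (fun C : Subgroup (L ≃ₐ[M] L) => NumberField.Set.primeIdealZetaSum
      {𝔮 : HeightOneSpectrum (𝓞 M) | 𝔮 ∉ B ∧ (Ideal.absNorm 𝔮.asIdeal).Prime ∧ D 𝔮 = C})
    (ci_isLogAsymp_le M L hcomm hsum hasymp D B hB hsplit) ⊤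
  have hpos : (0 : ℝ) <
      (Nat.totient (Nat.card (⊤ : Subgroup (L ≃ₐ[M] L))) : ℝ) / (Nat.card (L ≃ₐ[M] L) : ℝ) := by
    have h2 : 0 < Nat.card (L ≃ₐ[M] L) := Nat.card_pos
    have h3 : 0 < Nat.totient (Nat.card (⊤ : Subgroup (L ≃ₐ[M] L))) := by
      rw [Nat.totient_pos]
      exact Nat.card_pos
    positivity
  refine (ci_infinite_of_isLogAsymp_pos M _ hpos h1).mono ?_
  rintro 𝔮 ⟨h𝔮B, hp, hD⟩
  exact (hinert 𝔮 h𝔮B).mpr ⟨hp, hD⟩

end Fermat.Agent.S42
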