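import Mathlib
import Fermat.Agent.S42.DensityDefs

/-!
# P13 (S42/S29), part (B), module B3a: decomposition groups in an abelian extension

For an abelian extension `L / M` of number fields with group `G = Gal(L/M)` we attach to every
prime `𝔮` of `M` the decomposition group `D 𝔮 ≤ G` of a chosen prime of `L` above `𝔮`, and show

* `𝔮` (of absolute degree one) splits completely in an intermediate field `E` iff
  `D 𝔮 ≤ Gal(L/E)`;
* outside the finite set of primes that ramify in `L`, `𝔮` stays prime in `L` iff `D 𝔮 = ⊤`.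

The main statement is `Fermat.Agent.S42.exists_decGroup`.
-/

set_option autoImplicit false

namespace Fermat.Agent.S42

open NumberField IsDedekindDomain
open scoped Pointwise

/-! ### Counting primes via the decomposition group -/

/-- The number of primes of `L` above `p` is the index of the decomposition group of any of
them. -/
theorem dgAlt_ncard_primesOver_eq_index (M L : Type*) [Field M] [NumberField M] [Field L]
    [NumberField L] [Algebra M L] [IsGalois M L] (p : Ideal (𝓞 M)) (Q : Ideal (𝓞 L))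
    [Q.IsPrime] [Q.LiesOver p] :
    (p.primesOver (𝓞 L)).ncard = (MulAction.stabilizer (L ≃ₐ[M] L) Q).index := by
  rw [MulAction.index_stabilizer,
    Algebra.IsInvariant.orbit_eq_primesOver (𝓞 M) (𝓞 L) (L ≃ₐ[M] L) p Q]

/-- In an abelian extension every intermediate field is Galois over the base. -/
theorem dgAlt_isGalois_of_comm (M L : Type*) [Field M] [Field L] [Algebra M L]
    [FiniteDimensional M L] [IsGalois M L] (hcomm : ∀ a b : L ≃ₐ[M] L, a * b = b * a)
    (E : IntermediateField M L) : IsGalois M E := by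
  have hn : (E.fixingSubgroup).Normal :=
    ⟨fun n hn g => by rw [hcomm g n, mul_inv_cancel_right]; exact hn⟩
  have h1 : IsGalois M (IntermediateField.fixedField E.fixingSubgroup) :=
    IsGalois.of_fixedField_normal_subgroup E.fixingSubgroup
  have h2 : IntermediateField.fixedField E.fixingSubgroup = E :=
    IsGalois.fixedField_fixingSubgroup E
  rw [h2] at h1
  exact h1

/-- The fixing subgroup of an intermediate field `E` is a Galois group for `𝓞 L / 𝓞 E`. -/
theorem dgAlt_isGaloisGroup_fixing (M L : Type*) [Field M] [NumberField M] [Field L]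
    [NumberField L] [Algebra M L] [IsGalois M L] (E : IntermediateField M L) :
    IsGaloisGroup (E.fixingSubgroup) (𝓞 E) (𝓞 L) :=
  haveI : IsGaloisGroup (E.fixingSubgroup) E L :=
    IsGaloisGroup.intermediateField (L ≃ₐ[M] L) M L E
  IsGaloisGroup.of_isFractionRing (E.fixingSubgroup) (𝓞 E) (𝓞 L) E L

/-- The number of primes of `L` above a prime `PE` of an intermediate field `E` is the relative
index of the decomposition group in `Gal(L/E)`. -/
theorem dgAlt_ncard_primesOver_eq_relIndex (M L : Type*) [Field M] [NumberField M] [Field L]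
    [NumberField L] [Algebra M L] [IsGalois M L] (E : IntermediateField M L)
    (PE : Ideal (𝓞 E)) (Q : Ideal (𝓞 L)) [Q.IsPrime] [Q.LiesOver PE] :
    (PE.primesOver (𝓞 L)).ncard =
      (MulAction.stabilizer (L ≃ₐ[M] L) Q).relIndex E.fixingSubgroup := by
  have := dgAlt_isGaloisGroup_fixing M L E
  have h1 : MulAction.stabilizer E.fixingSubgroup Q =
      (MulAction.stabilizer (L ≃ₐ[M] L) Q).subgroupOf E.fixingSubgroup := by
    simp [Subgroup.ext_iff, Subgroup.mem_subgroupOf]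
  have h2 : MulAction.orbit E.fixingSubgroup Q = PE.primesOver (𝓞 L) :=
    Algebra.IsInvariant.orbit_eq_primesOver (𝓞 E) (𝓞 L) E.fixingSubgroup PE Q
  rw [Subgroup.relIndex, ← h1, MulAction.index_stabilizer, h2]

/-- Counting primes in the tower `M ⊆ E ⊆ L`. -/
theorem dgAlt_tower (M L : Type*) [Field M] [NumberField M] [Field L]
    [NumberField L] [Algebra M L] [IsGalois M L] (hcomm : ∀ a b : L ≃ₐ[M] L, a * b = b * a)
    (E : IntermediateField M L) (p : Ideal (𝓞 M)) (Q : Ideal (𝓞 L)) [Q.IsPrime]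
    [Q.LiesOver p] :
    (p.primesOver (𝓞 E)).ncard *
      (MulAction.stabilizer (L ≃ₐ[M] L) Q).relIndex E.fixingSubgroup =
      (MulAction.stabilizer (L ≃ₐ[M] L) Q).index := by
  have hgal : IsGalois M E := dgAlt_isGalois_of_comm M L hcomm E
  have hPE : (Q.under (𝓞 E)).LiesOver p := inferInstance
  rw [← dgAlt_ncard_primesOver_eq_index M L p Q,
    ← dgAlt_ncard_primesOver_eq_relIndex M L E (Q.under (𝓞 E)) Q]
  exact Ideal.ncard_primesOver_mul_ncard_primesOver (Q.under (𝓞 E)) (E ≃ₐ[M] E) (𝓞 L)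
    (L ≃ₐ[M] L)

/-- A prime `p` of `M` has `[E : M]` primes above it in the intermediate field `E` iff the
decomposition group of a prime of `L` above `p` fixes `E`. -/
theorem dgAlt_split_iff (M L : Type*) [Field M] [NumberField M] [Field L]
    [NumberField L] [Algebra M L] [IsGalois M L] (hcomm : ∀ a b : L ≃ₐ[M] L, a * b = b * a)
    (E : IntermediateField M L) (p : Ideal (𝓞 M)) (Q : Ideal (𝓞 L)) [Q.IsPrime]
    [Q.LiesOver p] :
    (p.primesOver (𝓞 E)).ncard = Module.finrank M E ↔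
      MulAction.stabilizer (L ≃ₐ[M] L) Q ≤ E.fixingSubgroup := by
  have h1 := dgAlt_tower M L hcomm E p Q
  rw [IntermediateField.finrank_eq_fixingSubgroup_index]
  set D := MulAction.stabilizer (L ≃ₐ[M] L) Q with hD
  set H := E.fixingSubgroup with hH
  have h2 : H.relIndex D * D.index = (H ⊓ D).index := by
    rw [← Subgroup.inf_relIndex_right, Subgroup.relIndex_mul_index inf_le_right]
  have h3 : D.relIndex H * H.index = (H ⊓ D).index := by
    rw [← Subgroup.inf_relIndex_left, inf_comm, Subgroup.relIndex_mul_index inf_le_right,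
      inf_comm]
  have h4 : D.relIndex H ≠ 0 := by
    rw [Subgroup.relIndex]; exact Subgroup.index_ne_zero_of_finite
  have h5 : H.index ≠ 0 := Subgroup.index_ne_zero_of_finite
  have h6 : H.relIndex D * (p.primesOver (𝓞 E)).ncard = H.index := by
    apply mul_right_cancel₀ h4
    rw [mul_assoc, h1, h2, mul_comm, h3]
  rw [← Subgroup.relIndex_eq_one]
  constructor
  · intro h
    rw [h] at h6
    exact mul_right_cancel₀ h5 (by rw [h6, one_mul])
  · intro h
    rw [h, one_mul] at h6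
    exact h6

/-! ### The ramified primes -/

/-- The primes of `M` that ramify in `L`. -/
def dgAlt_ramSet (M L : Type*) [Field M] [NumberField M] [Field L] [NumberField L]
    [Algebra M L] : Set (HeightOneSpectrum (𝓞 M)) :=
  {𝔮 | ∃ P : Ideal (𝓞 L), P.IsPrime ∧ P.LiesOver 𝔮.asIdeal ∧
    𝔮.asIdeal.map (algebraMap (𝓞 M) (𝓞 L)) ≤ P ^ 2}

attribute [local instance] FractionRing.liftAlgebra in
/-- Only finitely many primes of `M` ramify in `L`: they lie below the primes dividing the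
different ideal. -/
theorem dgAlt_ramSet_finite (M L : Type*) [Field M] [NumberField M] [Field L] [NumberField L]
    [Algebra M L] : (dgAlt_ramSet M L).Finite := by
  have hsep : Algebra.IsSeparable (FractionRing (𝓞 M)) (FractionRing (𝓞 L)) := inferInstance
  have hne : differentIdeal (𝓞 M) (𝓞 L) ≠ ⊥ := differentIdeal_ne_bot
  have hfin : {v : HeightOneSpectrum (𝓞 L) | v.asIdeal ∣ differentIdeal (𝓞 M) (𝓞 L)}.Finite :=
    Ideal.finite_factors hne
  refine (hfin.image (HeightOneSpectrum.under (𝓞 M))).subset ?_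
  rintro 𝔮 ⟨P, hP, hPl, hle⟩
  have hPne : P ≠ ⊥ := Ideal.ne_bot_of_liesOver_of_ne_bot 𝔮.ne_bot P
  refine ⟨⟨P, hP, hPne⟩, ?_, ?_⟩
  · have h := pow_sub_one_dvd_differentIdeal (A := 𝓞 M) P 2 𝔮.ne_bot (Ideal.dvd_iff_le.mpr hle)
    rw [show 2 - 1 = 1 from rfl, pow_one] at h
    exact h
  · ext1
    rw [HeightOneSpectrum.under_asIdeal]
    exact (hPl.over).symm

/-- If the extension of `𝔮` to `𝓞 L` is prime, it is the only prime above `𝔮`. -/
theorem dgAlt_primesOver_of_map_isPrime (M L : Type*) [Field M] [NumberField M] [Field L]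
    [NumberField L] [Algebra M L] (𝔮 : HeightOneSpectrum (𝓞 M))
    (h : (𝔮.asIdeal.map (algebraMap (𝓞 M) (𝓞 L))).IsPrime) :
    𝔮.asIdeal.primesOver (𝓞 L) = {𝔮.asIdeal.map (algebraMap (𝓞 M) (𝓞 L))} := by
  have hne : 𝔮.asIdeal.map (algebraMap (𝓞 M) (𝓞 L)) ≠ ⊥ :=
    Ideal.map_ne_bot_of_ne_bot 𝔮.ne_bot
  have hmax : (𝔮.asIdeal.map (algebraMap (𝓞 M) (𝓞 L))).IsMaximal := h.isMaximal hne
  have key : ∀ P : Ideal (𝓞 L), P ∈ 𝔮.asIdeal.primesOver (𝓞 L) →
      P = 𝔮.asIdeal.map (algebraMap (𝓞 M) (𝓞 L)) := by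
    rintro P ⟨hP, hPl⟩
    refine (hmax.eq_of_le hP.ne_top ?_).symm
    rw [Ideal.map_le_iff_le_comap]
    exact hPl.over.le
  obtain ⟨⟨P, hP⟩⟩ : Nonempty (𝔮.asIdeal.primesOver (𝓞 L)) := inferInstance
  ext P'
  constructor
  · intro hP'
    exact key P' hP'
  · rintro rfl
    have := key P hP
    rw [← this]
    exact hP

/-- If `Q` is the only prime above `𝔮` and `𝔮` is unramified, the extension of `𝔮` is `Q`. -/
theorem dgAlt_map_eq_of_primesOver_eq (M L : Type*) [Field M] [NumberField M] [Field L]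
    [NumberField L] [Algebra M L] (𝔮 : HeightOneSpectrum (𝓞 M)) (Q : Ideal (𝓞 L))
    (hQ : 𝔮.asIdeal.primesOver (𝓞 L) = {Q}) (hram : 𝔮 ∉ dgAlt_ramSet M L) :
    𝔮.asIdeal.map (algebraMap (𝓞 M) (𝓞 L)) = Q := by
  have hQmem : Q ∈ 𝔮.asIdeal.primesOver (𝓞 L) := by rw [hQ]; exact Set.mem_singleton Q
  obtain ⟨hQp, hQl⟩ := hQmem
  have hle : 𝔮.asIdeal.map (algebraMap (𝓞 M) (𝓞 L)) ≤ Q := by
    rw [Ideal.map_le_iff_le_comap]
    exact hQl.over.le
  obtain ⟨J, hJ⟩ := Ideal.dvd_iff_le.mpr hle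
  by_cases hJtop : J = ⊤
  · rw [hJ, hJtop, Ideal.mul_top]
  · exfalso
    obtain ⟨P', hP'max, hJP'⟩ := Ideal.exists_le_maximal J hJtop
    have hmapP' : 𝔮.asIdeal.map (algebraMap (𝓞 M) (𝓞 L)) ≤ P' := by
      rw [hJ]
      exact Ideal.mul_le_right.trans hJP'
    have hP'l : P'.LiesOver 𝔮.asIdeal := by
      refine ⟨?_⟩
      have hmax : 𝔮.asIdeal.IsMaximal := 𝔮.isMaximal
      refine hmax.eq_of_le ?_ (Ideal.map_le_iff_le_comap.mp hmapP')
      exact (Ideal.IsPrime.under (𝓞 M) P').ne_top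
    have hP'Q : P' = Q := by
      have : P' ∈ 𝔮.asIdeal.primesOver (𝓞 L) := ⟨hP'max.isPrime, hP'l⟩
      rw [hQ] at this
      exact this
    apply hram
    refine ⟨Q, hQp, hQl, ?_⟩
    rw [hJ, pow_two]
    exact Ideal.mul_mono_right (hP'Q ▸ hJP')

/-- Outside the ramified primes, `𝔮` stays prime in `L` iff the decomposition group of a prime
above it is everything. -/
theorem dgAlt_inert_iff (M L : Type*) [Field M] [NumberField M] [Field L]
    [NumberField L] [Algebra M L] [IsGalois M L] (𝔮 : HeightOneSpectrum (𝓞 M))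
    (hram : 𝔮 ∉ dgAlt_ramSet M L) (Q : Ideal (𝓞 L)) [hQp : Q.IsPrime]
    [hQl : Q.LiesOver 𝔮.asIdeal] :
    (𝔮.asIdeal.map (algebraMap (𝓞 M) (𝓞 L))).IsPrime ↔
      MulAction.stabilizer (L ≃ₐ[M] L) Q = ⊤ := by
  rw [← Subgroup.index_eq_one, ← dgAlt_ncard_primesOver_eq_index M L 𝔮.asIdeal Q]
  constructor
  · intro h
    rw [dgAlt_primesOver_of_map_isPrime M L 𝔮 h, Set.ncard_singleton]
  · intro h
    obtain ⟨a, ha⟩ := Set.ncard_eq_one.mp h
    have hQmem : Q ∈ 𝔮.asIdeal.primesOver (𝓞 L) := ⟨hQp, hQl⟩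
    have haQ : Q = a := by
      rw [ha] at hQmem
      exact hQmem
    rw [← haQ] at ha
    rw [dgAlt_map_eq_of_primesOver_eq M L 𝔮 Q ha hram]
    exact hQp

/-! ### The decomposition groups -/

/-- A chosen prime of `L` above `𝔮`. -/
noncomputable def dgAlt_primeAbove (M L : Type*) [Field M] [NumberField M] [Field L]
    [NumberField L] [Algebra M L] (𝔮 : HeightOneSpectrum (𝓞 M)) :
    𝔮.asIdeal.primesOver (𝓞 L) :=
  Classical.choice inferInstance

/-- The decomposition group of (the chosen prime above) `𝔮`. -/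
noncomputable def dgAlt_decGroup (M L : Type*) [Field M] [NumberField M] [Field L]
    [NumberField L] [Algebra M L] (𝔮 : HeightOneSpectrum (𝓞 M)) : Subgroup (L ≃ₐ[M] L) :=
  MulAction.stabilizer (L ≃ₐ[M] L) (dgAlt_primeAbove M L 𝔮 : Ideal (𝓞 L))

/-- Splitting in an intermediate field in terms of `dgAlt_decGroup` (no exceptional set is
needed here). -/
theorem dgAlt_mem_splitSet_iff (M L : Type*) [Field M] [NumberField M] [Field L]
    [NumberField L] [Algebra M L] [IsGalois M L] (hcomm : ∀ a b : L ≃ₐ[M] L, a * b = b * a)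
    (𝔮 : HeightOneSpectrum (𝓞 M)) (E : IntermediateField M L) :
    𝔮 ∈ splitSet M E ↔
      ((Ideal.absNorm 𝔮.asIdeal).Prime ∧ dgAlt_decGroup M L 𝔮 ≤ E.fixingSubgroup) := by
  have : (dgAlt_primeAbove M L 𝔮 : Ideal (𝓞 L)).IsPrime := (dgAlt_primeAbove M L 𝔮).2.1
  have : (dgAlt_primeAbove M L 𝔮 : Ideal (𝓞 L)).LiesOver 𝔮.asIdeal :=
    (dgAlt_primeAbove M L 𝔮).2.2
  exact and_congr_right fun _ =>
    dgAlt_split_iff M L hcomm E 𝔮.asIdeal (dgAlt_primeAbove M L 𝔮 : Ideal (𝓞 L))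

/-- Inertness in `L` in terms of `dgAlt_decGroup`, outside the ramified primes. -/
theorem dgAlt_mem_inertSet_iff (M L : Type*) [Field M] [NumberField M] [Field L]
    [NumberField L] [Algebra M L] [IsGalois M L] (𝔮 : HeightOneSpectrum (𝓞 M))
    (hram : 𝔮 ∉ dgAlt_ramSet M L) :
    𝔮 ∈ inertSet M L ↔ ((Ideal.absNorm 𝔮.asIdeal).Prime ∧ dgAlt_decGroup M L 𝔮 = ⊤) := by
  have : (dgAlt_primeAbove M L 𝔮 : Ideal (𝓞 L)).IsPrime := (dgAlt_primeAbove M L 𝔮).2.1
  have : (dgAlt_primeAbove M L 𝔮 : Ideal (𝓞 L)).LiesOver 𝔮.asIdeal :=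
    (dgAlt_primeAbove M L 𝔮).2.2
  exact and_congr_right fun _ =>
    dgAlt_inert_iff M L 𝔮 hram (dgAlt_primeAbove M L 𝔮 : Ideal (𝓞 L))

/-- **Decomposition groups in an abelian extension.** -/
theorem exists_decGroup (M L : Type*) [Field M] [NumberField M] [Field L] [NumberField L]
    [Algebra M L] [IsGalois M L] (hcomm : ∀ a b : L ≃ₐ[M] L, a * b = b * a) :
    ∃ (D : HeightOneSpectrum (𝓞 M) → Subgroup (L ≃ₐ[M] L)) (B : Set (HeightOneSpectrum (𝓞 M))),
      B.Finite ∧
      (∀ 𝔮, 𝔮 ∉ B → ∀ E : IntermediateField M L,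
        (𝔮 ∈ splitSet M E ↔ ((Ideal.absNorm 𝔮.asIdeal).Prime ∧ D 𝔮 ≤ E.fixingSubgroup))) ∧
      (∀ 𝔮, 𝔮 ∉ B → (𝔮 ∈ inertSet M L ↔ ((Ideal.absNorm 𝔮.asIdeal).Prime ∧ D 𝔮 = ⊤))) :=
  ⟨dgAlt_decGroup M L, dgAlt_ramSet M L, dgAlt_ramSet_finite M L,
    fun 𝔮 _ E => dgAlt_mem_splitSet_iff M L hcomm 𝔮 E,
    fun 𝔮 h𝔮 => dgAlt_mem_inertSet_iff M L 𝔮 h𝔮⟩

end Fermat.Agent.S42
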