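import Mathlib
import Fermat.Agent.S42.DensityDefs

/-!
# P13 (S42/S29), part (B), module B2 (core): completely split primes in a Galois extension

For a Galois extension `M'/M` of number fields of degree `n`, the degree-one primes of `M` that
split completely in `M'` satisfy
`∑ N𝔮 ^ (-s) = (1 / n) * log (1 / (s - 1)) + O(1)` on `(1, 2]`,
*provided* the degree-one primes of `M'` satisfy `∑ N𝔔 ^ (-s) = log (1 / (s - 1)) + O(1)` and
their sum converges for `s > 1` (`sc_isLogAsymp_split_of`; the two hypotheses are supplied by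
module B1b, and the unconditional statement `isLogAsymp_split` is in `SplitCount.lean`).

The proof: a degree-one prime `𝔔` of `M'` either lies over a completely split degree-one prime
of `M` (and there are exactly `n` primes of `M'` over such a prime, all of the same norm), or is
ramified over `M` (finitely many, since they divide the different).
-/

set_option autoImplicit false

namespace Fermat.Agent.S42

open NumberField IsDedekindDomain

section algebraic

/-- `N𝔮 ^ f(𝔔|𝔮) = N𝔔` for `𝔮 = 𝔔 ∩ 𝓞 M`. -/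
theorem sc_absNorm_under_pow (M M' : Type*) [Field M] [NumberField M] [Field M'] [NumberField M']
    [Algebra M M'] (𝔔 : HeightOneSpectrum (𝓞 M')) :
    Ideal.absNorm (𝔔.under (𝓞 M)).asIdeal ^ 𝔔.asIdeal.inertiaDeg (𝓞 M) =
      Ideal.absNorm 𝔔.asIdeal :=
  Ideal.absNorm_pow_inertiaDeg (𝔔.asIdeal.under (𝓞 M)) 𝔔.asIdeal

/-- A prime of `M'` of absolute degree one has residue degree one over `M`, and lies over a
prime of `M` with the same norm (hence of absolute degree one). -/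
theorem sc_degOne_under (M M' : Type*) [Field M] [NumberField M] [Field M'] [NumberField M']
    [Algebra M M'] {𝔔 : HeightOneSpectrum (𝓞 M')} (h : 𝔔 ∈ degOneSet M') :
    𝔔.asIdeal.inertiaDeg (𝓞 M) = 1 ∧
      Ideal.absNorm (𝔔.under (𝓞 M)).asIdeal = Ideal.absNorm 𝔔.asIdeal := by
  have h1 := sc_absNorm_under_pow M M' 𝔔
  have h2 : (Ideal.absNorm 𝔔.asIdeal).Prime := h
  rw [← h1] at h2
  have h3 : 𝔔.asIdeal.inertiaDeg (𝓞 M) = 1 := Nat.Prime.eq_one_of_pow h2
  refine ⟨h3, ?_⟩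
  rw [← h1, h3, pow_one]

/-- The restriction to `M` of a degree-one prime of `M'` is a degree-one prime of `M`. -/
theorem sc_under_mem_degOneSet (M M' : Type*) [Field M] [NumberField M] [Field M']
    [NumberField M'] [Algebra M M'] {𝔔 : HeightOneSpectrum (𝓞 M')} (h : 𝔔 ∈ degOneSet M') :
    𝔔.under (𝓞 M) ∈ degOneSet M := by
  change (Ideal.absNorm (𝔔.under (𝓞 M)).asIdeal).Prime
  rw [(sc_degOne_under M M' h).2]
  exact h

/-- The fibre of `𝔔 ↦ 𝔔 ∩ 𝓞 M` above `𝔮` is the set of primes of `𝓞 M'` over `𝔮`. -/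
noncomputable def sc_fibreEquiv (M M' : Type*) [Field M] [NumberField M] [Field M']
    [NumberField M'] [Algebra M M'] (𝔮 : HeightOneSpectrum (𝓞 M)) :
    {𝔔 : HeightOneSpectrum (𝓞 M') // 𝔔.under (𝓞 M) = 𝔮} ≃
      Ideal.primesOver 𝔮.asIdeal (𝓞 M') where
  toFun 𝔔 := ⟨𝔔.1.asIdeal, 𝔔.1.isPrime, ⟨(congrArg HeightOneSpectrum.asIdeal 𝔔.2).symm⟩⟩
  invFun P := ⟨⟨P.1, P.2.1, Ideal.ne_bot_of_mem_primesOver 𝔮.ne_bot P.2⟩,
    HeightOneSpectrum.ext (P.2.2.over).symm⟩
  left_inv _ := rfl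
  right_inv _ := rfl

/-- The number of primes of `M'` restricting to `𝔮` is the number of primes over `𝔮`. -/
theorem sc_card_fibre (M M' : Type*) [Field M] [NumberField M] [Field M'] [NumberField M']
    [Algebra M M'] (𝔮 : HeightOneSpectrum (𝓞 M)) :
    Nat.card {𝔔 : HeightOneSpectrum (𝓞 M') // 𝔔.under (𝓞 M) = 𝔮} =
      (Ideal.primesOver 𝔮.asIdeal (𝓞 M')).ncard := by
  rw [Nat.card_congr (sc_fibreEquiv M M' 𝔮), Nat.card_coe_set_eq]

theorem sc_finite_fibre (M M' : Type*) [Field M] [NumberField M] [Field M'] [NumberField M']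
    [Algebra M M'] (𝔮 : HeightOneSpectrum (𝓞 M)) :
    Finite {𝔔 : HeightOneSpectrum (𝓞 M') // 𝔔.under (𝓞 M) = 𝔮} :=
  Finite.of_equiv _ (sc_fibreEquiv M M' 𝔮).symm

variable (M M' : Type*) [Field M] [NumberField M] [Field M'] [NumberField M']
    [Algebra M M'] [IsGalois M M']

/-- The fundamental identity `r * (e * f) = [M' : M]` for a prime of `M` in a Galois
extension. -/
theorem sc_fund (𝔮 : HeightOneSpectrum (𝓞 M)) :
    (Ideal.primesOver 𝔮.asIdeal (𝓞 M')).ncard *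
      (𝔮.asIdeal.ramificationIdxIn (𝓞 M') * 𝔮.asIdeal.inertiaDegIn (𝓞 M')) =
        Module.finrank M M' := by
  rw [Ideal.ncard_primesOver_mul_ramificationIdxIn_mul_inertiaDegIn 𝔮.asIdeal (𝓞 M') Gal(M'/M),
    IsGalois.card_aut_eq_finrank]

theorem sc_inertiaDegIn (𝔔 : HeightOneSpectrum (𝓞 M')) :
    (𝔔.under (𝓞 M)).asIdeal.inertiaDegIn (𝓞 M') = 𝔔.asIdeal.inertiaDeg (𝓞 M) :=
  Ideal.inertiaDegIn_eq_inertiaDeg (𝔔.asIdeal.under (𝓞 M)) 𝔔.asIdeal Gal(M'/M)

theorem sc_ramificationIdxIn (𝔔 : HeightOneSpectrum (𝓞 M')) :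
    (𝔔.under (𝓞 M)).asIdeal.ramificationIdxIn (𝓞 M') = 𝔔.asIdeal.ramificationIdx (𝓞 M) :=
  Ideal.ramificationIdxIn_eq_ramificationIdx (𝔔.asIdeal.under (𝓞 M)) 𝔔.asIdeal Gal(M'/M)

/-- (a) Every prime of `M'` above a completely split degree-one prime `𝔮` of `M` has norm
`N𝔮`. -/
theorem sc_absNorm_of_under_mem_splitSet {𝔔 : HeightOneSpectrum (𝓞 M')}
    (h : 𝔔.under (𝓞 M) ∈ splitSet M M') :
    Ideal.absNorm 𝔔.asIdeal = Ideal.absNorm (𝔔.under (𝓞 M)).asIdeal := by
  have h1 := sc_fund M M' (𝔔.under (𝓞 M))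
  rw [h.2] at h1
  have hn : 0 < Module.finrank M M' := Module.finrank_pos
  have h2 : (𝔔.under (𝓞 M)).asIdeal.ramificationIdxIn (𝓞 M') *
      (𝔔.under (𝓞 M)).asIdeal.inertiaDegIn (𝓞 M') = 1 :=
    Nat.eq_of_mul_eq_mul_left hn (h1.trans (mul_one _).symm)
  have h3 : 𝔔.asIdeal.inertiaDeg (𝓞 M) = 1 := by
    rw [← sc_inertiaDegIn]
    exact Nat.eq_one_of_mul_eq_one_left h2
  rw [← sc_absNorm_under_pow M M' 𝔔, h3, pow_one]

/-- (a') Every prime of `M'` above a completely split degree-one prime of `M` has absolute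
degree one. -/
theorem sc_mem_degOneSet_of_under_mem_splitSet {𝔔 : HeightOneSpectrum (𝓞 M')}
    (h : 𝔔.under (𝓞 M) ∈ splitSet M M') : 𝔔 ∈ degOneSet M' := by
  change (Ideal.absNorm 𝔔.asIdeal).Prime
  rw [sc_absNorm_of_under_mem_splitSet M M' h]
  exact h.1

attribute [local instance] FractionRing.liftAlgebra FractionRing.isScalarTower_liftAlgebra in
/-- (b) A degree-one prime of `M'` whose restriction to `M` is not completely split is ramified
over `M`: it divides the different. -/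
theorem sc_dvd_differentIdeal {𝔔 : HeightOneSpectrum (𝓞 M')} (h : 𝔔 ∈ degOneSet M')
    (h' : 𝔔.under (𝓞 M) ∉ splitSet M M') :
    𝔔.asIdeal ∣ differentIdeal (𝓞 M) (𝓞 M') := by
  obtain ⟨hf, hN⟩ := sc_degOne_under M M' h
  rw [dvd_differentIdeal_iff, ← Ideal.ramificationIdx_eq_one_iff]
  intro he
  apply h'
  refine ⟨?_, ?_⟩
  · rw [hN]
    exact h
  · have h1 := sc_fund M M' (𝔔.under (𝓞 M))
    rw [sc_inertiaDegIn, sc_ramificationIdxIn, hf, he, mul_one, mul_one] at h1
    exact h1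

attribute [local instance] FractionRing.liftAlgebra FractionRing.isScalarTower_liftAlgebra in
/-- The exceptional set (degree-one primes of `M'` not lying over a completely split prime of
`M`) is finite. -/
theorem sc_bad_finite :
    {𝔔 : HeightOneSpectrum (𝓞 M') |
      𝔔 ∈ degOneSet M' ∧ 𝔔.under (𝓞 M) ∉ splitSet M M'}.Finite := by
  have hne : differentIdeal (𝓞 M) (𝓞 M') ≠ 0 := differentIdeal_ne_bot
  refine (Ideal.finite_factors hne).subset ?_
  rintro 𝔔 ⟨h, h'⟩
  exact sc_dvd_differentIdeal M M' h h'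

/-- The degree-one primes of `M'` are those lying over a completely split degree-one prime of
`M`, together with the (finite) exceptional set. -/
theorem sc_union_eq :
    {𝔔 : HeightOneSpectrum (𝓞 M') | 𝔔.under (𝓞 M) ∈ splitSet M M'} ∪
      {𝔔 | 𝔔 ∈ degOneSet M' ∧ 𝔔.under (𝓞 M) ∉ splitSet M M'} = degOneSet M' := by
  ext 𝔔
  constructor
  · rintro (h | h)
    · exact sc_mem_degOneSet_of_under_mem_splitSet M M' h
    · exact h.1
  · intro h
    by_cases h' : 𝔔.under (𝓞 M) ∈ splitSet M M'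
    · exact Or.inl h'
    · exact Or.inr ⟨h, h'⟩

end algebraic

section analytic

variable (M M' : Type*) [Field M] [NumberField M] [Field M'] [NumberField M']
    [Algebra M M'] [IsGalois M M']

/-- The sum over the primes of `M'` lying over completely split degree-one primes of `M` is
`[M' : M]` times the sum over the completely split degree-one primes of `M` (as soon as the
former converges). -/
theorem sc_zetaSum_good {s : ℝ}
    (hsum : Summable fun 𝔔 : {𝔔 : HeightOneSpectrum (𝓞 M') | 𝔔.under (𝓞 M) ∈ splitSet M M'} =>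
      (Ideal.absNorm 𝔔.1.asIdeal : ℝ) ^ (-s)) :
    NumberField.Set.primeIdealZetaSum
        {𝔔 : HeightOneSpectrum (𝓞 M') | 𝔔.under (𝓞 M) ∈ splitSet M M'} s =
      (Module.finrank M M' : ℝ) * NumberField.Set.primeIdealZetaSum (splitSet M M') s := by
  classical
  set f : HeightOneSpectrum (𝓞 M') → ℝ := fun 𝔔 => (Ideal.absNorm 𝔔.asIdeal : ℝ) ^ (-s) with hf
  set g : HeightOneSpectrum (𝓞 M) → ℝ := fun 𝔮 => (Ideal.absNorm 𝔮.asIdeal : ℝ) ^ (-s) with hg
  set G : Set (HeightOneSpectrum (𝓞 M')) := {𝔔 | 𝔔.under (𝓞 M) ∈ splitSet M M'} with hG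
  have hsum' : Summable (G.indicator f) := summable_subtype_iff_indicator.mp hsum
  have h1 : HasSum (fun p : Σ 𝔮 : HeightOneSpectrum (𝓞 M),
      {𝔔 : HeightOneSpectrum (𝓞 M') // 𝔔.under (𝓞 M) = 𝔮} => G.indicator f p.2.1)
      (∑' 𝔔, G.indicator f 𝔔) :=
    (Equiv.hasSum_iff (Equiv.sigmaFiberEquiv (HeightOneSpectrum.under (𝓞 M)))).mpr hsum'.hasSum
  have h2 : ∀ 𝔮 : HeightOneSpectrum (𝓞 M),
      HasSum (fun 𝔔 : {𝔔 : HeightOneSpectrum (𝓞 M') // 𝔔.under (𝓞 M) = 𝔮} => G.indicator f 𝔔.1)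
        ((splitSet M M').indicator (fun 𝔮 => (Module.finrank M M' : ℝ) * g 𝔮) 𝔮) := by
    intro 𝔮
    have := sc_finite_fibre M M' 𝔮
    have := Fintype.ofFinite {𝔔 : HeightOneSpectrum (𝓞 M') // 𝔔.under (𝓞 M) = 𝔮}
    have h := hasSum_fintype
      (fun 𝔔 : {𝔔 : HeightOneSpectrum (𝓞 M') // 𝔔.under (𝓞 M) = 𝔮} => G.indicator f 𝔔.1)
    convert h using 1
    by_cases h𝔮 : 𝔮 ∈ splitSet M M'
    · rw [Set.indicator_of_mem h𝔮]
      have hterm : ∀ 𝔔 : {𝔔 : HeightOneSpectrum (𝓞 M') // 𝔔.under (𝓞 M) = 𝔮},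
          G.indicator f 𝔔.1 = g 𝔮 := by
        rintro ⟨𝔔, rfl⟩
        rw [Set.indicator_of_mem (show 𝔔 ∈ G from h𝔮)]
        simp only [hf, hg]
        rw [sc_absNorm_of_under_mem_splitSet M M' h𝔮]
      rw [Finset.sum_congr rfl (fun 𝔔 _ => hterm 𝔔), Finset.sum_const, Finset.card_univ,
        nsmul_eq_mul, ← Nat.card_eq_fintype_card, sc_card_fibre, h𝔮.2]
    · rw [Set.indicator_of_notMem h𝔮]
      symm
      apply Finset.sum_eq_zero
      rintro ⟨𝔔, rfl⟩ _
      exact Set.indicator_of_notMem (show 𝔔 ∉ G from h𝔮) _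
  have h3 := (h1.sigma h2).tsum_eq
  rw [NumberField.Set.primeIdealZetaSum_def, NumberField.Set.primeIdealZetaSum_def,
    tsum_subtype G f, ← h3, ← tsum_mul_left,
    tsum_subtype (splitSet M M') (fun 𝔮 => (Module.finrank M M' : ℝ) * g 𝔮)]

/-- Decomposition of the sum over the degree-one primes of `M'` (as soon as it converges):
`[M' : M]` times the sum over the completely split degree-one primes of `M`, plus the sum
over the finite exceptional set. -/
theorem sc_zetaSum_degOne {s : ℝ}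
    (hsum : Summable fun 𝔔 : degOneSet M' => (Ideal.absNorm 𝔔.1.asIdeal : ℝ) ^ (-s)) :
    NumberField.Set.primeIdealZetaSum (degOneSet M') s =
      (Module.finrank M M' : ℝ) * NumberField.Set.primeIdealZetaSum (splitSet M M') s +
        NumberField.Set.primeIdealZetaSum {𝔔 : HeightOneSpectrum (𝓞 M') |
          𝔔 ∈ degOneSet M' ∧ 𝔔.under (𝓞 M) ∉ splitSet M M'} s := by
  have hunion := sc_union_eq M M'
  have hdisj : Disjoint {𝔔 : HeightOneSpectrum (𝓞 M') | 𝔔.under (𝓞 M) ∈ splitSet M M'}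
      {𝔔 | 𝔔 ∈ degOneSet M' ∧ 𝔔.under (𝓞 M) ∉ splitSet M M'} := by
    rw [Set.disjoint_left]
    intro 𝔔 h h'
    exact h'.2 h
  have hind : Summable ((degOneSet M').indicator
      fun 𝔔 : HeightOneSpectrum (𝓞 M') => (Ideal.absNorm 𝔔.asIdeal : ℝ) ^ (-s)) :=
    summable_subtype_iff_indicator.mp hsum
  have hsumG : Summable
      fun 𝔔 : {𝔔 : HeightOneSpectrum (𝓞 M') | 𝔔.under (𝓞 M) ∈ splitSet M M'} =>
        (Ideal.absNorm 𝔔.1.asIdeal : ℝ) ^ (-s) := by
    refine (hind.subtype {𝔔 : HeightOneSpectrum (𝓞 M') |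
      𝔔.under (𝓞 M) ∈ splitSet M M'}).congr ?_
    rintro ⟨𝔔, h𝔔⟩
    exact Set.indicator_of_mem (sc_mem_degOneSet_of_under_mem_splitSet M M' h𝔔) _
  have hsumB : Summable
      fun 𝔔 : {𝔔 : HeightOneSpectrum (𝓞 M') |
          𝔔 ∈ degOneSet M' ∧ 𝔔.under (𝓞 M) ∉ splitSet M M'} =>
        (Ideal.absNorm 𝔔.1.asIdeal : ℝ) ^ (-s) := by
    have := (sc_bad_finite M M').to_subtype
    exact Summable.of_finite
  have h := Summable.tsum_union_disjoint (f := fun 𝔔 : HeightOneSpectrum (𝓞 M') =>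
    (Ideal.absNorm 𝔔.asIdeal : ℝ) ^ (-s)) hdisj hsumG hsumB
  rw [← NumberField.Set.primeIdealZetaSum_def, ← NumberField.Set.primeIdealZetaSum_def,
    ← NumberField.Set.primeIdealZetaSum_def, hunion, sc_zetaSum_good M M' hsumG] at h
  exact h

/-- **Completely split primes in a Galois extension, conditional form.** Let `M'/M` be a Galois
extension of number fields. If the degree-one primes of `M'` satisfy
`∑ N𝔔 ^ (-s) = log (1 / (s - 1)) + O(1)` on `(1, 2]` (with convergence for `s > 1`), then the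
degree-one primes of `M` that split completely in `M'` satisfy
`∑ N𝔮 ^ (-s) = (1 / [M' : M]) * log (1 / (s - 1)) + O(1)` on `(1, 2]`. -/
theorem sc_isLogAsymp_split_of
    (hsum : ∀ s : ℝ, 1 < s →
      Summable fun 𝔔 : degOneSet M' => (Ideal.absNorm 𝔔.1.asIdeal : ℝ) ^ (-s))
    (hdeg : IsLogAsymp (NumberField.Set.primeIdealZetaSum (degOneSet M')) 1) :
    IsLogAsymp (NumberField.Set.primeIdealZetaSum (splitSet M M'))
      (1 / (Module.finrank M M' : ℝ)) := by
  obtain ⟨C, hC⟩ := hdeg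
  have hBfin := sc_bad_finite M M'
  have hn : (0 : ℝ) < Module.finrank M M' := by exact_mod_cast Module.finrank_pos
  have hn1 : (1 : ℝ) ≤ Module.finrank M M' := by
    exact_mod_cast Nat.one_le_iff_ne_zero.mpr Module.finrank_pos.ne'
  refine ⟨C + ({𝔔 : HeightOneSpectrum (𝓞 M') |
    𝔔 ∈ degOneSet M' ∧ 𝔔.under (𝓞 M) ∉ splitSet M M'}.ncard : ℝ), fun s hs1 hs2 => ?_⟩
  have h1 := hC s hs1 hs2
  have h2 := sc_zetaSum_degOne M M' (hsum s hs1)
  have h3 := NumberField.Set.primeIdealZetaSum_nonneg {𝔔 : HeightOneSpectrum (𝓞 M') |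
    𝔔 ∈ degOneSet M' ∧ 𝔔.under (𝓞 M) ∉ splitSet M M'} s
  have h4 := NumberField.Set.primeIdealZetaSum_le_card_of_finite hBfin
    (show (0 : ℝ) ≤ s by linarith)
  rw [h2, one_mul] at h1
  have h5 : |(Module.finrank M M' : ℝ) * NumberField.Set.primeIdealZetaSum (splitSet M M') s -
      logPole s| ≤ C + ({𝔔 : HeightOneSpectrum (𝓞 M') |
        𝔔 ∈ degOneSet M' ∧ 𝔔.under (𝓞 M) ∉ splitSet M M'}.ncard : ℝ) := by
    rw [abs_le] at h1 ⊢
    constructor <;> linarith
  have h6 : NumberField.Set.primeIdealZetaSum (splitSet M M') s -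
      1 / (Module.finrank M M' : ℝ) * logPole s =
      ((Module.finrank M M' : ℝ) * NumberField.Set.primeIdealZetaSum (splitSet M M') s -
        logPole s) / (Module.finrank M M' : ℝ) := by
    field_simp
  rw [h6, abs_div, abs_of_pos hn]
  exact (div_le_self (abs_nonneg _) hn1).trans h5

end analytic

end Fermat.Agent.S42
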