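import Mathlib

/-!
# P13 (S42/S29), part (B), module B1a: the Euler product of the Dedekind zeta function

For a number field `F` and a real number `s > 1` we prove

* `summable_absNorm_ideal_rpow`: the series `∑ N(I)^(-s)` over the nonzero ideals of `𝓞 F`
  is summable;
* `hasProd_euler_dedekind`: the Euler product
  `∏_𝔭 (1 - N𝔭^(-s))⁻¹ = ∑_{I ≠ 0} N(I)^(-s)` (as a `HasProd` over `HeightOneSpectrum (𝓞 F)`);
* `dedekindZeta_eq_tsum_ideal`: Mathlib's `NumberField.dedekindZeta F s` equals this sum.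

## Strategy

* Summability and the comparison with `dedekindZeta` are obtained by summing along the fibres of
  `Ideal.absNorm : Ideal (𝓞 F) → ℕ`; the Dirichlet series `∑ a(n) n^(-s)` (with `a(n)` the number
  of ideals of norm `n`) converges for `s > 1` because `∑_{n ≤ x} a(n) = O(x)`
  (`NumberField.Ideal.tendsto_norm_le_div_atTop₀`).
* The Euler product is proved for an arbitrary Dedekind domain `R` and an arbitrary nonnegative
  multiplicative function `g` on ideals with `g 𝔭 < 1` (`eulerAlt_hasProd_general`): for a finite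
  set `S` of primes the sum of `g` over the nonzero ideals all of whose prime factors lie in `S`
  equals `∏_{𝔭 ∈ S} (1 - g 𝔭)⁻¹` (`eulerAlt_hasSum_finset`, induction on `S`, using the bijection
  `(n, J) ↦ 𝔭 ^ n * J`), and one lets `S` grow (dominated convergence for series).

All auxiliary declarations carry the prefix `eulerAlt_`.
-/

set_option autoImplicit false

namespace Fermat.Agent.S42

open NumberField IsDedekindDomain

/-! ### Summability and comparison with the Dedekind zeta function -/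

/-- The coefficients of the Dedekind zeta function give a summable L-series at real `s > 1`. -/
theorem eulerAlt_lseriesSummable (F : Type*) [Field F] [NumberField F] {s : ℝ} (hs : 1 < s) :
    LSeriesSummable
      (fun n ↦ ((Nat.card {I : Ideal (𝓞 F) // Ideal.absNorm I = n} : ℝ) : ℂ)) (s : ℂ) := by
  refine LSeriesSummable_of_sum_norm_bigO_and_nonneg ?_ (fun _ ↦ Nat.cast_nonneg _)
    zero_le_one (by simpa using hs)
  refine Asymptotics.isBigO_atTop_natCast_rpow_of_tendsto_div_rpow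
    (a := dedekindZeta_residue F) ?_
  simp only [Real.rpow_one]
  refine ((NumberField.Ideal.tendsto_norm_le_div_atTop₀ F).comp
    tendsto_natCast_atTop_atTop).congr fun n ↦ ?_
  simp only [Function.comp_apply, Nat.cast_le, ← Nat.cast_sum]
  congr
  rw [← add_left_inj 1, ← Ideal.card_norm_le_eq_card_norm_le_add_one,
    show Finset.Icc 1 n = Finset.Ioc 0 n from Finset.Icc_succ_left_eq_Ioc _ _,
    show 1 = Nat.card {I : Ideal (𝓞 F) // Ideal.absNorm I = 0} by simp [Ideal.absNorm_eq_zero_iff],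
    Finset.sum_Ioc_add_eq_sum_Icc (n.zero_le),
    ← Finset.card_preimage_eq_sum_card_image_eq (fun k _ ↦ Ideal.finite_setOfPred_absNorm_eq k)]
  simp [Set.coe_eq_subtype]

/-- The `n`-th term of the L-series of the ideal-counting function, as a real number. -/
theorem eulerAlt_term_eq (F : Type*) [Field F] [NumberField F] {s : ℝ} (hs : 1 < s) (n : ℕ) :
    LSeries.term (fun n ↦ (Nat.card {I : Ideal (𝓞 F) // Ideal.absNorm I = n} : ℂ)) (s : ℂ) n =
      (((Nat.card {I : Ideal (𝓞 F) // Ideal.absNorm I = n} : ℝ) * (n : ℝ) ^ (-s) : ℝ) : ℂ) := by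
  rcases Nat.eq_zero_or_pos n with rfl | hn
  · rw [LSeries.term_zero, Nat.cast_zero, Real.zero_rpow (by linarith), mul_zero,
      Complex.ofReal_zero]
  · rw [LSeries.term_of_ne_zero hn.ne', Complex.ofReal_mul, Complex.ofReal_natCast,
      Complex.ofReal_cpow (Nat.cast_nonneg n), Complex.ofReal_neg, Complex.cpow_neg,
      Complex.ofReal_natCast, div_eq_mul_inv]

/-- The sum of `N(I)^(-s)` over the ideals of norm `n`. -/
theorem eulerAlt_tsum_fiber (F : Type*) [Field F] [NumberField F] (s : ℝ) (n : ℕ) :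
    ∑' y : {I : Ideal (𝓞 F) // Ideal.absNorm I = n}, (Ideal.absNorm y.1 : ℝ) ^ (-s) =
      (Nat.card {I : Ideal (𝓞 F) // Ideal.absNorm I = n} : ℝ) * (n : ℝ) ^ (-s) := by
  rw [tsum_congr (fun y : {I : Ideal (𝓞 F) // Ideal.absNorm I = n} ↦
    show (Ideal.absNorm y.1 : ℝ) ^ (-s) = (n : ℝ) ^ (-s) by rw [y.2]), tsum_const, nsmul_eq_mul]

/-- Summability of the real Dirichlet series `∑ a(n) n^(-s)`, where `a(n)` is the number of
ideals of norm `n`. -/
theorem eulerAlt_summable_nat (F : Type*) [Field F] [NumberField F] {s : ℝ} (hs : 1 < s) :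
    Summable fun n : ℕ ↦
      (Nat.card {I : Ideal (𝓞 F) // Ideal.absNorm I = n} : ℝ) * (n : ℝ) ^ (-s) := by
  have h := eulerAlt_lseriesSummable F hs
  rw [LSeriesSummable] at h
  have h2 : (LSeries.term
      (fun n ↦ ((Nat.card {I : Ideal (𝓞 F) // Ideal.absNorm I = n} : ℝ) : ℂ)) (s : ℂ)) =
      fun n : ℕ ↦ (((Nat.card {I : Ideal (𝓞 F) // Ideal.absNorm I = n} : ℝ) *
        (n : ℝ) ^ (-s) : ℝ) : ℂ) := by
    funext n
    rw [← eulerAlt_term_eq F hs n]
    simp only [Complex.ofReal_natCast]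
  rw [h2] at h
  exact Complex.summable_ofReal.mp h

/-- Summability of `N(I)^(-s)` over the sigma type of the fibres of the norm. -/
theorem eulerAlt_summable_sigma (F : Type*) [Field F] [NumberField F] {s : ℝ} (hs : 1 < s) :
    Summable fun x : (Σ n : ℕ, {I : Ideal (𝓞 F) // Ideal.absNorm I = n}) ↦
      (Ideal.absNorm x.2.1 : ℝ) ^ (-s) := by
  rw [summable_sigma_of_nonneg (fun x ↦ Real.rpow_nonneg (Nat.cast_nonneg _) _)]
  refine ⟨fun n ↦ ?_, ?_⟩
  · have : Finite {I : Ideal (𝓞 F) // Ideal.absNorm I = n} :=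
      (Ideal.finite_setOfPred_absNorm_eq n).to_subtype
    exact Summable.of_finite
  · refine (eulerAlt_summable_nat F hs).congr fun n ↦ ?_
    exact (eulerAlt_tsum_fiber F s n).symm

/-- Summability of `N(I)^(-s)` over all ideals (the zero ideal contributes `0`). -/
theorem eulerAlt_summable_all (F : Type*) [Field F] [NumberField F] {s : ℝ} (hs : 1 < s) :
    Summable fun I : Ideal (𝓞 F) ↦ (Ideal.absNorm I : ℝ) ^ (-s) :=
  (Equiv.sigmaFiberEquiv (Ideal.absNorm : Ideal (𝓞 F) → ℕ)).summable_iff.mp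
    (eulerAlt_summable_sigma F hs)

/-- The sum of `N(I)^(-s)` over all ideals equals the Dirichlet series `∑ a(n) n^(-s)`. -/
theorem eulerAlt_tsum_all (F : Type*) [Field F] [NumberField F] {s : ℝ} (hs : 1 < s) :
    ∑' I : Ideal (𝓞 F), (Ideal.absNorm I : ℝ) ^ (-s) =
      ∑' n : ℕ, (Nat.card {I : Ideal (𝓞 F) // Ideal.absNorm I = n} : ℝ) * (n : ℝ) ^ (-s) := by
  have hsum := eulerAlt_summable_sigma F hs
  have h1 : ∑' x : (Σ n : ℕ, {I : Ideal (𝓞 F) // Ideal.absNorm I = n}),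
      (Ideal.absNorm x.2.1 : ℝ) ^ (-s) = ∑' I : Ideal (𝓞 F), (Ideal.absNorm I : ℝ) ^ (-s) :=
    (Equiv.sigmaFiberEquiv (Ideal.absNorm : Ideal (𝓞 F) → ℕ)).tsum_eq
      (fun I : Ideal (𝓞 F) ↦ (Ideal.absNorm I : ℝ) ^ (-s))
  rw [← h1, hsum.tsum_sigma' (fun n ↦ ?_)]
  · exact tsum_congr fun n ↦ eulerAlt_tsum_fiber F s n
  · have : Finite {I : Ideal (𝓞 F) // Ideal.absNorm I = n} :=
      (Ideal.finite_setOfPred_absNorm_eq n).to_subtype
    exact Summable.of_finite

/-- The support of `I ↦ N(I)^(-s)` consists of nonzero ideals. -/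
theorem eulerAlt_support_subset (F : Type*) [Field F] [NumberField F] {s : ℝ} (hs : 1 < s) :
    Function.support (fun I : Ideal (𝓞 F) ↦ (Ideal.absNorm I : ℝ) ^ (-s)) ⊆ {I | I ≠ ⊥} := by
  intro I hI
  rw [Function.mem_support] at hI
  change I ≠ ⊥
  rintro rfl
  apply hI
  rw [Ideal.absNorm_bot, Nat.cast_zero, Real.zero_rpow (by linarith)]

/-- The sum of `N(I)^(-s)` over the nonzero ideals equals the sum over all ideals. -/
theorem eulerAlt_tsum_ne_bot (F : Type*) [Field F] [NumberField F] {s : ℝ} (hs : 1 < s) :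
    ∑' I : {I : Ideal (𝓞 F) // I ≠ ⊥}, (Ideal.absNorm I.1 : ℝ) ^ (-s) =
      ∑' I : Ideal (𝓞 F), (Ideal.absNorm I : ℝ) ^ (-s) :=
  tsum_subtype_eq_of_support_subset (eulerAlt_support_subset F hs)

/-- **Summability of the Dedekind zeta series** over the nonzero ideals, for real `s > 1`. -/
theorem summable_absNorm_ideal_rpow (F : Type*) [Field F] [NumberField F] {s : ℝ} (hs : 1 < s) :
    Summable fun I : {I : Ideal (𝓞 F) // I ≠ ⊥} => (Ideal.absNorm I.1 : ℝ) ^ (-s) :=
  (eulerAlt_summable_all F hs).subtype _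

/-- **The Dedekind zeta function as a sum over the nonzero ideals**, for real `s > 1`. -/
theorem dedekindZeta_eq_tsum_ideal (F : Type*) [Field F] [NumberField F] {s : ℝ} (hs : 1 < s) :
    dedekindZeta F (s : ℂ) =
      ((∑' I : {I : Ideal (𝓞 F) // I ≠ ⊥}, (Ideal.absNorm I.1 : ℝ) ^ (-s) : ℝ) : ℂ) := by
  rw [eulerAlt_tsum_ne_bot F hs, eulerAlt_tsum_all F hs, Complex.ofReal_tsum, dedekindZeta,
    LSeries]
  exact tsum_congr fun n ↦ eulerAlt_term_eq F hs n

/-! ### The Euler product over the primes of a Dedekind domain -/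

/-- The set of nonzero ideals all of whose prime factors lie in the finite set `S`. -/
def eulerAlt_supp {R : Type*} [CommRing R] (S : Finset (HeightOneSpectrum R)) : Set (Ideal R) :=
  {I | I ≠ ⊥ ∧ ∀ v : HeightOneSpectrum R, v.asIdeal ∣ I → v ∈ S}

theorem eulerAlt_mem_supp {R : Type*} [CommRing R] {S : Finset (HeightOneSpectrum R)}
    {I : Ideal R} :
    I ∈ eulerAlt_supp S ↔ I ≠ ⊥ ∧ ∀ v : HeightOneSpectrum R, v.asIdeal ∣ I → v ∈ S :=
  Iff.rfl

/-- Only the unit ideal has no prime factor. -/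
theorem eulerAlt_supp_empty {R : Type*} [CommRing R] [IsDedekindDomain R] :
    eulerAlt_supp (∅ : Finset (HeightOneSpectrum R)) = {⊤} := by
  ext I
  rw [eulerAlt_mem_supp, Set.mem_singleton_iff]
  constructor
  · rintro ⟨hI, h⟩
    by_contra hne
    obtain ⟨M, hM, hIM⟩ := Ideal.exists_le_maximal I hne
    have hMbot : M ≠ ⊥ := fun hb => hI (le_bot_iff.mp (hb ▸ hIM))
    exact absurd (h ⟨M, hM.isPrime, hMbot⟩ (Ideal.dvd_iff_le.mpr hIM)) (Finset.notMem_empty _)
  · rintro rfl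
    refine ⟨top_ne_bot, fun v hv => ?_⟩
    exact absurd (top_le_iff.mp (Ideal.dvd_iff_le.mp hv)) v.isPrime.ne_top

/-- Uniqueness of the decomposition `𝔭 ^ n * J` with `𝔭 ∤ J`. -/
theorem eulerAlt_pow_mul_cancel {R : Type*} [CommRing R] [IsDedekindDomain R]
    (v : HeightOneSpectrum R) {n m : ℕ} {J J' : Ideal R}
    (hnm : n ≤ m) (hJ : ¬ v.asIdeal ∣ J) (h : v.asIdeal ^ n * J = v.asIdeal ^ m * J') :
    n = m ∧ J = J' := by
  obtain ⟨k, rfl⟩ := Nat.exists_eq_add_of_le hnm
  rw [pow_add, mul_assoc] at h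
  have hv0 : v.asIdeal ^ n ≠ 0 := pow_ne_zero n v.ne_bot
  have h2 : J = v.asIdeal ^ k * J' := mul_left_cancel₀ hv0 h
  rcases Nat.eq_zero_or_pos k with rfl | hk
  · rw [pow_zero, one_mul] at h2
    exact ⟨rfl, h2⟩
  · exact absurd (h2 ▸ Dvd.dvd.mul_right (dvd_pow_self _ hk.ne') J') hJ

/-- The map `(n, J) ↦ 𝔭 ^ n * J` is injective on ideals `J` supported on `S ∌ 𝔭`. -/
theorem eulerAlt_phi_injective {R : Type*} [CommRing R] [IsDedekindDomain R]
    (S : Finset (HeightOneSpectrum R)) (v : HeightOneSpectrum R) (hv : v ∉ S) :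
    Function.Injective (fun x : ℕ × eulerAlt_supp S => v.asIdeal ^ x.1 * x.2.1) := by
  rintro ⟨n, J, hJ⟩ ⟨m, J', hJ'⟩ h
  have h' : v.asIdeal ^ n * J = v.asIdeal ^ m * J' := h
  have hJv : ¬ v.asIdeal ∣ J := fun hd => hv (hJ.2 v hd)
  have hJ'v : ¬ v.asIdeal ∣ J' := fun hd => hv (hJ'.2 v hd)
  rcases le_total n m with hnm | hmn
  · obtain ⟨rfl, rfl⟩ := eulerAlt_pow_mul_cancel v hnm hJv h'
    rfl
  · obtain ⟨rfl, rfl⟩ := eulerAlt_pow_mul_cancel v hmn hJ'v h'.symm
    rfl

/-- The map `(n, J) ↦ 𝔭 ^ n * J` takes values in the ideals supported on `insert 𝔭 S`. -/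
theorem eulerAlt_phi_mem {R : Type*} [CommRing R] [IsDedekindDomain R]
    [DecidableEq (HeightOneSpectrum R)] (S : Finset (HeightOneSpectrum R))
    (v : HeightOneSpectrum R) (n : ℕ) {J : Ideal R} (hJ : J ∈ eulerAlt_supp S) :
    v.asIdeal ^ n * J ∈ eulerAlt_supp (insert v S) := by
  have hv0 : v.asIdeal ^ n ≠ 0 := pow_ne_zero n v.ne_bot
  refine ⟨mul_ne_zero hv0 hJ.1, fun w hw => ?_⟩
  rcases w.prime.dvd_or_dvd hw with h | h
  · have h1 : w.asIdeal ∣ v.asIdeal := w.prime.dvd_of_dvd_pow h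
    have h2 : v.asIdeal ≤ w.asIdeal := Ideal.dvd_iff_le.mp h1
    have h3 : v.asIdeal = w.asIdeal := v.isMaximal.eq_of_le w.isPrime.ne_top h2
    exact Finset.mem_insert.mpr (Or.inl (HeightOneSpectrum.ext h3.symm))
  · exact Finset.mem_insert_of_mem (hJ.2 w h)

/-- Every ideal supported on `insert 𝔭 S` is of the form `𝔭 ^ n * J` with `J` supported
on `S`. -/
theorem eulerAlt_exists_phi {R : Type*} [CommRing R] [IsDedekindDomain R]
    [DecidableEq (HeightOneSpectrum R)] (S : Finset (HeightOneSpectrum R))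
    (v : HeightOneSpectrum R) {I : Ideal R} (hI : I ∈ eulerAlt_supp (insert v S)) :
    ∃ x : ℕ × eulerAlt_supp S, v.asIdeal ^ x.1 * x.2.1 = I := by
  have hfin : FiniteMultiplicity v.asIdeal I :=
    FiniteMultiplicity.of_not_isUnit v.prime.not_isUnit hI.1
  obtain ⟨J, hJ, hvJ⟩ := hfin.exists_eq_pow_mul_and_not_dvd
  have hJ0 : J ≠ ⊥ := by
    rintro rfl
    exact hI.1 (by rw [hJ]; exact mul_zero _)
  refine ⟨⟨multiplicity v.asIdeal I, ⟨J, hJ0, fun w hw => ?_⟩⟩, hJ.symm⟩
  have hwI : w.asIdeal ∣ I := by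
    rw [hJ]
    exact Dvd.dvd.mul_left hw _
  rcases Finset.mem_insert.mp (hI.2 w hwI) with rfl | h
  · exact absurd hw hvJ
  · exact h

/-- A multiplicative function on ideals sends powers to powers. -/
theorem eulerAlt_map_pow {R : Type*} [CommRing R] (g : Ideal R → ℝ) (h1 : g ⊤ = 1)
    (hmul : ∀ I J, g (I * J) = g I * g J) (I : Ideal R) (n : ℕ) : g (I ^ n) = g I ^ n := by
  induction n with
  | zero => rw [pow_zero, pow_zero, Ideal.one_eq_top, h1]
  | succ n ih => rw [pow_succ, pow_succ, hmul, ih]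

/-- The finite Euler product: the sum of `g` over the ideals supported on the finite set `S`
of primes is the product of the geometric series. -/
theorem eulerAlt_hasSum_finset {R : Type*} [CommRing R] [IsDedekindDomain R]
    (g : Ideal R → ℝ) (h1 : g ⊤ = 1)
    (hmul : ∀ I J, g (I * J) = g I * g J) (hnn : ∀ I, 0 ≤ g I)
    (hlt : ∀ v : HeightOneSpectrum R, g v.asIdeal < 1) (S : Finset (HeightOneSpectrum R)) :
    HasSum ((eulerAlt_supp S).indicator g) (∏ v ∈ S, (1 - g v.asIdeal)⁻¹) := by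
  classical
  induction S using Finset.induction_on with
  | empty =>
    rw [eulerAlt_supp_empty, Finset.prod_empty]
    have h := hasSum_single (f := Set.indicator {⊤} g) ⊤
      (fun I hI => Set.indicator_of_notMem (by simpa using hI) g)
    rwa [Set.indicator_of_mem (Set.mem_singleton _), h1] at h
  | insert v S hv ih =>
    rw [Finset.prod_insert hv]
    have ih' : HasSum (fun J : eulerAlt_supp S => g J.1) (∏ w ∈ S, (1 - g w.asIdeal)⁻¹) :=
      hasSum_subtype_iff_indicator.mpr ih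
    have hgeo : HasSum (fun n : ℕ => g v.asIdeal ^ n) (1 - g v.asIdeal)⁻¹ :=
      hasSum_geometric_of_lt_one (hnn _) (hlt v)
    have hsum : Summable fun x : ℕ × eulerAlt_supp S => g v.asIdeal ^ x.1 * g x.2.1 :=
      Summable.mul_of_nonneg hgeo.summable ih'.summable (fun n => pow_nonneg (hnn _) n)
        (fun J => hnn _)
    have hprod := hgeo.mul ih' hsum
    have hinj := eulerAlt_phi_injective S v hv
    have hzero : ∀ I ∉ Set.range (fun x : ℕ × eulerAlt_supp S => v.asIdeal ^ x.1 * x.2.1),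
        (eulerAlt_supp (insert v S)).indicator g I = 0 := by
      intro I hI
      refine Set.indicator_of_notMem (fun hmem => hI ?_) g
      exact eulerAlt_exists_phi S v hmem
    rw [← hinj.hasSum_iff hzero]
    refine hprod.congr_fun ?_
    intro x
    rw [Function.comp_apply, Set.indicator_of_mem (eulerAlt_phi_mem S v x.1 x.2.2), hmul,
      eulerAlt_map_pow g h1 hmul]

/-- The finite Euler product as a sum over the nonzero ideals. -/
theorem eulerAlt_prod_eq_tsum {R : Type*} [CommRing R] [IsDedekindDomain R]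
    (g : Ideal R → ℝ) (h1 : g ⊤ = 1)
    (hmul : ∀ I J, g (I * J) = g I * g J) (hnn : ∀ I, 0 ≤ g I)
    (hlt : ∀ v : HeightOneSpectrum R, g v.asIdeal < 1) (S : Finset (HeightOneSpectrum R)) :
    ∏ v ∈ S, (1 - g v.asIdeal)⁻¹ =
      ∑' I : {I : Ideal R // I ≠ ⊥}, (eulerAlt_supp S).indicator g I.1 := by
  have hsupp : Function.support ((eulerAlt_supp S).indicator g) ⊆ {I : Ideal R | I ≠ ⊥} := by
    intro I hI
    have hmem : I ∈ eulerAlt_supp S := by
      by_contra hn
      exact hI (Set.indicator_of_notMem hn g)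
    exact hmem.1
  exact (((hasSum_subtype_iff_of_support_subset hsupp).mpr
    (eulerAlt_hasSum_finset g h1 hmul hnn hlt S)).tsum_eq).symm

/-- **Euler product over a Dedekind domain**, for a nonnegative multiplicative function `g` on
ideals which is summable over the nonzero ideals and takes values `< 1` at the primes:
`∏_𝔭 (1 - g 𝔭)⁻¹ = ∑_{I ≠ 0} g I`. -/
theorem eulerAlt_hasProd_general {R : Type*} [CommRing R] [IsDedekindDomain R]
    (g : Ideal R → ℝ) (h1 : g ⊤ = 1)
    (hmul : ∀ I J, g (I * J) = g I * g J) (hnn : ∀ I, 0 ≤ g I)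
    (hlt : ∀ v : HeightOneSpectrum R, g v.asIdeal < 1)
    (hsum : Summable fun I : {I : Ideal R // I ≠ ⊥} => g I.1) :
    HasProd (fun v : HeightOneSpectrum R => (1 - g v.asIdeal)⁻¹)
      (∑' I : {I : Ideal R // I ≠ ⊥}, g I.1) := by
  classical
  change Filter.Tendsto (fun S : Finset (HeightOneSpectrum R) => ∏ v ∈ S, (1 - g v.asIdeal)⁻¹)
    Filter.atTop (nhds (∑' I : {I : Ideal R // I ≠ ⊥}, g I.1))
  rw [funext (eulerAlt_prod_eq_tsum g h1 hmul hnn hlt)]
  refine tendsto_tsum_of_dominated_convergence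
    (bound := fun I : {I : Ideal R // I ≠ ⊥} => g I.1) hsum (fun I => ?_)
    (Filter.Eventually.of_forall fun S I => ?_)
  · refine tendsto_nhds_of_eventually_eq ?_
    refine Filter.eventually_atTop.mpr ⟨(Ideal.finite_factors I.2).toFinset, fun S hS => ?_⟩
    have hmem : I.1 ∈ eulerAlt_supp S :=
      ⟨I.2, fun v hv => hS ((Ideal.finite_factors I.2).mem_toFinset.mpr hv)⟩
    exact Set.indicator_of_mem hmem g
  · rw [Real.norm_eq_abs]
    by_cases h : I.1 ∈ eulerAlt_supp S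
    · rw [Set.indicator_of_mem h, abs_of_nonneg (hnn _)]
    · rw [Set.indicator_of_notMem h, abs_zero]
      exact hnn _

/-- The local terms of the Euler product satisfy `N𝔭^(-s) < 1` (for `s > 0`). -/
theorem eulerAlt_absNorm_rpow_lt_one (F : Type*) [Field F] [NumberField F] {s : ℝ} (hs : 0 < s)
    (v : HeightOneSpectrum (𝓞 F)) : (Ideal.absNorm v.asIdeal : ℝ) ^ (-s) < 1 := by
  have h0 : Ideal.absNorm v.asIdeal ≠ 0 := fun h => v.ne_bot (Ideal.absNorm_eq_zero_iff.mp h)
  have h1 : Ideal.absNorm v.asIdeal ≠ 1 :=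
    fun h => v.isPrime.ne_top (Ideal.absNorm_eq_one_iff.mp h)
  have h2 : (1 : ℝ) < (Ideal.absNorm v.asIdeal : ℝ) := by
    exact_mod_cast (by omega : 1 < Ideal.absNorm v.asIdeal)
  exact Real.rpow_lt_one_of_one_lt_of_neg h2 (by linarith)

/-- **Euler product of the Dedekind zeta function**, for real `s > 1`. -/
theorem hasProd_euler_dedekind (F : Type*) [Field F] [NumberField F] {s : ℝ} (hs : 1 < s) :
    HasProd (fun 𝔭 : HeightOneSpectrum (𝓞 F) => (1 - (Ideal.absNorm 𝔭.asIdeal : ℝ) ^ (-s))⁻¹)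
      (∑' I : {I : Ideal (𝓞 F) // I ≠ ⊥}, (Ideal.absNorm I.1 : ℝ) ^ (-s)) := by
  refine eulerAlt_hasProd_general (fun I : Ideal (𝓞 F) => (Ideal.absNorm I : ℝ) ^ (-s))
    ?_ (fun I J => ?_) (fun I => Real.rpow_nonneg (Nat.cast_nonneg _) _)
    (fun v => eulerAlt_absNorm_rpow_lt_one F (by linarith) v) (summable_absNorm_ideal_rpow F hs)
  · rw [Ideal.absNorm_top, Nat.cast_one, Real.one_rpow]
  · rw [map_mul, Nat.cast_mul, Real.mul_rpow (Nat.cast_nonneg _) (Nat.cast_nonneg _)]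

/-! ### Extras for the degree-one count: the rational prime below a prime of `𝓞 F` -/

/-- At most `[F : ℚ]` primes of `𝓞 F` contain a given rational prime `p`. -/
theorem eulerAlt_card_le_finrank (F : Type*) [Field F] [NumberField F] {p : ℕ} (hp : p.Prime)
    (T : Finset (HeightOneSpectrum (𝓞 F))) (hT : ∀ 𝔭 ∈ T, (p : 𝓞 F) ∈ 𝔭.asIdeal) :
    T.card ≤ Module.finrank ℚ F := by
  classical
  have hdvd : ∏ 𝔭 ∈ T, 𝔭.asIdeal ∣ Ideal.span {(p : 𝓞 F)} := by
    have h := Finset.prod_primes_dvd (s := T.image HeightOneSpectrum.asIdeal)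
      (Ideal.span {(p : 𝓞 F)}) ?_ ?_
    · rwa [Finset.prod_image (fun v _ w _ h => HeightOneSpectrum.ext h)] at h
    · intro a ha
      obtain ⟨v, _, rfl⟩ := Finset.mem_image.mp ha
      exact v.prime
    · intro a ha
      obtain ⟨v, hv, rfl⟩ := Finset.mem_image.mp ha
      exact Ideal.dvd_iff_le.mpr ((Ideal.span_singleton_le_iff_mem _).mpr (hT v hv))
  have hnorm : ∏ 𝔭 ∈ T, Ideal.absNorm 𝔭.asIdeal ∣ p ^ Module.finrank ℚ F := by
    have h := map_dvd Ideal.absNorm hdvd
    rwa [map_prod, Ideal.absNorm_span_natCast, RingOfIntegers.rank] at h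
  have hp_dvd : ∀ 𝔭 ∈ T, p ∣ Ideal.absNorm 𝔭.asIdeal := by
    intro 𝔭 h𝔭
    have h1 : Ideal.absNorm 𝔭.asIdeal ∣ p ^ Module.finrank ℤ (𝓞 F) := by
      rw [← Ideal.absNorm_span_natCast]
      exact Ideal.absNorm_dvd_absNorm_of_le ((Ideal.span_singleton_le_iff_mem _).mpr (hT 𝔭 h𝔭))
    obtain ⟨k, _, hk'⟩ := (Nat.dvd_prime_pow hp).mp h1
    rcases Nat.eq_zero_or_pos k with rfl | hkpos
    · rw [pow_zero] at hk'
      exact absurd (Ideal.absNorm_eq_one_iff.mp hk') 𝔭.isPrime.ne_top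
    · rw [hk']
      exact dvd_pow_self p hkpos.ne'
  have hpow : p ^ T.card ∣ ∏ 𝔭 ∈ T, Ideal.absNorm 𝔭.asIdeal := by
    rw [← Finset.prod_const]
    exact Finset.prod_dvd_prod_of_dvd _ _ hp_dvd
  exact (Nat.pow_dvd_pow_iff_le_right hp.one_lt).mp (hpow.trans hnorm)

/-- The rational prime below a prime of `𝓞 F`. -/
theorem eulerAlt_absNorm_under_prime (F : Type*) [Field F] [NumberField F]
    (𝔭 : HeightOneSpectrum (𝓞 F)) : (Ideal.absNorm (Ideal.under ℤ 𝔭.asIdeal)).Prime := by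
  have : 𝔭.asIdeal.IsPrime := 𝔭.isPrime
  have : NeZero 𝔭.asIdeal := ⟨𝔭.ne_bot⟩
  exact Nat.absNorm_under_prime 𝔭.asIdeal

/-- The rational prime below a prime `𝔭` of `𝓞 F` lies in `𝔭`. -/
theorem eulerAlt_natCast_absNorm_under_mem (F : Type*) [Field F] [NumberField F]
    (𝔭 : HeightOneSpectrum (𝓞 F)) :
    ((Ideal.absNorm (Ideal.under ℤ 𝔭.asIdeal) : ℕ) : 𝓞 F) ∈ 𝔭.asIdeal :=
  Int.absNorm_under_mem 𝔭.asIdeal

/-- The norm of a prime of `𝓞 F` is a positive power of the rational prime below it. -/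
theorem eulerAlt_absNorm_eq_pow (F : Type*) [Field F] [NumberField F]
    (𝔭 : HeightOneSpectrum (𝓞 F)) :
    ∃ f : ℕ, f ≠ 0 ∧
      Ideal.absNorm 𝔭.asIdeal = (Ideal.absNorm (Ideal.under ℤ 𝔭.asIdeal)) ^ f := by
  have hp := eulerAlt_absNorm_under_prime F 𝔭
  have hpow := Ideal.absNorm_eq_pow_inertiaDeg' 𝔭.asIdeal hp
  refine ⟨_, fun h0 => ?_, hpow⟩
  rw [h0, pow_zero] at hpow
  exact 𝔭.isPrime.ne_top (Ideal.absNorm_eq_one_iff.mp hpow)

/-- A prime of `𝓞 F` which is not of degree one has norm at least `p ^ 2`, where `p` is the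
rational prime below it. -/
theorem eulerAlt_sq_le_absNorm_of_not_prime (F : Type*) [Field F] [NumberField F]
    (𝔭 : HeightOneSpectrum (𝓞 F)) (h : ¬ (Ideal.absNorm 𝔭.asIdeal).Prime) :
    (Ideal.absNorm (Ideal.under ℤ 𝔭.asIdeal)) ^ 2 ≤ Ideal.absNorm 𝔭.asIdeal := by
  have hp := eulerAlt_absNorm_under_prime F 𝔭
  obtain ⟨f, hf0, hpow⟩ := eulerAlt_absNorm_eq_pow F 𝔭
  have hf1 : f ≠ 1 := by
    rintro rfl
    rw [pow_one] at hpow
    exact h (hpow ▸ hp)
  rw [hpow]
  exact Nat.pow_le_pow_right hp.pos (by omega)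

end Fermat.Agent.S42
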