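import Mathlib
import Fermat.Agent.S42.DensityDefs
import Fermat.Agent.S42.EulerProductAlt

/-!
# P13 (S42/S29), part (B), module B1b: degree-one primes have logarithmic density one

For a number field `F` we prove `∑_{𝔭 of degree one} N𝔭 ^ (-s) = log (1 / (s - 1)) + O(1)` on
`(1, 2]` (`isLogAsymp_degOne`), from the Euler product of the Dedekind zeta function and the
class number formula (simple pole at `s = 1`).
-/

set_option autoImplicit false

namespace Fermat.Agent.S42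

open NumberField IsDedekindDomain

/-! ### Elementary facts on norms of primes -/

/-- The absolute norm of a nonzero prime is at least `2`. -/
lemma zp_two_le_absNorm {F : Type*} [Field F] [NumberField F] (𝔭 : HeightOneSpectrum (𝓞 F)) :
    2 ≤ Ideal.absNorm 𝔭.asIdeal := by
  have h0 : Ideal.absNorm 𝔭.asIdeal ≠ 0 := by
    rw [Ne, Ideal.absNorm_eq_zero_iff]; exact 𝔭.ne_bot
  have h1 : Ideal.absNorm 𝔭.asIdeal ≠ 1 := by
    rw [Ne, Ideal.absNorm_eq_one_iff]; exact 𝔭.isPrime.ne_top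
  omega

/-- The absolute norm of a nonzero prime, as a real number, is at least `2`. -/
lemma zp_two_le_absNorm_real {F : Type*} [Field F] [NumberField F]
    (𝔭 : HeightOneSpectrum (𝓞 F)) : (2 : ℝ) ≤ (Ideal.absNorm 𝔭.asIdeal : ℝ) := by
  exact_mod_cast zp_two_le_absNorm 𝔭

/-- `N𝔭 ^ (-s) > 0`. -/
lemma zp_rpow_pos {F : Type*} [Field F] [NumberField F] (𝔭 : HeightOneSpectrum (𝓞 F)) (s : ℝ) :
    0 < (Ideal.absNorm 𝔭.asIdeal : ℝ) ^ (-s) :=
  Real.rpow_pos_of_pos (by linarith [zp_two_le_absNorm_real 𝔭]) _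

/-- `N𝔭 ^ (-s)` is antitone in `s`. -/
lemma zp_rpow_anti {F : Type*} [Field F] [NumberField F] (𝔭 : HeightOneSpectrum (𝓞 F))
    {s t : ℝ} (hst : s ≤ t) :
    (Ideal.absNorm 𝔭.asIdeal : ℝ) ^ (-t) ≤ (Ideal.absNorm 𝔭.asIdeal : ℝ) ^ (-s) :=
  Real.rpow_le_rpow_of_exponent_le (by linarith [zp_two_le_absNorm_real 𝔭]) (by linarith)

/-- `N𝔭 ^ (-s) ≤ 1 / 2` for `s ≥ 1`. -/
lemma zp_rpow_le_half {F : Type*} [Field F] [NumberField F] (𝔭 : HeightOneSpectrum (𝓞 F))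
    {s : ℝ} (hs : 1 ≤ s) : (Ideal.absNorm 𝔭.asIdeal : ℝ) ^ (-s) ≤ 1 / 2 := by
  have h2 := zp_two_le_absNorm_real 𝔭
  calc (Ideal.absNorm 𝔭.asIdeal : ℝ) ^ (-s) ≤ (Ideal.absNorm 𝔭.asIdeal : ℝ) ^ (-(1 : ℝ)) :=
        zp_rpow_anti 𝔭 hs
    _ = (Ideal.absNorm 𝔭.asIdeal : ℝ)⁻¹ := Real.rpow_neg_one _
    _ ≤ 2⁻¹ := inv_anti₀ (by norm_num) h2
    _ = 1 / 2 := by norm_num

/-- `(N𝔭 ^ (-s)) ^ 2 ≤ N𝔭 ^ (-2)` for `s ≥ 1`. -/
lemma zp_rpow_sq_le {F : Type*} [Field F] [NumberField F] (𝔭 : HeightOneSpectrum (𝓞 F))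
    {s : ℝ} (hs : 1 ≤ s) :
    ((Ideal.absNorm 𝔭.asIdeal : ℝ) ^ (-s)) ^ 2 ≤ (Ideal.absNorm 𝔭.asIdeal : ℝ) ^ (-(2 : ℝ)) := by
  have h2 := zp_two_le_absNorm_real 𝔭
  have h := Real.rpow_mul_natCast (x := (Ideal.absNorm 𝔭.asIdeal : ℝ)) (by linarith) (-s) 2
  rw [← h]
  exact Real.rpow_le_rpow_of_exponent_le (by linarith) (by push_cast; linarith)

/-! ### Summability over the primes -/

theorem summable_absNorm_rpow (F : Type*) [Field F] [NumberField F] {s : ℝ} (hs : 1 < s) :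
    Summable fun 𝔭 : HeightOneSpectrum (𝓞 F) => (Ideal.absNorm 𝔭.asIdeal : ℝ) ^ (-s) := by
  have h := summable_absNorm_ideal_rpow F hs
  have hinj : Function.Injective (fun 𝔭 : HeightOneSpectrum (𝓞 F) =>
      (⟨𝔭.asIdeal, 𝔭.ne_bot⟩ : {I : Ideal (𝓞 F) // I ≠ ⊥})) := by
    intro 𝔭 𝔮 h
    exact HeightOneSpectrum.ext (congrArg Subtype.val h)
  have h2 := h.comp_injective hinj
  exact h2

/-! ### The logarithm of the Euler product -/

/-- `0 ≤ -log (1 - x) - x` for `x < 1`. -/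
lemma zp_neg_log_sub_nonneg {x : ℝ} (hx : x < 1) : 0 ≤ -Real.log (1 - x) - x := by
  have := Real.log_le_sub_one_of_pos (show 0 < 1 - x by linarith)
  linarith

/-- `-log (1 - x) - x ≤ 2 x ^ 2` for `x ≤ 1 / 2`. -/
lemma zp_neg_log_sub_le {x : ℝ} (hx : x ≤ 1 / 2) :
    -Real.log (1 - x) - x ≤ 2 * x ^ 2 := by
  have h1 : 0 < 1 - x := by linarith
  have h2 : -Real.log (1 - x) = Real.log ((1 - x)⁻¹) := (Real.log_inv _).symm
  have h3 := Real.log_le_sub_one_of_pos (show 0 < (1 - x)⁻¹ by positivity)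
  have h4 : (1 - x)⁻¹ - 1 ≤ x + 2 * x ^ 2 := by
    rw [inv_eq_one_div, div_sub_one h1.ne', div_le_iff₀ h1]
    nlinarith [mul_nonneg (sq_nonneg x) (show 0 ≤ 1 - 2 * x by linarith)]
  linarith

/-- The Dedekind zeta function at a real `s > 1`, as the sum over all nonzero ideals. -/
noncomputable def zp_zeta (F : Type*) [Field F] [NumberField F] (s : ℝ) : ℝ :=
  ∑' I : {I : Ideal (𝓞 F) // I ≠ ⊥}, (Ideal.absNorm I.1 : ℝ) ^ (-s)

lemma zp_summable_log (F : Type*) [Field F] [NumberField F] {s : ℝ} (hs : 1 < s) :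
    Summable fun 𝔭 : HeightOneSpectrum (𝓞 F) =>
      Real.log ((1 - (Ideal.absNorm 𝔭.asIdeal : ℝ) ^ (-s))⁻¹) := by
  have h2 : Summable fun 𝔭 : HeightOneSpectrum (𝓞 F) =>
      2 * (Ideal.absNorm 𝔭.asIdeal : ℝ) ^ (-s) := (summable_absNorm_rpow F hs).mul_left 2
  refine Summable.of_nonneg_of_le ?_ ?_ h2
  · intro 𝔭
    rw [Real.log_inv]
    have hx0 := (zp_rpow_pos 𝔭 s).le
    have hx := zp_rpow_le_half 𝔭 hs.le
    have := zp_neg_log_sub_nonneg (x := (Ideal.absNorm 𝔭.asIdeal : ℝ) ^ (-s)) (by linarith)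
    linarith
  · intro 𝔭
    rw [Real.log_inv]
    have hx0 := (zp_rpow_pos 𝔭 s).le
    have hx := zp_rpow_le_half 𝔭 hs.le
    have := zp_neg_log_sub_le hx
    nlinarith [mul_nonneg hx0 (show 0 ≤ 1 / 2 - (Ideal.absNorm 𝔭.asIdeal : ℝ) ^ (-s) by linarith)]

/-- `log ζ_F(s) = ∑_𝔭 log (1 - N𝔭 ^ (-s))⁻¹` for real `s > 1`. -/
lemma zp_log_zeta_eq (F : Type*) [Field F] [NumberField F] {s : ℝ} (hs : 1 < s) :
    Real.log (zp_zeta F s) = ∑' 𝔭 : HeightOneSpectrum (𝓞 F),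
      Real.log ((1 - (Ideal.absNorm 𝔭.asIdeal : ℝ) ^ (-s))⁻¹) := by
  have hpos : ∀ 𝔭 : HeightOneSpectrum (𝓞 F),
      0 < (1 - (Ideal.absNorm 𝔭.asIdeal : ℝ) ^ (-s))⁻¹ := by
    intro 𝔭
    have := zp_rpow_le_half 𝔭 hs.le
    exact inv_pos.mpr (by linarith)
  have h1 := Real.rexp_tsum_eq_tprod hpos (zp_summable_log F hs)
  rw [(hasProd_euler_dedekind F hs).tprod_eq] at h1
  rw [zp_zeta, ← h1, Real.log_exp]

/-- `0 ≤ log ζ_F(s) - ∑_𝔭 N𝔭 ^ (-s)` for real `s > 1`. -/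
lemma zp_log_zeta_sub_nonneg (F : Type*) [Field F] [NumberField F] {s : ℝ} (hs : 1 < s) :
    0 ≤ Real.log (zp_zeta F s) -
      ∑' 𝔭 : HeightOneSpectrum (𝓞 F), (Ideal.absNorm 𝔭.asIdeal : ℝ) ^ (-s) := by
  rw [zp_log_zeta_eq F hs, ← (zp_summable_log F hs).tsum_sub (summable_absNorm_rpow F hs)]
  refine tsum_nonneg fun 𝔭 => ?_
  rw [Real.log_inv]
  have hx := zp_rpow_le_half 𝔭 hs.le
  exact zp_neg_log_sub_nonneg (by linarith)

/-- `log ζ_F(s) - ∑_𝔭 N𝔭 ^ (-s) ≤ 2 ∑_𝔭 N𝔭 ^ (-2)` for real `s > 1`. -/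
lemma zp_log_zeta_sub_le (F : Type*) [Field F] [NumberField F] {s : ℝ} (hs : 1 < s) :
    Real.log (zp_zeta F s) -
      ∑' 𝔭 : HeightOneSpectrum (𝓞 F), (Ideal.absNorm 𝔭.asIdeal : ℝ) ^ (-s) ≤
      2 * ∑' 𝔭 : HeightOneSpectrum (𝓞 F), (Ideal.absNorm 𝔭.asIdeal : ℝ) ^ (-(2 : ℝ)) := by
  have h2 : Summable fun 𝔭 : HeightOneSpectrum (𝓞 F) =>
      2 * (Ideal.absNorm 𝔭.asIdeal : ℝ) ^ (-(2 : ℝ)) :=
    (summable_absNorm_rpow F (by norm_num : (1 : ℝ) < 2)).mul_left 2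
  rw [zp_log_zeta_eq F hs, ← (zp_summable_log F hs).tsum_sub (summable_absNorm_rpow F hs),
    ← tsum_mul_left]
  refine Summable.tsum_le_tsum (fun 𝔭 => ?_)
    ((zp_summable_log F hs).sub (summable_absNorm_rpow F hs)) h2
  rw [Real.log_inv]
  have hx := zp_rpow_le_half 𝔭 hs.le
  have h3 := zp_neg_log_sub_le hx
  have h4 := zp_rpow_sq_le 𝔭 hs.le
  linarith

/-! ### The pole of the Dedekind zeta function at `s = 1` -/

/-- `1 ≤ ζ_F(s)` for real `s > 1`. -/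
lemma zp_one_le_zeta (F : Type*) [Field F] [NumberField F] {s : ℝ} (hs : 1 < s) :
    1 ≤ zp_zeta F s := by
  have h := (summable_absNorm_ideal_rpow F hs).le_tsum ⟨⊤, top_ne_bot⟩
    (fun j _ => Real.rpow_nonneg (Nat.cast_nonneg _) _)
  simpa [zp_zeta, Ideal.absNorm_top] using h

/-- `ζ_F(s) > 0` for real `s > 1`. -/
lemma zp_zeta_pos (F : Type*) [Field F] [NumberField F] {s : ℝ} (hs : 1 < s) :
    0 < zp_zeta F s :=
  lt_of_lt_of_le one_pos (zp_one_le_zeta F hs)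

/-- `ζ_F` is antitone on `(1, ∞)`. -/
lemma zp_zeta_anti (F : Type*) [Field F] [NumberField F] {s t : ℝ} (hs : 1 < s) (hst : s ≤ t) :
    zp_zeta F t ≤ zp_zeta F s := by
  refine Summable.tsum_le_tsum (fun I => ?_) (summable_absNorm_ideal_rpow F (hs.trans_le hst))
    (summable_absNorm_ideal_rpow F hs)
  have h0 : Ideal.absNorm I.1 ≠ 0 := by
    rw [Ne, Ideal.absNorm_eq_zero_iff]; exact I.2
  have h1 : (1 : ℝ) ≤ (Ideal.absNorm I.1 : ℝ) := by
    exact_mod_cast Nat.one_le_iff_ne_zero.mpr h0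
  exact Real.rpow_le_rpow_of_exponent_le h1 (by linarith)

/-- The class number formula, for the real function `ζ_F`: `(s - 1) ζ_F(s)` tends to the
(positive) residue as `s → 1⁺`. -/
lemma zp_tendsto_sub_one_mul_zeta (F : Type*) [Field F] [NumberField F] :
    Filter.Tendsto (fun s : ℝ => (s - 1) * zp_zeta F s) (nhdsWithin 1 (Set.Ioi 1))
      (nhds (dedekindZeta_residue F)) := by
  have h := tendsto_sub_one_mul_dedekindZeta_nhdsGT F
  have h2 : Filter.Tendsto (fun s : ℝ => (((s - 1) * zp_zeta F s : ℝ) : ℂ))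
      (nhdsWithin 1 (Set.Ioi 1)) (nhds ((dedekindZeta_residue F : ℝ) : ℂ)) := by
    refine h.congr' ?_
    filter_upwards [self_mem_nhdsWithin] with s hs
    rw [dedekindZeta_eq_tsum_ideal F hs, zp_zeta]
    push_cast
    rfl
  exact Filter.tendsto_ofReal_iff.mp h2

/-- `log ζ_F(s) - log (1 / (s - 1)) = log ((s - 1) ζ_F(s))`. -/
lemma zp_log_zeta_sub_logPole (F : Type*) [Field F] [NumberField F] {s : ℝ} (hs : 1 < s) :
    Real.log (zp_zeta F s) - logPole s = Real.log ((s - 1) * zp_zeta F s) := by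
  have h1 : (0 : ℝ) < s - 1 := by linarith
  have h2 : 0 < zp_zeta F s := zp_zeta_pos F hs
  rw [logPole, one_div, Real.log_inv, Real.log_mul h1.ne' h2.ne']
  ring

/-- `|log y| ≤ |log a| + |log b|` for `0 < a ≤ y ≤ b`. -/
lemma zp_abs_log_le {a b y : ℝ} (ha : 0 < a) (hay : a ≤ y) (hyb : y ≤ b) :
    |Real.log y| ≤ |Real.log a| + |Real.log b| := by
  have h1 : Real.log a ≤ Real.log y := Real.log_le_log ha hay
  have h2 : Real.log y ≤ Real.log b := Real.log_le_log (lt_of_lt_of_le ha hay) hyb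
  have h3 := neg_abs_le (Real.log a)
  have h4 := le_abs_self (Real.log b)
  have h5 := abs_nonneg (Real.log a)
  have h6 := abs_nonneg (Real.log b)
  exact abs_le.mpr ⟨by linarith, by linarith⟩

/-- `log ζ_F(s) = log (1 / (s - 1)) + O(1)` on `(1, 2]`. -/
lemma zp_exists_bound_log_zeta (F : Type*) [Field F] [NumberField F] :
    ∃ C : ℝ, ∀ s : ℝ, 1 < s → s ≤ 2 → |Real.log (zp_zeta F s) - logPole s| ≤ C := by
  have hκpos : 0 < dedekindZeta_residue F := dedekindZeta_residue_pos F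
  have hlim := zp_tendsto_sub_one_mul_zeta F
  have hev : ∀ᶠ s in nhdsWithin (1 : ℝ) (Set.Ioi 1),
      dedekindZeta_residue F / 2 < (s - 1) * zp_zeta F s ∧
        (s - 1) * zp_zeta F s < 2 * dedekindZeta_residue F :=
    ((tendsto_order.1 hlim).1 (dedekindZeta_residue F / 2) (by linarith)).and
      ((tendsto_order.1 hlim).2 (2 * dedekindZeta_residue F) (by linarith))
  obtain ⟨u, hu1, hu⟩ := mem_nhdsGT_iff_exists_Ioo_subset.1 hev
  have hu1' : (1 : ℝ) < u := hu1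
  refine ⟨|Real.log (dedekindZeta_residue F / 2)| + |Real.log (2 * dedekindZeta_residue F)| +
    (|Real.log (u - 1)| + |Real.log (zp_zeta F u)|), fun s hs1 hs2 => ?_⟩
  rw [zp_log_zeta_sub_logPole F hs1]
  have hA := abs_nonneg (Real.log (dedekindZeta_residue F / 2))
  have hB := abs_nonneg (Real.log (2 * dedekindZeta_residue F))
  have hC := abs_nonneg (Real.log (u - 1))
  have hD := abs_nonneg (Real.log (zp_zeta F u))
  by_cases hsu : s < u
  · obtain ⟨h1, h2⟩ := hu ⟨hs1, hsu⟩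
    have := zp_abs_log_le (by linarith) h1.le h2.le
    linarith
  · have hsu' : u ≤ s := not_lt.mp hsu
    have hz1 := zp_one_le_zeta F hs1
    have hz2 := zp_zeta_anti F hu1' hsu'
    have hzu := zp_one_le_zeta F hu1'
    -- `(u - 1) ≤ (s - 1) ζ(s) ≤ ζ(u)`
    have hlow : u - 1 ≤ (s - 1) * zp_zeta F s := by nlinarith
    have hupp : (s - 1) * zp_zeta F s ≤ zp_zeta F u := by nlinarith
    have := zp_abs_log_le (by linarith) hlow hupp
    linarith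

/-! ### Primes not of degree one -/

/-- Summation along the fibres of a map `π : α → ℕ` all of whose fibres have at most `n`
elements. -/
lemma zp_sum_comp_le {α : Type*} (π : α → ℕ) (n : ℕ) (g : ℕ → ℝ) (hg : ∀ k, 0 ≤ g k)
    (hgs : Summable g) (hfib : ∀ (u : Finset α) (p : ℕ), (∀ a ∈ u, π a = p) → u.card ≤ n)
    (u : Finset α) : ∑ a ∈ u, g (π a) ≤ n * ∑' k, g k := by
  classical
  rw [Finset.sum_comp g π]
  calc ∑ b ∈ u.image π, (u.filter (fun a => π a = b)).card • g b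
      ≤ ∑ b ∈ u.image π, (n : ℝ) * g b := by
        refine Finset.sum_le_sum fun b _ => ?_
        rw [nsmul_eq_mul]
        refine mul_le_mul_of_nonneg_right ?_ (hg b)
        exact_mod_cast hfib _ b (fun a ha => (Finset.mem_filter.mp ha).2)
    _ = n * ∑ b ∈ u.image π, g b := by rw [Finset.mul_sum]
    _ ≤ n * ∑' k, g k := by
        refine mul_le_mul_of_nonneg_left ?_ (Nat.cast_nonneg n)
        exact hgs.sum_le_tsum _ (fun k _ => hg k)

/-- For a prime `𝔭` not of degree one above the rational prime `p`, `N𝔭 ^ (-s) ≤ (p ^ 2)⁻¹`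
for `s ≥ 1`. -/
lemma zp_rpow_le_of_not_degOne (F : Type*) [Field F] [NumberField F]
    (𝔭 : HeightOneSpectrum (𝓞 F)) (h : 𝔭 ∉ degOneSet F) {s : ℝ} (hs : 1 ≤ s) :
    (Ideal.absNorm 𝔭.asIdeal : ℝ) ^ (-s) ≤
      ((Ideal.absNorm (Ideal.under ℤ 𝔭.asIdeal) : ℝ) ^ 2)⁻¹ := by
  have h1 := eulerAlt_sq_le_absNorm_of_not_prime F 𝔭 h
  have hp := (eulerAlt_absNorm_under_prime F 𝔭).pos
  have hp' : (0 : ℝ) < (Ideal.absNorm (Ideal.under ℤ 𝔭.asIdeal) : ℝ) := by exact_mod_cast hp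
  have h2 : ((Ideal.absNorm (Ideal.under ℤ 𝔭.asIdeal) : ℝ)) ^ 2 ≤
      (Ideal.absNorm 𝔭.asIdeal : ℝ) := by exact_mod_cast h1
  calc (Ideal.absNorm 𝔭.asIdeal : ℝ) ^ (-s) ≤ (Ideal.absNorm 𝔭.asIdeal : ℝ) ^ (-(1 : ℝ)) :=
        zp_rpow_anti 𝔭 hs
    _ = (Ideal.absNorm 𝔭.asIdeal : ℝ)⁻¹ := Real.rpow_neg_one _
    _ ≤ ((Ideal.absNorm (Ideal.under ℤ 𝔭.asIdeal) : ℝ) ^ 2)⁻¹ := inv_anti₀ (by positivity) h2

/-- The primes not of degree one contribute a bounded amount: for `s ≥ 1`,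
`∑_{𝔭 not of degree one} N𝔭 ^ (-s) ≤ [F : ℚ] ∑_k k ^ (-2)`. -/
lemma zp_primeIdealZetaSum_compl_degOne_le (F : Type*) [Field F] [NumberField F] {s : ℝ}
    (hs : 1 ≤ s) :
    NumberField.Set.primeIdealZetaSum (degOneSet F)ᶜ s ≤
      (Module.finrank ℚ F : ℝ) * ∑' k : ℕ, ((k : ℝ) ^ 2)⁻¹ := by
  rw [NumberField.Set.primeIdealZetaSum_def]
  refine Real.tsum_le_of_sum_le (fun 𝔭 => (zp_rpow_pos 𝔭.1 s).le) (fun u => ?_)
  have hfib : ∀ (T : Finset ↥(degOneSet F)ᶜ) (p : ℕ),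
      (∀ 𝔭 ∈ T, Ideal.absNorm (Ideal.under ℤ 𝔭.1.asIdeal) = p) →
        T.card ≤ Module.finrank ℚ F := by
    intro T p hT
    by_cases hTe : T = ∅
    · simp [hTe]
    obtain ⟨𝔮, h𝔮⟩ := Finset.nonempty_iff_ne_empty.mpr hTe
    have hp : p.Prime := by
      rw [← hT 𝔮 h𝔮]; exact eulerAlt_absNorm_under_prime F 𝔮.1
    have hcard := eulerAlt_card_le_finrank F hp (T.map ⟨Subtype.val, Subtype.val_injective⟩) (by
      intro 𝔭 h𝔭
      obtain ⟨𝔯, h𝔯, rfl⟩ := Finset.mem_map.mp h𝔭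
      have hmem := eulerAlt_natCast_absNorm_under_mem F 𝔯.1
      rw [hT 𝔯 h𝔯] at hmem
      exact hmem)
    rwa [Finset.card_map] at hcard
  calc ∑ 𝔭 ∈ u, (Ideal.absNorm 𝔭.1.asIdeal : ℝ) ^ (-s)
      ≤ ∑ 𝔭 ∈ u, (fun k : ℕ => ((k : ℝ) ^ 2)⁻¹)
          (Ideal.absNorm (Ideal.under ℤ 𝔭.1.asIdeal)) :=
        Finset.sum_le_sum fun 𝔭 _ => zp_rpow_le_of_not_degOne F 𝔭.1 𝔭.2 hs
    _ ≤ (Module.finrank ℚ F : ℝ) * ∑' k : ℕ, ((k : ℝ) ^ 2)⁻¹ :=
        zp_sum_comp_le (fun 𝔭 : ↥(degOneSet F)ᶜ => Ideal.absNorm (Ideal.under ℤ 𝔭.1.asIdeal))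
          _ _ (fun k => by positivity) (Real.summable_nat_pow_inv.mpr (by norm_num)) hfib u

/-! ### Sums over sets of primes -/

/-- The sum over any set of primes converges for `s > 1`. -/
lemma zp_summable_subtype (F : Type*) [Field F] [NumberField F]
    (T : Set (HeightOneSpectrum (𝓞 F))) {s : ℝ} (hs : 1 < s) :
    Summable fun 𝔭 : T => (Ideal.absNorm 𝔭.1.asIdeal : ℝ) ^ (-s) := by
  have h := (summable_absNorm_rpow F hs).comp_injective
    (Subtype.val_injective (p := fun 𝔭 => 𝔭 ∈ T))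
  exact h

/-- The sum over all primes, as a `primeIdealZetaSum`. -/
lemma zp_primeIdealZetaSum_univ (F : Type*) [Field F] [NumberField F] (s : ℝ) :
    NumberField.Set.primeIdealZetaSum (Set.univ : Set (HeightOneSpectrum (𝓞 F))) s =
      ∑' 𝔭 : HeightOneSpectrum (𝓞 F), (Ideal.absNorm 𝔭.asIdeal : ℝ) ^ (-s) := by
  rw [NumberField.Set.primeIdealZetaSum_def]
  exact tsum_univ fun 𝔭 : HeightOneSpectrum (𝓞 F) => (Ideal.absNorm 𝔭.asIdeal : ℝ) ^ (-s)

/-- Splitting the sum over all primes along a set and its complement (`s > 1`). -/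
lemma zp_primeIdealZetaSum_add_compl (F : Type*) [Field F] [NumberField F]
    (T : Set (HeightOneSpectrum (𝓞 F))) {s : ℝ} (hs : 1 < s) :
    NumberField.Set.primeIdealZetaSum T s + NumberField.Set.primeIdealZetaSum Tᶜ s =
      ∑' 𝔭 : HeightOneSpectrum (𝓞 F), (Ideal.absNorm 𝔭.asIdeal : ℝ) ^ (-s) := by
  rw [NumberField.Set.primeIdealZetaSum_def, NumberField.Set.primeIdealZetaSum_def]
  exact (summable_absNorm_rpow F hs).tsum_subtype_add_tsum_subtype_compl T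

/-- Additivity of `primeIdealZetaSum` on disjoint unions (`s > 1`). -/
lemma zp_primeIdealZetaSum_union (F : Type*) [Field F] [NumberField F]
    {S T : Set (HeightOneSpectrum (𝓞 F))} (hST : Disjoint S T) {s : ℝ} (hs : 1 < s) :
    NumberField.Set.primeIdealZetaSum (S ∪ T) s =
      NumberField.Set.primeIdealZetaSum S s + NumberField.Set.primeIdealZetaSum T s := by
  simp only [NumberField.Set.primeIdealZetaSum_def]
  exact Summable.tsum_union_disjoint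
    (f := fun 𝔭 : HeightOneSpectrum (𝓞 F) => (Ideal.absNorm 𝔭.asIdeal : ℝ) ^ (-s)) hST
    (zp_summable_subtype F S hs) (zp_summable_subtype F T hs)

/-- Monotonicity of `primeIdealZetaSum` in the set (`s > 1`). -/
lemma zp_primeIdealZetaSum_mono (F : Type*) [Field F] [NumberField F]
    {S T : Set (HeightOneSpectrum (𝓞 F))} (hST : S ⊆ T) {s : ℝ} (hs : 1 < s) :
    NumberField.Set.primeIdealZetaSum S s ≤ NumberField.Set.primeIdealZetaSum T s := by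
  have hT : T = S ∪ (T \ S) := (Set.union_sdiff_cancel hST).symm
  have hd : Disjoint S (T \ S) := Set.disjoint_sdiff_right
  rw [hT, zp_primeIdealZetaSum_union F hd hs]
  have := NumberField.Set.primeIdealZetaSum_nonneg (T \ S) s
  linarith

/-- `primeIdealZetaSum T s ≤ ∑_𝔭 N𝔭 ^ (-s)` for `s > 1`. -/
lemma zp_primeIdealZetaSum_le_tsum (F : Type*) [Field F] [NumberField F]
    (T : Set (HeightOneSpectrum (𝓞 F))) {s : ℝ} (hs : 1 < s) :
    NumberField.Set.primeIdealZetaSum T s ≤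
      ∑' 𝔭 : HeightOneSpectrum (𝓞 F), (Ideal.absNorm 𝔭.asIdeal : ℝ) ^ (-s) := by
  rw [← zp_primeIdealZetaSum_add_compl F T hs]
  have := NumberField.Set.primeIdealZetaSum_nonneg Tᶜ s
  linarith

/-! ### Logarithmic asymptotics -/

/-- The sum over all primes is `log (1 / (s - 1)) + O(1)` on `(1, 2]`. -/
lemma zp_exists_bound_tsum (F : Type*) [Field F] [NumberField F] :
    ∃ C : ℝ, ∀ s : ℝ, 1 < s → s ≤ 2 →
      |∑' 𝔭 : HeightOneSpectrum (𝓞 F), (Ideal.absNorm 𝔭.asIdeal : ℝ) ^ (-s) - logPole s| ≤ C := by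
  obtain ⟨C₃, hC₃⟩ := zp_exists_bound_log_zeta F
  refine ⟨2 * ∑' 𝔭 : HeightOneSpectrum (𝓞 F), (Ideal.absNorm 𝔭.asIdeal : ℝ) ^ (-(2 : ℝ)) + C₃,
    fun s hs1 hs2 => ?_⟩
  have h1 := zp_log_zeta_sub_nonneg F hs1
  have h2 := zp_log_zeta_sub_le F hs1
  have h3 := abs_le.mp (hC₃ s hs1 hs2)
  exact abs_le.mpr ⟨by linarith [h3.1], by linarith [h3.2]⟩

/-- The set of all primes has logarithmic density one. -/
theorem zp_isLogAsymp_univ (F : Type*) [Field F] [NumberField F] :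
    IsLogAsymp (NumberField.Set.primeIdealZetaSum (Set.univ : Set (HeightOneSpectrum (𝓞 F)))) 1 := by
  obtain ⟨C, hC⟩ := zp_exists_bound_tsum F
  refine ⟨C, fun s hs1 hs2 => ?_⟩
  rw [zp_primeIdealZetaSum_univ, one_mul]
  exact hC s hs1 hs2

theorem isLogAsymp_degOne (F : Type*) [Field F] [NumberField F] :
    IsLogAsymp (NumberField.Set.primeIdealZetaSum (degOneSet F)) 1 := by
  obtain ⟨C, hC⟩ := zp_exists_bound_tsum F
  refine ⟨C + (Module.finrank ℚ F : ℝ) * ∑' k : ℕ, ((k : ℝ) ^ 2)⁻¹, fun s hs1 hs2 => ?_⟩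
  have hsplit := zp_primeIdealZetaSum_add_compl F (degOneSet F) hs1
  have h1 := abs_le.mp (hC s hs1 hs2)
  have h2 := zp_primeIdealZetaSum_compl_degOne_le F hs1.le
  have h3 := NumberField.Set.primeIdealZetaSum_nonneg (degOneSet F)ᶜ s
  rw [one_mul]
  exact abs_le.mpr ⟨by linarith [h1.1], by linarith [h1.2]⟩

end Fermat.Agent.S42
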