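import Mathlib
import Fermat.Agent.S42.DensityDefs
import Fermat.Agent.S42.ZetaPrimes
import Fermat.Agent.S42.SplitCountCore

/-!
# P13 (S42/S29), part (B), module B2: density of completely split primes in a Galois extension

For a Galois extension `M'/M` of number fields of degree `n`, the degree-one primes of `M` that
split completely in `M'` satisfy
`∑ N𝔮 ^ (-s) = (1 / n) * log (1 / (s - 1)) + O(1)` on `(1, 2]`
(`isLogAsymp_split`).

The proof (in `SplitCountCore.lean`, `sc_isLogAsymp_split_of`) compares with the degree-one
primes of `M'` (module B1b, `isLogAsymp_degOne`): a degree-one prime `𝔔` of `M'` either lies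
over a completely split degree-one prime of `M` (and there are exactly `n` primes of `M'` over
such a prime, all of the same norm), or is ramified over `M` (finitely many, since they divide
the different).
-/

set_option autoImplicit false

namespace Fermat.Agent.S42

open NumberField IsDedekindDomain

/-- **Completely split primes in a Galois extension.** For a Galois extension `M'/M` of number
fields, the degree-one primes of `M` that split completely in `M'` satisfy
`∑ N𝔮 ^ (-s) = (1 / [M' : M]) * log (1 / (s - 1)) + O(1)` on `(1, 2]`. -/
theorem isLogAsymp_split (M M' : Type*) [Field M] [NumberField M] [Field M'] [NumberField M']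
    [Algebra M M'] [IsGalois M M'] :
    IsLogAsymp (NumberField.Set.primeIdealZetaSum (splitSet M M'))
      (1 / (Module.finrank M M' : ℝ)) :=
  sc_isLogAsymp_split_of M M' (fun _ hs => (summable_absNorm_rpow M' hs).subtype _)
    (isLogAsymp_degOne M')

end Fermat.Agent.S42
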