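import Mathlib
import Fermat.Agent.S42.DensityDefs
import Fermat.Agent.S42.ZetaPrimes
import Fermat.Agent.S42.SplitCount
import Fermat.Agent.S42.DecGroupAlt
import Fermat.Agent.S42.CyclicInertCore

/-!
# P13 (S42/S29), part (B), module B3b: infinitely many inert degree-one primes in a cyclic extension

For a Galois extension `L / M` of number fields with cyclic Galois group, the set `inertSet M L`
of degree-one primes of `M` which remain prime in `L` is infinite (`infinite_inertSet`).

The proof (the "totient sieve") is in `CyclicInertCore.lean` (`ci_infinite_inertSet_of`); here
its three inputs are supplied: `summable_absNorm_rpow` (`ZetaPrimes`), `isLogAsymp_split`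
(`SplitCount`) and `exists_decGroup` (`DecGroupAlt`).
-/

set_option autoImplicit false

namespace Fermat.Agent.S42

open NumberField IsDedekindDomain

/-- **Infinitely many inert degree-one primes in a cyclic extension.** -/
theorem infinite_inertSet (M L : Type*) [Field M] [NumberField M] [Field L] [NumberField L]
    [Algebra M L] [IsGalois M L] [IsCyclic (L ≃ₐ[M] L)] :
    (inertSet M L).Infinite :=
  ci_infinite_inertSet_of M L (fun _ hs => summable_absNorm_rpow M hs)
    (fun E _ => isLogAsymp_split M E) (fun hcomm => exists_decGroup M L hcomm)

end Fermat.Agent.S42
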