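import Mathlib
import Fermat.Prelude.Def_FLTPrelim_Ramification
import Fermat.Prelude.Def_EllipticCurve_FrobeniusTrace
import Fermat.Agent.S54.Frobenius
import Fermat.Agent.S37.FrobBasic
import Fermat.Agent.S42.DensityDefs

set_option autoImplicit false

/-!
# P13 (S42/S29), part (B), module B4 (core): Frobenius density for valuation subrings of `ℚ̄`

This file contains the whole argument of module B4 *relative to* the infinitude of inert
degree-one primes in cyclic extensions of number fields (module B3b, `infinite_inertSet`), which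
enters as an explicit hypothesis `hinf`.  The unconditional statement
`Fermat.Agent.S42.exists_frobenius_pow_eq_on` is deduced in `Fermat/Agent/S42/FrobQbar.lean`.

Main result (`fq_exists_frobenius_pow_eq_on_of_inert`): for a finite Galois extension `L/ℚ` inside
`ℚ̄`, an element `g` of the absolute Galois group and a finite set `S` of numbers, there are a
prime `ℓ ∉ S`, a valuation subring `A` of `ℚ̄` over `ℓ`, a Frobenius element `σ` at `A` (in the
sense of the frozen definition `ValuationSubring.IsFrobeniusAt`) and an exponent `j` such that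
`σ ^ j` and `g` agree on `L`.

Steps:
* `fq_exists_frob_generator`: if a prime `𝔮` of `M` of prime norm `ℓ` stays prime in a Galois
  extension `L/M`, then `Gal(L/M)` is generated by an element `φ` with `φ x ≡ x ^ ℓ` mod `𝔮 𝓞_L`;
* `fq_exists_frob_pow_eq_of_inert`: hence every `γ ∈ Gal(L/ℚ)` is a power of such a `φ` for
  arbitrarily large `ℓ` (apply the previous step to the fixed field of `γ`);
* `fq_exists_bound`: automorphisms of `L` congruent modulo a prime over a large `ℓ` are equal;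
* `fq_exists_valuationSubring`: a valuation subring centred at a given maximal ideal;
* `fq_restrict_frob`: a Frobenius element at a valuation subring of `ℚ̄` restricts to a Frobenius
  modulo the centre on `𝓞_L`.
-/

namespace Fermat.Agent.S42

open NumberField IsDedekindDomain

section Finite

/-- In a finite domain of cardinality `ℓ ^ n` in which every element satisfies
`y ^ (ℓ ^ k) = y` (with `k ≠ 0`, `1 < ℓ`), one has `n ≤ k`. -/
theorem fq_le_of_forall_pow_eq {F : Type*} [CommRing F] [IsDomain F] [Finite F] {ℓ n k : ℕ}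
    (hℓ : 1 < ℓ) (hk : k ≠ 0) (hcard : Nat.card F = ℓ ^ n) (h : ∀ y : F, y ^ (ℓ ^ k) = y) :
    n ≤ k := by
  classical
  have := Fintype.ofFinite F
  let _ : Field F := Fintype.fieldOfDomain F
  have h1 : 1 < ℓ ^ k := Nat.one_lt_pow hk hℓ
  have hne := FiniteField.X_pow_card_sub_X_ne_zero F h1
  have hdeg := FiniteField.X_pow_card_sub_X_natDegree_eq F h1
  have hsub : (Finset.univ : Finset F).val ⊆
      (Polynomial.X ^ (ℓ ^ k) - Polynomial.X : Polynomial F).roots := by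
    intro y _
    rw [Polynomial.mem_roots hne, Polynomial.IsRoot, Polynomial.eval_sub, Polynomial.eval_pow,
      Polynomial.eval_X, h y, sub_self]
  have h2 := Polynomial.card_le_degree_of_subset_roots hsub
  rw [hdeg, Finset.card_univ, ← Nat.card_eq_fintype_card, hcard] at h2
  exact (Nat.pow_le_pow_iff_right hℓ).mp h2

/-- A degree-one prime of `M`, inert in `L`, of norm bigger than a given bound (if there are
infinitely many inert degree-one primes). -/
theorem fq_exists_inert_gt (M L : Type*) [Field M] [NumberField M] [Field L] [NumberField L]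
    [Algebra M L] (hinf : (inertSet M L).Infinite) (N : ℕ) :
    ∃ 𝔮 : HeightOneSpectrum (𝓞 M), 𝔮 ∈ inertSet M L ∧ N < Ideal.absNorm 𝔮.asIdeal := by
  have hfin : {𝔮 : HeightOneSpectrum (𝓞 M) | Ideal.absNorm 𝔮.asIdeal ≤ N}.Finite := by
    have h1 := Ideal.finite_setOfPred_absNorm_le (S := 𝓞 M) N
    refine Set.Finite.of_finite_image (f := HeightOneSpectrum.asIdeal) (h1.subset ?_) ?_
    · rintro _ ⟨𝔮, h𝔮, rfl⟩
      exact h𝔮
    · intro a _ b _ hab
      exact HeightOneSpectrum.ext hab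
  obtain ⟨𝔮, h𝔮, hN⟩ := (hinf.sdiff hfin).nonempty
  exact ⟨𝔮, h𝔮, not_le.mp hN⟩

/-- For a Galois extension `L/M` of number fields and a prime `𝔮` of `M` of prime norm `ℓ` which
remains prime in `L`, there is a generator `φ` of `Gal(L/M)` with `φ x ≡ x ^ ℓ` modulo `𝔮 𝓞_L`. -/
theorem fq_exists_frob_generator (M L : Type*) [Field M] [NumberField M] [Field L] [NumberField L]
    [Algebra M L] [IsGalois M L] (𝔮 : Ideal (𝓞 M)) (hq : (Ideal.absNorm 𝔮).Prime)
    (hQ : (𝔮.map (algebraMap (𝓞 M) (𝓞 L))).IsPrime) :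
    ∃ φ : L ≃ₐ[M] L,
      (∀ x : 𝓞 L, φ • x - x ^ (Ideal.absNorm 𝔮) ∈ 𝔮.map (algebraMap (𝓞 M) (𝓞 L))) ∧
        Subgroup.zpowers φ = ⊤ := by
  classical
  have hqbot : 𝔮 ≠ ⊥ := by
    intro h
    rw [h, Ideal.absNorm_bot] at hq
    exact Nat.not_prime_zero hq
  set Q : Ideal (𝓞 L) := 𝔮.map (algebraMap (𝓞 M) (𝓞 L)) with hQdef
  -- cardinality of the residue ring
  have hcard : Nat.card (𝓞 L ⧸ Q) = Ideal.absNorm 𝔮 ^ Nat.card (L ≃ₐ[M] L) := by
    rw [IsGaloisGroup.card_eq_finrank' (L ≃ₐ[M] L) (𝓞 M) (𝓞 L),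
      ← Ideal.absNorm_algebraMap (𝓞 M) (𝓞 L) 𝔮, Ideal.absNorm_apply, Submodule.cardQuot_apply]
  have hfinQ : Finite (𝓞 L ⧸ Q) := by
    apply Nat.finite_of_card_ne_zero
    rw [hcard]
    exact pow_ne_zero _ hq.ne_zero
  -- `𝔮` is maximal and is the contraction of `Q`
  have hqprime : 𝔮.IsPrime := Ideal.isPrime_of_irreducible_absNorm hq
  have hqmax : 𝔮.IsMaximal := hqprime.isMaximal hqbot
  have hunder : Q.under (𝓞 M) = 𝔮 :=
    (hqmax.eq_of_le (Ideal.comap_ne_top _ hQ.ne_top) Ideal.le_comap_map).symm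
  have hcardq : Nat.card (𝓞 M ⧸ Q.under (𝓞 M)) = Ideal.absNorm 𝔮 := by
    rw [hunder, Ideal.absNorm_apply, Submodule.cardQuot_apply]
  obtain ⟨φ, hφ⟩ := IsArithFrobAt.exists_of_isInvariant (𝓞 M) (L ≃ₐ[M] L) Q
  have hφ' : ∀ x : 𝓞 L, φ • x - x ^ (Ideal.absNorm 𝔮) ∈ Q := by
    intro x
    have := hφ x
    rw [hcardq] at this
    exact this
  refine ⟨φ, hφ', ?_⟩
  -- iterating
  have hiter : ∀ (i : ℕ) (x : 𝓞 L),
      Ideal.Quotient.mk Q ((φ ^ i) • x) = (Ideal.Quotient.mk Q x) ^ (Ideal.absNorm 𝔮 ^ i) := by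
    intro i
    induction i with
    | zero =>
      intro x
      rw [pow_zero, one_smul, pow_zero, pow_one]
    | succ i ih =>
      intro x
      have h1 : Ideal.Quotient.mk Q (φ • x) = (Ideal.Quotient.mk Q x) ^ (Ideal.absNorm 𝔮) := by
        rw [← map_pow, Ideal.Quotient.eq]
        exact hφ' x
      rw [pow_succ, mul_smul, ih, h1, ← pow_mul, pow_succ, mul_comm]
  have hkpos : orderOf φ ≠ 0 := (orderOf_pos φ).ne'
  have hall : ∀ y : 𝓞 L ⧸ Q, y ^ (Ideal.absNorm 𝔮 ^ orderOf φ) = y := by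
    intro y
    obtain ⟨x, rfl⟩ := Ideal.Quotient.mk_surjective y
    rw [← hiter, pow_orderOf_eq_one, one_smul]
  have hle : Nat.card (L ≃ₐ[M] L) ≤ orderOf φ :=
    fq_le_of_forall_pow_eq hq.one_lt hkpos hcard hall
  apply Subgroup.eq_top_of_card_eq
  rw [Nat.card_zpowers]
  exact le_antisymm orderOf_le_card hle

/-- Finite level: every element `γ` of the Galois group of a Galois number field `L/ℚ` is a power
of an element `φ` which is a Frobenius (`φ x ≡ x ^ ℓ`) modulo a prime `𝔏` of `L` over an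
arbitrarily large prime number `ℓ` (assuming that cyclic extensions of number fields have
infinitely many inert degree-one primes). -/
theorem fq_exists_frob_pow_eq_of_inert.{u}
    (hinf : ∀ (M L : Type u) [Field M] [NumberField M] [Field L] [NumberField L] [Algebra M L]
      [IsGalois M L] [IsCyclic (L ≃ₐ[M] L)], (inertSet M L).Infinite)
    (L : Type u) [Field L] [NumberField L] [IsGalois ℚ L] (γ : L ≃ₐ[ℚ] L) (N : ℕ) :
    ∃ (ℓ : ℕ) (𝔏 : Ideal (𝓞 L)) (φ : L ≃ₐ[ℚ] L) (j : ℕ),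
      ℓ.Prime ∧ N < ℓ ∧ 𝔏.IsPrime ∧ (ℓ : 𝓞 L) ∈ 𝔏 ∧ φ ^ j = γ ∧
        ∀ x : 𝓞 L, φ • x - x ^ ℓ ∈ 𝔏 := by
  classical
  let H : Subgroup (L ≃ₐ[ℚ] L) := Subgroup.zpowers γ
  let M : IntermediateField ℚ L := IntermediateField.fixedField H
  have hfix : M.fixingSubgroup = H := IntermediateField.fixingSubgroup_fixedField H
  have hcyc : IsCyclic (L ≃ₐ[M] L) := by
    have h1 : IsCyclic M.fixingSubgroup := by
      rw [hfix]
      infer_instance
    exact isCyclic_of_injective (IntermediateField.fixingSubgroupEquiv M).symm.toMonoidHom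
      (IntermediateField.fixingSubgroupEquiv M).symm.injective
  obtain ⟨𝔮, ⟨hqprime, hQ⟩, hN⟩ := fq_exists_inert_gt M L (hinf M L) N
  obtain ⟨φ', hφ', hgen⟩ := fq_exists_frob_generator M L 𝔮.asIdeal hqprime hQ
  -- `γ` as an element of `Gal(L/M)`
  have hγmem : γ ∈ M.fixingSubgroup := by
    rw [hfix]
    exact Subgroup.mem_zpowers γ
  have hγ' : IntermediateField.fixingSubgroupEquiv M ⟨γ, hγmem⟩ ∈ Subgroup.zpowers φ' := by
    rw [hgen]
    trivial
  obtain ⟨j, hj⟩ := mem_powers_iff_mem_zpowers.mpr hγ'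
  have hj' : φ' ^ j = IntermediateField.fixingSubgroupEquiv M ⟨γ, hγmem⟩ := hj
  refine ⟨Ideal.absNorm 𝔮.asIdeal, _, φ'.restrictScalars ℚ, j, hqprime, hN, hQ, ?_, ?_, ?_⟩
  · have h1 : ((Ideal.absNorm 𝔮.asIdeal : ℕ) : 𝓞 M) ∈ 𝔮.asIdeal := Ideal.absNorm_mem _
    have h2 := Ideal.mem_map_of_mem (algebraMap (𝓞 M) (𝓞 L)) h1
    rwa [map_natCast] at h2
  · have h1 : ((IntermediateField.fixingSubgroupEquiv M).symm φ') ^ j = ⟨γ, hγmem⟩ := by
      rw [← map_pow, hj', MulEquiv.symm_apply_apply]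
    have h2 := congrArg Subtype.val h1
    rw [Subgroup.coe_pow] at h2
    exact h2
  · intro x
    exact hφ' x

/-- Uniqueness of Frobenius elements at large primes, in elementary form: two automorphisms of a
number field which are congruent modulo a proper ideal containing a large prime number are
equal. -/
theorem fq_exists_bound (L : Type*) [Field L] [NumberField L] :
    ∃ N : ℕ, ∀ ℓ : ℕ, ℓ.Prime → N < ℓ → ∀ 𝔏 : Ideal (𝓞 L), 𝔏 ≠ ⊤ → (ℓ : 𝓞 L) ∈ 𝔏 →
      ∀ τ₁ τ₂ : L ≃ₐ[ℚ] L, (∀ x : 𝓞 L, τ₁ • x - τ₂ • x ∈ 𝔏) → τ₁ = τ₂ := by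
  classical
  have := Fintype.ofFinite (L ≃ₐ[ℚ] L)
  have key : ∀ p : (L ≃ₐ[ℚ] L) × (L ≃ₐ[ℚ] L), ∃ x : 𝓞 L, p.1 ≠ p.2 → p.1 • x - p.2 • x ≠ 0 := by
    intro p
    by_cases hp : p.1 = p.2
    · exact ⟨0, fun h => absurd hp h⟩
    · by_contra hcon
      push Not at hcon
      apply hp
      ext y
      obtain ⟨a, b, -, rfl⟩ := IsFractionRing.div_surjective (A := 𝓞 L) y
      have ha := congrArg (algebraMap (𝓞 L) L) (sub_eq_zero.mp (hcon a).2)
      have hb := congrArg (algebraMap (𝓞 L) L) (sub_eq_zero.mp (hcon b).2)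
      rw [map_div₀, map_div₀]
      exact congrArg₂ (· / ·) ha hb
  choose x hx using key
  set T : Finset ((L ≃ₐ[ℚ] L) × (L ≃ₐ[ℚ] L)) := Finset.univ.filter fun p => p.1 ≠ p.2 with hT
  set d : 𝓞 L := ∏ p ∈ T, (p.1 • x p - p.2 • x p) with hd
  have hd0 : d ≠ 0 := by
    rw [hd, Finset.prod_ne_zero_iff]
    intro p hp
    exact hx p (Finset.mem_filter.mp hp).2
  have hN0 : Ideal.absNorm (Ideal.span {d}) ≠ 0 := by
    rw [Ne, Ideal.absNorm_eq_zero_iff, Ideal.span_singleton_eq_bot]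
    exact hd0
  refine ⟨Ideal.absNorm (Ideal.span {d}), fun ℓ hℓ hlt 𝔏 h𝔏 hℓ𝔏 τ₁ τ₂ hτ => ?_⟩
  by_contra hne
  have hd𝔏 : d ∈ 𝔏 :=
    Ideal.prod_mem 𝔏 (i := (τ₁, τ₂)) (Finset.mem_filter.mpr ⟨Finset.mem_univ _, hne⟩) (hτ _)
  have hN𝔏 : ((Ideal.absNorm (Ideal.span {d}) : ℕ) : 𝓞 L) ∈ 𝔏 :=
    (Ideal.span_singleton_le_iff_mem 𝔏).mpr hd𝔏 (Ideal.absNorm_mem _)
  have hcop : Nat.Coprime ℓ (Ideal.absNorm (Ideal.span {d})) :=
    (Nat.Prime.coprime_iff_not_dvd hℓ).mpr
      (Nat.not_dvd_of_pos_of_lt (Nat.pos_of_ne_zero hN0) hlt)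
  obtain ⟨a, b, hab⟩ := (Nat.isCoprime_iff_coprime.mpr hcop)
  apply h𝔏
  rw [Ideal.eq_top_iff_one]
  have h1 : ((a : 𝓞 L) * (ℓ : 𝓞 L) + (b : 𝓞 L) * ((Ideal.absNorm (Ideal.span {d}) : ℕ) : 𝓞 L)) =
      1 := by
    exact_mod_cast congrArg (Int.cast (R := 𝓞 L)) hab
  rw [← h1]
  exact 𝔏.add_mem (𝔏.mul_mem_left _ hℓ𝔏) (𝔏.mul_mem_left _ hN𝔏)

end Finite

section Valuation

/-- A valuation subring centred at a given maximal ideal of a subring. -/
theorem fq_exists_valuationSubring {R K : Type*} [CommRing R] [Field K] (ι : R →+* K)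
    (hι : Function.Injective ι) (P : Ideal R) [hP : P.IsMaximal] :
    ∃ A : ValuationSubring K, (∀ x, ι x ∈ A) ∧ ∀ x, ι x ∈ A.nonunits ↔ x ∈ P := by
  classical
  have hsurj : Function.Surjective ι.rangeRestrict := ι.rangeRestrict_surjective
  set I : Ideal ι.range := P.map ι.rangeRestrict with hI
  have hItop : I ≠ ⊤ := by
    intro h
    have h1 : (1 : ι.range) ∈ I := by rw [h]; trivial
    rw [hI, Ideal.mem_map_iff_of_surjective _ hsurj] at h1
    obtain ⟨p, hp, hp1⟩ := h1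
    have h2 : ι p = 1 := congrArg Subtype.val hp1
    have h3 : p = 1 := hι (by rw [h2, map_one])
    exact hP.ne_top ((Ideal.eq_top_iff_one P).mpr (h3 ▸ hp))
  obtain ⟨A, hA, hIA⟩ := Ideal.image_subset_nonunits_valuationSubring I hItop
  have hmem : ∀ x, ι x ∈ A := fun x => hA ⟨x, rfl⟩
  have hP' : ∀ x, x ∈ P → ι x ∈ A.nonunits := by
    intro x hx
    apply hIA
    exact ⟨ι.rangeRestrict x, Ideal.mem_map_of_mem _ hx, rfl⟩
  refine ⟨A, hmem, fun x => ⟨fun hx => ?_, hP' x⟩⟩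
  by_contra hxP
  obtain ⟨y, i, hi, hyi⟩ := hP.exists_inv hxP
  have h1 : A.valuation (ι y * ι x) < 1 := by
    rw [map_mul]
    exact lt_of_le_of_lt (mul_le_of_le_one_left' ((A.valuation_le_one_iff _).mpr (hmem y)))
      (A.mem_nonunits_iff.mp hx)
  have h2 : A.valuation (ι i) < 1 := A.mem_nonunits_iff.mp (hP' i hi)
  have h3 : A.valuation (ι y * ι x + ι i) < 1 :=
    lt_of_le_of_lt (A.valuation.map_add _ _) (max_lt h1 h2)
  rw [← map_mul, ← map_add, hyi, map_one, map_one] at h3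
  exact lt_irrefl _ h3

/-- Valuation form of the Frobenius property: `σ a ≡ a ^ q` modulo the maximal ideal. -/
theorem fq_valuation_apply_sub_pow_lt {K E : Type*} [Field K] [Field E] [Algebra K E]
    {A : ValuationSubring E} {σ : E ≃ₐ[K] E} {q : ℕ} (hσ : A.IsFrobeniusAt σ q) {a : E}
    (ha : a ∈ A) : A.valuation (σ a - a ^ q) < 1 := by
  obtain ⟨h, hx⟩ := hσ
  have h1 := hx (IsLocalRing.residue A ⟨a, ha⟩)
  rw [← IsLocalRing.ResidueField.residue_smul, ← map_pow, ← sub_eq_zero, ← map_sub,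
    IsLocalRing.residue_eq_zero_iff, A.valuation_lt_one_iff] at h1
  exact h1

end Valuation

section Qbar

local notation "Ω" => AlgebraicClosure ℚ
local notation "Γ" => (AlgebraicClosure ℚ ≃ₐ[ℚ] AlgebraicClosure ℚ)

/-- A finite-dimensional intermediate field of `ℚ̄/ℚ` is a number field. -/
theorem fq_numberField (L : IntermediateField ℚ Ω) [FiniteDimensional ℚ L] : NumberField ↥L :=
  { to_charZero := inferInstance
    to_finiteDimensional := inferInstance }

/-- The embedding of the ring of integers of `L ⊆ ℚ̄` in `ℚ̄`. -/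
noncomputable def fq_emb (L : IntermediateField ℚ Ω) : 𝓞 ↥L →+* Ω :=
  (algebraMap ↥L Ω).comp (algebraMap (𝓞 ↥L) ↥L)

theorem fq_emb_apply (L : IntermediateField ℚ Ω) (x : 𝓞 ↥L) : fq_emb L x = ((x : ↥L) : Ω) := rfl

theorem fq_emb_injective (L : IntermediateField ℚ Ω) : Function.Injective (fq_emb L) :=
  (algebraMap ↥L Ω).injective.comp (FaithfulSMul.algebraMap_injective (𝓞 ↥L) ↥L)

theorem fq_emb_mem (L : IntermediateField ℚ Ω) (A : ValuationSubring Ω) (x : 𝓞 ↥L) :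
    fq_emb L x ∈ A := by
  apply Fermat.Agent.S54.mem_of_isIntegral_int A
  exact (RingOfIntegers.isIntegral_coe x).map (algebraMap ↥L Ω).toIntAlgHom

theorem fq_emb_smul (L : IntermediateField ℚ Ω) [IsGalois ℚ L] (σ : Γ) (x : 𝓞 ↥L) :
    fq_emb L ((AlgEquiv.restrictNormalHom L σ) • x) = σ (fq_emb L x) := by
  rw [fq_emb_apply, fq_emb_apply]
  exact AlgEquiv.restrictNormal_commutes σ ↥L (x : ↥L)

/-- The restriction to `L` of a Frobenius element at a valuation subring `A` of `ℚ̄` is a Frobenius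
element modulo the centre of `A` on the ring of integers of `L`. -/
theorem fq_restrict_frob (L : IntermediateField ℚ Ω) [IsGalois ℚ L] (A : ValuationSubring Ω)
    (σ : Γ) (ℓ : ℕ) (hσ : A.IsFrobeniusAt σ ℓ) (𝔏 : Ideal (𝓞 ↥L))
    (h𝔏 : ∀ x : 𝓞 ↥L, fq_emb L x ∈ A.nonunits ↔ x ∈ 𝔏) (x : 𝓞 ↥L) :
    (AlgEquiv.restrictNormalHom L σ) • x - x ^ ℓ ∈ 𝔏 := by
  rw [← h𝔏, map_sub, map_pow, fq_emb_smul, A.mem_nonunits_iff]
  exact fq_valuation_apply_sub_pow_lt hσ (fq_emb_mem L A x)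

/-- **Frobenius density theorem for valuation subrings of `ℚ̄`** (relative to the infinitude of
inert degree-one primes in cyclic extensions, hypothesis `hinf`). For a finite Galois extension
`L/ℚ` inside `ℚ̄`, an element `g` of the absolute Galois group and a finite set `S`, there are a
prime `ℓ ∉ S`, a valuation subring `A` of `ℚ̄` over `ℓ`, a Frobenius element `σ` at `A` and an
exponent `j` such that `σ ^ j` and `g` agree on `L`. -/
theorem fq_exists_frobenius_pow_eq_on_of_inert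
    (hinf : ∀ (M L : Type) [Field M] [NumberField M] [Field L] [NumberField L] [Algebra M L]
      [IsGalois M L] [IsCyclic (L ≃ₐ[M] L)], (inertSet M L).Infinite)
    (L : IntermediateField ℚ (AlgebraicClosure ℚ))
    [FiniteDimensional ℚ L] [IsGalois ℚ L]
    (g : AlgebraicClosure ℚ ≃ₐ[ℚ] AlgebraicClosure ℚ) (S : Finset ℕ) :
    ∃ (ℓ : ℕ) (A : ValuationSubring (AlgebraicClosure ℚ))
      (σ : AlgebraicClosure ℚ ≃ₐ[ℚ] AlgebraicClosure ℚ) (j : ℕ),
      ℓ.Prime ∧ ℓ ∉ S ∧ A.LiesOverPrime ℓ ∧ A.IsFrobeniusAt σ ℓ ∧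
        ∀ x ∈ L, (σ ^ j) x = g x := by
  classical
  have hNF : NumberField ↥L := fq_numberField L
  obtain ⟨N, hN⟩ := fq_exists_bound ↥L
  obtain ⟨ℓ, 𝔏, φ, j, hℓ, hlt, h𝔏prime, hℓ𝔏, hφj, hφ⟩ :=
    fq_exists_frob_pow_eq_of_inert hinf ↥L (AlgEquiv.restrictNormalHom L g) (max N (S.sup id))
  have hℓ0 : (ℓ : 𝓞 ↥L) ≠ 0 := Nat.cast_ne_zero.mpr hℓ.ne_zero
  have h𝔏bot : 𝔏 ≠ ⊥ := by
    intro h
    rw [h, Ideal.mem_bot] at hℓ𝔏
    exact hℓ0 hℓ𝔏
  have h𝔏max : 𝔏.IsMaximal := h𝔏prime.isMaximal h𝔏bot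
  obtain ⟨A, -, hA⟩ := fq_exists_valuationSubring (fq_emb L) (fq_emb_injective L) 𝔏
  have hAℓ : A.LiesOverPrime ℓ := by
    have h1 := (hA (ℓ : 𝓞 ↥L)).mpr hℓ𝔏
    rw [map_natCast] at h1
    exact h1
  obtain ⟨σ, hσ⟩ := Fermat.Agent.S37.exists_isFrobeniusAt_of_liesOver A ℓ hℓ hAℓ
  have hσφ : AlgEquiv.restrictNormalHom L σ = φ := by
    refine hN ℓ hℓ (lt_of_le_of_lt (le_max_left _ _) hlt) 𝔏 h𝔏prime.ne_top hℓ𝔏 _ _ fun x => ?_
    have h1 := fq_restrict_frob L A σ ℓ hσ 𝔏 hA x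
    have h2 := hφ x
    have h3 : (AlgEquiv.restrictNormalHom L σ) • x - φ • x =
        ((AlgEquiv.restrictNormalHom L σ) • x - x ^ ℓ) - (φ • x - x ^ ℓ) := by ring
    rw [h3]
    exact 𝔏.sub_mem h1 h2
  refine ⟨ℓ, A, σ, j, hℓ, ?_, hAℓ, hσ, ?_⟩
  · intro hS
    have h1 : ℓ ≤ S.sup id := Finset.le_sup (f := id) hS
    have h2 : S.sup id < ℓ := lt_of_le_of_lt (le_max_right _ _) hlt
    exact absurd h1 (not_le.mpr h2)
  · intro x hx
    have h1 : AlgEquiv.restrictNormalHom L (σ ^ j) = AlgEquiv.restrictNormalHom L g := by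
      rw [map_pow, hσφ, hφj]
    have h2 := AlgEquiv.restrictNormal_commutes (σ ^ j) ↥L (⟨x, hx⟩ : ↥L)
    have h3 := AlgEquiv.restrictNormal_commutes g ↥L (⟨x, hx⟩ : ↥L)
    have h4 : (σ ^ j).restrictNormal ↥L = g.restrictNormal ↥L := h1
    rw [h4, h3] at h2
    exact h2.symm

end Qbar

end Fermat.Agent.S42
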