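import Mathlib
import Fermat.Prelude.Def_FLTPrelim_Ramification
import Fermat.Prelude.Def_EllipticCurve_FrobeniusTrace
import Fermat.Agent.S54.Frobenius
import Fermat.Agent.S37.FrobBasic

set_option autoImplicit false

/-!
# P13 (S42/S29), part (B), module B6: the mod `p` cyclotomic character of `Gal(ℚ̄/ℚ)`

* `cycloChar p : (ℚ̄ ≃ₐ[ℚ] ℚ̄) →* (ZMod p)ˣ`, characterised by `cy_spec`:
  `σ ζ = ζ ^ (cycloChar p σ).val` for every `ζ` with `ζ ^ p = 1`;
* `cycloChar_frobenius`: a Frobenius element at a prime `ℓ ≠ p` is sent to `ℓ`;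
* `cycloChar_inertia`: the inertia groups at the primes `ℓ ≠ p` are in the kernel;
* `exists_finiteLevel_cycloChar`, `cycloChar_eq_of_eqOn`: the character factors through a finite
  level.

Auxiliary declarations carry the prefix `cy_`. Among them:

* `cy_eq_of_sub_mem_nonunits`: reduction modulo a valuation subring of residue characteristic
  `ℓ ≠ p` is injective on the `p`-th roots of unity (any field);
* `cy_frobenius_apply`, `cy_inertia_apply`: `σ ζ = ζ ^ ℓ`, resp. `τ ζ = ζ`, for `ζ ^ p = 1`;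
* `cy_cycloChar_frobenius_pow`, `cy_cycloChar_frobenius_map`, `cy_cycloChar_frobenius_pow_map`:
  powers of Frobenius elements, and images under a ring homomorphism `ZMod p →+* K`;
* `cy_exists_finite_galois_ge`, `cy_exists_finite_galois_ge_sup`: finite subextensions of `ℚ̄/ℚ`
  lie in finite Galois subextensions; `cy_cycloChar_eq_of_eqOn_galois`;
* `cy_charTo p φ : (ℚ̄ ≃ₐ[ℚ] ℚ̄) →* Kˣ` for `φ : ZMod p →+* K`, with `cy_charTo_frobenius`,
  `cy_charTo_frobenius_pow`, `cy_charTo_inertia`, `cy_charTo_finiteLevel`,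
  `cy_charTo_eq_of_eqOn_galois`.
-/

namespace Fermat.Agent.S42

/-! ### Roots of unity of prime order modulo a valuation subring of residue characteristic `≠ p` -/

section General

variable {Ω : Type*} [Field Ω]

/-- A `p`-th root of unity lies in every valuation subring. -/
theorem cy_mem_of_pow_eq_one (A : ValuationSubring Ω) {p : ℕ} (hp : 0 < p) {x : Ω}
    (hx : x ^ p = 1) : x ∈ A :=
  Fermat.Agent.S54.mem_of_isIntegral_int A (IsIntegral.of_pow hp (hx ▸ isIntegral_one))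

/-- If `ℓ ≠ p` are primes, `ℓ` is a non-unit of the valuation subring `A` and `ζ` is a primitive
`p`-th root of unity, then `1 - ζ` is a unit of `A`. -/
theorem cy_valuation_one_sub (A : ValuationSubring Ω) {ℓ p : ℕ} (hℓ : ℓ.Prime) (hp : p.Prime)
    (hℓp : ℓ ≠ p) (hA : (ℓ : Ω) ∈ A.nonunits) {ζ : Ω} (hζ : IsPrimitiveRoot ζ p) :
    A.valuation (1 - ζ) = 1 := by
  have hζA : ζ ∈ A := cy_mem_of_pow_eq_one A hp.pos hζ.pow_eq_one
  have hmem : ∀ k : ℕ, 1 - ζ ^ k ∈ A := fun k => A.sub_mem A.one_mem (A.pow_mem hζA k)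
  refine le_antisymm ((A.valuation_le_one_iff _).mpr (by simpa using hmem 1))
    (not_lt.mp fun hlt => hℓp ?_)
  obtain ⟨m, rfl⟩ : ∃ m, p = m + 1 + 1 := ⟨p - 2, by have := hp.two_le; omega⟩
  have hprod := hζ.prod_one_sub_pow_eq_order
  rw [Finset.prod_range_succ'] at hprod
  have h1 : (∏ k ∈ Finset.range m, (1 - ζ ^ (k + 1 + 1))) ∈ A :=
    Subring.prod_mem A.toSubring fun k _ => hmem _
  have h2 : A.valuation (((m + 1 + 1 : ℕ) : ℤ) : Ω) < 1 := by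
    have h3 : (((m + 1 + 1 : ℕ) : ℤ) : Ω) =
        (∏ k ∈ Finset.range m, (1 - ζ ^ (k + 1 + 1))) * (1 - ζ ^ (0 + 1)) := by
      rw [hprod]; push_cast; ring
    rw [h3, map_mul, zero_add, pow_one]
    exact lt_of_le_of_lt (mul_le_of_le_one_left' ((A.valuation_le_one_iff _).mpr h1)) hlt
  have h4 : (ℓ : ℤ) ∣ ((m + 1 + 1 : ℕ) : ℤ) :=
    Fermat.Agent.S54.dvd_of_valuation_intCast_lt_one A hℓ hA _ h2
  exact (Nat.prime_dvd_prime_iff_eq hℓ hp).mp (Int.natCast_dvd_natCast.mp h4)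

/-- Reduction modulo the maximal ideal of a valuation subring of residue characteristic `ℓ ≠ p`
is injective on the `p`-th roots of unity. -/
theorem cy_eq_of_sub_mem_nonunits (A : ValuationSubring Ω) {ℓ p : ℕ} (hℓ : ℓ.Prime)
    (hp : p.Prime) (hℓp : ℓ ≠ p) (hA : (ℓ : Ω) ∈ A.nonunits) {x y : Ω} (hx : x ^ p = 1)
    (hy : y ^ p = 1) (hxy : x - y ∈ A.nonunits) : x = y := by
  classical
  by_contra hne
  have hx0 : x ≠ 0 := by
    rintro rfl
    rw [zero_pow hp.ne_zero] at hx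
    exact zero_ne_one hx
  have hz : (y * x⁻¹) ^ p = 1 := by rw [mul_pow, inv_pow, hx, hy, inv_one, mul_one]
  have hz1 : y * x⁻¹ ≠ 1 := by
    intro h
    apply hne
    field_simp at h
    exact h.symm
  have hprim : IsPrimitiveRoot (y * x⁻¹) p :=
    isPrimitiveRoot_of_mem_nthRootsFinset hp ((Polynomial.mem_nthRootsFinset hp.pos 1).mpr hz) hz1
  have h1 := cy_valuation_one_sub A hℓ hp hℓp hA hprim
  have hxinv : x⁻¹ ∈ A :=
    cy_mem_of_pow_eq_one A hp.pos (by rw [inv_pow, hx, inv_one])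
  have h2 : 1 - y * x⁻¹ = x⁻¹ * (x - y) := by field_simp
  rw [h2, map_mul] at h1
  have h3 : A.valuation x⁻¹ * A.valuation (x - y) < 1 :=
    lt_of_le_of_lt (mul_le_of_le_one_left' ((A.valuation_le_one_iff _).mpr hxinv))
      (A.mem_nonunits_iff.mp hxy)
  rw [h1] at h3
  exact lt_irrefl _ h3

variable {K : Type*} [Field K] [Algebra K Ω]

/-- A Frobenius element at `A` acts as `x ↦ x ^ q` modulo the maximal ideal of `A`. -/
theorem cy_frobenius_sub_mem_nonunits {A : ValuationSubring Ω} {σ : Ω ≃ₐ[K] Ω} {q : ℕ}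
    (hσ : A.IsFrobeniusAt σ q) {x : Ω} (hx : x ∈ A) : σ x - x ^ q ∈ A.nonunits := by
  obtain ⟨h, hfrob⟩ := hσ
  have h1 := hfrob (IsLocalRing.residue A ⟨x, hx⟩)
  rw [← IsLocalRing.ResidueField.residue_smul, ← map_pow, ← sub_eq_zero, ← map_sub,
    IsLocalRing.residue_eq_zero_iff, A.valuation_lt_one_iff] at h1
  exact A.mem_nonunits_iff.mpr h1

/-- An element of the inertia group at `A` acts trivially modulo the maximal ideal of `A`. -/
theorem cy_inertia_sub_mem_nonunits {A : ValuationSubring Ω} {τ : Ω ≃ₐ[K] Ω}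
    (hτ : τ ∈ A.inertiaSubgroupIn K) {x : Ω} (hx : x ∈ A) : τ x - x ∈ A.nonunits := by
  obtain ⟨h, htriv⟩ := Fermat.Agent.S37.mem_inertiaSubgroupIn_iff.mp hτ
  have h1 := htriv (IsLocalRing.residue A ⟨x, hx⟩)
  rw [← IsLocalRing.ResidueField.residue_smul, ← sub_eq_zero, ← map_sub,
    IsLocalRing.residue_eq_zero_iff, A.valuation_lt_one_iff] at h1
  exact A.mem_nonunits_iff.mpr h1

end General

/-! ### The character -/

/-- Forgetting the `ℚ`-linearity of an automorphism of `ℚ̄`, as a group homomorphism. -/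
noncomputable def cy_toRingEquiv :
    (AlgebraicClosure ℚ ≃ₐ[ℚ] AlgebraicClosure ℚ) →*
      (AlgebraicClosure ℚ ≃+* AlgebraicClosure ℚ) where
  toFun σ := σ.toRingEquiv
  map_one' := rfl
  map_mul' _ _ := rfl

theorem cy_toRingEquiv_apply (σ : AlgebraicClosure ℚ ≃ₐ[ℚ] AlgebraicClosure ℚ)
    (x : AlgebraicClosure ℚ) : cy_toRingEquiv σ x = σ x :=
  rfl

/-- `ℚ̄` contains `p` roots of unity of order dividing `p`. -/
theorem cy_card_rootsOfUnity (p : ℕ) [Fact p.Prime] :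
    Nat.card (rootsOfUnity p (AlgebraicClosure ℚ)) = p :=
  HasEnoughRootsOfUnity.natCard_rootsOfUnity (AlgebraicClosure ℚ) p

/-- There is a primitive `p`-th root of unity in `ℚ̄`. -/
theorem cy_exists_primitiveRoot (p : ℕ) [Fact p.Prime] :
    ∃ ζ : AlgebraicClosure ℚ, IsPrimitiveRoot ζ p :=
  HasEnoughRootsOfUnity.exists_primitiveRoot (AlgebraicClosure ℚ) p

/-- The mod `p` cyclotomic character of the absolute Galois group of `ℚ`. -/
noncomputable def cycloChar (p : ℕ) [Fact p.Prime] :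
    (AlgebraicClosure ℚ ≃ₐ[ℚ] AlgebraicClosure ℚ) →* (ZMod p)ˣ :=
  (modularCyclotomicCharacter (AlgebraicClosure ℚ) (cy_card_rootsOfUnity p)).comp cy_toRingEquiv

/-- The characterising property of the cyclotomic character. -/
theorem cy_spec (p : ℕ) [Fact p.Prime] (σ : AlgebraicClosure ℚ ≃ₐ[ℚ] AlgebraicClosure ℚ)
    {ζ : AlgebraicClosure ℚ} (hζ : ζ ^ p = 1) :
    σ ζ = ζ ^ ((cycloChar p σ : (ZMod p)ˣ) : ZMod p).val := by
  have hζ0 : ζ ≠ 0 := by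
    rintro rfl
    rw [zero_pow (Fact.out : p.Prime).ne_zero] at hζ
    exact zero_ne_one hζ
  have hmem : Units.mk0 ζ hζ0 ∈ rootsOfUnity p (AlgebraicClosure ℚ) := by
    rw [mem_rootsOfUnity']
    exact hζ
  exact modularCyclotomicCharacter.spec (AlgebraicClosure ℚ) (cy_card_rootsOfUnity p)
    (cy_toRingEquiv σ) hmem

/-- If `σ ζ = ζ ^ n` for one primitive `p`-th root of unity `ζ`, then the cyclotomic character
of `σ` is the class of `n`. -/
theorem cy_eq_natCast_of_apply (p : ℕ) [Fact p.Prime]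
    (σ : AlgebraicClosure ℚ ≃ₐ[ℚ] AlgebraicClosure ℚ) {ζ : AlgebraicClosure ℚ}
    (hζ : IsPrimitiveRoot ζ p) {n : ℕ} (h : σ ζ = ζ ^ n) :
    ((cycloChar p σ : (ZMod p)ˣ) : ZMod p) = (n : ZMod p) := by
  have hp : p.Prime := Fact.out
  rw [cy_spec p σ hζ.pow_eq_one, (hζ.isOfFinOrder hp.ne_zero).pow_eq_pow_iff_modEq,
    ← hζ.eq_orderOf, ← ZMod.natCast_eq_natCast_iff, ZMod.natCast_zmod_val] at h
  exact h

/-- If `σ` fixes one primitive `p`-th root of unity, then its cyclotomic character is trivial. -/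
theorem cy_eq_one_of_apply (p : ℕ) [Fact p.Prime]
    (σ : AlgebraicClosure ℚ ≃ₐ[ℚ] AlgebraicClosure ℚ) {ζ : AlgebraicClosure ℚ}
    (hζ : IsPrimitiveRoot ζ p) (h : σ ζ = ζ) : cycloChar p σ = 1 := by
  have h1 := cy_eq_natCast_of_apply p σ hζ (n := 1) (by rw [pow_one]; exact h)
  rw [Nat.cast_one] at h1
  exact Units.ext h1

/-! ### Frobenius elements and inertia groups -/

theorem cycloChar_frobenius (p : ℕ) [Fact p.Prime] {ℓ : ℕ} (hℓ : ℓ.Prime) (hℓp : ℓ ≠ p)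
    {A : ValuationSubring (AlgebraicClosure ℚ)} (hA : A.LiesOverPrime ℓ)
    {σ : AlgebraicClosure ℚ ≃ₐ[ℚ] AlgebraicClosure ℚ} (hσ : A.IsFrobeniusAt σ ℓ) :
    ((cycloChar p σ : (ZMod p)ˣ) : ZMod p) = (ℓ : ZMod p) := by
  have hp : p.Prime := Fact.out
  obtain ⟨ζ, hζ⟩ := cy_exists_primitiveRoot p
  have hζA : ζ ∈ A := cy_mem_of_pow_eq_one A hp.pos hζ.pow_eq_one
  refine cy_eq_natCast_of_apply p σ hζ
    (cy_eq_of_sub_mem_nonunits A hℓ hp hℓp hA ?_ ?_ (cy_frobenius_sub_mem_nonunits hσ hζA))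
  · rw [← map_pow, hζ.pow_eq_one, map_one]
  · rw [← pow_mul, mul_comm, pow_mul, hζ.pow_eq_one, one_pow]

theorem cycloChar_inertia (p : ℕ) [Fact p.Prime] {ℓ : ℕ} (hℓ : ℓ.Prime) (hℓp : ℓ ≠ p)
    {A : ValuationSubring (AlgebraicClosure ℚ)} (hA : A.LiesOverPrime ℓ)
    {τ : AlgebraicClosure ℚ ≃ₐ[ℚ] AlgebraicClosure ℚ} (hτ : τ ∈ A.inertiaSubgroupIn ℚ) :
    cycloChar p τ = 1 := by
  have hp : p.Prime := Fact.out
  obtain ⟨ζ, hζ⟩ := cy_exists_primitiveRoot p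
  have hζA : ζ ∈ A := cy_mem_of_pow_eq_one A hp.pos hζ.pow_eq_one
  refine cy_eq_one_of_apply p τ hζ
    (cy_eq_of_sub_mem_nonunits A hℓ hp hℓp hA ?_ hζ.pow_eq_one
      (cy_inertia_sub_mem_nonunits hτ hζA))
  rw [← map_pow, hζ.pow_eq_one, map_one]

/-! ### Finite level -/

theorem exists_finiteLevel_cycloChar (p : ℕ) [Fact p.Prime] :
    ∃ L : IntermediateField ℚ (AlgebraicClosure ℚ), FiniteDimensional ℚ L ∧
      ∀ σ : AlgebraicClosure ℚ ≃ₐ[ℚ] AlgebraicClosure ℚ, (∀ x ∈ L, σ x = x) →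
        cycloChar p σ = 1 := by
  have hp : p.Prime := Fact.out
  obtain ⟨ζ, hζ⟩ := cy_exists_primitiveRoot p
  refine ⟨IntermediateField.adjoin ℚ {ζ},
    IntermediateField.adjoin.finiteDimensional (hζ.isIntegral hp.pos).tower_top, fun σ hσ => ?_⟩
  exact cy_eq_one_of_apply p σ hζ (hσ ζ (IntermediateField.mem_adjoin_simple_self ℚ ζ))

theorem cycloChar_eq_of_eqOn (p : ℕ) [Fact p.Prime] :
    ∃ L : IntermediateField ℚ (AlgebraicClosure ℚ), FiniteDimensional ℚ L ∧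
      ∀ σ τ : AlgebraicClosure ℚ ≃ₐ[ℚ] AlgebraicClosure ℚ, (∀ x ∈ L, σ x = τ x) →
        cycloChar p σ = cycloChar p τ := by
  obtain ⟨L, hL, h⟩ := exists_finiteLevel_cycloChar p
  refine ⟨L, hL, fun σ τ hστ => ?_⟩
  have h1 : cycloChar p (σ⁻¹ * τ) = 1 := by
    refine h _ fun x hx => ?_
    rw [AlgEquiv.mul_apply, ← hστ x hx]
    exact σ.symm_apply_apply x
  rw [map_mul, map_inv, inv_mul_eq_one] at h1
  exact h1

/-! ### Convenience forms (extras for the assembly) -/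

/-- A Frobenius element at a prime `ℓ ≠ p` raises every `p`-th root of unity to the power `ℓ`. -/
theorem cy_frobenius_apply {p : ℕ} (hp : p.Prime) {ℓ : ℕ} (hℓ : ℓ.Prime) (hℓp : ℓ ≠ p)
    {A : ValuationSubring (AlgebraicClosure ℚ)} (hA : A.LiesOverPrime ℓ)
    {σ : AlgebraicClosure ℚ ≃ₐ[ℚ] AlgebraicClosure ℚ} (hσ : A.IsFrobeniusAt σ ℓ)
    {ζ : AlgebraicClosure ℚ} (hζ : ζ ^ p = 1) : σ ζ = ζ ^ ℓ := by
  refine cy_eq_of_sub_mem_nonunits A hℓ hp hℓp hA ?_ ?_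
    (cy_frobenius_sub_mem_nonunits hσ (cy_mem_of_pow_eq_one A hp.pos hζ))
  · rw [← map_pow, hζ, map_one]
  · rw [← pow_mul, mul_comm, pow_mul, hζ, one_pow]

/-- An element of the inertia group at a prime `ℓ ≠ p` fixes every `p`-th root of unity. -/
theorem cy_inertia_apply {p : ℕ} (hp : p.Prime) {ℓ : ℕ} (hℓ : ℓ.Prime) (hℓp : ℓ ≠ p)
    {A : ValuationSubring (AlgebraicClosure ℚ)} (hA : A.LiesOverPrime ℓ)
    {τ : AlgebraicClosure ℚ ≃ₐ[ℚ] AlgebraicClosure ℚ} (hτ : τ ∈ A.inertiaSubgroupIn ℚ)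
    {ζ : AlgebraicClosure ℚ} (hζ : ζ ^ p = 1) : τ ζ = ζ := by
  refine cy_eq_of_sub_mem_nonunits A hℓ hp hℓp hA ?_ hζ
    (cy_inertia_sub_mem_nonunits hτ (cy_mem_of_pow_eq_one A hp.pos hζ))
  rw [← map_pow, hζ, map_one]

/-- The cyclotomic character of a power of a Frobenius element at `ℓ ≠ p`. -/
theorem cy_cycloChar_frobenius_pow (p : ℕ) [Fact p.Prime] {ℓ : ℕ} (hℓ : ℓ.Prime) (hℓp : ℓ ≠ p)
    {A : ValuationSubring (AlgebraicClosure ℚ)} (hA : A.LiesOverPrime ℓ)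
    {σ : AlgebraicClosure ℚ ≃ₐ[ℚ] AlgebraicClosure ℚ} (hσ : A.IsFrobeniusAt σ ℓ) (j : ℕ) :
    ((cycloChar p (σ ^ j) : (ZMod p)ˣ) : ZMod p) = (ℓ : ZMod p) ^ j := by
  rw [map_pow, Units.val_pow_eq_pow_val, cycloChar_frobenius p hℓ hℓp hA hσ]

/-- The image of the cyclotomic character of a Frobenius element at `ℓ ≠ p` under a ring
homomorphism `ZMod p →+* K`. -/
theorem cy_cycloChar_frobenius_map (p : ℕ) [Fact p.Prime] {ℓ : ℕ} (hℓ : ℓ.Prime) (hℓp : ℓ ≠ p)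
    {A : ValuationSubring (AlgebraicClosure ℚ)} (hA : A.LiesOverPrime ℓ)
    {σ : AlgebraicClosure ℚ ≃ₐ[ℚ] AlgebraicClosure ℚ} (hσ : A.IsFrobeniusAt σ ℓ)
    {K : Type*} [Semiring K] (φ : ZMod p →+* K) :
    φ ((cycloChar p σ : (ZMod p)ˣ) : ZMod p) = (ℓ : K) := by
  rw [cycloChar_frobenius p hℓ hℓp hA hσ, map_natCast]

/-- The image of the cyclotomic character of a power of a Frobenius element at `ℓ ≠ p` under a
ring homomorphism `ZMod p →+* K`. -/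
theorem cy_cycloChar_frobenius_pow_map (p : ℕ) [Fact p.Prime] {ℓ : ℕ} (hℓ : ℓ.Prime)
    (hℓp : ℓ ≠ p) {A : ValuationSubring (AlgebraicClosure ℚ)} (hA : A.LiesOverPrime ℓ)
    {σ : AlgebraicClosure ℚ ≃ₐ[ℚ] AlgebraicClosure ℚ} (hσ : A.IsFrobeniusAt σ ℓ) (j : ℕ)
    {K : Type*} [Semiring K] (φ : ZMod p →+* K) :
    φ ((cycloChar p (σ ^ j) : (ZMod p)ˣ) : ZMod p) = (ℓ : K) ^ j := by
  rw [cy_cycloChar_frobenius_pow p hℓ hℓp hA hσ, map_pow, map_natCast]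

/-- Every finite subextension of `ℚ̄/ℚ` is contained in a finite Galois subextension. -/
theorem cy_exists_finite_galois_ge (L : IntermediateField ℚ (AlgebraicClosure ℚ))
    [FiniteDimensional ℚ L] :
    ∃ L' : IntermediateField ℚ (AlgebraicClosure ℚ), L ≤ L' ∧ FiniteDimensional ℚ L' ∧
      IsGalois ℚ L' := by
  refine ⟨IntermediateField.normalClosure ℚ L (AlgebraicClosure ℚ), L.le_normalClosure,
    normalClosure.is_finiteDimensional ℚ L (AlgebraicClosure ℚ), ?_⟩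
  have : Normal ℚ (IntermediateField.normalClosure ℚ L (AlgebraicClosure ℚ)) :=
    normalClosure.normal ℚ L (AlgebraicClosure ℚ)
  exact ⟨⟩

/-- Two finite subextensions of `ℚ̄/ℚ` are contained in a common finite Galois subextension. -/
theorem cy_exists_finite_galois_ge_sup (L₁ L₂ : IntermediateField ℚ (AlgebraicClosure ℚ))
    [FiniteDimensional ℚ L₁] [FiniteDimensional ℚ L₂] :
    ∃ L' : IntermediateField ℚ (AlgebraicClosure ℚ), L₁ ≤ L' ∧ L₂ ≤ L' ∧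
      FiniteDimensional ℚ L' ∧ IsGalois ℚ L' := by
  obtain ⟨L', h, h1, h2⟩ := cy_exists_finite_galois_ge (L₁ ⊔ L₂)
  exact ⟨L', le_sup_left.trans h, le_sup_right.trans h, h1, h2⟩

/-- The cyclotomic character factors through a finite Galois level. -/
theorem cy_cycloChar_eq_of_eqOn_galois (p : ℕ) [Fact p.Prime] :
    ∃ L : IntermediateField ℚ (AlgebraicClosure ℚ), FiniteDimensional ℚ L ∧ IsGalois ℚ L ∧
      ∀ σ τ : AlgebraicClosure ℚ ≃ₐ[ℚ] AlgebraicClosure ℚ, (∀ x ∈ L, σ x = τ x) →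
        cycloChar p σ = cycloChar p τ := by
  obtain ⟨L, hL, h⟩ := cycloChar_eq_of_eqOn p
  obtain ⟨L', hle, h1, h2⟩ := cy_exists_finite_galois_ge L
  exact ⟨L', h1, h2, fun σ τ hστ => h σ τ fun x hx => hστ x (hle hx)⟩

/-! ### The cyclotomic character with values in a ring receiving `ZMod p` -/

/-- The mod `p` cyclotomic character pushed forward along a ring homomorphism `ZMod p →+* K`
(for instance `ZMod.castHom (dvd_refl p) K` or `algebraMap (ZMod p) K` when `K` has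
characteristic `p`). -/
noncomputable def cy_charTo (p : ℕ) [Fact p.Prime] {K : Type*} [Semiring K] (φ : ZMod p →+* K) :
    (AlgebraicClosure ℚ ≃ₐ[ℚ] AlgebraicClosure ℚ) →* Kˣ :=
  (Units.map (φ : ZMod p →* K)).comp (cycloChar p)

theorem cy_charTo_apply (p : ℕ) [Fact p.Prime] {K : Type*} [Semiring K] (φ : ZMod p →+* K)
    (σ : AlgebraicClosure ℚ ≃ₐ[ℚ] AlgebraicClosure ℚ) :
    ((cy_charTo p φ σ : Kˣ) : K) = φ ((cycloChar p σ : (ZMod p)ˣ) : ZMod p) :=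
  rfl

theorem cy_charTo_eq_one (p : ℕ) [Fact p.Prime] {K : Type*} [Semiring K] (φ : ZMod p →+* K)
    {σ : AlgebraicClosure ℚ ≃ₐ[ℚ] AlgebraicClosure ℚ} (h : cycloChar p σ = 1) :
    cy_charTo p φ σ = 1 := by
  rw [cy_charTo, MonoidHom.comp_apply, h, map_one]

theorem cy_charTo_frobenius (p : ℕ) [Fact p.Prime] {K : Type*} [Semiring K] (φ : ZMod p →+* K)
    {ℓ : ℕ} (hℓ : ℓ.Prime) (hℓp : ℓ ≠ p) {A : ValuationSubring (AlgebraicClosure ℚ)}
    (hA : A.LiesOverPrime ℓ) {σ : AlgebraicClosure ℚ ≃ₐ[ℚ] AlgebraicClosure ℚ}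
    (hσ : A.IsFrobeniusAt σ ℓ) : ((cy_charTo p φ σ : Kˣ) : K) = (ℓ : K) := by
  rw [cy_charTo_apply, cy_cycloChar_frobenius_map p hℓ hℓp hA hσ]

theorem cy_charTo_frobenius_pow (p : ℕ) [Fact p.Prime] {K : Type*} [Semiring K]
    (φ : ZMod p →+* K) {ℓ : ℕ} (hℓ : ℓ.Prime) (hℓp : ℓ ≠ p)
    {A : ValuationSubring (AlgebraicClosure ℚ)} (hA : A.LiesOverPrime ℓ)
    {σ : AlgebraicClosure ℚ ≃ₐ[ℚ] AlgebraicClosure ℚ} (hσ : A.IsFrobeniusAt σ ℓ) (j : ℕ) :
    ((cy_charTo p φ (σ ^ j) : Kˣ) : K) = (ℓ : K) ^ j := by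
  rw [cy_charTo_apply, cy_cycloChar_frobenius_pow_map p hℓ hℓp hA hσ]

theorem cy_charTo_inertia (p : ℕ) [Fact p.Prime] {K : Type*} [Semiring K] (φ : ZMod p →+* K)
    {ℓ : ℕ} (hℓ : ℓ.Prime) (hℓp : ℓ ≠ p) {A : ValuationSubring (AlgebraicClosure ℚ)}
    (hA : A.LiesOverPrime ℓ) {τ : AlgebraicClosure ℚ ≃ₐ[ℚ] AlgebraicClosure ℚ}
    (hτ : τ ∈ A.inertiaSubgroupIn ℚ) : cy_charTo p φ τ = 1 :=
  cy_charTo_eq_one p φ (cycloChar_inertia p hℓ hℓp hA hτ)

theorem cy_charTo_finiteLevel (p : ℕ) [Fact p.Prime] {K : Type*} [Semiring K]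
    (φ : ZMod p →+* K) :
    ∃ L : IntermediateField ℚ (AlgebraicClosure ℚ), FiniteDimensional ℚ L ∧
      ∀ σ : AlgebraicClosure ℚ ≃ₐ[ℚ] AlgebraicClosure ℚ, (∀ x ∈ L, σ x = x) →
        cy_charTo p φ σ = 1 := by
  obtain ⟨L, hL, h⟩ := exists_finiteLevel_cycloChar p
  exact ⟨L, hL, fun σ hσ => cy_charTo_eq_one p φ (h σ hσ)⟩

theorem cy_charTo_eq_of_eqOn_galois (p : ℕ) [Fact p.Prime] {K : Type*} [Semiring K]
    (φ : ZMod p →+* K) :
    ∃ L : IntermediateField ℚ (AlgebraicClosure ℚ), FiniteDimensional ℚ L ∧ IsGalois ℚ L ∧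
      ∀ σ τ : AlgebraicClosure ℚ ≃ₐ[ℚ] AlgebraicClosure ℚ, (∀ x ∈ L, σ x = τ x) →
        cy_charTo p φ σ = cy_charTo p φ τ := by
  obtain ⟨L, h1, h2, h⟩ := cy_cycloChar_eq_of_eqOn_galois p
  refine ⟨L, h1, h2, fun σ τ hστ => ?_⟩
  rw [cy_charTo, MonoidHom.comp_apply, MonoidHom.comp_apply, h σ τ hστ]

end Fermat.Agent.S42
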