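import Fermat.Agent.S42.ADefs
import Mathlib.GroupTheory.Schreier
import Mathlib.LinearAlgebra.Matrix.FixedDetMatrices
import Mathlib.NumberTheory.ModularForms.CongruenceSubgroups

/-!
# P13 part (A), module M0: `Γ₀(N)` is finitely generated

`SL(2, ℤ)` is generated by `S` and `T`, and `Γ₀(N)` has finite index in it, so it is finitely
generated by Schreier's lemma.
-/

set_option autoImplicit false

namespace Fermat.Agent.S42

open scoped MatrixGroups

namespace GammaFG

/-- `SL(2, ℤ)` is finitely generated (by `S` and `T`). -/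
theorem sl2Z_fg : Group.FG SL(2, ℤ) := by
  rw [Group.fg_def]
  refine ⟨{ModularGroup.S, ModularGroup.T}, ?_⟩
  rw [Finset.coe_insert, Finset.coe_singleton]
  exact SpecialLinearGroup.SL2Z_generators

end GammaFG

/-- The congruence subgroup `Γ₀(N)` is finitely generated. -/
theorem gamma0_fg (N : ℕ) [NeZero N] : Group.FG ↥(CongruenceSubgroup.Gamma0 N) := by
  have : Group.FG SL(2, ℤ) := GammaFG.sl2Z_fg
  exact Subgroup.fg_of_index_ne_zero (CongruenceSubgroup.Gamma0 N)

end Fermat.Agent.S42
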