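import Fermat.Agent.S42.ADefs

/-!
# P13 part (A), module M0: the Hecke coset combinatorics for `Γ₀(N)` and `T_ℓ`

For a prime `ℓ ∤ N` and the `ℓ + 1` matrices `M_i = heckeMat ℓ i` we prove

* `exists_heckeDatum`   : for `γ ∈ Γ₀(N)` there are a permutation `π` and `g_i ∈ Γ₀(N)` with
                          `M_i γ = g_i M_{π i}`;
* `isHeckeDatum_unique` : such a datum is unique;
* `exists_isHeckeTransform`, `isHeckeTransform_unique` : existence and uniqueness of the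
                          transform `T_ℓ φ` of an additive character `φ` of `Γ₀(N)`;
* `exists_heckeReps`    : representatives `δ_i` of `Γ₀(N ℓ) \ Γ₀(N)` with
                          `M_none δ_i = g_i M_i`.
-/

set_option autoImplicit false

namespace Fermat.Agent.S42

open CongruenceSubgroup
open scoped MatrixGroups

namespace HeckeCosets

/-- Membership in `Γ₀(N)` as a divisibility. -/
theorem mem_Gamma0_iff {N : ℕ} {A : SL(2, ℤ)} :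
    A ∈ Gamma0 N ↔ (N : ℤ) ∣ (A : Matrix (Fin 2) (Fin 2) ℤ) 1 0 := by
  rw [Gamma0_mem, ZMod.intCast_zmod_eq_zero_iff_dvd]

theorem coe_inv_mul (A : SL(2, ℤ)) :
    ((A⁻¹ : SL(2, ℤ)) : Matrix (Fin 2) (Fin 2) ℤ) * (A : Matrix (Fin 2) (Fin 2) ℤ) = 1 := by
  rw [← Matrix.SpecialLinearGroup.coe_mul, inv_mul_cancel, Matrix.SpecialLinearGroup.coe_one]

theorem coe_mul_inv (A : SL(2, ℤ)) :
    (A : Matrix (Fin 2) (Fin 2) ℤ) * ((A⁻¹ : SL(2, ℤ)) : Matrix (Fin 2) (Fin 2) ℤ) = 1 := by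
  rw [← Matrix.SpecialLinearGroup.coe_mul, mul_inv_cancel, Matrix.SpecialLinearGroup.coe_one]

/-- Equality of two explicit `2 × 2` matrices. -/
theorem of_eq_of_iff {a b c d a' b' c' d' : ℤ} :
    (!![a, b; c, d] : Matrix (Fin 2) (Fin 2) ℤ) = !![a', b'; c', d'] ↔
      a = a' ∧ b = b' ∧ c = c' ∧ d = d' := by
  constructor
  · intro h
    exact ⟨by simpa using congrFun (congrFun h 0) 0, by simpa using congrFun (congrFun h 0) 1,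
      by simpa using congrFun (congrFun h 1) 0, by simpa using congrFun (congrFun h 1) 1⟩
  · rintro ⟨rfl, rfl, rfl, rfl⟩
    rfl

theorem ext2 {A B : Matrix (Fin 2) (Fin 2) ℤ} (h00 : A 0 0 = B 0 0) (h01 : A 0 1 = B 0 1)
    (h10 : A 1 0 = B 1 0) (h11 : A 1 1 = B 1 1) : A = B := by
  rw [Matrix.eta_fin_two A, Matrix.eta_fin_two B, h00, h01, h10, h11]

theorem mul_none (ℓ : ℕ) (A : Matrix (Fin 2) (Fin 2) ℤ) :
    A * heckeMat ℓ none = !![A 0 0 * (ℓ : ℤ), A 0 1; A 1 0 * (ℓ : ℤ), A 1 1] := by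
  ext i j
  fin_cases i <;> fin_cases j <;> simp [heckeMat, Matrix.mul_apply, Fin.sum_univ_two]

theorem mul_some (ℓ : ℕ) (A : Matrix (Fin 2) (Fin 2) ℤ) (j : Fin ℓ) :
    A * heckeMat ℓ (some j) =
      !![A 0 0, A 0 0 * ((j : ℕ) : ℤ) + A 0 1 * (ℓ : ℤ);
         A 1 0, A 1 0 * ((j : ℕ) : ℤ) + A 1 1 * (ℓ : ℤ)] := by
  ext i k
  fin_cases i <;> fin_cases k <;> simp [heckeMat, Matrix.mul_apply, Fin.sum_univ_two]

theorem none_mul (ℓ : ℕ) (A : Matrix (Fin 2) (Fin 2) ℤ) :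
    heckeMat ℓ none * A = !![(ℓ : ℤ) * A 0 0, (ℓ : ℤ) * A 0 1; A 1 0, A 1 1] := by
  ext i j
  fin_cases i <;> fin_cases j <;> simp [heckeMat, Matrix.mul_apply, Fin.sum_univ_two]

theorem some_mul (ℓ : ℕ) (A : Matrix (Fin 2) (Fin 2) ℤ) (j : Fin ℓ) :
    heckeMat ℓ (some j) * A =
      !![A 0 0 + ((j : ℕ) : ℤ) * A 1 0, A 0 1 + ((j : ℕ) : ℤ) * A 1 1;
         (ℓ : ℤ) * A 1 0, (ℓ : ℤ) * A 1 1] := by
  ext i k
  fin_cases i <;> fin_cases k <;> simp [heckeMat, Matrix.mul_apply, Fin.sum_univ_two]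

theorem det_heckeMat (ℓ : ℕ) (i : Option (Fin ℓ)) : (heckeMat ℓ i).det = (ℓ : ℤ) := by
  cases i <;> simp [heckeMat, Matrix.det_fin_two_of]

/-- **Key lemma**: the matrices `heckeMat ℓ i` lie in distinct left `SL(2, ℤ)`-cosets, and the
left factor is determined. -/
theorem key {ℓ : ℕ} (hℓ : 2 ≤ ℓ) {A B : Matrix (Fin 2) (Fin 2) ℤ} (hA : A.det = 1)
    (hB : B.det = 1) {i k : Option (Fin ℓ)} (h : A * heckeMat ℓ i = B * heckeMat ℓ k) :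
    i = k ∧ A = B := by
  rw [Matrix.det_fin_two] at hA hB
  have hℓ0 : (ℓ : ℤ) ≠ 0 := by
    have : (2 : ℤ) ≤ (ℓ : ℤ) := by exact_mod_cast hℓ
    omega
  rcases i with _ | j <;> rcases k with _ | j'
  · rw [mul_none, mul_none, of_eq_of_iff] at h
    obtain ⟨h1, h2, h3, h4⟩ := h
    exact ⟨rfl, ext2 (mul_right_cancel₀ hℓ0 h1) h2 (mul_right_cancel₀ hℓ0 h3) h4⟩
  · exfalso
    rw [mul_none, mul_some, of_eq_of_iff] at h
    obtain ⟨h1, h2, h3, h4⟩ := h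
    have hdvd : (ℓ : ℤ) ∣ 1 := ⟨A 0 0 * B 1 1 - B 0 1 * A 1 0, by
      rw [← hB, ← h1, ← h3]; ring⟩
    have := Int.le_of_dvd one_pos hdvd
    have : (2 : ℤ) ≤ (ℓ : ℤ) := by exact_mod_cast hℓ
    omega
  · exfalso
    rw [mul_none, mul_some, of_eq_of_iff] at h
    obtain ⟨h1, h2, h3, h4⟩ := h
    have hdvd : (ℓ : ℤ) ∣ 1 := ⟨B 0 0 * A 1 1 - A 0 1 * B 1 0, by
      rw [← hA, h1, h3]; ring⟩
    have := Int.le_of_dvd one_pos hdvd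
    have : (2 : ℤ) ≤ (ℓ : ℤ) := by exact_mod_cast hℓ
    omega
  · rw [mul_some, mul_some, of_eq_of_iff] at h
    obtain ⟨h1, h2, h3, h4⟩ := h
    have hdvd : (ℓ : ℤ) ∣ ((j : ℕ) : ℤ) - ((j' : ℕ) : ℤ) :=
      ⟨A 1 1 * B 0 1 - A 0 1 * B 1 1, by
        rw [← h1] at h2
        rw [← h3] at h4
        linear_combination -(((j : ℕ) : ℤ) - ((j' : ℕ) : ℤ)) * hA + A 1 1 * h2 - A 0 1 * h4⟩
    have hjj : ((j : ℕ) : ℤ) - ((j' : ℕ) : ℤ) = 0 := by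
      apply Int.eq_zero_of_abs_lt_dvd hdvd
      have hj := j.2
      have hj' := j'.2
      rw [abs_lt]
      constructor <;> omega
    have hjj' : j = j' := by
      apply Fin.ext
      omega
    subst hjj'
    refine ⟨rfl, ext2 h1 ?_ h3 ?_⟩
    · rw [h1] at h2
      exact mul_right_cancel₀ hℓ0 (add_left_cancel h2)
    · rw [h3] at h4
      exact mul_right_cancel₀ hℓ0 (add_left_cancel h4)

/-- Solving two proportional congruences in a field. -/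
theorem exists_ratio {F : Type*} [Field F] {x y z w : F} (h : x * w = y * z)
    (hxz : x ≠ 0 ∨ z ≠ 0) : ∃ t : F, y = x * t ∧ w = z * t := by
  rcases hxz with hx | hz
  · refine ⟨y / x, by field_simp, ?_⟩
    field_simp
    linear_combination h
  · refine ⟨w / z, ?_, by field_simp⟩
    field_simp
    linear_combination -h

/-- Every integer matrix of determinant `ℓ` is in `SL(2, ℤ) * heckeMat ℓ k` for some `k`. -/
theorem exists_factor {ℓ : ℕ} (hℓ : ℓ.Prime) (X : Matrix (Fin 2) (Fin 2) ℤ)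
    (hX : X.det = (ℓ : ℤ)) :
    ∃ (k : Option (Fin ℓ)) (g : SL(2, ℤ)), X = (g : Matrix (Fin 2) (Fin 2) ℤ) * heckeMat ℓ k := by
  have : Fact ℓ.Prime := ⟨hℓ⟩
  have hℓ0 : (ℓ : ℤ) ≠ 0 := by
    have := hℓ.pos
    omega
  rw [Matrix.det_fin_two] at hX
  by_cases hc : (ℓ : ℤ) ∣ X 0 0 ∧ (ℓ : ℤ) ∣ X 1 0
  · obtain ⟨⟨x', hx'⟩, ⟨z', hz'⟩⟩ := hc
    have hdet : x' * X 1 1 - X 0 1 * z' = 1 := by
      apply mul_left_cancel₀ hℓ0
      rw [hx', hz'] at hX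
      linear_combination hX
    refine ⟨none, ⟨!![x', X 0 1; z', X 1 1], by rw [Matrix.det_fin_two_of]; exact hdet⟩, ?_⟩
    rw [Matrix.SpecialLinearGroup.coe_mk, mul_none]
    conv_lhs => rw [Matrix.eta_fin_two X]
    rw [of_eq_of_iff]
    refine ⟨?_, rfl, ?_, rfl⟩
    · show X 0 0 = x' * (ℓ : ℤ)
      rw [hx', mul_comm]
    · show X 1 0 = z' * (ℓ : ℤ)
      rw [hz', mul_comm]
  · have hxz : ((X 0 0 : ℤ) : ZMod ℓ) ≠ 0 ∨ ((X 1 0 : ℤ) : ZMod ℓ) ≠ 0 := by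
      by_contra hcon
      rw [not_or, not_not, not_not] at hcon
      exact hc ⟨(ZMod.intCast_zmod_eq_zero_iff_dvd _ _).1 hcon.1,
        (ZMod.intCast_zmod_eq_zero_iff_dvd _ _).1 hcon.2⟩
    have hmod : ((X 0 0 : ℤ) : ZMod ℓ) * ((X 1 1 : ℤ) : ZMod ℓ) =
        ((X 0 1 : ℤ) : ZMod ℓ) * ((X 1 0 : ℤ) : ZMod ℓ) := by
      have := congrArg (Int.cast : ℤ → ZMod ℓ) hX
      push_cast at this
      rw [ZMod.natCast_self] at this
      linear_combination this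
    obtain ⟨t, ht1, ht2⟩ := exists_ratio hmod hxz
    have hy : (ℓ : ℤ) ∣ X 0 1 - X 0 0 * ((t.val : ℕ) : ℤ) := by
      rw [← ZMod.intCast_zmod_eq_zero_iff_dvd]
      push_cast
      rw [ZMod.natCast_zmod_val, ht1]
      ring
    have hw : (ℓ : ℤ) ∣ X 1 1 - X 1 0 * ((t.val : ℕ) : ℤ) := by
      rw [← ZMod.intCast_zmod_eq_zero_iff_dvd]
      push_cast
      rw [ZMod.natCast_zmod_val, ht2]
      ring
    obtain ⟨y', hy'⟩ := hy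
    obtain ⟨w', hw'⟩ := hw
    have hdet : X 0 0 * w' - y' * X 1 0 = 1 := by
      apply mul_left_cancel₀ hℓ0
      linear_combination hX - X 0 0 * hw' + X 1 0 * hy'
    refine ⟨some ⟨t.val, ZMod.val_lt t⟩,
      ⟨!![X 0 0, y'; X 1 0, w'], by rw [Matrix.det_fin_two_of]; exact hdet⟩, ?_⟩
    rw [Matrix.SpecialLinearGroup.coe_mk, mul_some]
    conv_lhs => rw [Matrix.eta_fin_two X]
    rw [of_eq_of_iff]
    refine ⟨rfl, ?_, rfl, ?_⟩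
    · show X 0 1 = X 0 0 * ((t.val : ℕ) : ℤ) + y' * (ℓ : ℤ)
      linear_combination hy'
    · show X 1 1 = X 1 0 * ((t.val : ℕ) : ℤ) + w' * (ℓ : ℤ)
      linear_combination hw'

/-- The lower left entry of the left factor stays divisible by `N`. -/
theorem dvd_of_factor {N ℓ : ℕ} (hcop : Nat.Coprime N ℓ) {X g : Matrix (Fin 2) (Fin 2) ℤ}
    {k : Option (Fin ℓ)} (h : X = g * heckeMat ℓ k) (hN : (N : ℤ) ∣ X 1 0) :
    (N : ℤ) ∣ g 1 0 := by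
  rcases k with _ | j
  · rw [mul_none] at h
    have h10 : X 1 0 = g 1 0 * (ℓ : ℤ) := by rw [h]; simp
    rw [h10] at hN
    exact (Nat.isCoprime_iff_coprime.2 hcop).dvd_of_dvd_mul_right hN
  · rw [mul_some] at h
    have h10 : X 1 0 = g 1 0 := by rw [h]; simp
    rwa [h10] at hN

/-- One step of the Hecke datum: `M_i γ = g M_k` with `g ∈ Γ₀(N)`. -/
theorem exists_step {N ℓ : ℕ} (hℓ : ℓ.Prime) (hℓN : ¬ ℓ ∣ N) (γ : ↥(Gamma0 N))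
    (i : Option (Fin ℓ)) :
    ∃ (k : Option (Fin ℓ)) (g : ↥(Gamma0 N)),
      heckeMat ℓ i * ((γ : SL(2, ℤ)) : Matrix (Fin 2) (Fin 2) ℤ) =
        ((g : SL(2, ℤ)) : Matrix (Fin 2) (Fin 2) ℤ) * heckeMat ℓ k := by
  have hcop : Nat.Coprime N ℓ := ((Nat.Prime.coprime_iff_not_dvd hℓ).2 hℓN).symm
  have hdet : (heckeMat ℓ i * ((γ : SL(2, ℤ)) : Matrix (Fin 2) (Fin 2) ℤ)).det = (ℓ : ℤ) := by
    rw [Matrix.det_mul, det_heckeMat, Matrix.SpecialLinearGroup.det_coe, mul_one]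
  obtain ⟨k, g, hg⟩ := exists_factor hℓ _ hdet
  have hγ : (N : ℤ) ∣ ((γ : SL(2, ℤ)) : Matrix (Fin 2) (Fin 2) ℤ) 1 0 := mem_Gamma0_iff.1 γ.2
  have hN : (N : ℤ) ∣ (heckeMat ℓ i * ((γ : SL(2, ℤ)) : Matrix (Fin 2) (Fin 2) ℤ)) 1 0 := by
    rcases i with _ | j
    · rw [none_mul]
      simpa using hγ
    · rw [some_mul]
      simpa using hγ.mul_left (ℓ : ℤ)
  exact ⟨k, ⟨g, mem_Gamma0_iff.2 (dvd_of_factor hcop hg hN)⟩, hg⟩

/-- Moving the unimodular factors to the other side. -/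
theorem inv_mul_eq_of_eq {M M' : Matrix (Fin 2) (Fin 2) ℤ} {γ g : SL(2, ℤ)}
    (h : M * (γ : Matrix (Fin 2) (Fin 2) ℤ) = (g : Matrix (Fin 2) (Fin 2) ℤ) * M') :
    ((g⁻¹ : SL(2, ℤ)) : Matrix (Fin 2) (Fin 2) ℤ) * M =
      M' * ((γ⁻¹ : SL(2, ℤ)) : Matrix (Fin 2) (Fin 2) ℤ) := by
  calc ((g⁻¹ : SL(2, ℤ)) : Matrix (Fin 2) (Fin 2) ℤ) * M
      = ((g⁻¹ : SL(2, ℤ)) : Matrix (Fin 2) (Fin 2) ℤ) * (M * ((γ : Matrix (Fin 2) (Fin 2) ℤ) *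
          ((γ⁻¹ : SL(2, ℤ)) : Matrix (Fin 2) (Fin 2) ℤ))) := by rw [coe_mul_inv, Matrix.mul_one]
    _ = ((g⁻¹ : SL(2, ℤ)) : Matrix (Fin 2) (Fin 2) ℤ) * ((g : Matrix (Fin 2) (Fin 2) ℤ) * M' *
          ((γ⁻¹ : SL(2, ℤ)) : Matrix (Fin 2) (Fin 2) ℤ)) := by rw [← Matrix.mul_assoc M, h]
    _ = (((g⁻¹ : SL(2, ℤ)) : Matrix (Fin 2) (Fin 2) ℤ) * (g : Matrix (Fin 2) (Fin 2) ℤ)) * M' *
          ((γ⁻¹ : SL(2, ℤ)) : Matrix (Fin 2) (Fin 2) ℤ) := by simp only [Matrix.mul_assoc]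
    _ = M' * ((γ⁻¹ : SL(2, ℤ)) : Matrix (Fin 2) (Fin 2) ℤ) := by rw [coe_inv_mul, Matrix.one_mul]

end HeckeCosets

open HeckeCosets

/-- Existence of a Hecke datum for `γ ∈ Γ₀(N)`. -/
theorem exists_heckeDatum {N ℓ : ℕ} (hℓ : ℓ.Prime) (hℓN : ¬ ℓ ∣ N) (γ : ↥(Gamma0 N)) :
    ∃ (π : Equiv.Perm (Option (Fin ℓ))) (g : Option (Fin ℓ) → ↥(Gamma0 N)),
      IsHeckeDatum N ℓ γ π g := by
  choose k g hkg using exists_step hℓ hℓN γ
  have hinj : Function.Injective k := by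
    intro i i' hii'
    have h1 := inv_mul_eq_of_eq (hkg i)
    have h2 := inv_mul_eq_of_eq (hkg i')
    rw [← hii'] at h2
    exact (key hℓ.two_le (Matrix.SpecialLinearGroup.det_coe _)
      (Matrix.SpecialLinearGroup.det_coe _) (h1.trans h2.symm)).1
  exact ⟨Equiv.ofBijective k (Finite.injective_iff_bijective.1 hinj), g, fun i => hkg i⟩

/-- Uniqueness of the Hecke datum of `γ ∈ Γ₀(N)`. -/
theorem isHeckeDatum_unique {N ℓ : ℕ} (hℓ : ℓ.Prime) {γ : ↥(Gamma0 N)}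
    {π π' : Equiv.Perm (Option (Fin ℓ))} {g g' : Option (Fin ℓ) → ↥(Gamma0 N)}
    (h : IsHeckeDatum N ℓ γ π g) (h' : IsHeckeDatum N ℓ γ π' g') : π = π' ∧ g = g' := by
  have hkey : ∀ i, π i = π' i ∧ g i = g' i := by
    intro i
    have := key hℓ.two_le (Matrix.SpecialLinearGroup.det_coe _)
      (Matrix.SpecialLinearGroup.det_coe _) ((h i).symm.trans (h' i))
    exact ⟨this.1, Subtype.ext (Subtype.ext this.2)⟩
  exact ⟨Equiv.ext fun i => (hkey i).1, funext fun i => (hkey i).2⟩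

namespace HeckeCosets

/-- Hecke data compose. -/
theorem isHeckeDatum_mul {N ℓ : ℕ} {γ γ' : ↥(Gamma0 N)} {π π' : Equiv.Perm (Option (Fin ℓ))}
    {g g' : Option (Fin ℓ) → ↥(Gamma0 N)} (h : IsHeckeDatum N ℓ γ π g)
    (h' : IsHeckeDatum N ℓ γ' π' g') :
    IsHeckeDatum N ℓ (γ * γ') (π.trans π') (fun i => g i * g' (π i)) := by
  intro i
  show heckeMat ℓ i * (((γ * γ' : ↥(Gamma0 N)) : SL(2, ℤ)) : Matrix (Fin 2) (Fin 2) ℤ) =
    (((g i * g' (π i) : ↥(Gamma0 N)) : SL(2, ℤ)) : Matrix (Fin 2) (Fin 2) ℤ) *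
      heckeMat ℓ (π' (π i))
  rw [Subgroup.coe_mul, Subgroup.coe_mul, Matrix.SpecialLinearGroup.coe_mul,
    Matrix.SpecialLinearGroup.coe_mul, ← Matrix.mul_assoc, h i, Matrix.mul_assoc, h' (π i),
    ← Matrix.mul_assoc]

end HeckeCosets

/-- Existence of the Hecke transform `T_ℓ φ` of an additive character `φ` of `Γ₀(N)`. -/
theorem exists_isHeckeTransform {N ℓ : ℕ} (hℓ : ℓ.Prime) (hℓN : ¬ ℓ ∣ N) {A : Type*}
    [AddCommGroup A] (φ : Additive ↥(Gamma0 N) →+ A) :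
    ∃ φ' : Additive ↥(Gamma0 N) →+ A, IsHeckeTransform N ℓ φ φ' := by
  choose π g hπg using fun γ : ↥(Gamma0 N) => exists_heckeDatum hℓ hℓN γ
  have hadd : ∀ γ γ' : ↥(Gamma0 N),
      ∑ i, φ (Additive.ofMul (g (γ * γ') i)) =
        ∑ i, φ (Additive.ofMul (g γ i)) + ∑ i, φ (Additive.ofMul (g γ' i)) := by
    intro γ γ'
    have h := isHeckeDatum_unique hℓ (hπg (γ * γ')) (isHeckeDatum_mul (hπg γ) (hπg γ'))
    rw [h.2]
    simp only [ofMul_mul, map_add, Finset.sum_add_distrib]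
    congr 1
    exact Equiv.sum_comp (π γ) (fun i => φ (Additive.ofMul (g γ' i)))
  refine ⟨AddMonoidHom.mk' (fun x => ∑ i, φ (Additive.ofMul (g (Additive.toMul x) i))) ?_, ?_⟩
  · intro x y
    exact hadd (Additive.toMul x) (Additive.toMul y)
  · intro γ π' g' h
    have h2 := isHeckeDatum_unique hℓ (hπg γ) h
    show ∑ i, φ (Additive.ofMul (g γ i)) = ∑ i, φ (Additive.ofMul (g' i))
    rw [h2.2]

/-- Uniqueness of the Hecke transform. -/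
theorem isHeckeTransform_unique {N ℓ : ℕ} (hℓ : ℓ.Prime) (hℓN : ¬ ℓ ∣ N) {A : Type*}
    [AddCommGroup A] {φ φ' φ'' : Additive ↥(Gamma0 N) →+ A}
    (h : IsHeckeTransform N ℓ φ φ') (h' : IsHeckeTransform N ℓ φ φ'') : φ' = φ'' := by
  refine AddMonoidHom.ext fun x => ?_
  obtain ⟨π, g, hπg⟩ := exists_heckeDatum hℓ hℓN (Additive.toMul x)
  have h1 := h (Additive.toMul x) π g hπg
  have h2 := h' (Additive.toMul x) π g hπg
  rw [ofMul_toMul] at h1 h2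
  rw [h1, h2]

namespace HeckeCosets

/-- A representative `δ ∈ Γ₀(N)` with `M_none δ ∈ Γ₀(N) M_i`. -/
theorem exists_rep {N ℓ : ℕ} (hcop : Nat.Coprime N ℓ) (i : Option (Fin ℓ)) :
    ∃ (δ g : ↥(Gamma0 N)),
      heckeMat ℓ none * ((δ : SL(2, ℤ)) : Matrix (Fin 2) (Fin 2) ℤ) =
        ((g : SL(2, ℤ)) : Matrix (Fin 2) (Fin 2) ℤ) * heckeMat ℓ i := by
  rcases i with _ | j
  · refine ⟨1, 1, ?_⟩
    rw [Subgroup.coe_one, Matrix.SpecialLinearGroup.coe_one, Matrix.mul_one, Matrix.one_mul]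
  · obtain ⟨u, v, huv⟩ := Nat.isCoprime_iff_coprime.2 hcop
    have hδ : (!![v, v * ((j : ℕ) : ℤ) - u; (N : ℤ), (N : ℤ) * ((j : ℕ) : ℤ) + (ℓ : ℤ)] :
        Matrix (Fin 2) (Fin 2) ℤ).det = 1 := by
      rw [Matrix.det_fin_two_of]
      linear_combination huv
    have hg : (!![(ℓ : ℤ) * v, -u; (N : ℤ), 1] : Matrix (Fin 2) (Fin 2) ℤ).det = 1 := by
      rw [Matrix.det_fin_two_of]
      linear_combination huv
    refine ⟨⟨⟨_, hδ⟩, mem_Gamma0_iff.2 ?_⟩, ⟨⟨_, hg⟩, mem_Gamma0_iff.2 ?_⟩, ?_⟩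
    · exact dvd_refl _
    · exact dvd_refl _
    · show heckeMat ℓ none *
          (!![v, v * ((j : ℕ) : ℤ) - u; (N : ℤ), (N : ℤ) * ((j : ℕ) : ℤ) + (ℓ : ℤ)] :
            Matrix (Fin 2) (Fin 2) ℤ) =
        (!![(ℓ : ℤ) * v, -u; (N : ℤ), 1] : Matrix (Fin 2) (Fin 2) ℤ) * heckeMat ℓ (some j)
      rw [none_mul, mul_some, of_eq_of_iff]
      refine ⟨rfl, ?_, rfl, ?_⟩
      · show (ℓ : ℤ) * (v * ((j : ℕ) : ℤ) - u) = (ℓ : ℤ) * v * ((j : ℕ) : ℤ) + -u * (ℓ : ℤ)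
        ring
      · show (N : ℤ) * ((j : ℕ) : ℤ) + (ℓ : ℤ) = (N : ℤ) * ((j : ℕ) : ℤ) + 1 * (ℓ : ℤ)
        ring

/-- If `ℓ ∣ η 1 0` then `M_none η = η' M_none` for some `η' ∈ SL(2, ℤ)`. -/
theorem exists_none_comm {ℓ : ℕ} (η : SL(2, ℤ))
    (h : (ℓ : ℤ) ∣ (η : Matrix (Fin 2) (Fin 2) ℤ) 1 0) :
    ∃ η' : SL(2, ℤ), heckeMat ℓ none * (η : Matrix (Fin 2) (Fin 2) ℤ) =
      (η' : Matrix (Fin 2) (Fin 2) ℤ) * heckeMat ℓ none := by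
  obtain ⟨c', hc'⟩ := h
  have hdet := η.det_coe
  rw [Matrix.det_fin_two] at hdet
  have hdet' : (!![(η : Matrix (Fin 2) (Fin 2) ℤ) 0 0,
      (ℓ : ℤ) * (η : Matrix (Fin 2) (Fin 2) ℤ) 0 1; c', (η : Matrix (Fin 2) (Fin 2) ℤ) 1 1] :
        Matrix (Fin 2) (Fin 2) ℤ).det = 1 := by
    rw [Matrix.det_fin_two_of]
    rw [hc'] at hdet
    linear_combination hdet
  refine ⟨⟨_, hdet'⟩, ?_⟩
  show heckeMat ℓ none * (η : Matrix (Fin 2) (Fin 2) ℤ) =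
    (!![(η : Matrix (Fin 2) (Fin 2) ℤ) 0 0,
      (ℓ : ℤ) * (η : Matrix (Fin 2) (Fin 2) ℤ) 0 1; c', (η : Matrix (Fin 2) (Fin 2) ℤ) 1 1] :
        Matrix (Fin 2) (Fin 2) ℤ) * heckeMat ℓ none
  rw [none_mul, mul_none, of_eq_of_iff]
  refine ⟨?_, rfl, ?_, rfl⟩
  · show (ℓ : ℤ) * (η : Matrix (Fin 2) (Fin 2) ℤ) 0 0 =
      (η : Matrix (Fin 2) (Fin 2) ℤ) 0 0 * (ℓ : ℤ)
    ring
  · show (η : Matrix (Fin 2) (Fin 2) ℤ) 1 0 = c' * (ℓ : ℤ)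
    rw [hc', mul_comm]

/-- If `M_none ε = h M_none` then `ℓ ∣ ε 1 0`. -/
theorem dvd_of_none_comm {ℓ : ℕ} {ε h : Matrix (Fin 2) (Fin 2) ℤ}
    (he : heckeMat ℓ none * ε = h * heckeMat ℓ none) : (ℓ : ℤ) ∣ ε 1 0 := by
  rw [none_mul, mul_none, of_eq_of_iff] at he
  exact ⟨h 1 0, by rw [he.2.2.1, mul_comm]⟩

end HeckeCosets

/-- Representatives `δ i` of the right cosets `Γ₀(N ℓ) \ Γ₀(N)`, adapted to the Hecke matrices:
`M_none δ_i = g_i M_i` with `g_i ∈ Γ₀(N)`. -/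
theorem exists_heckeReps {N ℓ : ℕ} (hℓ : ℓ.Prime) (hℓN : ¬ ℓ ∣ N) :
    ∃ (δ g : Option (Fin ℓ) → ↥(Gamma0 N)),
      (∀ i, heckeMat ℓ none * ((δ i : SL(2, ℤ)) : Matrix (Fin 2) (Fin 2) ℤ) =
            ((g i : SL(2, ℤ)) : Matrix (Fin 2) (Fin 2) ℤ) * heckeMat ℓ i) ∧
      (∀ i k, ((δ i : SL(2, ℤ)) * (δ k : SL(2, ℤ))⁻¹ ∈ Gamma0 (N * ℓ)) → i = k) ∧
      (∀ η : ↥(Gamma0 N), ∃ i, (η : SL(2, ℤ)) * (δ i : SL(2, ℤ))⁻¹ ∈ Gamma0 (N * ℓ)) := by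
  have hcop : Nat.Coprime N ℓ := ((Nat.Prime.coprime_iff_not_dvd hℓ).2 hℓN).symm
  choose δ g hδg using exists_rep (N := N) (ℓ := ℓ) hcop
  refine ⟨δ, g, hδg, ?_, ?_⟩
  · intro i k hik
    rw [mem_Gamma0_iff] at hik
    have hℓdvd : (ℓ : ℤ) ∣ (((δ i : SL(2, ℤ)) * (δ k : SL(2, ℤ))⁻¹ : SL(2, ℤ)) :
        Matrix (Fin 2) (Fin 2) ℤ) 1 0 :=
      Dvd.dvd.trans ⟨(N : ℤ), by push_cast; ring⟩ hik
    obtain ⟨η', hη'⟩ := exists_none_comm _ hℓdvd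
    have h1 : ((g i : SL(2, ℤ)) : Matrix (Fin 2) (Fin 2) ℤ) * heckeMat ℓ i =
        ((η' * (g k : SL(2, ℤ)) : SL(2, ℤ)) : Matrix (Fin 2) (Fin 2) ℤ) * heckeMat ℓ k := by
      calc ((g i : SL(2, ℤ)) : Matrix (Fin 2) (Fin 2) ℤ) * heckeMat ℓ i
          = heckeMat ℓ none * ((δ i : SL(2, ℤ)) : Matrix (Fin 2) (Fin 2) ℤ) := (hδg i).symm
        _ = heckeMat ℓ none * ((((δ i : SL(2, ℤ)) * (δ k : SL(2, ℤ))⁻¹ * (δ k : SL(2, ℤ)) :
              SL(2, ℤ)) : Matrix (Fin 2) (Fin 2) ℤ)) := by rw [inv_mul_cancel_right]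
        _ = (heckeMat ℓ none * (((δ i : SL(2, ℤ)) * (δ k : SL(2, ℤ))⁻¹ : SL(2, ℤ)) :
              Matrix (Fin 2) (Fin 2) ℤ)) * ((δ k : SL(2, ℤ)) : Matrix (Fin 2) (Fin 2) ℤ) := by
            rw [Matrix.SpecialLinearGroup.coe_mul (_ * _) _, Matrix.mul_assoc]
        _ = (η' : Matrix (Fin 2) (Fin 2) ℤ) *
              (heckeMat ℓ none * ((δ k : SL(2, ℤ)) : Matrix (Fin 2) (Fin 2) ℤ)) := by
            rw [hη', Matrix.mul_assoc]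
        _ = ((η' * (g k : SL(2, ℤ)) : SL(2, ℤ)) : Matrix (Fin 2) (Fin 2) ℤ) * heckeMat ℓ k := by
            rw [hδg k, Matrix.SpecialLinearGroup.coe_mul, Matrix.mul_assoc]
    exact (key hℓ.two_le (Matrix.SpecialLinearGroup.det_coe _)
      (Matrix.SpecialLinearGroup.det_coe _) h1).1
  · intro η
    obtain ⟨k, h, hk⟩ := exists_step hℓ hℓN η none
    refine ⟨k, ?_⟩
    have hcomm : heckeMat ℓ none * (((η : SL(2, ℤ)) * (δ k : SL(2, ℤ))⁻¹ : SL(2, ℤ)) :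
        Matrix (Fin 2) (Fin 2) ℤ) =
        (((h : SL(2, ℤ)) * (g k : SL(2, ℤ))⁻¹ : SL(2, ℤ)) : Matrix (Fin 2) (Fin 2) ℤ) *
          heckeMat ℓ none := by
      calc heckeMat ℓ none * (((η : SL(2, ℤ)) * (δ k : SL(2, ℤ))⁻¹ : SL(2, ℤ)) :
              Matrix (Fin 2) (Fin 2) ℤ)
          = (heckeMat ℓ none * ((η : SL(2, ℤ)) : Matrix (Fin 2) (Fin 2) ℤ)) *
              (((δ k : SL(2, ℤ))⁻¹ : SL(2, ℤ)) : Matrix (Fin 2) (Fin 2) ℤ) := by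
            rw [Matrix.SpecialLinearGroup.coe_mul, Matrix.mul_assoc]
        _ = ((h : SL(2, ℤ)) : Matrix (Fin 2) (Fin 2) ℤ) * (heckeMat ℓ k *
              (((δ k : SL(2, ℤ))⁻¹ : SL(2, ℤ)) : Matrix (Fin 2) (Fin 2) ℤ)) := by
            rw [hk, Matrix.mul_assoc]
        _ = ((h : SL(2, ℤ)) : Matrix (Fin 2) (Fin 2) ℤ) *
              ((((g k : SL(2, ℤ))⁻¹ : SL(2, ℤ)) : Matrix (Fin 2) (Fin 2) ℤ) *
                heckeMat ℓ none) := by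
            rw [inv_mul_eq_of_eq (hδg k)]
        _ = (((h : SL(2, ℤ)) * (g k : SL(2, ℤ))⁻¹ : SL(2, ℤ)) : Matrix (Fin 2) (Fin 2) ℤ) *
              heckeMat ℓ none := by
            rw [Matrix.SpecialLinearGroup.coe_mul, Matrix.mul_assoc]
    have hℓdvd := dvd_of_none_comm hcomm
    have hNdvd : (N : ℤ) ∣ (((η : SL(2, ℤ)) * (δ k : SL(2, ℤ))⁻¹ : SL(2, ℤ)) :
        Matrix (Fin 2) (Fin 2) ℤ) 1 0 :=
      mem_Gamma0_iff.1 ((Gamma0 N).mul_mem η.2 ((Gamma0 N).inv_mem (δ k).2))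
    rw [mem_Gamma0_iff]
    have hmul := (Nat.isCoprime_iff_coprime.2 hcop).mul_dvd hNdvd hℓdvd
    rw [Nat.cast_mul]
    exact hmul

end Fermat.Agent.S42
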