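import Fermat.Agent.S42.ADefs
import Fermat.Agent.S21.Primitive
import Fermat.Agent.S21.Linear
import Fermat.Prelude.Def_ModularForm_HeckeOperator

/-!
# P13 part (A), module M11a: the period map intertwines the Hecke operators

For a weight-`2` cusp form `f` of level `Γ₀(N)` and a prime `ℓ ∤ N`, if `f'` is the cusp form
`T_ℓ f` then the period homomorphism of `f'` is the Hecke transform (in the sense of
`IsHeckeTransform`, file `ADefs.lean`) of the period homomorphism of `f`.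

The proof: if `F` is the equivariant primitive of `f` then `G τ = ∑ i, F (M_i τ)` (sum over the
`ℓ + 1` Hecke matrices `M_i`) is a primitive of `T_ℓ f`; the identity `M_i γ = g_i M_{π i}` of a
Hecke datum turns `G (γ τ) - G τ` into `∑ i, period_f (g_i)`.
-/

set_option autoImplicit false

namespace Fermat.Agent.S42

open ModularCurve CongruenceSubgroup UpperHalfPlane
open scoped MatrixGroups

namespace PeriodHecke

/-- The Hecke matrices `(ℓ 0; 0 1)` (index `none`) and `(1 j; 0 ℓ)` (index `some j`) as elements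
of `GL (Fin 2) ℝ`. -/
noncomputable def hGL (ℓ : ℕ) : Option (Fin ℓ) → GL (Fin 2) ℝ
  | none => ModularForm.heckeDiagMatrix ℓ
  | some j => ModularForm.heckeMatrix ℓ (j : ℕ)

theorem hGL_none (ℓ : ℕ) : hGL ℓ none = ModularForm.heckeDiagMatrix ℓ := rfl

theorem hGL_some (ℓ : ℕ) (j : Fin ℓ) : hGL ℓ (some j) = ModularForm.heckeMatrix ℓ (j : ℕ) := rfl

theorem det_hGL_pos (ℓ : ℕ) (i : Option (Fin ℓ)) :
    0 < ((hGL ℓ i : GL (Fin 2) ℝ) : Matrix (Fin 2) (Fin 2) ℝ).det := by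
  cases i with
  | none =>
    have h := ModularForm.det_heckeDiagMatrix_pos ℓ
    rwa [Matrix.GeneralLinearGroup.val_det_apply] at h
  | some j =>
    have h := ModularForm.det_heckeMatrix_pos ℓ (j : ℕ)
    rwa [Matrix.GeneralLinearGroup.val_det_apply] at h

/-- The real Hecke matrices are the images of the integral ones. -/
theorem val_hGL {ℓ : ℕ} (hℓ : ℓ ≠ 0) (i : Option (Fin ℓ)) :
    ((hGL ℓ i : GL (Fin 2) ℝ) : Matrix (Fin 2) (Fin 2) ℝ)
      = (heckeMat ℓ i).map (Int.castRingHom ℝ) := by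
  cases i with
  | none =>
    rw [hGL_none, ModularForm.val_heckeDiagMatrix hℓ]
    ext a b
    fin_cases a <;> fin_cases b <;> simp [heckeMat]
  | some j =>
    rw [hGL_some, ModularForm.val_heckeMatrix hℓ]
    ext a b
    fin_cases a <;> fin_cases b <;> simp [heckeMat]

/-- The identity of a Hecke datum, in `GL (Fin 2) ℝ`. -/
theorem hGL_mul_eq {N ℓ : ℕ} (hℓ : ℓ ≠ 0) {γ : ↥(Gamma0 N)} {π : Equiv.Perm (Option (Fin ℓ))}
    {g : Option (Fin ℓ) → ↥(Gamma0 N)} (hd : IsHeckeDatum N ℓ γ π g) (i : Option (Fin ℓ)) :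
    hGL ℓ i * (((γ : SL(2, ℤ)) : GL (Fin 2) ℝ))
      = (((g i : ↥(Gamma0 N)) : SL(2, ℤ)) : GL (Fin 2) ℝ) * hGL ℓ (π i) := by
  apply Units.ext
  rw [Units.val_mul, Units.val_mul, val_hGL hℓ, val_hGL hℓ]
  have h := congrArg (fun M : Matrix (Fin 2) (Fin 2) ℤ => M.map (Int.castRingHom ℝ)) (hd i)
  simp only [Matrix.map_mul] at h
  exact h

/-- The identity of a Hecke datum, for the action on the upper half plane. -/
theorem hGL_smul_smul {N ℓ : ℕ} (hℓ : ℓ ≠ 0) {γ : ↥(Gamma0 N)}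
    {π : Equiv.Perm (Option (Fin ℓ))} {g : Option (Fin ℓ) → ↥(Gamma0 N)}
    (hd : IsHeckeDatum N ℓ γ π g) (i : Option (Fin ℓ)) (τ : ℍ) :
    hGL ℓ i • ((γ : SL(2, ℤ)) • τ) = ((g i : ↥(Gamma0 N)) : SL(2, ℤ)) • (hGL ℓ (π i) • τ) := by
  rw [ModularGroup.sl_moeb, ModularGroup.sl_moeb, ← mul_smul, ← mul_smul, hGL_mul_eq hℓ hd i]

/-- Chain rule for `w ↦ F (g • w)`, `g ∈ GL₂(ℝ)` of positive determinant. -/
theorem hasDerivAt_comp_gl {F f : ℍ → ℂ}
    (hF : ∀ τ : ℍ, HasDerivAt (F ∘ ofComplex) (f τ) (τ : ℂ)) {g : GL (Fin 2) ℝ}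
    (hg : 0 < (g : Matrix (Fin 2) (Fin 2) ℝ).det) (τ : ℍ) :
    HasDerivAt ((fun w : ℍ => F (g • w)) ∘ ofComplex)
      (f (g • τ) * ((((g : Matrix (Fin 2) (Fin 2) ℝ).det : ℝ) : ℂ) / denom g (τ : ℂ) ^ 2))
      (τ : ℂ) := by
  have h1 := (hasStrictDerivAt_smul hg τ).hasDerivAt
  have hpt : ((g • τ : ℍ) : ℂ) = ((g • ofComplex (τ : ℂ) : ℍ) : ℂ) := by
    rw [ofComplex_apply]
  have h2 := (hF (g • τ)).comp_of_eq (τ : ℂ) h1 hpt
  have hfun : ((F ∘ ofComplex) ∘ fun z : ℂ => ((g • ofComplex z : ℍ) : ℂ))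
      = (fun w : ℍ => F (g • w)) ∘ ofComplex := by
    funext z
    simp only [Function.comp_apply, ofComplex_apply]
  rw [hfun] at h2
  exact h2

/-- If `F` is a primitive of `f` then `w ↦ ∑ i, F (M_i w)` is a primitive of `T_ℓ f`. -/
theorem hasDerivAt_heckeSum {ℓ : ℕ} (hℓ : ℓ ≠ 0) {F f : ℍ → ℂ}
    (hF : ∀ τ : ℍ, HasDerivAt (F ∘ ofComplex) (f τ) (τ : ℂ)) (τ : ℍ) :
    HasDerivAt ((fun w : ℍ => ∑ i : Option (Fin ℓ), F (hGL ℓ i • w)) ∘ ofComplex)
      (ModularForm.heckeT 2 ℓ f τ) (τ : ℂ) := by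
  have hℓC : (ℓ : ℂ) ≠ 0 := by exact_mod_cast hℓ
  have h1 : ∀ i ∈ (Finset.univ : Finset (Option (Fin ℓ))),
      HasDerivAt ((fun w : ℍ => F (hGL ℓ i • w)) ∘ ofComplex)
        (f (hGL ℓ i • τ) *
          ((((hGL ℓ i : Matrix (Fin 2) (Fin 2) ℝ).det : ℝ) : ℂ) / denom (hGL ℓ i) (τ : ℂ) ^ 2))
        (τ : ℂ) :=
    fun i _ => hasDerivAt_comp_gl hF (det_hGL_pos ℓ i) τ
  have h2 := HasDerivAt.fun_sum h1
  have hfun : (fun z : ℂ => ∑ i : Option (Fin ℓ), ((fun w : ℍ => F (hGL ℓ i • w)) ∘ ofComplex) z)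
      = (fun w : ℍ => ∑ i : Option (Fin ℓ), F (hGL ℓ i • w)) ∘ ofComplex := by
    funext z
    simp only [Function.comp_apply]
  rw [hfun] at h2
  have hval : (∑ i : Option (Fin ℓ), f (hGL ℓ i • τ) *
        ((((hGL ℓ i : Matrix (Fin 2) (Fin 2) ℝ).det : ℝ) : ℂ) / denom (hGL ℓ i) (τ : ℂ) ^ 2))
      = ModularForm.heckeT 2 ℓ f τ := by
    rw [ModularForm.heckeT_apply 2 hℓ, Fintype.sum_option, hGL_none]
    have hdiag : (((ModularForm.heckeDiagMatrix ℓ : GL (Fin 2) ℝ) :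
        Matrix (Fin 2) (Fin 2) ℝ).det : ℝ) = (ℓ : ℝ) := by
      rw [← Matrix.GeneralLinearGroup.val_det_apply]
      exact ModularForm.det_heckeDiagMatrix hℓ
    have hmat : ∀ j : ℕ, (((ModularForm.heckeMatrix ℓ j : GL (Fin 2) ℝ) :
        Matrix (Fin 2) (Fin 2) ℝ).det : ℝ) = (ℓ : ℝ) := by
      intro j
      rw [← Matrix.GeneralLinearGroup.val_det_apply]
      exact ModularForm.det_heckeMatrix hℓ j
    rw [hdiag, ModularForm.denom_heckeDiagMatrix hℓ]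
    have hsum : (∑ j : Fin ℓ, f (hGL ℓ (some j) • τ) *
          ((((hGL ℓ (some j) : Matrix (Fin 2) (Fin 2) ℝ).det : ℝ) : ℂ)
            / denom (hGL ℓ (some j)) (τ : ℂ) ^ 2))
        = (ℓ : ℂ)⁻¹ * ∑ j ∈ Finset.range ℓ, f (ModularForm.heckeMatrix ℓ j • τ) := by
      rw [← Fin.sum_univ_eq_sum_range (fun j => f (ModularForm.heckeMatrix ℓ j • τ)) ℓ,
        Finset.mul_sum]
      refine Finset.sum_congr rfl fun j _ => ?_
      rw [hGL_some, hmat, ModularForm.denom_heckeMatrix hℓ]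
      push_cast
      field_simp
    have hz : (ℓ : ℂ) ^ ((2 : ℤ) - 1) = (ℓ : ℂ) := by
      rw [show (2 : ℤ) - 1 = 1 by norm_num, zpow_one]
    rw [hsum, hz]
    push_cast
    ring
  rw [hval] at h2
  exact h2

end PeriodHecke

/-- The period homomorphism intertwines the Hecke operator `T_ℓ` on weight-`2` cusp forms of
level `Γ₀(N)` with the Hecke operator `T_ℓ` on additive characters of `Γ₀(N)`. -/
theorem periodMap_hecke (N : ℕ) [NeZero N] {ℓ : ℕ} (hℓ : ℓ.Prime) (hℓN : ¬ ℓ ∣ N)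
    (f f' : CuspForm (Gamma0 N) 2)
    (h : ∀ τ : ℍ, f' τ = ModularForm.heckeT 2 ℓ (f : ℍ → ℂ) τ) :
    IsHeckeTransform N ℓ (periodMap N f) (periodMap N f') := by
  have hℓ0 : ℓ ≠ 0 := hℓ.ne_zero
  have _hcop : ¬ ℓ ∣ N := hℓN
  obtain ⟨F, hF⟩ := Fermat.Agent.S21.exists_hasEquivariantPrimitive N f
  obtain ⟨F', hF'⟩ := Fermat.Agent.S21.exists_hasEquivariantPrimitive N f'
  rw [Fermat.Agent.S21.periodMap_eq_periodHom_of N f hF,
    Fermat.Agent.S21.periodMap_eq_periodHom_of N f' hF']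
  intro γ π g hd
  simp only [Period.IsEquivariantPrimitive.periodHom_apply]
  obtain ⟨c, hc⟩ := Fermat.Agent.S21.eq_add_const_of_hasDerivAt
    (G₁ := fun w : ℍ => ∑ i : Option (Fin ℓ), F (PeriodHecke.hGL ℓ i • w)) (G₂ := F')
    (g := fun τ => f' τ)
    (fun τ => by
      show HasDerivAt _ (f' τ) (τ : ℂ)
      rw [h τ]
      exact PeriodHecke.hasDerivAt_heckeSum hℓ0 hF.1 τ)
    hF'.1
  have e1 : hF'.2.2.1.period γ
      = F' ((γ : SL(2, ℤ)) • UpperHalfPlane.I) - F' UpperHalfPlane.I := rfl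
  have e2 := hc ((γ : SL(2, ℤ)) • UpperHalfPlane.I)
  have e3 := hc UpperHalfPlane.I
  have e4 : ∀ i : Option (Fin ℓ),
      F (PeriodHecke.hGL ℓ i • ((γ : SL(2, ℤ)) • UpperHalfPlane.I))
        = hF.2.2.1.period (g i) + F (PeriodHecke.hGL ℓ (π i) • UpperHalfPlane.I) := by
    intro i
    rw [PeriodHecke.hGL_smul_smul hℓ0 hd i,
      ← hF.2.2.1.sub_eq_period (g i) (PeriodHecke.hGL ℓ (π i) • UpperHalfPlane.I)]
    ring
  have e5 : ∑ i : Option (Fin ℓ), F (PeriodHecke.hGL ℓ (π i) • UpperHalfPlane.I)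
      = ∑ i : Option (Fin ℓ), F (PeriodHecke.hGL ℓ i • UpperHalfPlane.I) :=
    Equiv.sum_comp π (fun i => F (PeriodHecke.hGL ℓ i • UpperHalfPlane.I))
  simp only [e4, Finset.sum_add_distrib] at e2
  rw [e5] at e2
  rw [e1]
  linear_combination e3 - e2

end Fermat.Agent.S42
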