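import Fermat.Agent.S42.ADefs
import Fermat.Agent.S42.PeriodHecke

/-!
# P13 part (A), module M5 (auxiliary file): precomposition with the Hecke matrices on `Mer`

For `i : Option (Fin ℓ)` the Hecke matrix `M_i` (`PeriodHecke.hGL ℓ i`: `τ ↦ ℓ τ` for `none`,
`τ ↦ (τ + j) / ℓ` for `some j`) induces a ring endomorphism `MobiusMer.compM ℓ i` of the field
`Mer` of meromorphic functions on the upper half plane, `x ↦ x ∘ M_i`.  We prove that it is
injective, fixes the constants, and satisfies the composition laws with `compSL` coming from the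
matrix identities `M_i δ = g M_k` (in particular from a Hecke datum).
-/

set_option autoImplicit false

namespace Fermat.Agent.S42

open Fermat.Agent.S24 UpperHalfPlane CongruenceSubgroup
open scoped MatrixGroups Manifold

namespace MobiusMer

/-- `M_none τ = ℓ τ`. -/
theorem coe_hGL_none_smul {ℓ : ℕ} (hℓ : ℓ ≠ 0) (τ : ℍ) :
    ((PeriodHecke.hGL ℓ none • τ : ℍ) : ℂ) = (ℓ : ℂ) * (τ : ℂ) := by
  rw [PeriodHecke.hGL_none, ModularForm.coe_heckeDiagMatrix_smul hℓ]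

/-- `M_j τ = (τ + j) / ℓ`. -/
theorem coe_hGL_some_smul {ℓ : ℕ} (hℓ : ℓ ≠ 0) (j : Fin ℓ) (τ : ℍ) :
    ((PeriodHecke.hGL ℓ (some j) • τ : ℍ) : ℂ) = ((τ : ℂ) + ((j : ℕ) : ℂ)) / (ℓ : ℂ) := by
  rw [PeriodHecke.hGL_some, ModularForm.coe_heckeMatrix_smul hℓ]

theorem mdiff_comp_hGL (ℓ : ℕ) (i : Option (Fin ℓ)) {f : ℍ → ℂ} (hf : MDiff f) :
    MDiff (fun τ : ℍ => f (PeriodHecke.hGL ℓ i • τ)) := by
  have hdet : 0 < (PeriodHecke.hGL ℓ i : GL (Fin 2) ℝ).det.val := by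
    rw [Matrix.GeneralLinearGroup.val_det_apply]
    exact PeriodHecke.det_hGL_pos ℓ i
  exact hf.comp (UpperHalfPlane.mdifferentiable_smul hdet)

/-- Precomposition with the Hecke matrix `M_i` as a ring endomorphism of `Hol`. -/
noncomputable def compMHol (ℓ : ℕ) (i : Option (Fin ℓ)) : Hol →+* Hol where
  toFun f := ⟨fun τ : ℍ => (f : ℍ → ℂ) (PeriodHecke.hGL ℓ i • τ), mdiff_comp_hGL ℓ i f.2⟩
  map_one' := rfl
  map_mul' _ _ := rfl
  map_zero' := rfl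
  map_add' _ _ := rfl

theorem compMHol_apply (ℓ : ℕ) (i : Option (Fin ℓ)) (a : Hol) (τ : ℍ) :
    (compMHol ℓ i a : ℍ → ℂ) τ = (a : ℍ → ℂ) (PeriodHecke.hGL ℓ i • τ) := rfl

theorem compMHol_injective (ℓ : ℕ) (i : Option (Fin ℓ)) : Function.Injective (compMHol ℓ i) := by
  intro a b h
  apply Subtype.ext
  funext τ
  have h1 := congrArg (fun c : Hol => (c : ℍ → ℂ) ((PeriodHecke.hGL ℓ i)⁻¹ • τ)) h
  simp only [compMHol_apply, smul_inv_smul] at h1
  exact h1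

theorem compMHol_holC (ℓ : ℕ) (i : Option (Fin ℓ)) (c : ℂ) : compMHol ℓ i (holC c) = holC c :=
  rfl

/-- Precomposition with the Hecke matrix `M_i` on meromorphic functions. -/
noncomputable def compM (ℓ : ℕ) (i : Option (Fin ℓ)) : Mer →+* Mer :=
  IsFractionRing.lift (g := (algebraMap Hol Mer).comp (compMHol ℓ i))
    ((IsFractionRing.injective Hol Mer).comp (compMHol_injective ℓ i))

theorem compM_algebraMap (ℓ : ℕ) (i : Option (Fin ℓ)) (a : Hol) :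
    compM ℓ i (algebraMap Hol Mer a) = algebraMap Hol Mer (compMHol ℓ i a) :=
  IsFractionRing.lift_algebraMap _ a

theorem compM_injective (ℓ : ℕ) (i : Option (Fin ℓ)) : Function.Injective (compM ℓ i) :=
  (compM ℓ i).injective

theorem compM_div (ℓ : ℕ) (i : Option (Fin ℓ)) (a b : Hol) :
    compM ℓ i (algebraMap Hol Mer a / algebraMap Hol Mer b) =
      algebraMap Hol Mer (compMHol ℓ i a) / algebraMap Hol Mer (compMHol ℓ i b) := by
  rw [map_div₀, compM_algebraMap, compM_algebraMap]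

/-- Constants are fixed by `x ↦ x ∘ M_i`. -/
theorem compM_holC (ℓ : ℕ) (i : Option (Fin ℓ)) (c : ℂ) :
    compM ℓ i (algebraMap Hol Mer (holC c)) = algebraMap Hol Mer (holC c) := by
  rw [compM_algebraMap, compMHol_holC]

/-- The constant `c` of `MerN N`, as a meromorphic function. -/
theorem toMer_cM (N : ℕ) (c : ℂ) : toMer N (cM N c) = algebraMap Hol Mer (holC c) := by
  rw [cM, toMer_algebraMap, toHol_constRN]

theorem compM_toMer_cM (N ℓ : ℕ) (i : Option (Fin ℓ)) (c : ℂ) :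
    compM ℓ i (toMer N (cM N c)) = toMer N (cM N c) := by
  rw [toMer_cM, compM_holC]

/-- A matrix identity `M_i δ = g M_k` (`δ, g ∈ SL(2, ℤ)`), in `GL (Fin 2) ℝ`. -/
theorem hGL_mul_eq_of_eq {ℓ : ℕ} (hℓ : ℓ ≠ 0) {i k : Option (Fin ℓ)} {δ g : SL(2, ℤ)}
    (h : heckeMat ℓ i * (δ : Matrix (Fin 2) (Fin 2) ℤ)
      = (g : Matrix (Fin 2) (Fin 2) ℤ) * heckeMat ℓ k) :
    PeriodHecke.hGL ℓ i * (δ : GL (Fin 2) ℝ) = (g : GL (Fin 2) ℝ) * PeriodHecke.hGL ℓ k := by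
  apply Units.ext
  rw [Units.val_mul, Units.val_mul, PeriodHecke.val_hGL hℓ, PeriodHecke.val_hGL hℓ]
  have h' := congrArg (fun M : Matrix (Fin 2) (Fin 2) ℤ => M.map (Int.castRingHom ℝ)) h
  simp only [Matrix.map_mul] at h'
  exact h'

/-- A matrix identity `M_i δ = g M_k`, for the action on the upper half plane. -/
theorem hGL_smul_smul_of_eq {ℓ : ℕ} (hℓ : ℓ ≠ 0) {i k : Option (Fin ℓ)} {δ g : SL(2, ℤ)}
    (h : heckeMat ℓ i * (δ : Matrix (Fin 2) (Fin 2) ℤ)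
      = (g : Matrix (Fin 2) (Fin 2) ℤ) * heckeMat ℓ k) (τ : ℍ) :
    PeriodHecke.hGL ℓ i • (δ • τ) = g • (PeriodHecke.hGL ℓ k • τ) := by
  rw [ModularGroup.sl_moeb, ModularGroup.sl_moeb, ← mul_smul, ← mul_smul,
    hGL_mul_eq_of_eq hℓ h]

theorem compSLHol_compMHol_of_eq {ℓ : ℕ} (hℓ : ℓ ≠ 0) {i k : Option (Fin ℓ)} {δ g : SL(2, ℤ)}
    (h : heckeMat ℓ i * (δ : Matrix (Fin 2) (Fin 2) ℤ)
      = (g : Matrix (Fin 2) (Fin 2) ℤ) * heckeMat ℓ k) (a : Hol) :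
    compSLHol δ (compMHol ℓ i a) = compMHol ℓ k (compSLHol g a) := by
  apply Subtype.ext
  funext τ
  rw [compSLHol_apply, compMHol_apply, compMHol_apply, compSLHol_apply,
    hGL_smul_smul_of_eq hℓ h]

/-- The composition law: if `M_i δ = g M_k` with `δ, g ∈ SL(2, ℤ)` then
`(x ∘ M_i) ∘ δ = (x ∘ g) ∘ M_k`. -/
theorem compSL_compM_of_eq {ℓ : ℕ} (hℓ : ℓ ≠ 0) {i k : Option (Fin ℓ)} {δ g : SL(2, ℤ)}
    (h : heckeMat ℓ i * (δ : Matrix (Fin 2) (Fin 2) ℤ)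
      = (g : Matrix (Fin 2) (Fin 2) ℤ) * heckeMat ℓ k) (x : Mer) :
    compSL δ (compM ℓ i x) = compM ℓ k (compSL g x) := by
  obtain ⟨a, b, -, rfl⟩ := mer_exists_div x
  rw [compM_div, compSL_div, compSL_div, compM_div, compSLHol_compMHol_of_eq hℓ h,
    compSLHol_compMHol_of_eq hℓ h]

/-- The composition law for a Hecke datum `(π, g)` of `γ ∈ Γ₀(N)`:
`(x ∘ M_i) ∘ γ = (x ∘ g_i) ∘ M_{π i}`. -/
theorem compSL_compM {N ℓ : ℕ} (hℓ : ℓ ≠ 0) {γ : ↥(Gamma0 N)}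
    {π : Equiv.Perm (Option (Fin ℓ))} {g : Option (Fin ℓ) → ↥(Gamma0 N)}
    (hd : IsHeckeDatum N ℓ γ π g) (i : Option (Fin ℓ)) (x : Mer) :
    compSL (γ : SL(2, ℤ)) (compM ℓ i x)
      = compM ℓ (π i) (compSL ((g i : ↥(Gamma0 N)) : SL(2, ℤ)) x) :=
  compSL_compM_of_eq hℓ (hd i) x

/-! ### The product of the translates of a function with character -/

theorem zetaP_pow_self {p : ℕ} (hp : p ≠ 0) : zetaP p ^ p = 1 := by
  have hpC : (p : ℂ) ≠ 0 := by exact_mod_cast hp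
  rw [zetaP, ← Complex.exp_nat_mul, mul_div_cancel₀ _ hpC, Complex.exp_two_pi_mul_I]

/-- `a ↦ ζ_p ^ a.val` turns sums in `ZMod p` into products. -/
theorem zetaP_pow_val_sum {p : ℕ} [NeZero p] {ι : Type*} (s : Finset ι) (a : ι → ZMod p) :
    zetaP p ^ (∑ i ∈ s, a i).val = ∏ i ∈ s, zetaP p ^ (a i).val := by
  rw [Finset.prod_pow_eq_pow_sum]
  have h1 : (∑ i ∈ s, a i).val = (∑ i ∈ s, (a i).val) % p := by
    rw [← ZMod.val_natCast]
    congr 1
    rw [Nat.cast_sum]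
    exact Finset.sum_congr rfl fun i _ => (ZMod.natCast_zmod_val (a i)).symm
  rw [h1, ← pow_eq_pow_mod _ (zetaP_pow_self (NeZero.ne p))]

/-- Step (2) of the Hecke compatibility of Kummer classes: if `Γ₀(N)` acts on `f` through the
character `ζ_p ^ φ` and `φ'` is the Hecke transform of `φ`, then `Γ₀(N)` acts on
`∏ i, f ∘ M_i` through the character `ζ_p ^ φ'`. -/
theorem compSL_prod_compM {N p ℓ : ℕ} [NeZero N] [NeZero p] (hℓ : ℓ ≠ 0)
    {φ φ' : Additive ↥(Gamma0 N) →+ ZMod p} (hT : IsHeckeTransform N ℓ φ φ') (f : MerN N)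
    (hf : ∀ γ : ↥(Gamma0 N),
      act N (γ : SL(2, ℤ)) f = cM N (zetaP p ^ (φ (Additive.ofMul γ)).val) * f)
    (γ : ↥(Gamma0 N)) (π : Equiv.Perm (Option (Fin ℓ))) (g : Option (Fin ℓ) → ↥(Gamma0 N))
    (hd : IsHeckeDatum N ℓ γ π g) :
    compSL (γ : SL(2, ℤ)) (∏ i : Option (Fin ℓ), compM ℓ i (toMer N f))
      = toMer N (cM N (zetaP p ^ (φ' (Additive.ofMul γ)).val))
        * ∏ i : Option (Fin ℓ), compM ℓ i (toMer N f) := by
  have h1 : ∀ i : Option (Fin ℓ), compSL (γ : SL(2, ℤ)) (compM ℓ i (toMer N f))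
      = algebraMap Hol Mer (holC (zetaP p ^ (φ (Additive.ofMul (g i))).val))
        * compM ℓ (π i) (toMer N f) := by
    intro i
    rw [compSL_compM hℓ hd i, ← toMer_act, hf (g i), map_mul, map_mul, compM_toMer_cM,
      toMer_cM]
  rw [map_prod, Finset.prod_congr rfl (fun i _ => h1 i), Finset.prod_mul_distrib,
    Equiv.prod_comp π (fun i => compM ℓ i (toMer N f)), ← map_prod (algebraMap Hol Mer),
    ← map_prod holC, hT γ π g hd, zetaP_pow_val_sum, toMer_cM]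

end MobiusMer

end Fermat.Agent.S42
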