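import Fermat.Agent.S42.MobiusMer
import Fermat.Agent.S24.Analytic
import Fermat.Prelude.Def_ModularCurve_HeckeOperator
import Fermat.Prelude.Thm_ModularCurve_coeffMap_qExpand

/-!
# P13 part (A), module M5a: analytic realization of the two degeneracy maps

For the degeneracy maps `α = heckeAlphaBar L N ℓ` (the inclusion `F_N ⊆ F_{Nℓ}`) and
`β = heckeBetaBar L N ℓ` (`f(q) ↦ f(q^ℓ)`) of function fields, the analytic realization of `α x`
is the realization of `x`, and the realization of `β x` is `τ ↦ (realization of x)(ℓ τ)`.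
-/

set_option autoImplicit false

namespace Fermat.Agent.S42

open Fermat.Agent.S24 ModularCurve UpperHalfPlane

namespace RealDegen

/-- `α` maps the generator `j(dτ)` of level `N` to the generator `j(dτ)` of level `N ℓ`. -/
theorem heckeAlphaBar_jdL (N ℓ : ℕ) [NeZero N] [NeZero ℓ] (L : Type*) [Field L] [Algebra ℚ L]
    (d : ℕ) (hd : d ∣ N) :
    heckeAlphaBar L N ℓ (jdL N L d hd) = jdL (N * ℓ) L d (hd.trans (dvd_mul_right N ℓ)) := by
  have : NeZero d := ⟨ne_zero_of_dvd_ne_zero (NeZero.ne N) hd⟩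
  apply Subtype.ext
  rw [coe_heckeAlphaBar, coe_jdL, coe_jdL]

theorem mul_dvd_mul_of_dvd (N ℓ : ℕ) {d : ℕ} (hd : d ∣ N) : ℓ * d ∣ N * ℓ := by
  rw [mul_comm N ℓ]
  exact mul_dvd_mul_left ℓ hd

/-- `β` maps the generator `j(dτ)` of level `N` to the generator `j(ℓdτ)` of level `N ℓ`. -/
theorem heckeBetaBar_jdL (N ℓ : ℕ) [NeZero N] [NeZero ℓ] (L : Type*) [Field L] [Algebra ℚ L]
    (d : ℕ) (hd : d ∣ N) :
    heckeBetaBar L N ℓ (jdL N L d hd) = jdL (N * ℓ) L (ℓ * d) (mul_dvd_mul_of_dvd N ℓ hd) := by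
  have : NeZero d := ⟨ne_zero_of_dvd_ne_zero (NeZero.ne N) hd⟩
  apply Subtype.ext
  rw [coe_heckeBetaBar, coe_jdL, coe_jdL, ← qExpand_qExpand, coeffEmb, coeffMap_qExpand,
    coeffMap_qExpand, coeffMap_qExpand]

/-- `j(ℓ d τ) = j(d · (ℓ τ))`. -/
theorem Jabd_mul_apply {ℓ : ℕ} (hℓ : ℓ ≠ 0) (d : ℕ) (τ : ℍ) :
    Jabd (ℓ * d) 0 1 τ = Jabd d 0 1 (PeriodHecke.hGL ℓ none • τ) := by
  unfold Jabd
  rw [MobiusMer.coe_hGL_none_smul hℓ τ]
  congr 2
  push_cast
  ring

/-- The function `j(dτ)` is the same at levels `N` and `N ℓ`. -/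
theorem toHol_JdRN_alpha (N ℓ : ℕ) [NeZero N] [NeZero ℓ] (d : ℕ) (hd : d ∣ N) :
    toHol (N * ℓ) (JdRN (N * ℓ) d (hd.trans (dvd_mul_right N ℓ))) = toHol N (JdRN N d hd) := by
  apply Subtype.ext
  rw [coe_toHol, coe_JdRN, coe_toHol, coe_JdRN]

/-- The function `j(ℓdτ)` of level `N ℓ` is `j(dτ)` of level `N` composed with `τ ↦ ℓ τ`. -/
theorem toHol_JdRN_beta (N ℓ : ℕ) [NeZero N] [NeZero ℓ] (d : ℕ) (hd : d ∣ N) :
    toHol (N * ℓ) (JdRN (N * ℓ) (ℓ * d) (mul_dvd_mul_of_dvd N ℓ hd))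
      = MobiusMer.compMHol ℓ none (toHol N (JdRN N d hd)) := by
  apply Subtype.ext
  funext τ
  rw [coe_toHol, coe_JdRN, MobiusMer.compMHol_apply, coe_toHol, coe_JdRN]
  exact Jabd_mul_apply (NeZero.ne ℓ) d τ

end RealDegen

/-- The realization at level `N ℓ` of `α x` (inclusion) is the realization at level `N` of
`x`. -/
theorem toMer_realHom_heckeAlphaBar (N ℓ : ℕ) [NeZero N] [NeZero ℓ] {L : Type*} [Field L]
    [Algebra ℚ L] (ι : L →+* ℂ) (x : FFL L N) :
    toMer (N * ℓ) (realHom (N * ℓ) ι (heckeAlphaBar L N ℓ x)) = toMer N (realHom N ι x) := by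
  have h : (toMer (N * ℓ)).comp ((realHom (N * ℓ) ι).comp (heckeAlphaBar L N ℓ).toRingHom)
      = (toMer N).comp (realHom N ι) := by
    refine FFL_ringHom_ext N L (fun c => ?_) (fun d hd => ?_)
    · show toMer (N * ℓ) (realHom (N * ℓ) ι (heckeAlphaBar L N ℓ (algebraMap L (FFL L N) c)))
        = toMer N (realHom N ι (algebraMap L (FFL L N) c))
      rw [AlgHom.commutes, realHom_algebraMap, realHom_algebraMap, toMer_algebraMap,
        toMer_algebraMap, toHol_constRN, toHol_constRN]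
    · show toMer (N * ℓ) (realHom (N * ℓ) ι (heckeAlphaBar L N ℓ (jdL N L d hd)))
        = toMer N (realHom N ι (jdL N L d hd))
      rw [RealDegen.heckeAlphaBar_jdL, realHom_jdL, realHom_jdL, toMer_algebraMap,
        toMer_algebraMap, RealDegen.toHol_JdRN_alpha]
  exact RingHom.congr_fun h x

/-- The realization at level `N ℓ` of `β x` (`f(q) ↦ f(q^ℓ)`) is
`τ ↦ (realization of x)(ℓ τ)`. -/
theorem toMer_realHom_heckeBetaBar (N ℓ : ℕ) [NeZero N] [NeZero ℓ] {L : Type*} [Field L]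
    [Algebra ℚ L] (ι : L →+* ℂ) (x : FFL L N) :
    toMer (N * ℓ) (realHom (N * ℓ) ι (heckeBetaBar L N ℓ x)) =
      MobiusMer.compM ℓ none (toMer N (realHom N ι x)) := by
  have h : (toMer (N * ℓ)).comp ((realHom (N * ℓ) ι).comp (heckeBetaBar L N ℓ).toRingHom)
      = (MobiusMer.compM ℓ none).comp ((toMer N).comp (realHom N ι)) := by
    refine FFL_ringHom_ext N L (fun c => ?_) (fun d hd => ?_)
    · show toMer (N * ℓ) (realHom (N * ℓ) ι (heckeBetaBar L N ℓ (algebraMap L (FFL L N) c)))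
        = MobiusMer.compM ℓ none (toMer N (realHom N ι (algebraMap L (FFL L N) c)))
      rw [AlgHom.commutes, realHom_algebraMap, realHom_algebraMap, toMer_algebraMap,
        toMer_algebraMap, toHol_constRN, toHol_constRN, MobiusMer.compM_holC]
    · show toMer (N * ℓ) (realHom (N * ℓ) ι (heckeBetaBar L N ℓ (jdL N L d hd)))
        = MobiusMer.compM ℓ none (toMer N (realHom N ι (jdL N L d hd)))
      rw [RealDegen.heckeBetaBar_jdL, realHom_jdL, realHom_jdL, toMer_algebraMap,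
        toMer_algebraMap, MobiusMer.compM_algebraMap, RealDegen.toHol_JdRN_beta]
  exact RingHom.congr_fun h x

end Fermat.Agent.S42
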