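import Fermat.Agent.S42.ADefs
import Fermat.Agent.S42.MobiusMer
import Fermat.Agent.S42.RealDegen
import Fermat.Agent.S42.HeckeCosets
import Fermat.Agent.S37.Hecke
import Fermat.Agent.S37.ALEmb
import Fermat.Agent.S24.LocalFamilyOfEmb
import Fermat.Agent.S24.Distinct
import Fermat.Agent.S24.Analytic

/-!
# P13 part (A), module M5b: the norm from level `N ℓ` is the product of the Möbius translates

For a prime `ℓ ∤ N` let `α, β : F_N → F_{Nℓ}` be the two degeneracy maps of function fields of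
modular curves over `ℚ̄` (`heckeAlphaBar`, the inclusion, and `heckeBetaBar`, `f(q) ↦ f(q^ℓ)`).
The analytic realization of the norm (along `α`) of `β u` is the product over the `ℓ + 1` Hecke
matrices `M_i` of the translates `(realization of u) ∘ M_i`:
`NormConj.toMer_realHom_normAlpha`.

The proof: the `ℓ + 1` ring homomorphisms `x ↦ (realization of x) ∘ δ_i` of `F_{Nℓ}` into the
field of meromorphic functions, where the `δ_i` are representatives of `Γ₀(Nℓ) \ Γ₀(N)`, are
pairwise distinct and agree on `α(F_N)`; since `[F_{Nℓ} : α(F_N)] = ℓ + 1` the product of these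
conjugates is the norm.
-/

set_option autoImplicit false
set_option linter.style.haveILetI false

namespace Fermat.Agent.S42

open Fermat.Agent.S24 AlgebraicCurve ModularCurve CongruenceSubgroup UpperHalfPlane
open scoped MatrixGroups

namespace NormConj

/-- The norm of the extension `F_{Nℓ} / α(F_N)`. -/
noncomputable def normAlpha (N ℓ : ℕ) [NeZero N] [NeZero ℓ]
    (x : FFL (AlgebraicClosure ℚ) (N * ℓ)) : FFL (AlgebraicClosure ℚ) N :=
  letI := algebraAlong (heckeAlphaBar (AlgebraicClosure ℚ) N ℓ)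
  Algebra.norm (FFL (AlgebraicClosure ℚ) N) x

theorem normAlpha_eq (N ℓ : ℕ) [NeZero N] [NeZero ℓ] (x : FFL (AlgebraicClosure ℚ) (N * ℓ)) :
    normAlpha N ℓ x =
      @Algebra.norm (FFL (AlgebraicClosure ℚ) N) (FFL (AlgebraicClosure ℚ) (N * ℓ)) _ _
        (algebraAlong (heckeAlphaBar (AlgebraicClosure ℚ) N ℓ)) x := rfl

/-- **Norm = product of the `ℓ + 1` Möbius translates.** -/
theorem toMer_realHom_normAlpha (N ℓ : ℕ) [NeZero N] [NeZero ℓ] (hℓ : ℓ.Prime) (hℓN : ¬ ℓ ∣ N)
    (u : FFL (AlgebraicClosure ℚ) N) :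
    toMer N (realHom N embQ (normAlpha N ℓ (heckeBetaBar (AlgebraicClosure ℚ) N ℓ u))) =
      ∏ i : Option (Fin ℓ), MobiusMer.compM ℓ i (toMer N (realHom N embQ u)) := by
  classical
  obtain ⟨δ, g, hmat, hinj, -⟩ := exists_heckeReps hℓ hℓN
  letI : Algebra (FFL (AlgebraicClosure ℚ) N) (FFL (AlgebraicClosure ℚ) (N * ℓ)) :=
    algebraAlong (heckeAlphaBar (AlgebraicClosure ℚ) N ℓ)
  haveI : Module.Finite (FFL (AlgebraicClosure ℚ) N) (FFL (AlgebraicClosure ℚ) (N * ℓ)) :=
    Fermat.Agent.S37.heckeAlphaBar_finiteAlong N ℓ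
  haveI : Algebra.IsSeparable (FFL (AlgebraicClosure ℚ) N) (FFL (AlgebraicClosure ℚ) (N * ℓ)) :=
    Algebra.IsAlgebraic.isSeparable_of_perfectField
  -- the `ℓ + 1` conjugate embeddings of `F_{Nℓ}` over `α(F_N)`
  let E : Option (Fin ℓ) → FFL (AlgebraicClosure ℚ) (N * ℓ) →+* Mer := fun i =>
    (compSL (δ i : SL(2, ℤ))).comp ((toMer (N * ℓ)).comp (realHom (N * ℓ) embQ))
  have hE : ∀ i x, E i x = compSL (δ i : SL(2, ℤ)) (toMer (N * ℓ) (realHom (N * ℓ) embQ x)) :=
    fun _ _ => rfl
  -- they agree on `α(F_N)`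
  have hEα : ∀ i (a : FFL (AlgebraicClosure ℚ) N),
      E i (algebraMap (FFL (AlgebraicClosure ℚ) N) (FFL (AlgebraicClosure ℚ) (N * ℓ)) a) =
        toMer N (realHom N embQ a) := by
    intro i a
    show compSL (δ i : SL(2, ℤ)) (toMer (N * ℓ) (realHom (N * ℓ) embQ
      (heckeAlphaBar (AlgebraicClosure ℚ) N ℓ a))) = _
    rw [toMer_realHom_heckeAlphaBar, ← toMer_act, act_realHom_of_mem N embQ _ (δ i).2]
  -- they are pairwise distinct
  have hEinj : Function.Injective E := by
    intro i k hik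
    apply hinj
    have h1 : conj (N * ℓ) embQ (QuotientGroup.mk ((δ i : SL(2, ℤ))⁻¹) : XX (N * ℓ)) =
        conj (N * ℓ) embQ (QuotientGroup.mk ((δ k : SL(2, ℤ))⁻¹) : XX (N * ℓ)) := by
      ext x
      rw [conj_mk_apply, conj_mk_apply, inv_inv, inv_inv]
      apply toMer_injective (N * ℓ)
      rw [toMer_act, toMer_act]
      exact RingHom.congr_fun hik x
    have h2 := conj_injective (N * ℓ) embQ h1
    rw [QuotientGroup.eq, inv_inv] at h2
    exact h2
  -- their number is the degree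
  have hcard : Module.finrank (FFL (AlgebraicClosure ℚ) N) (FFL (AlgebraicClosure ℚ) (N * ℓ)) =
      Fintype.card (Option (Fin ℓ)) := by
    rw [Fintype.card_option, Fintype.card_fin]
    exact Fermat.Agent.S37.finrankAlong_heckeAlphaBar N ℓ hℓ hℓN
  have key := prod_eq_map_norm_of_embeddings E hEinj (fun i j a => by rw [hEα, hEα]) hcard none
    (heckeBetaBar (AlgebraicClosure ℚ) N ℓ u)
  rw [hEα] at key
  rw [normAlpha_eq, ← key]
  refine Finset.prod_congr rfl fun i _ => ?_
  rw [hE, toMer_realHom_heckeBetaBar, MobiusMer.compSL_compM_of_eq (NeZero.ne ℓ) (hmat i),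
    ← toMer_act, act_realHom_of_mem N embQ _ (g i).2]

end NormConj

end Fermat.Agent.S42
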