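import Mathlib

set_option autoImplicit false

namespace Fermat.Agent.S42

namespace PthRootB

theorem exh_dist_sq (z : ℂ) (a R : ℝ) :
    dist z (⟨a, R⟩ : ℂ) ^ 2 = (z.re - a) ^ 2 + (z.im - R) ^ 2 := by
  rw [Complex.dist_eq_re_im, Real.sq_sqrt (by positivity)]

theorem exh_mem_ball (z : ℂ) (a R ρ : ℝ) (hρ : 0 < ρ) :
    z ∈ Metric.ball (⟨a, R⟩ : ℂ) ρ ↔ (z.re - a) ^ 2 + (z.im - R) ^ 2 < ρ ^ 2 := by
  rw [Metric.mem_ball, ← exh_dist_sq]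
  constructor
  · intro h
    exact pow_lt_pow_left₀ h dist_nonneg two_ne_zero
  · intro h
    exact lt_of_pow_lt_pow_left₀ 2 hρ.le h

theorem exh_inv_lt (y : ℝ) (hy : 0 < y) : 1 / (y + 1 / y + 1) < y := by
  have h1 : 0 < 1 / y := by positivity
  rw [div_lt_iff₀ (by positivity)]
  have : y * (1 / y) = 1 := by field_simp
  nlinarith

/-- exhaustion of the upper half plane by discs. -/
theorem exists_exhaustion (z₀ : ℂ) (hz₀ : 0 < z₀.im) :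
    ∃ (c : ℕ → ℂ) (r : ℕ → ℝ),
      (∀ k, Metric.closedBall (c k) (r k) ⊆ {z : ℂ | 0 < z.im}) ∧
      Monotone (fun k => Metric.ball (c k) (r k)) ∧ z₀ ∈ Metric.ball (c 0) (r 0) ∧
      {z : ℂ | 0 < z.im} ⊆ ⋃ k, Metric.ball (c k) (r k) := by
  set R₀ : ℝ := z₀.im + 1 / z₀.im + 1 with hR₀
  have hinv : 0 < 1 / z₀.im := by positivity
  have hR₀1 : 1 < R₀ := by rw [hR₀]; linarith
  have hR₀im : z₀.im < R₀ := by rw [hR₀]; linarith
  have hR₀inv : 1 / R₀ < z₀.im := exh_inv_lt _ hz₀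
  have hR1 : ∀ k : ℕ, 1 < (k : ℝ) + R₀ := fun k => by
    have : (0 : ℝ) ≤ k := Nat.cast_nonneg k
    linarith
  have hRinv : ∀ k : ℕ, 1 / ((k : ℝ) + R₀) < 1 := fun k => by
    rw [div_lt_one (by linarith [hR1 k])]; exact hR1 k
  have hRinvpos : ∀ k : ℕ, 0 < 1 / ((k : ℝ) + R₀) := fun k => by
    have := hR1 k
    positivity
  have hrpos : ∀ k : ℕ, 0 < ((k : ℝ) + R₀) - 1 / ((k : ℝ) + R₀) := fun k => by
    linarith [hR1 k, hRinv k]
  refine ⟨fun k => ⟨z₀.re, (k : ℝ) + R₀⟩, fun k => ((k : ℝ) + R₀) - 1 / ((k : ℝ) + R₀),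
    ?_, ?_, ?_, ?_⟩
  · intro k z hz
    rw [Metric.mem_closedBall] at hz
    have h1 : |(z - (⟨z₀.re, (k : ℝ) + R₀⟩ : ℂ)).im| ≤ ‖z - (⟨z₀.re, (k : ℝ) + R₀⟩ : ℂ)‖ :=
      Complex.abs_im_le_norm _
    rw [← Complex.dist_eq] at h1
    simp only [Complex.sub_im] at h1
    have h2 := (abs_le.mp (h1.trans hz)).1
    show 0 < z.im
    linarith [hRinvpos k]
  · intro j k hjk
    show Metric.ball _ _ ⊆ Metric.ball _ _
    have hjk' : (j : ℝ) ≤ k := Nat.cast_le.mpr hjk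
    apply Metric.ball_subset_ball'
    have hd : dist (⟨z₀.re, (j : ℝ) + R₀⟩ : ℂ) (⟨z₀.re, (k : ℝ) + R₀⟩ : ℂ) = (k : ℝ) - j := by
      rw [Complex.dist_of_re_eq (z := ⟨z₀.re, (j : ℝ) + R₀⟩) (w := ⟨z₀.re, (k : ℝ) + R₀⟩) rfl,
        Real.dist_eq]
      simp only
      rw [abs_sub_comm, abs_of_nonneg (by linarith)]
      ring
    rw [hd]
    have hinv_le : 1 / ((k : ℝ) + R₀) ≤ 1 / ((j : ℝ) + R₀) :=
      one_div_le_one_div_of_le (by linarith [hR1 j]) (by linarith)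
    linarith
  · show z₀ ∈ Metric.ball (⟨z₀.re, ((0 : ℕ) : ℝ) + R₀⟩ : ℂ) _
    rw [exh_mem_ball _ _ _ _ (hrpos 0)]
    simp only [Nat.cast_zero, zero_add, sub_self]
    have h1 : 0 < R₀ - z₀.im := by linarith
    have h2 : R₀ - z₀.im < R₀ - 1 / R₀ := by linarith
    nlinarith
  · intro z hz
    have hz' : 0 < z.im := hz
    obtain ⟨k, hk⟩ := exists_nat_gt (((z.re - z₀.re) ^ 2 + z.im ^ 2 + 2) / (2 * z.im))
    rw [div_lt_iff₀ (by positivity)] at hk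
    rw [Set.mem_iUnion]
    refine ⟨k, ?_⟩
    show z ∈ Metric.ball (⟨z₀.re, (k : ℝ) + R₀⟩ : ℂ) _
    rw [exh_mem_ball _ _ _ _ (hrpos k)]
    have hR := hR1 k
    have hRi := hRinvpos k
    have hmul : ((k : ℝ) + R₀) * (1 / ((k : ℝ) + R₀)) = 1 := by
      field_simp
    have hkR : (k : ℝ) * (2 * z.im) ≤ ((k : ℝ) + R₀) * (2 * z.im) := by
      apply mul_le_mul_of_nonneg_right _ (by positivity)
      linarith
    nlinarith [sq_nonneg (1 / ((k : ℝ) + R₀))]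

end PthRootB

end Fermat.Agent.S42
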