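import Mathlib

set_option autoImplicit false

namespace Fermat.Agent.S42

namespace PthRootB

theorem glue_eventuallyEq (n : ℕ) (hn : 0 < n) (V : Set ℂ) (hVo : IsOpen V) (z₀ : ℂ)
    (hz₀ : z₀ ∈ V) (G₁ G₂ : ℂ → ℂ) (h₁ : DifferentiableOn ℂ G₁ V)
    (h₂ : DifferentiableOn ℂ G₂ V) (hpow : ∀ z ∈ V, G₁ z ^ n = G₂ z ^ n)
    (heq : G₁ z₀ = G₂ z₀) (hne : G₁ z₀ ≠ 0) : G₁ =ᶠ[nhds z₀] G₂ := by
  have hVn : V ∈ nhds z₀ := hVo.mem_nhds hz₀
  have c₁ : ContinuousAt G₁ z₀ := (h₁.differentiableAt hVn).continuousAt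
  have c₂ : ContinuousAt G₂ z₀ := (h₂.differentiableAt hVn).continuousAt
  have cq : ContinuousAt (fun z => G₂ z / G₁ z) z₀ := c₂.div c₁ hne
  have cS : ContinuousAt (fun z => ∑ i ∈ Finset.range n, (G₂ z / G₁ z) ^ i) z₀ := by
    apply tendsto_finsetSum
    intro i _
    exact cq.pow i
  have hS : (∑ i ∈ Finset.range n, (G₂ z₀ / G₁ z₀) ^ i) ≠ 0 := by
    rw [← heq, div_self hne]
    simp
    exact hn.ne'
  have e₁ : ∀ᶠ z in nhds z₀, G₁ z ≠ 0 := c₁.eventually_ne hne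
  have e₂ : ∀ᶠ z in nhds z₀, (∑ i ∈ Finset.range n, (G₂ z / G₁ z) ^ i) ≠ 0 :=
    cS.eventually_ne hS
  filter_upwards [e₁, e₂, hVn] with z hz1 hz2 hzV
  have hq : (G₂ z / G₁ z) ^ n = 1 := by
    rw [div_pow, ← hpow z hzV, div_self (pow_ne_zero n hz1)]
  have hm := mul_geom_sum (G₂ z / G₁ z) n
  rw [hq, sub_self] at hm
  rcases mul_eq_zero.mp hm with h | h
  · have : G₂ z / G₁ z = 1 := sub_eq_zero.mp h
    rw [div_eq_one_iff_eq hz1] at this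
    exact this.symm
  · exact absurd h hz2

theorem glue_eqOn (n : ℕ) (hn : 0 < n) (V : Set ℂ) (hVo : IsOpen V) (hVc : IsPreconnected V)
    (z₀ : ℂ) (hz₀ : z₀ ∈ V) (G₁ G₂ : ℂ → ℂ) (h₁ : DifferentiableOn ℂ G₁ V)
    (h₂ : DifferentiableOn ℂ G₂ V) (hpow : ∀ z ∈ V, G₁ z ^ n = G₂ z ^ n)
    (heq : G₁ z₀ = G₂ z₀) (hne : G₁ z₀ ≠ 0) : Set.EqOn G₁ G₂ V :=
  (h₁.analyticOnNhd hVo).eqOn_of_preconnected_of_eventuallyEq (h₂.analyticOnNhd hVo) hVc hz₀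
    (glue_eventuallyEq n hn V hVo z₀ hz₀ G₁ G₂ h₁ h₂ hpow heq hne)

/-- gluing of n-th roots along an increasing sequence of connected open sets. -/
theorem exists_root_iUnion (n : ℕ) (hn : 0 < n) (U : ℕ → Set ℂ) (hUo : ∀ k, IsOpen (U k))
    (hUc : ∀ k, IsPreconnected (U k)) (hmono : Monotone U) (A : ℂ → ℂ) (z₀ : ℂ)
    (hz₀ : z₀ ∈ U 0) (hA : A z₀ ≠ 0)
    (h : ∀ k, ∃ F : ℂ → ℂ, DifferentiableOn ℂ F (U k) ∧ ∀ z ∈ U k, F z ^ n = A z) :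
    ∃ F : ℂ → ℂ, DifferentiableOn ℂ F (⋃ k, U k) ∧ ∀ z ∈ ⋃ k, U k, F z ^ n = A z := by
  classical
  choose F hFd hFp using h
  have hz : ∀ k, z₀ ∈ U k := fun k => hmono (Nat.zero_le k) hz₀
  have hFne : ∀ k, F k z₀ ≠ 0 := by
    intro k h0
    have := hFp k z₀ (hz k)
    rw [h0, zero_pow hn.ne'] at this
    exact hA this.symm
  set w₀ := F 0 z₀ with hw₀
  have hc : ∀ k, (w₀ / F k z₀) ^ n = 1 := by
    intro k
    rw [div_pow, hFp k z₀ (hz k), hw₀, hFp 0 z₀ hz₀, div_self hA]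
  let G : ℕ → ℂ → ℂ := fun k z => (w₀ / F k z₀) * F k z
  have hGd : ∀ k, DifferentiableOn ℂ (G k) (U k) := fun k => (hFd k).const_mul _
  have hGp : ∀ k, ∀ z ∈ U k, G k z ^ n = A z := by
    intro k z hzk
    simp only [G]
    rw [mul_pow, hc k, one_mul, hFp k z hzk]
  have hG0 : ∀ k, G k z₀ = w₀ := by
    intro k
    simp only [G]
    exact div_mul_cancel₀ _ (hFne k)
  have hstep : ∀ j k, j ≤ k → Set.EqOn (G j) (G k) (U j) := by
    intro j k hjk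
    refine glue_eqOn n hn (U j) (hUo j) (hUc j) z₀ (hz j) (G j) (G k) (hGd j)
      ((hGd k).mono (hmono hjk)) ?_ ?_ ?_
    · intro z hzj
      rw [hGp j z hzj, hGp k z (hmono hjk hzj)]
    · rw [hG0 j, hG0 k]
    · rw [hG0 j]
      exact hFne 0
  let Fg : ℂ → ℂ := fun z => if hz : ∃ k, z ∈ U k then G (Nat.find hz) z else 0
  have hFg : ∀ k, ∀ z ∈ U k, Fg z = G k z := by
    intro k z hzk
    have hex : ∃ k, z ∈ U k := ⟨k, hzk⟩
    simp only [Fg, dif_pos hex]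
    exact hstep _ _ (Nat.find_min' hex hzk) (Nat.find_spec hex)
  refine ⟨Fg, ?_, ?_⟩
  · intro z hzU
    obtain ⟨k, hzk⟩ := Set.mem_iUnion.mp hzU
    have hn' : U k ∈ nhds z := (hUo k).mem_nhds hzk
    have hd : DifferentiableAt ℂ (G k) z := (hGd k).differentiableAt hn'
    have : Fg =ᶠ[nhds z] G k := by
      filter_upwards [hn'] with y hy using hFg k y hy
    exact (hd.congr_of_eventuallyEq this).differentiableWithinAt
  · intro z hzU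
    obtain ⟨k, hzk⟩ := Set.mem_iUnion.mp hzU
    rw [hFg k z hzk, hGp k z hzk]

end PthRootB

end Fermat.Agent.S42
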