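import Mathlib

set_option autoImplicit false

namespace Fermat.Agent.S42

namespace PthRootB

/-- n-th root of a nowhere vanishing holomorphic function on a disc. -/
theorem exists_root_of_ne_zero_ball (n : ℕ) (hn : 0 < n) (c : ℂ) (r : ℝ) (g : ℂ → ℂ)
    (hg : DifferentiableOn ℂ g (Metric.ball c r)) (hg0 : ∀ z ∈ Metric.ball c r, g z ≠ 0) :
    ∃ G : ℂ → ℂ, DifferentiableOn ℂ G (Metric.ball c r) ∧
      ∀ z ∈ Metric.ball c r, G z ^ n = g z := by
  by_cases hr : 0 < r
  swap
  · refine ⟨fun _ => 0, ?_, ?_⟩
    · exact differentiableOn_const _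
    · intro z hz
      exact absurd ((Metric.nonempty_ball.mp ⟨z, hz⟩)) hr
  have hc : c ∈ Metric.ball c r := Metric.mem_ball_self hr
  have hh : DifferentiableOn ℂ (fun z => deriv g z / g z) (Metric.ball c r) :=
    (hg.deriv Metric.isOpen_ball).div hg hg0
  obtain ⟨L, hL⟩ := hh.isExactOn_ball
  have hgd : ∀ z ∈ Metric.ball c r, HasDerivAt g (deriv g z) z := fun z hz =>
    (hg.differentiableAt (Metric.isOpen_ball.mem_nhds hz)).hasDerivAt
  have hq : ∀ z ∈ Metric.ball c r,
      HasDerivAt (fun z => g z * Complex.exp (-(L z))) 0 z := by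
    intro z hz
    have h0 := hg0 z hz
    have hLn : HasDerivAt (fun w => -(L w)) (-(deriv g z / g z)) z := (hL z hz).neg
    have h1 : HasDerivAt (fun w => g w * Complex.exp (-(L w)))
        (deriv g z * Complex.exp (-(L z)) +
          g z * (Complex.exp (-(L z)) * -(deriv g z / g z))) z :=
      (hgd z hz).mul hLn.cexp
    have h2 : deriv g z * Complex.exp (-(L z)) +
          g z * (Complex.exp (-(L z)) * -(deriv g z / g z)) = 0 := by
      field_simp
      ring
    rw [h2] at h1
    exact h1
  have hconst : ∀ z ∈ Metric.ball c r,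
      g z * Complex.exp (-(L z)) = g c * Complex.exp (-(L c)) := by
    intro z hz
    refine Metric.isOpen_ball.is_const_of_deriv_eq_zero
      (convex_ball c r).isPreconnected
      (fun w hw => (hq w hw).differentiableAt.differentiableWithinAt)
      (fun w hw => (hq w hw).deriv) hz hc
  have hk : g c * Complex.exp (-(L c)) ≠ 0 := mul_ne_zero (hg0 c hc) (Complex.exp_ne_zero _)
  set k := g c * Complex.exp (-(L c)) with hkdef
  have hgz : ∀ z ∈ Metric.ball c r, g z = Complex.exp (Complex.log k + L z) := by
    intro z hz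
    rw [Complex.exp_add, Complex.exp_log hk, ← hconst z hz, mul_assoc, ← Complex.exp_add]
    simp
  refine ⟨fun z => Complex.exp ((Complex.log k + L z) / n), ?_, ?_⟩
  · intro z hz
    have := (hL z hz).differentiableAt
    exact (((differentiableAt_const _).add this).div_const _).cexp.differentiableWithinAt
  · intro z hz
    have hn' : (n : ℂ) ≠ 0 := Nat.cast_ne_zero.mpr hn.ne'
    rw [hgz z hz, ← Complex.exp_nat_mul]
    congr 1
    field_simp

end PthRootB

end Fermat.Agent.S42
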