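import Mathlib

set_option autoImplicit false

namespace Fermat.Agent.S42

namespace PthRootB

lemma zeros_divisor_eq (c : ℂ) (r : ℝ) (f : ℂ → ℂ)
    (hf : AnalyticOnNhd ℂ f (Metric.closedBall c r))
    (hf0 : ∀ z ∈ Metric.closedBall c r, analyticOrderAt f z ≠ ⊤) (u : ℂ)
    (hu : u ∈ Metric.closedBall c r) :
    MeromorphicOn.divisor f (Metric.closedBall c r) u = (analyticOrderNatAt f u : ℤ) := by
  rw [hf.meromorphicOn.divisor_apply hu, (hf u hu).meromorphicOrderAt_eq,
    ← Nat.cast_analyticOrderNatAt (hf0 u hu)]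
  rfl

/-- factorisation on a closed disc. -/
theorem exists_factorization_ball (n : ℕ) (hn : 0 < n) (c : ℂ) (r : ℝ) (f : ℂ → ℂ)
    (hf : AnalyticOnNhd ℂ f (Metric.closedBall c r))
    (hf0 : ∀ z ∈ Metric.closedBall c r, analyticOrderAt f z ≠ ⊤)
    (hdiv : ∀ z ∈ Metric.closedBall c r, n ∣ analyticOrderNatAt f z) :
    ∃ P g : ℂ → ℂ, Differentiable ℂ P ∧ DifferentiableOn ℂ g (Metric.ball c r) ∧
      (∀ z ∈ Metric.ball c r, g z ≠ 0) ∧ ∀ z ∈ Metric.ball c r, f z = P z ^ n * g z := by
  classical
  have hmer : MeromorphicOn f (Metric.closedBall c r) := hf.meromorphicOn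
  have hfin : (MeromorphicOn.divisor f (Metric.closedBall c r)).support.Finite :=
    (MeromorphicOn.divisor f (Metric.closedBall c r)).finiteSupport (isCompact_closedBall c r)
  obtain ⟨g, hg, hg0, hfg⟩ := hmer.extract_zeros_poles (fun u => by
      rw [(hf u u.2).meromorphicOrderAt_eq]
      have := hf0 u u.2
      rw [← Nat.cast_analyticOrderNatAt this]
      exact WithTop.coe_ne_top) hfin
  have hprod : ∀ z, (∏ᶠ u, (· - u) ^ MeromorphicOn.divisor f (Metric.closedBall c r) u) z
      = ∏ u ∈ hfin.toFinset, (z - u) ^ MeromorphicOn.divisor f (Metric.closedBall c r) u := by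
    intro z
    rw [finprod_eq_prod_of_mulSupport_subset (s := hfin.toFinset)]
    · simp
    · simp [Function.FactorizedRational.mulSupport]
  have hPn : ∀ z, (∏ u ∈ hfin.toFinset, (z - u) ^ (analyticOrderNatAt f u / n)) ^ n
      = ∏ u ∈ hfin.toFinset, (z - u) ^ MeromorphicOn.divisor f (Metric.closedBall c r) u := by
    intro z
    rw [← Finset.prod_pow]
    refine Finset.prod_congr rfl fun u hu => ?_
    have huK : u ∈ Metric.closedBall c r :=
      (MeromorphicOn.divisor f (Metric.closedBall c r)).supportWithinDomain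
        (hfin.mem_toFinset.mp hu)
    rw [zeros_divisor_eq c r f hf hf0 u huK, zpow_natCast, ← pow_mul,
      Nat.div_mul_cancel (hdiv u huK)]
  refine ⟨fun z => ∏ u ∈ hfin.toFinset, (z - u) ^ (analyticOrderNatAt f u / n), g, ?_, ?_, ?_, ?_⟩
  · fun_prop
  · exact fun z hz =>
      (hg z (Metric.ball_subset_closedBall hz)).differentiableAt.differentiableWithinAt
  · exact fun z hz => hg0 ⟨z, Metric.ball_subset_closedBall hz⟩
  · intro x hx
    have hxK : x ∈ Metric.closedBall c r := Metric.ball_subset_closedBall hx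
    have hKnhds : Metric.closedBall c r ∈ nhds x :=
      Filter.mem_of_superset (Metric.isOpen_ball.mem_nhds hx) Metric.ball_subset_closedBall
    have h1 : ∀ᶠ z in nhdsWithin x {x}ᶜ,
        (∏ u ∈ hfin.toFinset, (z - u) ^ (analyticOrderNatAt f u / n)) ^ n * g z = f z := by
      rw [Filter.EventuallyEq, Filter.Eventually,
        mem_codiscreteWithin_iff_forall_mem_nhdsNE] at hfg
      have := hfg x hxK
      filter_upwards [this, nhdsWithin_le_nhds hKnhds] with z hz hzK
      rcases hz with hz | hz
      · have hz' : f z = _ := hz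
        rw [hz', Pi.smul_apply', hprod, hPn, smul_eq_mul]
      · exact absurd hzK hz
    have hcf : ContinuousAt f x := (hf x hxK).continuousAt
    have hcg : ContinuousAt g x := (hg x hxK).continuousAt
    have hcP : ContinuousAt
        (fun z => (∏ u ∈ hfin.toFinset, (z - u) ^ (analyticOrderNatAt f u / n)) ^ n * g z) x := by
      refine ContinuousAt.mul ?_ hcg
      fun_prop
    exact tendsto_nhds_unique (hcf.tendsto.mono_left nhdsWithin_le_nhds)
      ((hcP.tendsto.mono_left nhdsWithin_le_nhds).congr' h1)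

end PthRootB

end Fermat.Agent.S42
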