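import Fermat.Agent.S42.ADefs
import Fermat.Agent.S42.PthRootBLog
import Fermat.Agent.S42.PthRootBZeros
import Fermat.Agent.S42.PthRootBGlue
import Fermat.Agent.S42.PthRootBExh

/-!
# P13 part (A), module M6 (second version): holomorphic `n`-th roots on the upper half plane

If `y` is a nonzero meromorphic function on the upper half plane all of whose orders are divisible
by `n`, then `y` is an `n`-th power of a meromorphic function.
-/

set_option autoImplicit false

namespace Fermat.Agent.S42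

open Fermat.Agent.S24 UpperHalfPlane

namespace PthRootB

/-- An `n`-th root on a disc whose closure lies in the domain of analyticity. -/
theorem main_root_ball (n : ℕ) (hn : 0 < n) (c : ℂ) (r : ℝ) (f : ℂ → ℂ)
    (hf : AnalyticOnNhd ℂ f (Metric.closedBall c r))
    (hf0 : ∀ z ∈ Metric.closedBall c r, analyticOrderAt f z ≠ ⊤)
    (hdiv : ∀ z ∈ Metric.closedBall c r, n ∣ analyticOrderNatAt f z) :
    ∃ F : ℂ → ℂ, DifferentiableOn ℂ F (Metric.ball c r) ∧
      ∀ z ∈ Metric.ball c r, F z ^ n = f z := by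
  obtain ⟨P, g, hP, hg, hg0, hfg⟩ := exists_factorization_ball n hn c r f hf hf0 hdiv
  obtain ⟨G, hG, hGn⟩ := exists_root_of_ne_zero_ball n hn c r g hg hg0
  refine ⟨fun z => P z * G z, hP.differentiableOn.mul hG, fun z hz => ?_⟩
  rw [mul_pow, hGn z hz, hfg z hz]

/-- The core statement: a nonzero holomorphic function on the upper half plane all of whose
zeros have order divisible by `n` is an `n`-th power of a holomorphic function. -/
theorem main_core (n : ℕ) (hn : 0 < n) (A : Hol) (hA : A ≠ 0)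
    (hdiv : ∀ τ : ℍ, n ∣ analyticOrderNatAt ((A : ℍ → ℂ) ∘ ofComplex) (τ : ℂ)) :
    ∃ F : Hol, F ^ n = A := by
  set f : ℂ → ℂ := (A : ℍ → ℂ) ∘ ofComplex with hf
  obtain ⟨z₀, hz₀, hfz₀⟩ : ∃ z₀ : ℂ, 0 < z₀.im ∧ f z₀ ≠ 0 := by
    by_contra hcon
    apply hA
    apply mer_eq_zero_of_forall
    intro z hz
    by_contra hz0
    exact hcon ⟨z, hz, hz0⟩
  obtain ⟨c, r, hsub, hmono, hz₀0, hcover⟩ := exists_exhaustion z₀ hz₀
  have hroot : ∀ k, ∃ F : ℂ → ℂ, DifferentiableOn ℂ F (Metric.ball (c k) (r k)) ∧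
      ∀ z ∈ Metric.ball (c k) (r k), F z ^ n = f z := by
    intro k
    apply main_root_ball n hn (c k) (r k) f
    · exact (mer_analyticOnNhd A).mono (hsub k)
    · intro z hz
      exact mer_analyticOrderAt_ne_top ⟨z, hsub k hz⟩ hA
    · intro z hz
      exact hdiv ⟨z, hsub k hz⟩
  obtain ⟨F, hF, hFn⟩ := exists_root_iUnion n hn (fun k => Metric.ball (c k) (r k))
    (fun k => Metric.isOpen_ball) (fun k => (convex_ball _ _).isPreconnected) hmono f z₀ hz₀0
    hfz₀ hroot
  have hFd : DifferentiableOn ℂ F {z : ℂ | 0 < z.im} := hF.mono hcover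
  refine ⟨⟨fun τ : ℍ => F (τ : ℂ), ?_⟩, ?_⟩
  · rw [mem_Hol, UpperHalfPlane.mdifferentiable_iff]
    refine hFd.congr ?_
    intro z hz
    simp [Function.comp, ofComplex_apply_of_im_pos hz]
  · apply Subtype.ext
    funext τ
    have h1 := hFn (τ : ℂ) (hcover τ.im_pos)
    simp only [Subring.coe_pow, Pi.pow_apply]
    rw [h1, hf]
    simp

theorem main_merOrd_pow (τ : ℍ) {x : Mer} (hx : x ≠ 0) (k : ℕ) :
    merOrd τ (x ^ k) = k * merOrd τ x := by
  induction k with
  | zero =>
    have h1 : merOrd τ (algebraMap Hol Mer 1) = 0 :=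
      merOrd_algebraMap_eq_zero τ 1 (by simp)
    rw [map_one] at h1
    simp [h1]
  | succ k ih =>
    rw [pow_succ, merOrd_mul τ (pow_ne_zero k hx) hx, ih]
    push_cast
    ring

end PthRootB

/-- A nonzero meromorphic function on the upper half plane all of whose orders are divisible by
`n` is an `n`-th power. -/
theorem exists_pow_eq_of_dvd_merOrd_B (n : ℕ) (hn : 0 < n) (y : Mer) (hy : y ≠ 0)
    (h : ∀ τ : ℍ, (n : ℤ) ∣ merOrd τ y) : ∃ f : Mer, f ^ n = y := by
  obtain ⟨a, b, hb, rfl⟩ := mer_exists_div y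
  have ha : a ≠ 0 := (mer_div_ne_zero_iff hb).mp hy
  have hbK : algebraMap Hol Mer b ≠ 0 := mer_algebraMap_ne_zero hb
  set A : Hol := a * b ^ (n - 1) with hAdef
  have hA : A ≠ 0 := mul_ne_zero ha (pow_ne_zero _ hb)
  have hAy : algebraMap Hol Mer A =
      algebraMap Hol Mer a / algebraMap Hol Mer b * (algebraMap Hol Mer b) ^ n := by
    rw [hAdef, map_mul, map_pow]
    obtain ⟨m, rfl⟩ : ∃ m, n = m + 1 := ⟨n - 1, by omega⟩
    simp only [Nat.add_sub_cancel]
    rw [pow_succ]
    field_simp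
  have hdiv : ∀ τ : ℍ, n ∣ analyticOrderNatAt ((A : ℍ → ℂ) ∘ ofComplex) (τ : ℂ) := by
    intro τ
    have h1 : merOrd τ (algebraMap Hol Mer A) =
        merOrd τ (algebraMap Hol Mer a / algebraMap Hol Mer b) +
          n * merOrd τ (algebraMap Hol Mer b) := by
      rw [hAy, merOrd_mul τ hy (pow_ne_zero n hbK), PthRootB.main_merOrd_pow τ hbK n]
    rw [merOrd_algebraMap] at h1
    have h2 : (n : ℤ) ∣ (analyticOrderNatAt ((A : ℍ → ℂ) ∘ ofComplex) (τ : ℂ) : ℤ) := by
      rw [h1]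
      exact dvd_add (h τ) (dvd_mul_right _ _)
    exact_mod_cast h2
  obtain ⟨F, hF⟩ := PthRootB.main_core n hn A hA hdiv
  refine ⟨algebraMap Hol Mer F / algebraMap Hol Mer b, ?_⟩
  rw [div_pow, ← map_pow, hF, hAy]
  field_simp

end Fermat.Agent.S42
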