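import Fermat.Agent.S42.ADefs

/-!
# P13 part (A), module M7a: roots in `MerN N`

* `exists_RN_eq_of_pow` : `RN N` is closed under `n`-th roots taken in its fraction field.
* `exists_toMer_eq_of_pow` : a meromorphic function on the upper half plane whose `n`-th power
  is of level `N` and which is invariant under all conjugates of `T ^ N` is of level `N`.
-/

set_option autoImplicit false

namespace Fermat.Agent.S42

open Fermat.Agent.S24 UpperHalfPlane
open scoped MatrixGroups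

namespace RootMerN

open Filter Topology
open scoped Manifold

theorem merOrd_one (τ : ℍ) : merOrd τ (1 : Mer) = 0 := by
  have h := merOrd_algebraMap_eq_zero τ (1 : Hol) (by simp)
  rwa [map_one] at h

theorem merOrd_pow (τ : ℍ) {y : Mer} (hy : y ≠ 0) (n : ℕ) :
    merOrd τ (y ^ n) = n * merOrd τ y := by
  induction n with
  | zero => simp [merOrd_one]
  | succ k ih =>
    rw [pow_succ, merOrd_mul τ (pow_ne_zero k hy) hy, ih]
    push_cast
    ring

/-- A meromorphic function on the upper half plane without poles is holomorphic. -/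
theorem exists_hol_of_merOrd_nonneg (z : Mer) (h : ∀ τ : ℍ, 0 ≤ merOrd τ z) :
    ∃ z₀ : Hol, algebraMap Hol Mer z₀ = z := by
  obtain ⟨a, b, hb, rfl⟩ := mer_exists_div z
  have hFmer : MeromorphicOn (merFun a b) upperHalfPlaneSet :=
    fun w hw => mer_meromorphicAt a b ⟨w, hw⟩
  have hord : ∀ w ∈ upperHalfPlaneSet, 0 ≤ meromorphicOrderAt (merFun a b) w := by
    intro w hw
    have h1 := h ⟨w, hw⟩
    rw [merOrd_div_eq _ a hb] at h1
    change 0 ≤ (meromorphicOrderAt (merFun a b) w).untop₀ at h1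
    cases hc : meromorphicOrderAt (merFun a b) w with
    | top => exact le_top
    | coe k =>
      rw [hc] at h1
      exact_mod_cast h1
  have hGan : ∀ w ∈ upperHalfPlaneSet,
      AnalyticAt ℂ (toMeromorphicNFOn (merFun a b) upperHalfPlaneSet) w := by
    intro w hw
    have h1 := meromorphicNFOn_toMeromorphicNFOn (merFun a b) upperHalfPlaneSet hw
    rw [← h1.meromorphicOrderAt_nonneg_iff_analyticAt,
      meromorphicOrderAt_toMeromorphicNFOn hFmer hw]
    exact hord w hw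
  have hz₀ : MDiff (fun τ : ℍ => toMeromorphicNFOn (merFun a b) upperHalfPlaneSet (τ : ℂ)) := by
    rw [UpperHalfPlane.mdifferentiable_iff]
    have h1 : DifferentiableOn ℂ (toMeromorphicNFOn (merFun a b) upperHalfPlaneSet)
        upperHalfPlaneSet :=
      fun w hw => (hGan w hw).differentiableAt.differentiableWithinAt
    refine h1.congr ?_
    intro w hw
    simp only [Function.comp_apply, ofComplex_apply_of_im_pos hw]
  refine ⟨⟨fun τ : ℍ => toMeromorphicNFOn (merFun a b) upperHalfPlaneSet (τ : ℂ), hz₀⟩, ?_⟩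
  have key : (⟨fun τ : ℍ => toMeromorphicNFOn (merFun a b) upperHalfPlaneSet (τ : ℂ), hz₀⟩ : Hol)
      * b = a := by
    apply Subtype.ext
    funext τ
    show toMeromorphicNFOn (merFun a b) upperHalfPlaneSet (τ : ℂ) * (b : ℍ → ℂ) τ =
      (a : ℍ → ℂ) τ
    have h1 : (fun w => toMeromorphicNFOn (merFun a b) upperHalfPlaneSet w *
        ((b : ℍ → ℂ) ∘ ofComplex) w) =ᶠ[𝓝[≠] (τ : ℂ)] ((a : ℍ → ℂ) ∘ ofComplex) := by
      filter_upwards [hFmer.toMeromorphicNFOn_eq_self_on_nhdsNE τ.im_pos,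
        mer_eventually_ne hb τ] with w hw1 hw2
      rw [hw1]
      simp only [merFun, Function.comp_apply] at hw2 ⊢
      field_simp
    have hc1 : ContinuousAt (fun w => toMeromorphicNFOn (merFun a b) upperHalfPlaneSet w *
        ((b : ℍ → ℂ) ∘ ofComplex) w) (τ : ℂ) :=
      ((hGan τ τ.im_pos).continuousAt).mul (mer_analyticAt b τ).continuousAt
    have hc2 : ContinuousAt ((a : ℍ → ℂ) ∘ ofComplex) (τ : ℂ) :=
      (mer_analyticAt a τ).continuousAt
    have h2 := ((hc1.eventuallyEq_nhds_iff_eventuallyEq_nhdsNE hc2).mp h1).eq_of_nhds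
    simpa using h2
  rw [eq_div_iff (mer_algebraMap_ne_zero hb), ← map_mul, key]

theorem T_pow_smul (N : ℕ) (τ : ℍ) : (ModularGroup.T ^ N) • τ = (N : ℝ) +ᵥ τ := by
  have h := UpperHalfPlane.modular_T_zpow_smul τ (N : ℤ)
  rw [zpow_natCast] at h
  rw [h]
  simp

/-- Invariance under `T ^ N` gives `N`-periodicity. -/
theorem periodic_of_slComp_T_pow {N : ℕ} {g : ℍ → ℂ} (h : slComp (ModularGroup.T ^ N) g = g) :
    Function.Periodic (g ∘ ofComplex) ((N : ℝ) : ℂ) := by
  intro w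
  by_cases hw : 0 < w.im
  · have hw' : 0 < (w + ((N : ℝ) : ℂ)).im := by simpa using hw
    simp only [Function.comp_apply, ofComplex_apply_of_im_pos hw', ofComplex_apply_of_im_pos hw]
    have h1 := congrFun h ⟨w, hw⟩
    rw [slComp_apply, T_pow_smul] at h1
    rw [← h1]
    congr 1
    ext1
    simp [add_comm]
  · have hw1 : w.im ≤ 0 := not_lt.mp hw
    have hw' : (w + ((N : ℝ) : ℂ)).im ≤ 0 := by simpa using hw1
    simp only [Function.comp_apply, ofComplex_apply_of_im_nonpos hw',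
      ofComplex_apply_of_im_nonpos hw1]

/-- `N`-periodicity gives invariance under `T ^ N`. -/
theorem slComp_T_pow_of_periodic {N : ℕ} {g : ℍ → ℂ}
    (h : Function.Periodic (g ∘ ofComplex) ((N : ℝ) : ℂ)) :
    slComp (ModularGroup.T ^ N) g = g := by
  funext τ
  rw [slComp_apply, T_pow_smul]
  have h1 := h (τ : ℂ)
  have hw : 0 < ((τ : ℂ) + ((N : ℝ) : ℂ)).im := by simpa using τ.im_pos
  simp only [Function.comp_apply, ofComplex_apply, ofComplex_apply_of_im_pos hw] at h1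
  rw [← h1]
  congr 1
  ext1
  simp [add_comm]

/-- Functions of level `N` are invariant under the conjugates of `T ^ N`. -/
theorem slComp_conj_T_pow {N : ℕ} {b : ℍ → ℂ} (hb : b ∈ RN N) (g : SL(2, ℤ)) :
    slComp (g * ModularGroup.T ^ N * g⁻¹) b = b := by
  rw [slComp_mul, slComp_mul, slComp_T_pow_of_periodic (hb g).periodic, ← slComp_mul,
    mul_inv_cancel, slComp_one]

theorem act_conj_T_pow (N : ℕ) (g : SL(2, ℤ)) (x : MerN N) :
    act N (g * ModularGroup.T ^ N * g⁻¹) x = x := by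
  have h : act N (g * ModularGroup.T ^ N * g⁻¹) = RingHom.id (MerN N) := by
    apply MerN_ringHom_ext
    intro f
    rw [act_algebraMap, RingHom.id_apply]
    congr 1
    apply Subtype.ext
    rw [coe_actR]
    exact slComp_conj_T_pow f.2 g
  rw [h, RingHom.id_apply]

/-- A holomorphic `n`-th root of a function of level `N`, invariant under the conjugates of
`T ^ N`, is of level `N`. -/
theorem mem_RN_of_pow {N : ℕ} (n : ℕ) (hn : 0 < n) (Y : Hol) (c : ↥(RN N))
    (hpow : ∀ τ : ℍ, (Y : ℍ → ℂ) τ ^ n = (c : ℍ → ℂ) τ)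
    (hinv : ∀ g : SL(2, ℤ),
      slComp (g * ModularGroup.T ^ N * g⁻¹) (Y : ℍ → ℂ) = (Y : ℍ → ℂ)) :
    (Y : ℍ → ℂ) ∈ RN N := by
  intro γ
  refine ⟨mer_mdifferentiable_slComp γ Y.2, ?_, ?_⟩
  · apply periodic_of_slComp_T_pow
    rw [← slComp_mul]
    have h1 : γ * ModularGroup.T ^ N = (γ * ModularGroup.T ^ N * γ⁻¹) * γ := by group
    rw [h1, slComp_mul, hinv γ]
  · obtain ⟨M, hM⟩ := (c.2 γ).mero
    refine ⟨M, ?_⟩
    rw [isBoundedAtImInfty_iff] at hM ⊢
    obtain ⟨B, A, hBA⟩ := hM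
    refine ⟨max B 1, A, fun z hz => ?_⟩
    have h1 := hBA z hz
    have hq1 : ‖Function.Periodic.qParam (N : ℝ) (z : ℂ)‖ ≤ 1 := QInf.norm_qParam_le_one N z
    have hq0 : 0 ≤ ‖Function.Periodic.qParam (N : ℝ) (z : ℂ)‖ := norm_nonneg _
    have hpz : slComp γ (Y : ℍ → ℂ) z ^ n = slComp γ (c : ℍ → ℂ) z := hpow (γ • z)
    have hexp : M * n = M * (n - 1) + M := by
      obtain ⟨k, rfl⟩ : ∃ k, n = k + 1 := ⟨n - 1, by omega⟩
      rw [Nat.add_sub_cancel]
      ring
    have h2 : ‖Function.Periodic.qParam (N : ℝ) (z : ℂ) ^ M * slComp γ (Y : ℍ → ℂ) z‖ ^ n ≤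
        (max B 1) ^ n := by
      calc ‖Function.Periodic.qParam (N : ℝ) (z : ℂ) ^ M * slComp γ (Y : ℍ → ℂ) z‖ ^ n
          = ‖Function.Periodic.qParam (N : ℝ) (z : ℂ)‖ ^ (M * (n - 1)) *
              ‖Function.Periodic.qParam (N : ℝ) (z : ℂ) ^ M * slComp γ (c : ℍ → ℂ) z‖ := by
            rw [norm_mul, norm_mul, norm_pow, mul_pow, ← norm_pow (slComp γ (Y : ℍ → ℂ) z), hpz,
              ← pow_mul, ← mul_assoc, ← pow_add, hexp]
        _ ≤ 1 * B := by
            gcongr
            exact pow_le_one₀ hq0 hq1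
        _ ≤ max B 1 := by
            rw [one_mul]
            exact le_max_left _ _
        _ ≤ (max B 1) ^ n := le_self_pow₀ (le_max_right _ _) hn.ne'
    exact (pow_le_pow_iff_left₀ (norm_nonneg _) (le_trans zero_le_one (le_max_right _ _))
      hn.ne').mp h2

end RootMerN

theorem exists_RN_eq_of_pow (N : ℕ) [NeZero N] (n : ℕ) (hn : 0 < n) (x : MerN N) (c : ↥(RN N))
    (h : x ^ n = algebraMap ↥(RN N) (MerN N) c) :
    ∃ a : ↥(RN N), algebraMap ↥(RN N) (MerN N) a = x := by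
  have hy : toMer N x ^ n = algebraMap Hol Mer (toHol N c) := by
    rw [← map_pow, h, toMer_algebraMap]
  have hord : ∀ τ : ℍ, 0 ≤ merOrd τ (toMer N x) := by
    intro τ
    rcases eq_or_ne (toMer N x) 0 with h0 | h0
    · rw [h0, merOrd_zero]
    · have h1 := RootMerN.merOrd_pow τ h0 n
      rw [hy] at h1
      have h2 := merOrd_algebraMap_nonneg τ (toHol N c)
      rw [h1] at h2
      have hn' : (0 : ℤ) < n := by exact_mod_cast hn
      exact nonneg_of_mul_nonneg_right h2 hn'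
  obtain ⟨x₀, hx₀⟩ := RootMerN.exists_hol_of_merOrd_nonneg (toMer N x) hord
  have hpow : x₀ ^ n = toHol N c := by
    apply IsFractionRing.injective Hol Mer
    rw [map_pow, hx₀, hy]
  have hinv : ∀ g : SL(2, ℤ),
      slComp (g * ModularGroup.T ^ N * g⁻¹) (x₀ : ℍ → ℂ) = (x₀ : ℍ → ℂ) := by
    intro g
    have h1 : act N (g * ModularGroup.T ^ N * g⁻¹) x = x := RootMerN.act_conj_T_pow N g x
    have h2 := toMer_act N (g * ModularGroup.T ^ N * g⁻¹) x
    rw [h1, ← hx₀, compSL_algebraMap] at h2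
    have h3 := IsFractionRing.injective Hol Mer h2
    exact (congrArg Subtype.val h3).symm
  have hpowfun : ∀ τ : ℍ, (x₀ : ℍ → ℂ) τ ^ n = (c : ℍ → ℂ) τ := by
    intro τ
    have h1 := congrArg (fun f : Hol => (f : ℍ → ℂ) τ) hpow
    simp only [Subring.coe_pow, Pi.pow_apply] at h1
    exact h1
  have hmem : (x₀ : ℍ → ℂ) ∈ RN N := RootMerN.mem_RN_of_pow n hn x₀ c hpowfun hinv
  refine ⟨⟨(x₀ : ℍ → ℂ), hmem⟩, ?_⟩
  apply toMer_injective N
  rw [toMer_algebraMap, ← hx₀]
  rfl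

theorem exists_toMer_eq_of_pow (N : ℕ) [NeZero N] (n : ℕ) (hn : 0 < n) (f : Mer) (x : MerN N)
    (h : f ^ n = toMer N x)
    (hper : ∀ g : SL(2, ℤ), compSL (g * ModularGroup.T ^ N * g⁻¹) f = f) :
    ∃ f' : MerN N, toMer N f' = f := by
  obtain ⟨a, b, hb, hx⟩ := IsFractionRing.div_surjective (A := ↥(RN N)) x
  have hb0 : b ≠ 0 := nonZeroDivisors.ne_zero hb
  have hbM : algebraMap ↥(RN N) (MerN N) b ≠ 0 :=
    (map_ne_zero_iff _ (IsFractionRing.injective ↥(RN N) (MerN N))).mpr hb0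
  have hbH : algebraMap Hol Mer (toHol N b) ≠ 0 := by
    rw [← toMer_algebraMap]
    exact (map_ne_zero_iff _ (toMer_injective N)).mpr hbM
  have hFn : (f * algebraMap Hol Mer (toHol N b)) ^ n =
      algebraMap Hol Mer (toHol N (a * b ^ (n - 1))) := by
    rw [mul_pow, h, ← hx, ← toMer_algebraMap, ← toMer_algebraMap, ← map_pow, ← map_mul]
    congr 1
    obtain ⟨k, rfl⟩ : ∃ k, n = k + 1 := ⟨n - 1, by omega⟩
    rw [Nat.add_sub_cancel, map_mul, map_pow, pow_succ]
    field_simp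
  have hord : ∀ τ : ℍ, 0 ≤ merOrd τ (f * algebraMap Hol Mer (toHol N b)) := by
    intro τ
    rcases eq_or_ne (f * algebraMap Hol Mer (toHol N b)) 0 with h0 | h0
    · rw [h0, merOrd_zero]
    · have h1 := RootMerN.merOrd_pow τ h0 n
      rw [hFn] at h1
      have h2 := merOrd_algebraMap_nonneg τ (toHol N (a * b ^ (n - 1)))
      rw [h1] at h2
      have hn' : (0 : ℤ) < n := by exact_mod_cast hn
      exact nonneg_of_mul_nonneg_right h2 hn'
  obtain ⟨F₀, hF₀⟩ := RootMerN.exists_hol_of_merOrd_nonneg _ hord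
  have hpow : F₀ ^ n = toHol N (a * b ^ (n - 1)) := by
    apply IsFractionRing.injective Hol Mer
    rw [map_pow, hF₀, hFn]
  have hpowfun : ∀ τ : ℍ, (F₀ : ℍ → ℂ) τ ^ n = ((a * b ^ (n - 1) : ↥(RN N)) : ℍ → ℂ) τ := by
    intro τ
    have h1 := congrArg (fun f : Hol => (f : ℍ → ℂ) τ) hpow
    simp only [Subring.coe_pow, Pi.pow_apply] at h1
    exact h1
  have hinv : ∀ g : SL(2, ℤ),
      slComp (g * ModularGroup.T ^ N * g⁻¹) (F₀ : ℍ → ℂ) = (F₀ : ℍ → ℂ) := by
    intro g
    have h1 : compSLHol (g * ModularGroup.T ^ N * g⁻¹) (toHol N b) = toHol N b := by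
      apply Subtype.ext
      rw [coe_compSLHol]
      exact RootMerN.slComp_conj_T_pow b.2 g
    have h2 : compSL (g * ModularGroup.T ^ N * g⁻¹) (algebraMap Hol Mer F₀) =
        algebraMap Hol Mer F₀ := by
      rw [hF₀, map_mul, hper g, compSL_algebraMap, h1]
    rw [compSL_algebraMap] at h2
    have h3 := IsFractionRing.injective Hol Mer h2
    exact congrArg Subtype.val h3
  have hmem : (F₀ : ℍ → ℂ) ∈ RN N :=
    RootMerN.mem_RN_of_pow n hn F₀ (a * b ^ (n - 1)) hpowfun hinv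
  refine ⟨algebraMap ↥(RN N) (MerN N) ⟨(F₀ : ℍ → ℂ), hmem⟩ / algebraMap ↥(RN N) (MerN N) b, ?_⟩
  rw [map_div₀, toMer_algebraMap, toMer_algebraMap, div_eq_iff hbH]
  exact hF₀

end Fermat.Agent.S42
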