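import Fermat.Agent.S42.ADefs
import Fermat.Agent.S42.RootMerN
import Fermat.Agent.S42.PthRootB
import Fermat.Agent.S24.PlacesBasic

/-!
# P13 part (A), module M7: roots of modular functions with divisible divisor

* `exists_toMer_eq_of_dvd_ord`: if all place-orders of `u ∈ L(X₀(N))` are divisible by `n`, then
  every meromorphic `n`-th root on the upper half plane of the analytic realisation of `u` is a
  meromorphic function of level `N`;
* `exists_root_of_dvd_ord`: over `ℂ`, such a function has an `n`-th root among the meromorphic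
  functions of level `N`.

The proof of the first statement passes through the level `n * N`: the `n`-th root `f` is
multiplied by an `n`-th root of unity `c` under every conjugate of `T ^ N`, hence it is invariant
under the conjugates of `T ^ (n * N)` and is a meromorphic function of level `n * N`; comparing
the leading terms of the expansions at `i∞` in the parameter `q_{nN}` one finds
`c = exp(2 π i k₀ / n)` with `k₀` the order at `i∞` (in the parameter `q_N`) of a conjugate of
`u`, which is a multiple of a place-order of `u`, so `c = 1`.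
-/

set_option autoImplicit false

namespace Fermat.Agent.S42

open Fermat.Agent.S24 AlgebraicCurve UpperHalfPlane
open scoped MatrixGroups

namespace RootDvd

/-! ### Change of level `N → n * N` -/

theorem qParam_pow_mul_level {N n : ℕ} (hn : 0 < n) (hN : 0 < N) (z : ℂ) :
    Function.Periodic.qParam ((n * N : ℕ) : ℝ) z ^ n = Function.Periodic.qParam (N : ℝ) z := by
  unfold Function.Periodic.qParam
  rw [← Complex.exp_nat_mul]
  congr 1
  have hN0 : (N : ℂ) ≠ 0 := by exact_mod_cast hN.ne'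
  have hn0 : (n : ℂ) ≠ 0 := by exact_mod_cast hn.ne'
  push_cast
  field_simp

/-- A function of period `N`, meromorphic at `i∞`, has period `n * N`. -/
theorem isMerPer_mul_level {N : ℕ} (n : ℕ) (hn : 0 < n) (hN : 0 < N) {f : ℍ → ℂ}
    (hf : IsMerPer N f) : IsMerPer (n * N) f := by
  obtain ⟨m, hm⟩ := hf.mero
  refine ⟨hf.mdiff, ?_, n * m, ?_⟩
  · have h1 := hf.periodic.nat_mul n
    simpa using h1
  · have h3 : (fun τ : ℍ => Function.Periodic.qParam ((n * N : ℕ) : ℝ) (τ : ℂ) ^ (n * m) * f τ)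
        = fun τ : ℍ => Function.Periodic.qParam (N : ℝ) (τ : ℂ) ^ m * f τ := by
      funext τ
      rw [pow_mul, qParam_pow_mul_level hn hN]
    rw [h3]
    exact hm

/-- Period `N` versus period `n * N`: the expansion in `q_{nN}` is obtained from the expansion
in `q_N` by the substitution `q_N = q_{nN} ^ n`. -/
theorem qInf_mul_level {N : ℕ} [NeZero N] (n : ℕ) [NeZero n] {f : ℍ → ℂ} (hf : IsMerPer N f) :
    qInf (n * N) f = ModularCurve.qExpand ℂ n (qInf N f) := by
  have hN : 0 < N := Nat.pos_of_ne_zero (NeZero.ne N)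
  have hn : 0 < n := Nat.pos_of_ne_zero (NeZero.ne n)
  have hnN : 0 < n * N := Nat.mul_pos hn hN
  obtain ⟨m, hm⟩ := hf.mero
  have hP1 := QInf.isPer_tw hf hm
  have htw : QInf.tw (n * N) (n * m) f = QInf.tw N m f := by
    funext τ
    rw [QInf.tw_apply, QInf.tw_apply, pow_mul, qParam_pow_mul_level hn hN]
  have hfN : IsMerPer (n * N) f := isMerPer_mul_level n hn hN hf
  have hbN : IsBoundedAtImInfty (QInf.tw (n * N) (n * m) f) := by
    rw [htw]
    exact hm
  have h1 : (n : ℤ) * -(m : ℤ) = -((n * m : ℕ) : ℤ) := by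
    push_cast
    ring
  have h2 : ModularCurve.qExpand ℂ n (HahnSeries.ofPowerSeries ℤ ℂ
      (qExpansion (N : ℝ) (QInf.tw N m f))) =
      HahnSeries.ofPowerSeries ℤ ℂ (qExpansion ((n * N : ℕ) : ℝ) (QInf.tw N m f)) := by
    apply QInf.qExpand_ofPowerSeries
    intro k
    have h := UpperHalfPlane.qExpansion_coeff_nat_mul (h := (N : ℝ)) (by exact_mod_cast hN)
      hP1.periodic hP1.mdiff hP1.bdd hn k
    rw [Nat.cast_mul]
    exact h
  rw [QInf.qInf_eq hnN hfN hbN, QInf.qInf_eq hN hf hm, QInf.L, QInf.L, map_mul,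
    ModularCurve.qExpand_single, htw, h1, h2]

section Incl

variable (N n : ℕ) [NeZero N] [NeZero n]

theorem RN_le_mul_level : RN N ≤ RN (n * N) :=
  fun _ hf γ => isMerPer_mul_level n (Nat.pos_of_ne_zero (NeZero.ne n))
    (Nat.pos_of_ne_zero (NeZero.ne N)) (hf γ)

/-- The inclusion of the functions of level `N` in the functions of level `n * N`. -/
def inclR : ↥(RN N) →+* ↥(RN (n * N)) := Subring.inclusion (RN_le_mul_level N n)

theorem inclR_injective : Function.Injective (inclR N n) :=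
  Subring.inclusion_injective (RN_le_mul_level N n)

theorem coe_inclR (a : ↥(RN N)) : ((inclR N n a : ↥(RN (n * N))) : ℍ → ℂ) = (a : ℍ → ℂ) := rfl

/-- The inclusion of the meromorphic functions of level `N` in those of level `n * N`. -/
noncomputable def inclM : MerN N →+* MerN (n * N) :=
  IsFractionRing.lift (g := (algebraMap ↥(RN (n * N)) (MerN (n * N))).comp (inclR N n))
    ((IsFractionRing.injective ↥(RN (n * N)) (MerN (n * N))).comp (inclR_injective N n))

theorem inclM_algebraMap (a : ↥(RN N)) :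
    inclM N n (algebraMap ↥(RN N) (MerN N) a) =
      algebraMap ↥(RN (n * N)) (MerN (n * N)) (inclR N n a) :=
  IsFractionRing.lift_algebraMap _ a

theorem toMer_inclM (x : MerN N) : toMer (n * N) (inclM N n x) = toMer N x := by
  have h : (toMer (n * N)).comp (inclM N n) = toMer N := by
    apply MerN_ringHom_ext
    intro a
    rw [RingHom.comp_apply, inclM_algebraMap, toMer_algebraMap, toMer_algebraMap]
    rfl
  exact congrArg (fun φ => φ x) h

theorem act_inclM (g : SL(2, ℤ)) (x : MerN N) :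
    act (n * N) g (inclM N n x) = inclM N n (act N g x) := by
  have h : (act (n * N) g).comp (inclM N n) = (inclM N n).comp (act N g) := by
    apply MerN_ringHom_ext
    intro a
    rw [RingHom.comp_apply, RingHom.comp_apply, inclM_algebraMap, act_algebraMap, act_algebraMap,
      inclM_algebraMap]
    rfl
  exact congrArg (fun φ => φ x) h

theorem qInfM_inclM (x : MerN N) :
    qInfM (n * N) (inclM N n x) = ModularCurve.qExpand ℂ n (qInfM N x) := by
  have h : (qInfM (n * N)).comp (inclM N n) = (ModularCurve.qExpand ℂ n).comp (qInfM N) := by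
    apply MerN_ringHom_ext
    intro a
    rw [RingHom.comp_apply, RingHom.comp_apply, inclM_algebraMap, qInfM_algebraMap,
      qInfM_algebraMap, coe_inclR]
    exact qInf_mul_level n (isMerPer_of_mem_RN a.2)
  exact congrArg (fun φ => φ x) h

theorem order_qInfM_inclM (x : MerN N) :
    (qInfM (n * N) (inclM N n x)).order = (n : ℤ) * (qInfM N x).order := by
  rw [qInfM_inclM, order_qExpand]

end Incl

/-! ### Constants and roots of unity -/

/-- Constants in the field of meromorphic functions on the upper half plane. -/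
noncomputable def merC : ℂ →+* Mer := (algebraMap Hol Mer).comp holC

theorem merC_apply (c : ℂ) : merC c = algebraMap Hol Mer (holC c) := rfl

theorem compSL_merC (γ : SL(2, ℤ)) (c : ℂ) : compSL γ (merC c) = merC c := by
  rw [merC_apply, compSL_algebraMap]
  rfl

theorem toMer_cM (N : ℕ) (c : ℂ) : toMer N (cM N c) = merC c := by
  rw [cM, toMer_algebraMap]
  rfl

theorem act_cM (N : ℕ) (γ : SL(2, ℤ)) (c : ℂ) : act N γ (cM N c) = cM N c := by
  rw [cM, act_algebraMap, actR_constRN]

theorem qInfM_cM (N : ℕ) [NeZero N] (c : ℂ) : qInfM N (cM N c) = HahnSeries.C c := by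
  rw [cM, qInfM_constRN]

/-- Two meromorphic functions with the same `n`-th power differ by a constant `n`-th root of
unity. -/
theorem exists_merC_of_pow_eq {n : ℕ} (hn : 0 < n) {a b : Mer} (hb : b ≠ 0)
    (h : a ^ n = b ^ n) : ∃ c : ℂ, c ^ n = 1 ∧ a = merC c * b := by
  have : NeZero n := ⟨hn.ne'⟩
  have hprim0 := Complex.isPrimitiveRoot_exp n hn.ne'
  have hprim : IsPrimitiveRoot (merC (Complex.exp (2 * Real.pi * Complex.I / n))) n :=
    hprim0.map_of_injective merC.injective
  have h1 : (a / b) ^ n = 1 := by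
    rw [div_pow, h, div_self (pow_ne_zero n hb)]
  obtain ⟨i, -, hi⟩ := hprim.eq_pow_of_pow_eq_one h1
  refine ⟨Complex.exp (2 * Real.pi * Complex.I / n) ^ i, ?_, ?_⟩
  · rw [← pow_mul, mul_comm i n, pow_mul, hprim0.pow_eq_one, one_pow]
  · rw [map_pow, hi, div_mul_cancel₀ _ hb]

theorem compSL_pow_of_eq {γ : SL(2, ℤ)} {f : Mer} {c : ℂ} (h : compSL γ f = merC c * f)
    (k : ℕ) : compSL (γ ^ k) f = merC c ^ k * f := by
  induction k with
  | zero => rw [pow_zero, compSL_one, pow_zero, one_mul]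
  | succ k ih =>
    rw [pow_succ, compSL_mul, ih, map_mul, map_pow, compSL_merC, h, pow_succ, mul_assoc]

/-- `T ^ k` rotates the expansion at `i∞` by `exp(2πi/N) ^ k`. -/
theorem qInfM_act_T_pow (N : ℕ) [NeZero N] (k : ℕ) (y : MerN N) :
    qInfM N (act N (ModularGroup.T ^ k) y) = laurentRot (zetaUnit N ^ k) (qInfM N y) := by
  induction k with
  | zero => rw [pow_zero, act_one, pow_zero, laurentRot_one]
  | succ k ih => rw [pow_succ, act_mul, qInfM_act_T, ih, ← laurentRot_mul, pow_succ']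

/-! ### The order at `i∞` of the conjugates is a multiple of a place-order -/

section Main

variable (N : ℕ) [NeZero N]

theorem dvd_ordInf {L : Type*} [Field L] [Algebra ℚ L] [IsAlgClosed L] [CharZero L]
    (ι : L →+* ℂ) (n : ℕ) (u : FFL L N) (hu : u ≠ 0)
    (hdiv : ∀ P : Place L (FFL L N), (n : ℤ) ∣ P.ord u) (x : XX N) :
    (n : ℤ) ∣ ordInf N L ι x u := by
  have hfam := isLocalFamily_infty N L ι
  have hbase : ordInf N L ι x (jL L N)⁻¹ = (N : ℤ) := hfam.base x
  have hN : (0 : ℤ) < (N : ℤ) := by exact_mod_cast Nat.pos_of_ne_zero (NeZero.ne N)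
  have hy0 : (jL L N)⁻¹ ≠ 0 := by
    intro h0
    rw [h0, ordInf_apply, map_zero, map_zero, HahnSeries.order_zero] at hbase
    omega
  obtain ⟨w, d, -, hw⟩ := PlacesBasic.exists_place_of_valuation (K := L) (ordInf N L ι x)
    (hfam.mul x) (hfam.add x) (hfam.const x) hy0 (by rw [hbase]; exact hN)
  rw [hw u hu]
  exact Dvd.dvd.mul_left (hdiv w) _

/-- The key computation: the constant by which a conjugate of `T ^ N` multiplies an `n`-th root
of level `n * N` is `1` as soon as the order at `i∞` of the relevant translate is divisible by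
`n`. -/
theorem const_eq_one (n : ℕ) [NeZero n] (y : MerN N) (hy : y ≠ 0) (f₁ : MerN (n * N))
    (hf₁ : f₁ ^ n = inclM N n y) (g : SL(2, ℤ)) (c : ℂ)
    (hc : act (n * N) (g * ModularGroup.T ^ N * g⁻¹) f₁ = cM (n * N) c * f₁)
    (hdvd : (n : ℤ) ∣ (qInfM N (act N g y)).order) : c = 1 := by
  have hn : 0 < n := Nat.pos_of_ne_zero (NeZero.ne n)
  have hf₁0 : f₁ ≠ 0 := by
    intro h0
    rw [h0, zero_pow hn.ne'] at hf₁
    exact hy ((map_eq_zero (inclM N n)).mp hf₁.symm)
  -- the translate `h = f₁ ∘ g`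
  have hh : act (n * N) (ModularGroup.T ^ N) (act (n * N) g f₁) =
      cM (n * N) c * act (n * N) g f₁ := by
    have h1 : act (n * N) (g * ModularGroup.T ^ N * g⁻¹ * g) f₁ =
        act (n * N) g (cM (n * N) c * f₁) := by
      rw [act_mul (n * N) (g * ModularGroup.T ^ N * g⁻¹) g, hc]
    rw [inv_mul_cancel_right, act_mul, map_mul, act_cM] at h1
    exact h1
  have hh0 : act (n * N) g f₁ ≠ 0 := (map_ne_zero (act (n * N) g)).mpr hf₁0
  have hs0 : qInfM (n * N) (act (n * N) g f₁) ≠ 0 := (map_ne_zero (qInfM (n * N))).mpr hh0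
  have hq : laurentRot (zetaUnit (n * N) ^ N) (qInfM (n * N) (act (n * N) g f₁)) =
      HahnSeries.C c * qInfM (n * N) (act (n * N) g f₁) := by
    rw [← qInfM_act_T_pow, hh, map_mul, qInfM_cM]
  -- the order of the expansion of `h`
  have hpow : (qInfM (n * N) (act (n * N) g f₁)) ^ n =
      qInfM (n * N) (inclM N n (act N g y)) := by
    rw [← map_pow, ← map_pow, hf₁, act_inclM]
  have hord : (n : ℤ) * (qInfM (n * N) (act (n * N) g f₁)).order =
      (n : ℤ) * (qInfM N (act N g y)).order := by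
    rw [← order_qInfM_inclM N n (act N g y), ← hpow, HahnSeries.order_pow, nsmul_eq_mul]
  have hn0 : (n : ℤ) ≠ 0 := by exact_mod_cast hn.ne'
  have hord' : (qInfM (n * N) (act (n * N) g f₁)).order = (qInfM N (act N g y)).order :=
    mul_left_cancel₀ hn0 hord
  obtain ⟨j, hj⟩ := hdvd
  rw [hj] at hord'
  -- compare the leading coefficients
  have hcoef := congrArg (fun s : LaurentSeries ℂ => s.coeff ((n : ℤ) * j)) hq
  simp only [laurentRot_coeff, HahnSeries.C_mul_eq_smul, HahnSeries.coeff_smul,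
    smul_eq_mul] at hcoef
  have hz : (zetaUnit (n * N) ^ N) ^ ((n : ℤ) * j) = 1 := by
    rw [zpow_mul, zpow_natCast, ← pow_mul, mul_comm N n,
      (isPrimitiveRoot_zetaUnit (n * N)).pow_eq_one, one_zpow]
  rw [hz, Units.val_one, one_mul] at hcoef
  have hlead : (qInfM (n * N) (act (n * N) g f₁)).coeff ((n : ℤ) * j) ≠ 0 := by
    rw [← hord']
    exact HahnSeries.coeff_order_eq_zero.not.mpr hs0
  have h2 : (c - 1) * (qInfM (n * N) (act (n * N) g f₁)).coeff ((n : ℤ) * j) = 0 := by
    rw [sub_mul, one_mul, ← hcoef, sub_self]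
  rcases mul_eq_zero.mp h2 with h3 | h3
  · exact sub_eq_zero.mp h3
  · exact absurd h3 hlead

end Main

/-! ### The orders on the upper half plane are multiples of place-orders -/

theorem jL_sub_ne_zero (N : ℕ) [NeZero N] (c : ℂ) :
    jL ℂ N - algebraMap ℂ (FFL ℂ N) c ≠ 0 := by
  intro h0
  have h1 : jL ℂ N = algebraMap ℂ (FFL ℂ N) c := sub_eq_zero.mp h0
  apply transcendental_jL N ℂ
  rw [h1]
  exact isAlgebraic_algebraMap c

theorem dvd_merOrd (N : ℕ) [NeZero N] (n : ℕ) (y : FFL ℂ N) (hy : y ≠ 0)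
    (hdiv : ∀ P : Place ℂ (FFL ℂ N), (n : ℤ) ∣ P.ord y) (τ : ℍ) :
    (n : ℤ) ∣ merOrd τ (toMer N (realHom N (RingHom.id ℂ) y)) := by
  set φ : FFL ℂ N →+* Mer := (toMer N).comp (realHom N (RingHom.id ℂ)) with hφ
  have hφ0 : ∀ f : FFL ℂ N, f ≠ 0 → φ f ≠ 0 := fun f hf => (map_ne_zero φ).mpr hf
  have hmul : ∀ f g : FFL ℂ N, f ≠ 0 → g ≠ 0 →
      merOrd τ (φ (f * g)) = merOrd τ (φ f) + merOrd τ (φ g) := by
    intro f g hf hg
    rw [φ.map_mul f g, merOrd_mul τ (hφ0 f hf) (hφ0 g hg)]
  have hadd : ∀ f g : FFL ℂ N, f ≠ 0 → g ≠ 0 → f + g ≠ 0 →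
      min (merOrd τ (φ f)) (merOrd τ (φ g)) ≤ merOrd τ (φ (f + g)) := by
    intro f g hf hg hfg
    have h1 : φ (f + g) = φ f + φ g := φ.map_add f g
    rw [h1]
    exact merOrd_add τ (hφ0 f hf) (hφ0 g hg) (by rw [← h1]; exact hφ0 _ hfg)
  have hφc : ∀ a : ℂ, φ (algebraMap ℂ (FFL ℂ N) a) = algebraMap Hol Mer (holC a) := by
    intro a
    rw [hφ, RingHom.comp_apply, realHom_algebraMap, toMer_algebraMap, toHol_constRN,
      RingHom.id_apply]
  have hconst : ∀ a : ℂ, a ≠ 0 → merOrd τ (φ (algebraMap ℂ (FFL ℂ N) a)) = 0 := by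
    intro a ha
    rw [hφc, merOrd_const τ ha]
  have hφj : φ (jL ℂ N) = algebraMap Hol Mer ⟨Jfun, mdifferentiable_Jfun⟩ := by
    rw [hφ, RingHom.comp_apply, ← jdL_one, realHom_jdL, toMer_algebraMap, toHol_JdRN_one]
  have hy0 := jL_sub_ne_zero N (Jfun τ)
  have hφy : φ (jL ℂ N - algebraMap ℂ (FFL ℂ N) (Jfun τ)) =
      algebraMap Hol Mer ((⟨Jfun, mdifferentiable_Jfun⟩ : Hol) - holC (Jfun τ)) := by
    rw [φ.map_sub, (algebraMap Hol Mer).map_sub, hφj, hφc]
  have hne : ((⟨Jfun, mdifferentiable_Jfun⟩ : Hol) - holC (Jfun τ)) ≠ 0 := by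
    intro h0
    apply hφ0 _ hy0
    rw [hφy, h0, map_zero]
  have hpos : 0 < merOrd τ (φ (jL ℂ N - algebraMap ℂ (FFL ℂ N) (Jfun τ))) := by
    rw [hφy, merOrd_algebraMap_pos_iff τ hne]
    show Jfun τ - Jfun τ = 0
    exact sub_self _
  obtain ⟨w, d, -, hw⟩ := PlacesBasic.exists_place_of_valuation (K := ℂ)
    (fun f : FFL ℂ N => merOrd τ (φ f)) hmul hadd hconst hy0 hpos
  have h1 : merOrd τ (φ y) = (d : ℤ) * w.ord y := hw y hy
  show (n : ℤ) ∣ merOrd τ (φ y)
  rw [h1]
  exact Dvd.dvd.mul_left (hdiv w) _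

end RootDvd

/-- If all place-orders of `u ∈ L(X₀(N))` are divisible by `n`, then every meromorphic `n`-th
root on the upper half plane of the analytic realisation of `u` is a meromorphic function of
level `N`. -/
theorem exists_toMer_eq_of_dvd_ord (N : ℕ) [NeZero N] {L : Type*} [Field L] [Algebra ℚ L]
    [IsAlgClosed L] [CharZero L] (ι : L →+* ℂ) (n : ℕ) (hn : 0 < n) (u : FFL L N) (hu : u ≠ 0)
    (hdiv : ∀ P : Place L (FFL L N), (n : ℤ) ∣ P.ord u) (f : Mer)
    (hf : f ^ n = toMer N (realHom N ι u)) :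
    ∃ f' : MerN N, toMer N f' = f := by
  have : NeZero n := ⟨hn.ne'⟩
  have hy : realHom N ι u ≠ 0 := (map_ne_zero (realHom N ι)).mpr hu
  have hf0 : f ≠ 0 := by
    intro h0
    rw [h0, zero_pow hn.ne'] at hf
    exact hy ((map_eq_zero (toMer N)).mp hf.symm)
  -- every conjugate of `T ^ N` multiplies `f` by a constant root of unity
  have hc : ∀ g : SL(2, ℤ), ∃ c : ℂ, c ^ n = 1 ∧
      compSL (g * ModularGroup.T ^ N * g⁻¹) f = RootDvd.merC c * f := by
    intro g
    apply RootDvd.exists_merC_of_pow_eq hn hf0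
    rw [← map_pow, hf, ← toMer_act, RootMerN.act_conj_T_pow]
  -- hence `f` is invariant under the conjugates of `T ^ (n * N)`
  have hper' : ∀ g : SL(2, ℤ), compSL (g * ModularGroup.T ^ (n * N) * g⁻¹) f = f := by
    intro g
    obtain ⟨c, hcn, hcg⟩ := hc g
    have h1 : g * ModularGroup.T ^ (n * N) * g⁻¹ = (g * ModularGroup.T ^ N * g⁻¹) ^ n := by
      rw [conj_pow, ← pow_mul, mul_comm N n]
    rw [h1, RootDvd.compSL_pow_of_eq hcg, ← map_pow, hcn, map_one, one_mul]
  -- and is of level `n * N`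
  obtain ⟨f₁, hf₁⟩ := exists_toMer_eq_of_pow (n * N) n hn f (RootDvd.inclM N n (realHom N ι u))
    (by rw [RootDvd.toMer_inclM]; exact hf) hper'
  -- the constants are all equal to `1`
  apply exists_toMer_eq_of_pow N n hn f (realHom N ι u) hf
  intro g
  obtain ⟨c, -, hcg⟩ := hc g
  have hc1 : c = 1 := by
    apply RootDvd.const_eq_one N n (realHom N ι u) hy f₁ ?_ g c ?_ ?_
    · apply toMer_injective (n * N)
      rw [map_pow, hf₁, RootDvd.toMer_inclM]
      exact hf
    · apply toMer_injective (n * N)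
      rw [toMer_act, map_mul, RootDvd.toMer_cM, hf₁]
      exact hcg
    · have h2 := RootDvd.dvd_ordInf N ι n u hu hdiv (QuotientGroup.mk g⁻¹ : XX N)
      rw [ordInf_apply, conj_mk_apply, inv_inv] at h2
      exact h2
  rw [hcg, hc1, map_one, one_mul]

/-- A modular function over `ℂ` all of whose place-orders are divisible by `n` has an `n`-th root
among the meromorphic functions of level `N`. -/
theorem exists_root_of_dvd_ord (N : ℕ) [NeZero N] (n : ℕ) (hn : 0 < n) (y : FFL ℂ N)
    (hy : y ≠ 0) (hdiv : ∀ P : Place ℂ (FFL ℂ N), (n : ℤ) ∣ P.ord y) :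
    ∃ f : MerN N, f ^ n = realHom N (RingHom.id ℂ) y := by
  have hy' : toMer N (realHom N (RingHom.id ℂ) y) ≠ 0 :=
    (map_ne_zero (toMer N)).mpr ((map_ne_zero (realHom N (RingHom.id ℂ))).mpr hy)
  obtain ⟨f₀, hf₀⟩ := exists_pow_eq_of_dvd_merOrd_B n hn
    (toMer N (realHom N (RingHom.id ℂ) y)) hy' (RootDvd.dvd_merOrd N n y hy hdiv)
  obtain ⟨f', hf'⟩ := exists_toMer_eq_of_dvd_ord N (RingHom.id ℂ) n hn y hy hdiv f₀ hf₀
  exact ⟨f', toMer_injective N (by rw [map_pow, hf', hf₀])⟩

end Fermat.Agent.S42
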