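import Fermat.Agent.S42.ADefs
import Fermat.Agent.S42.MobiusMer
import Fermat.Agent.S42.NormConj
import Fermat.Agent.S42.HeckeCosets
import Fermat.Agent.S42.RootDvd
import Fermat.Agent.S37.Hecke

/-!
# P13 part (A), module M5: Kummer classes are compatible with the Hecke operator `T_ℓ`

If `c ∈ J₀(N)(ℚ̄)` is the Kummer class of the character `ζ_p ^ φ` of `Γ₀(N)` and `φ'` is the
transform of `φ` under the Hecke operator `T_ℓ` on characters (`ℓ ∤ N` prime), then `T_ℓ c` is the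
Kummer class of `ζ_p ^ φ'` : `isKummer_hecke`.

If `c = [D]`, `p D = div u`, `realHom u = f ^ p`, then `T_ℓ c = [α_* β^* D]`,
`p · α_* β^* D = div (Norm_α (β u))` (norm formula), and the product `∏ i, f ∘ M_i` over the
`ℓ + 1` Hecke matrices is a `p`-th root of the realization of `Norm_α (β u)` (`NormConj.lean`)
which transforms under `Γ₀(N)` by `ζ_p ^ φ'` (`MobiusMer.lean`) and is of level `N`
(`RootDvd.lean`).
-/

set_option autoImplicit false
set_option linter.style.haveILetI false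

namespace Fermat.Agent.S42

open Fermat.Agent.S24 AlgebraicCurve ModularCurve CongruenceSubgroup UpperHalfPlane
open scoped MatrixGroups

namespace HeckeKummer

theorem normAlpha_ne_zero (N ℓ : ℕ) [NeZero N] [NeZero ℓ]
    {y : FFL (AlgebraicClosure ℚ) (N * ℓ)} (hy : y ≠ 0) : NormConj.normAlpha N ℓ y ≠ 0 := by
  letI := algebraAlong (heckeAlphaBar (AlgebraicClosure ℚ) N ℓ)
  haveI : Module.Finite (FFL (AlgebraicClosure ℚ) N) (FFL (AlgebraicClosure ℚ) (N * ℓ)) :=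
    Fermat.Agent.S37.heckeAlphaBar_finiteAlong N ℓ
  haveI : Module.Free (FFL (AlgebraicClosure ℚ) N) (FFL (AlgebraicClosure ℚ) (N * ℓ)) :=
    Module.Free.of_divisionRing _ _
  exact Algebra.norm_ne_zero_iff.mpr hy

/-- The divisor side: if `p · D = div u` then `p · T_ℓ D = div (Norm_α (β u))`. -/
theorem ord_normAlpha (N ℓ p : ℕ) [NeZero N] [NeZero ℓ]
    (D : Divisor (AlgebraicClosure ℚ) (FFL (AlgebraicClosure ℚ) N))
    (u : FFL (AlgebraicClosure ℚ) N) (hu : u ≠ 0)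
    (h : ∀ v : Place (AlgebraicClosure ℚ) (FFL (AlgebraicClosure ℚ) N), (p : ℤ) * D v = v.ord u)
    (v : Place (AlgebraicClosure ℚ) (FFL (AlgebraicClosure ℚ) N)) :
    (p : ℤ) * Fermat.Agent.S37.heckeDiv N ℓ D v =
      v.ord (NormConj.normAlpha N ℓ (heckeBetaBar (AlgebraicClosure ℚ) N ℓ u)) := by
  have hβu : heckeBetaBar (AlgebraicClosure ℚ) N ℓ u ≠ 0 :=
    (map_ne_zero (heckeBetaBar (AlgebraicClosure ℚ) N ℓ)).mpr hu
  set E := Divisor.pullbackAlong (heckeBetaBar (AlgebraicClosure ℚ) N ℓ)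
    (Fermat.Agent.S37.heckeBetaBar_isIntegral N ℓ) D with hE
  have hE' : ∀ w : Place (AlgebraicClosure ℚ) (FFL (AlgebraicClosure ℚ) (N * ℓ)),
      ((p : ℤ) • E) w = w.ord (heckeBetaBar (AlgebraicClosure ℚ) N ℓ u) := by
    intro w
    rw [Finsupp.smul_apply, smul_eq_mul, hE, Divisor.pullbackAlong_apply,
      Place.ord_restrictAlong _ (Fermat.Agent.S37.heckeBetaBar_isIntegral N ℓ) w u, ← h]
    ring
  have hN := Fermat.Agent.S37.heckeAlphaBar_normFormulaAlong N ℓ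
  have key : Divisor.pushforwardAlong (heckeAlphaBar (AlgebraicClosure ℚ) N ℓ)
      (Fermat.Agent.S37.heckeAlphaBar_isIntegral N ℓ) ((p : ℤ) • E) v =
        v.ord (NormConj.normAlpha N ℓ (heckeBetaBar (AlgebraicClosure ℚ) N ℓ u)) :=
    hN (heckeBetaBar (AlgebraicClosure ℚ) N ℓ u) hβu ((p : ℤ) • E) hE' v
  rw [Fermat.Agent.S37.heckeDiv_apply, ← key, map_zsmul, Finsupp.smul_apply, smul_eq_mul]

end HeckeKummer

/-- **Kummer classes are compatible with the Hecke operators.** If `c` is the Kummer class of the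
character `ζ_p ^ φ` of `Γ₀(N)` and `φ'` is the Hecke transform of `φ` under `T_ℓ`, then `T_ℓ c`
is the Kummer class of `ζ_p ^ φ'`. -/
theorem isKummer_hecke {N p ℓ : ℕ} [NeZero N] [NeZero p] (hℓ : ℓ.Prime) (hℓN : ¬ ℓ ∣ N)
    {φ φ' : Additive ↥(Gamma0 N) →+ ZMod p} {c : JZero N}
    (h : IsKummer N p φ c) (hT : IsHeckeTransform N ℓ φ φ') :
    IsKummer N p φ' (heckeOperatorBar N ⟨ℓ, hℓ⟩ c) := by
  haveI : NeZero ℓ := ⟨hℓ.ne_zero⟩
  have hp : 0 < p := Nat.pos_of_ne_zero (NeZero.ne p)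
  obtain ⟨D, hD, u, f, hu, hdiv, hc, hfp, hact⟩ := h
  -- the new function and the new divisor
  set u' : FFL (AlgebraicClosure ℚ) N :=
    NormConj.normAlpha N ℓ (heckeBetaBar (AlgebraicClosure ℚ) N ℓ u) with hu'
  have hu'0 : u' ≠ 0 := HeckeKummer.normAlpha_ne_zero N ℓ
    ((map_ne_zero (heckeBetaBar (AlgebraicClosure ℚ) N ℓ)).mpr hu)
  have hdiv' : ∀ v : Place (AlgebraicClosure ℚ) (FFL (AlgebraicClosure ℚ) N),
      (p : ℤ) * Fermat.Agent.S37.heckeDiv N ℓ D v = v.ord u' :=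
    HeckeKummer.ord_normAlpha N ℓ p D u hu hdiv
  -- the new root: the product of the `ℓ + 1` Möbius translates of `f`
  set F' : Mer := ∏ i : Option (Fin ℓ), MobiusMer.compM ℓ i (toMer N f) with hF'
  have hF'p : F' ^ p = toMer N (realHom N embQ u') := by
    rw [hu', NormConj.toMer_realHom_normAlpha N ℓ hℓ hℓN u, hF', ← Finset.prod_pow]
    refine Finset.prod_congr rfl fun i _ => ?_
    rw [← map_pow, ← map_pow, hfp]
  -- it is of level `N`
  obtain ⟨f'', hf''⟩ := exists_toMer_eq_of_dvd_ord N embQ p hp u' hu'0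
    (fun P => ⟨_, (hdiv' P).symm⟩) F' hF'p
  refine ⟨Fermat.Agent.S37.heckeDiv N ℓ D, Fermat.Agent.S37.heckeDiv_mem_degZero N ℓ hD, u', f'',
    hu'0, hdiv', ?_, ?_, ?_⟩
  · rw [hc]
    exact Fermat.Agent.S37.heckeOperatorBar_mk N ⟨ℓ, hℓ⟩ ⟨D, hD⟩
  · apply toMer_injective N
    rw [map_pow, hf'', hF'p]
  · intro γ
    obtain ⟨π, g, hd⟩ := exists_heckeDatum hℓ hℓN γ
    apply toMer_injective N
    rw [toMer_act, hf'', map_mul, hf'']
    exact MobiusMer.compSL_prod_compM hℓ.ne_zero hT f hact γ π g hd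

end Fermat.Agent.S42
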