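import Fermat.Agent.S42.EisSum
import Fermat.Agent.S24.JqExp
import Fermat.Agent.S24.JBasic
import Fermat.Agent.S24.AnnCore

/-!
# Functions of level `N` with a prescribed cuspidal character

For a unitary character `χ` of `Γ₀(N)` which is trivial on the elements of trace square at most
`4`, the quotient of the Eisenstein series of weight `12` with character `χ` by the discriminant
is a nonzero element of `RN N` on which `Γ₀(N)` acts through `χ`.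
-/

set_option autoImplicit false

namespace Fermat.Agent.S42

open Fermat.Agent.S24 UpperHalfPlane CongruenceSubgroup Matrix
open scoped MatrixGroups Manifold

namespace EisChar

/-- The bottom row of a matrix of `SL(2, ℤ)`. -/
def bot (γ : SL(2, ℤ)) : Fin 2 → ℤ := (γ : Matrix (Fin 2) (Fin 2) ℤ) 1

theorem bot_apply (γ : SL(2, ℤ)) (j : Fin 2) : bot γ j = γ 1 j := rfl

theorem bot_mul (γ δ : SL(2, ℤ)) :
    bot (γ * δ) = bot γ ᵥ* (δ : Matrix (Fin 2) (Fin 2) ℤ) := rfl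

theorem bot_one : bot 1 = ![0, 1] := by
  funext j
  fin_cases j <;> simp [bot]

theorem bot_neg_one : bot (-1) = ![0, -1] := by
  funext j
  fin_cases j <;> simp [bot]

/-- A matrix of `SL(2, ℤ)` with vanishing lower left entry has trace `± 2`. -/
theorem trace_sq_of_bot_zero (g : SL(2, ℤ)) (h : g 1 0 = 0) :
    (g : Matrix (Fin 2) (Fin 2) ℤ).trace ^ 2 = 4 := by
  have hdet := g.det_coe
  rw [Matrix.det_fin_two] at hdet
  rw [Matrix.trace_fin_two]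
  have h' : (g : Matrix (Fin 2) (Fin 2) ℤ) 1 0 = 0 := h
  rw [h', mul_zero, sub_zero] at hdet
  rcases Int.eq_one_or_neg_one_of_mul_eq_one' hdet with ⟨h1, h2⟩ | ⟨h1, h2⟩
  · rw [h1, h2]; norm_num
  · rw [h1, h2]; norm_num

section weights

variable {N : ℕ} (χ : ↥(Gamma0 N) →* ℂˣ)

/-- The value of the character only depends on the bottom row. -/
theorem eq_of_bot_eq
    (hcusp : ∀ γ : ↥(Gamma0 N),
      ((γ : SL(2, ℤ)) : Matrix (Fin 2) (Fin 2) ℤ).trace ^ 2 ≤ 4 → χ γ = 1)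
    (γ γ' : ↥(Gamma0 N)) (h : bot (γ : SL(2, ℤ)) = bot (γ' : SL(2, ℤ))) : χ γ = χ γ' := by
  have h1 : χ (γ' * γ⁻¹) = 1 := by
    apply hcusp
    have hb : bot ((γ' * γ⁻¹ : ↥(Gamma0 N)) : SL(2, ℤ)) = ![0, 1] := by
      rw [Subgroup.coe_mul, Subgroup.coe_inv, bot_mul, ← h, ← bot_mul, mul_inv_cancel, bot_one]
    have h10 : ((γ' * γ⁻¹ : ↥(Gamma0 N)) : SL(2, ℤ)) 1 0 = 0 := by
      have := congrFun hb 0
      simpa [bot_apply] using this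
    exact (trace_sq_of_bot_zero _ h10).le
  rw [map_mul, map_inv, mul_inv_eq_one] at h1
  exact h1.symm

open Classical in
/-- The weight function attached to the character: `χ γ⁻¹` on the bottom row of `γ ∈ Γ₀(N)` and
`0` on the other vectors. -/
noncomputable def wt (v : Fin 2 → ℤ) : ℂ :=
  if h : ∃ γ : ↥(Gamma0 N), bot (γ : SL(2, ℤ)) = v then (((χ h.choose)⁻¹ : ℂˣ) : ℂ) else 0

theorem wt_bot
    (hcusp : ∀ γ : ↥(Gamma0 N),
      ((γ : SL(2, ℤ)) : Matrix (Fin 2) (Fin 2) ℤ).trace ^ 2 ≤ 4 → χ γ = 1)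
    (γ : ↥(Gamma0 N)) : wt χ (bot (γ : SL(2, ℤ))) = (((χ γ)⁻¹ : ℂˣ) : ℂ) := by
  have h : ∃ γ' : ↥(Gamma0 N), bot (γ' : SL(2, ℤ)) = bot (γ : SL(2, ℤ)) := ⟨γ, rfl⟩
  rw [wt, dif_pos h, eq_of_bot_eq χ hcusp _ _ h.choose_spec]

theorem wt_of_not {v : Fin 2 → ℤ} (h : ¬ ∃ γ : ↥(Gamma0 N), bot (γ : SL(2, ℤ)) = v) :
    wt χ v = 0 := by
  rw [wt, dif_neg h]

theorem norm_wt_le (hnorm : ∀ γ, ‖((χ γ : ℂˣ) : ℂ)‖ = 1) (v : Fin 2 → ℤ) : ‖wt χ v‖ ≤ 1 := by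
  unfold wt
  split_ifs with h
  · rw [Units.val_inv_eq_inv_val, norm_inv, hnorm, inv_one]
  · simp

theorem wt_vecMul_inv
    (hcusp : ∀ γ : ↥(Gamma0 N),
      ((γ : SL(2, ℤ)) : Matrix (Fin 2) (Fin 2) ℤ).trace ^ 2 ≤ 4 → χ γ = 1)
    (γ₀ : ↥(Gamma0 N)) (v : Fin 2 → ℤ) :
    wt χ (v ᵥ* (((γ₀ : SL(2, ℤ))⁻¹ : SL(2, ℤ)) : Matrix (Fin 2) (Fin 2) ℤ)) =
      ((χ γ₀ : ℂˣ) : ℂ) * wt χ v := by
  by_cases h : ∃ γ : ↥(Gamma0 N), bot (γ : SL(2, ℤ)) = v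
  · obtain ⟨γ, rfl⟩ := h
    have hb : bot (γ : SL(2, ℤ)) ᵥ* (((γ₀ : SL(2, ℤ))⁻¹ : SL(2, ℤ)) : Matrix (Fin 2) (Fin 2) ℤ) =
        bot ((γ * γ₀⁻¹ : ↥(Gamma0 N)) : SL(2, ℤ)) := by
      rw [Subgroup.coe_mul, Subgroup.coe_inv, bot_mul]
    rw [hb, wt_bot χ hcusp, wt_bot χ hcusp, map_mul, map_inv, mul_inv, inv_inv, Units.val_mul,
      mul_comm]
  · have h' : ¬ ∃ γ : ↥(Gamma0 N), bot (γ : SL(2, ℤ)) =
        v ᵥ* (((γ₀ : SL(2, ℤ))⁻¹ : SL(2, ℤ)) : Matrix (Fin 2) (Fin 2) ℤ) := by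
      rintro ⟨γ', hγ'⟩
      apply h
      refine ⟨γ' * γ₀, ?_⟩
      rw [Subgroup.coe_mul, bot_mul, hγ', EisSum.vecMul_vecMul_inv]
    rw [wt_of_not χ h, wt_of_not χ h', mul_zero]

theorem wt_zero_one
    (hcusp : ∀ γ : ↥(Gamma0 N),
      ((γ : SL(2, ℤ)) : Matrix (Fin 2) (Fin 2) ℤ).trace ^ 2 ≤ 4 → χ γ = 1) :
    wt χ ![0, 1] = 1 := by
  have h := wt_bot χ hcusp 1
  rw [Subgroup.coe_one, bot_one, map_one] at h
  simpa using h

theorem neg_one_mem (N : ℕ) : (-1 : SL(2, ℤ)) ∈ Gamma0 N := by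
  rw [Gamma0_mem]
  simp

theorem wt_zero_neg_one
    (hcusp : ∀ γ : ↥(Gamma0 N),
      ((γ : SL(2, ℤ)) : Matrix (Fin 2) (Fin 2) ℤ).trace ^ 2 ≤ 4 → χ γ = 1) :
    wt χ ![0, -1] = 1 := by
  have h := wt_bot χ hcusp ⟨-1, neg_one_mem N⟩
  have h1 : χ ⟨-1, neg_one_mem N⟩ = 1 := by
    apply hcusp
    exact (trace_sq_of_bot_zero (-1) (by simp)).le
  rw [h1] at h
  rw [show bot ((⟨-1, neg_one_mem N⟩ : ↥(Gamma0 N)) : SL(2, ℤ)) = ![0, -1] from bot_neg_one] at h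
  simpa using h

theorem wt_zero_other (v : Fin 2 → ℤ) (h0 : v 0 = 0) (h1 : v 1 ≠ 1) (h2 : v 1 ≠ -1) :
    wt χ v = 0 := by
  apply wt_of_not
  rintro ⟨γ, rfl⟩
  have hdet := (γ : SL(2, ℤ)).det_coe
  rw [Matrix.det_fin_two] at hdet
  have h0' : ((γ : SL(2, ℤ)) : Matrix (Fin 2) (Fin 2) ℤ) 1 0 = 0 := h0
  rw [h0', mul_zero, sub_zero] at hdet
  rcases Int.eq_one_or_neg_one_of_mul_eq_one' hdet with ⟨-, h⟩ | ⟨-, h⟩
  · exact h1 h
  · exact h2 h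

end weights

/-- The quotient of a weighted Eisenstein sum by the discriminant. -/
noncomputable def quo (w : (Fin 2 → ℤ) → ℂ) : ℍ → ℂ :=
  fun τ => EisSum.G w τ / ModularForm.discriminant τ

theorem quo_apply (w : (Fin 2 → ℤ) → ℂ) (τ : ℍ) :
    quo w τ = EisSum.G w τ / ModularForm.discriminant τ := rfl

theorem slComp_quo (w : (Fin 2 → ℤ) → ℂ) (δ : SL(2, ℤ)) :
    slComp δ (quo w) =
      quo (fun v => w (v ᵥ* ((δ⁻¹ : SL(2, ℤ)) : Matrix (Fin 2) (Fin 2) ℤ))) := by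
  funext τ
  have hd : denom δ τ ^ (12 : ℤ) ≠ 0 := zpow_ne_zero _ (denom_ne_zero δ τ)
  rw [slComp_apply, quo_apply, quo_apply, EisSum.G_smul, discriminant_smul_apply,
    mul_div_mul_left _ _ hd]

theorem quo_mdiff {w : (Fin 2 → ℤ) → ℂ} (hw : ∀ v, ‖w v‖ ≤ 1) : MDiff (quo w) :=
  (EisSum.G_mdiff hw).div CuspForm.discriminant.holo' ModularForm.discriminant_ne_zero

/-- `q / Δ` is bounded at `i∞`. -/
theorem bdd_qParam_div_discriminant :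
    IsBoundedAtImInfty
      (fun τ : ℍ => Function.Periodic.qParam 1 (τ : ℂ) / ModularForm.discriminant τ) := by
  refine isBoundedAtImInfty_of_hasSum_qExpansion one_pos
    (c := fun n => ((PowerSeries.coeff n ModularCurve.dedekindEtaUnitInv : ℤ) : ℂ)) fun τ => ?_
  have h := JqExp.conv_dedekindEtaUnitInv.hasSum_int (JqExp.norm_qParam_lt_one τ)
  have hq : Function.Periodic.qParam 1 (τ : ℂ) ≠ 0 := Function.Periodic.qParam_ne_zero _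
  have hF : JqExp.Fq (Function.Periodic.qParam 1 (τ : ℂ)) ^ 24 ≠ 0 :=
    pow_ne_zero _ (JqExp.Fq_ne_zero (JqExp.norm_qParam_lt_one τ))
  have e : Function.Periodic.qParam 1 (τ : ℂ) / ModularForm.discriminant τ =
      JqExp.Ginv (Function.Periodic.qParam 1 (τ : ℂ)) := by
    rw [JqExp.discriminant_eq, JqExp.Ginv]
    field_simp
  rw [e]
  simpa [smul_eq_mul] using h

theorem quo_mero (N : ℕ) [NeZero N] {w : (Fin 2 → ℤ) → ℂ} (hw : ∀ v, ‖w v‖ ≤ 1) :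
    IsBoundedAtImInfty
      (fun τ : ℍ => Function.Periodic.qParam (N : ℝ) (τ : ℂ) ^ N * quo w τ) := by
  have h := bdd_qParam_div_discriminant.mul (EisSum.G_isBoundedAtImInfty hw)
  have e : (fun τ : ℍ => Function.Periodic.qParam (N : ℝ) (τ : ℂ) ^ N * quo w τ) =
      (fun τ : ℍ => Function.Periodic.qParam 1 (τ : ℂ) / ModularForm.discriminant τ) *
        EisSum.G w := by
    funext τ
    rw [QInf.qParam_pow_self (Nat.pos_of_ne_zero (NeZero.ne N)), Nat.cast_one, quo_apply,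
      Pi.mul_apply]
    ring
  rw [e]
  exact h

theorem G_const_mul (c : ℂ) (w : (Fin 2 → ℤ) → ℂ) (τ : ℍ) :
    EisSum.G (fun v => c * w v) τ = c * EisSum.G w τ := by
  unfold EisSum.G
  rw [← tsum_mul_left]
  exact tsum_congr fun v => by ring

/-- A function invariant under `τ ↦ τ + N` is `N`-periodic. -/
theorem periodic_of_vadd {N : ℕ} {f : ℍ → ℂ} (h : ∀ τ : ℍ, f ((N : ℝ) +ᵥ τ) = f τ) :
    Function.Periodic (f ∘ ofComplex) ((N : ℝ) : ℂ) := by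
  intro w
  by_cases hw : 0 < w.im
  · have hw' : 0 < (w + ((N : ℝ) : ℂ)).im := by simpa using hw
    simp only [Function.comp_apply, ofComplex_apply_of_im_pos hw', ofComplex_apply_of_im_pos hw]
    rw [← h ⟨w, hw⟩]
    congr 1
    ext
    simp [add_comm]
  · have hw0 : w.im ≤ 0 := not_lt.mp hw
    have hw' : (w + ((N : ℝ) : ℂ)).im ≤ 0 := by simpa using hw0
    simp only [Function.comp_apply, ofComplex_apply_of_im_nonpos hw',
      ofComplex_apply_of_im_nonpos hw0]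

theorem conj_T_mem (N : ℕ) (δ : SL(2, ℤ)) :
    δ * ModularGroup.T ^ (N : ℤ) * δ⁻¹ ∈ Gamma0 N := by
  have h1 : ModularGroup.T ^ (N : ℤ) ∈ Gamma N := by
    have := ModularGroup_T_pow_mem_Gamma (N : ℤ) (N : ℤ) dvd_rfl
    simpa using this
  have h2 : δ * ModularGroup.T ^ (N : ℤ) * δ⁻¹ ∈ Gamma N := (Gamma_normal N).conj_mem _ h1 δ
  rw [Gamma_mem] at h2
  rw [Gamma0_mem]
  exact h2.2.2.1

theorem conj_T_trace (N : ℕ) (δ : SL(2, ℤ)) :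
    ((δ * ModularGroup.T ^ (N : ℤ) * δ⁻¹ : SL(2, ℤ)) : Matrix (Fin 2) (Fin 2) ℤ).trace = 2 := by
  have h : ((δ * ModularGroup.T ^ (N : ℤ) * δ⁻¹ : SL(2, ℤ)) : Matrix (Fin 2) (Fin 2) ℤ) =
      (δ : Matrix (Fin 2) (Fin 2) ℤ) *
        ((ModularGroup.T ^ (N : ℤ) : SL(2, ℤ)) : Matrix (Fin 2) (Fin 2) ℤ) *
        ((δ⁻¹ : SL(2, ℤ)) : Matrix (Fin 2) (Fin 2) ℤ) := rfl
  rw [h, Matrix.trace_mul_comm, ← Matrix.mul_assoc, EisSum.coe_inv_mul, Matrix.one_mul,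
    ModularGroup.coe_T_zpow, Matrix.trace_fin_two]
  simp

section character

variable {N : ℕ} (χ : ↥(Gamma0 N) →* ℂˣ)

/-- `Γ₀(N)` acts on the quotient through the character. -/
theorem quo_wt_smul
    (hcusp : ∀ γ : ↥(Gamma0 N),
      ((γ : SL(2, ℤ)) : Matrix (Fin 2) (Fin 2) ℤ).trace ^ 2 ≤ 4 → χ γ = 1)
    (γ : ↥(Gamma0 N)) (τ : ℍ) :
    quo (wt χ) ((γ : SL(2, ℤ)) • τ) = ((χ γ : ℂˣ) : ℂ) * quo (wt χ) τ := by
  have h := congrFun (slComp_quo (wt χ) (γ : SL(2, ℤ))) τ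
  rw [slComp_apply] at h
  rw [h, quo_apply, quo_apply]
  simp only [wt_vecMul_inv χ hcusp]
  rw [G_const_mul, mul_div_assoc]

theorem slComp_quo_wt_vadd
    (hcusp : ∀ γ : ↥(Gamma0 N),
      ((γ : SL(2, ℤ)) : Matrix (Fin 2) (Fin 2) ℤ).trace ^ 2 ≤ 4 → χ γ = 1)
    (δ : SL(2, ℤ)) (τ : ℍ) :
    slComp δ (quo (wt χ)) ((N : ℝ) +ᵥ τ) = slComp δ (quo (wt χ)) τ := by
  have hT : ((N : ℝ) +ᵥ τ) = (ModularGroup.T ^ (N : ℤ)) • τ := by
    rw [modular_T_zpow_smul]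
    simp
  rw [slComp_apply, slComp_apply, hT]
  have hmul : δ • ((ModularGroup.T ^ (N : ℤ)) • τ) =
      (δ * ModularGroup.T ^ (N : ℤ) * δ⁻¹) • (δ • τ) := by
    rw [← mul_smul, ← mul_smul]
    congr 1
    group
  rw [hmul]
  have h := quo_wt_smul χ hcusp ⟨_, conj_T_mem N δ⟩ (δ • τ)
  have hχ : χ ⟨_, conj_T_mem N δ⟩ = 1 := hcusp _ (by
    show ((δ * ModularGroup.T ^ (N : ℤ) * δ⁻¹ : SL(2, ℤ)) :
      Matrix (Fin 2) (Fin 2) ℤ).trace ^ 2 ≤ 4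
    rw [conj_T_trace]
    norm_num)
  rw [hχ] at h
  rw [show (δ * ModularGroup.T ^ (N : ℤ) * δ⁻¹) • (δ • τ) =
    (((⟨_, conj_T_mem N δ⟩ : ↥(Gamma0 N)) : SL(2, ℤ))) • (δ • τ) from rfl, h]
  simp

end character

end EisChar

/-- For a unitary character `χ` of `Γ₀(N)` trivial on the elements of trace square at most `4`
there is a nonzero function of level `N` on which `Γ₀(N)` acts through `χ`. -/
theorem exists_char_function (N : ℕ) [NeZero N] (χ : ↥(CongruenceSubgroup.Gamma0 N) →* ℂˣ)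
    (hnorm : ∀ γ, ‖((χ γ : ℂˣ) : ℂ)‖ = 1)
    (hcusp : ∀ γ : ↥(CongruenceSubgroup.Gamma0 N),
      ((γ : SL(2, ℤ)) : Matrix (Fin 2) (Fin 2) ℤ).trace ^ 2 ≤ 4 → χ γ = 1) :
    ∃ f : ↥(Fermat.Agent.S24.RN N), f ≠ 0 ∧ ∀ γ : ↥(CongruenceSubgroup.Gamma0 N),
      Fermat.Agent.S24.actR N (γ : SL(2, ℤ)) f =
        Fermat.Agent.S24.constRN N ((χ γ : ℂˣ) : ℂ) * f := by
  have hw : ∀ v, ‖EisChar.wt χ v‖ ≤ 1 := EisChar.norm_wt_le χ hnorm
  have hmem : EisChar.quo (EisChar.wt χ) ∈ RN N := by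
    intro δ
    refine ⟨?_, ?_, N, ?_⟩
    · rw [EisChar.slComp_quo]
      exact EisChar.quo_mdiff fun v => hw _
    · exact EisChar.periodic_of_vadd (EisChar.slComp_quo_wt_vadd χ hcusp δ)
    · rw [EisChar.slComp_quo]
      exact EisChar.quo_mero N fun v => hw _
  refine ⟨⟨_, hmem⟩, ?_, ?_⟩
  · intro h0
    obtain ⟨z, hz⟩ := EisSum.exists_G_ne_zero hw (EisChar.wt_zero_one χ hcusp)
      (EisChar.wt_zero_neg_one χ hcusp) (fun v => EisChar.wt_zero_other χ v)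
    have h1 : EisChar.quo (EisChar.wt χ) z = 0 := congrFun (congrArg Subtype.val h0) z
    exact div_ne_zero hz (ModularForm.discriminant_ne_zero z) h1
  · intro γ
    apply Subtype.ext
    funext τ
    exact EisChar.quo_wt_smul χ hcusp γ τ

end Fermat.Agent.S42
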