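import Fermat.Agent.S42.ADefs
import Fermat.Agent.S42.RootMerN
import Fermat.Agent.S24.Analytic

/-!
P13 (A), module M2: holomorphic `Γ₀(N)`-invariant functions of level `N` are modular functions.

* `exists_realHom_eq_of_invariant_hol`: a `Γ₀(N)`-invariant element of `RN N` lies in the image
  of the function field `FFL ℂ N` under the analytic realisation.
* `exists_realHom_eq_of_invariant_pow`: a `Γ₀(N)`-invariant `n`-th root (in `MerN N`) of a
  modular function is a modular function.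

The proof of the first statement is a degree count: every invariant holomorphic function is a
root of a monic polynomial of degree `[SL(2, ℤ) : Γ₀(N)]` over `ℂ(j)` (product over the cosets
of the translates), and `FFL ℂ N` already has this degree over `ℂ(j)`.
-/

set_option autoImplicit false

namespace Fermat.Agent.S42

open Fermat.Agent.S24 CongruenceSubgroup
open scoped MatrixGroups

namespace InvField

open Polynomial IntermediateField

section Abstract

variable {K0 M : Type*} [Field K0] [Field M] [Algebra K0 M]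

/-- If `q * θ` (with `q ≠ 0` in the base field) is a root of a monic polynomial of degree `d`,
then `θ` is integral with minimal polynomial of degree at most `d`. -/
theorem natDegree_minpoly_le_of_scaled (d : ℕ) (q : K0) (hq : q ≠ 0) (θ : M) (p : K0[X])
    (hp : p.Monic) (hdeg : p.natDegree = d) (h0 : aeval (algebraMap K0 M q * θ) p = 0) :
    IsIntegral K0 θ ∧ (minpoly K0 θ).natDegree ≤ d := by
  have h1 : aeval θ (scaleRoots p q⁻¹) = 0 := by
    have h := scaleRoots_aeval_eq_zero (r := q⁻¹) h0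
    rwa [← mul_assoc, ← map_mul, inv_mul_cancel₀ hq, map_one, one_mul] at h
  have hm : (scaleRoots p q⁻¹).Monic := (monic_scaleRoots_iff q⁻¹).mpr hp
  refine ⟨⟨_, hm, h1⟩, ?_⟩
  calc (minpoly K0 θ).natDegree ≤ (scaleRoots p q⁻¹).natDegree :=
        natDegree_le_of_dvd (minpoly.dvd K0 θ h1) hm.ne_zero
    _ = d := by rw [natDegree_scaleRoots, hdeg]

/-- **Degree bound.** Let `A` be a subring of the field extension `M / K0` all of whose elements
are roots of monic polynomials of degree `d` over `K0`, and such that every element of `K0` is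
a quotient of elements of `K0` lying in `A`. Then a subfield of `M` generated over `K0` by
finitely many elements of `A` has degree at most `d`. -/
theorem finrank_adjoin_le [CharZero K0] (d : ℕ) (A : Subring M) (S : Set M) (hS : S.Finite)
    (hSA : S ⊆ A)
    (hA : ∀ b ∈ A, ∃ p : K0[X], p.Monic ∧ p.natDegree = d ∧ aeval b p = 0)
    (hden : ∀ k : K0, ∃ q : K0, q ≠ 0 ∧ algebraMap K0 M q ∈ A ∧ algebraMap K0 M (q * k) ∈ A) :
    FiniteDimensional K0 (IntermediateField.adjoin K0 S) ∧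
      Module.finrank K0 (IntermediateField.adjoin K0 S) ≤ d := by
  have hint : ∀ x ∈ S, IsIntegral K0 x := fun x hx => by
    obtain ⟨p, hp, -, hp0⟩ := hA x (hSA hx)
    exact ⟨p, hp, hp0⟩
  have : Finite S := hS.to_subtype
  have hfd : FiniteDimensional K0 (IntermediateField.adjoin K0 S) :=
    IntermediateField.finiteDimensional_adjoin hint
  refine ⟨hfd, ?_⟩
  have hsub : (IntermediateField.adjoin K0 S).toSubalgebra = Algebra.adjoin K0 S :=
    IntermediateField.adjoin_toSubalgebra_of_isAlgebraic fun x hx => (hint x hx).isAlgebraic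
  have hclear : ∀ θ ∈ Algebra.adjoin K0 S,
      ∃ q : K0, q ≠ 0 ∧ algebraMap K0 M q ∈ A ∧ algebraMap K0 M q * θ ∈ A := by
    intro θ hθ
    induction hθ using Algebra.adjoin_induction with
    | mem x hx =>
      exact ⟨1, one_ne_zero, by rw [map_one]; exact one_mem _,
        by rw [map_one, one_mul]; exact hSA hx⟩
    | algebraMap k =>
      obtain ⟨q, hq, hqA, hqk⟩ := hden k
      exact ⟨q, hq, hqA, by rw [← map_mul]; exact hqk⟩
    | add x y _ _ hx hy =>
      obtain ⟨q₁, hq₁, hA₁, h₁⟩ := hx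
      obtain ⟨q₂, hq₂, hA₂, h₂⟩ := hy
      refine ⟨q₁ * q₂, mul_ne_zero hq₁ hq₂, by rw [map_mul]; exact mul_mem hA₁ hA₂, ?_⟩
      have e : algebraMap K0 M (q₁ * q₂) * (x + y) =
          algebraMap K0 M q₂ * (algebraMap K0 M q₁ * x) +
            algebraMap K0 M q₁ * (algebraMap K0 M q₂ * y) := by
        rw [map_mul]; ring
      rw [e]
      exact add_mem (mul_mem hA₂ h₁) (mul_mem hA₁ h₂)
    | mul x y _ _ hx hy =>
      obtain ⟨q₁, hq₁, hA₁, h₁⟩ := hx
      obtain ⟨q₂, hq₂, hA₂, h₂⟩ := hy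
      refine ⟨q₁ * q₂, mul_ne_zero hq₁ hq₂, by rw [map_mul]; exact mul_mem hA₁ hA₂, ?_⟩
      have e : algebraMap K0 M (q₁ * q₂) * (x * y) =
          (algebraMap K0 M q₁ * x) * (algebraMap K0 M q₂ * y) := by
        rw [map_mul]; ring
      rw [e]
      exact mul_mem h₁ h₂
  obtain ⟨θ, hθ⟩ := Field.exists_primitive_element K0 (IntermediateField.adjoin K0 S)
  have hθmem : (θ : M) ∈ Algebra.adjoin K0 S := by
    rw [← hsub]
    exact θ.2
  obtain ⟨q, hq, -, hqθ⟩ := hclear _ hθmem
  obtain ⟨p, hp, hdeg, hp0⟩ := hA _ hqθ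
  obtain ⟨hintθ, hle⟩ := natDegree_minpoly_le_of_scaled d q hq (θ : M) p hp hdeg hp0
  have hinj : Function.Injective (algebraMap (IntermediateField.adjoin K0 S) M) :=
    (algebraMap (IntermediateField.adjoin K0 S) M).injective
  have hintθ' : IsIntegral K0 θ := (isIntegral_algebraMap_iff hinj).mp hintθ
  calc Module.finrank K0 (IntermediateField.adjoin K0 S)
      = Module.finrank K0 K0⟮θ⟯ := by rw [hθ, IntermediateField.finrank_top']
    _ = (minpoly K0 θ).natDegree := IntermediateField.adjoin.finrank hintθ'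
    _ = (minpoly K0 (θ : M)).natDegree := by
        rw [← minpoly.algebraMap_eq hinj θ]
        rfl
    _ ≤ d := hle

/-- **Degree count.** Let `F / K0` be a finite extension in characteristic zero, generated by a
finite set `S`, and `ψ : F → M` a `K0`-embedding into a field. Let `A` be a subring of `M`
containing `ψ S`, all of whose elements are roots of monic polynomials of degree `[F : K0]` over
`K0`, and such that every element of `K0` is a quotient of elements of `K0` lying in `A`. Then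
`A` is contained in the image of `ψ`. -/
theorem exists_map_eq [CharZero K0] {F : Type*} [Field F] [Algebra K0 F]
    [FiniteDimensional K0 F] (ψ : F →ₐ[K0] M) (A : Subring M) (S : Set F) (hS : S.Finite)
    (hgen : IntermediateField.adjoin K0 S = ⊤) (hSA : ∀ s ∈ S, ψ s ∈ A)
    (hA : ∀ b ∈ A, ∃ p : K0[X], p.Monic ∧ p.natDegree = Module.finrank K0 F ∧ aeval b p = 0)
    (hden : ∀ k : K0, ∃ q : K0, q ≠ 0 ∧ algebraMap K0 M q ∈ A ∧ algebraMap K0 M (q * k) ∈ A)
    (y : M) (hy : y ∈ A) : ∃ v : F, ψ v = y := by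
  have hT : (ψ '' S ∪ {y}) ⊆ (A : Set M) := by
    rintro x (⟨s, hs, rfl⟩ | hx)
    · exact hSA s hs
    · rw [Set.mem_singleton_iff] at hx
      rw [hx]
      exact hy
  obtain ⟨hfd, hrk⟩ := finrank_adjoin_le (Module.finrank K0 F) A (ψ '' S ∪ {y})
    ((hS.image _).union (Set.finite_singleton _)) hT hA hden
  have hmem : ∀ f : F, ψ f ∈ (IntermediateField.adjoin K0 (ψ '' S ∪ {y})).toSubalgebra := by
    intro f
    have h1 : ψ f ∈ (IntermediateField.adjoin K0 S).map ψ :=
      ⟨f, by rw [hgen]; trivial, rfl⟩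
    rw [IntermediateField.adjoin_map] at h1
    exact IntermediateField.adjoin.mono K0 _ _ Set.subset_union_left h1
  let φ : F →ₐ[K0] ↥(IntermediateField.adjoin K0 (ψ '' S ∪ {y})).toSubalgebra :=
    ψ.codRestrict _ hmem
  have hφinj : Function.Injective φ.toLinearMap := φ.toRingHom.injective
  have hle : Module.finrank K0 F ≤
      Module.finrank K0 ↥(IntermediateField.adjoin K0 (ψ '' S ∪ {y})) :=
    LinearMap.finrank_le_finrank_of_injective hφinj
  have hsurj : Function.Surjective φ.toLinearMap :=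
    (LinearMap.injective_iff_surjective_of_finrank_eq_finrank (le_antisymm hle hrk)).mp hφinj
  obtain ⟨v, hv⟩ := hsurj ⟨y, IntermediateField.subset_adjoin _ _ (Or.inr rfl)⟩
  exact ⟨v, congrArg Subtype.val hv⟩

end Abstract

variable (N : ℕ) [NeZero N]

/-- The subring of `Γ₀(N)`-invariant elements of `RN N`. -/
def invR : Subring ↥(RN N) where
  carrier := {y | ∀ γ ∈ Gamma0 N, actR N γ y = y}
  mul_mem' := fun {a b} ha hb γ hγ => by rw [map_mul, ha γ hγ, hb γ hγ]
  one_mem' := fun γ _ => map_one _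
  add_mem' := fun {a b} ha hb γ hγ => by rw [map_add, ha γ hγ, hb γ hγ]
  zero_mem' := fun γ _ => map_zero _
  neg_mem' := fun {a} ha γ hγ => by rw [map_neg, ha γ hγ]

omit [NeZero N] in
theorem mem_invR {y : ↥(RN N)} : y ∈ invR N ↔ ∀ γ ∈ Gamma0 N, actR N γ y = y := Iff.rfl

/-- The subring of `MerN N` of (images of) `Γ₀(N)`-invariant elements of `RN N`. -/
def invM : Subring (MerN N) := (invR N).map (algebraMap ↥(RN N) (MerN N))

omit [NeZero N] in
theorem algebraMap_mem_invM {y : ↥(RN N)} (hy : y ∈ invR N) :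
    algebraMap ↥(RN N) (MerN N) y ∈ invM N := ⟨y, hy, rfl⟩

omit [NeZero N] in
/-- The translate of an invariant function by (the inverse of) a coset representative does not
depend on the representative. -/
theorem actR_out_inv {y : ↥(RN N)} (hy : y ∈ invR N) (g : SL(2, ℤ)) :
    actR N (Quotient.out (QuotientGroup.mk g : XX N))⁻¹ y = actR N g⁻¹ y := by
  obtain ⟨h, hh⟩ := QuotientGroup.mk_out_eq_mul (Gamma0 N) g
  rw [hh, mul_inv_rev, actR_mul, hy _ (inv_mem h.2)]

omit [NeZero N] in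
/-- `SL(2, ℤ)` permutes the translates of an invariant function. -/
theorem actR_actR_out_inv {y : ↥(RN N)} (hy : y ∈ invR N) (γ : SL(2, ℤ)) (x : XX N) :
    actR N γ (actR N (Quotient.out x)⁻¹ y) = actR N (Quotient.out (γ⁻¹ • x))⁻¹ y := by
  induction x using QuotientGroup.induction_on with
  | H g =>
    rw [actR_out_inv N hy, MulAction.Quotient.smul_mk, actR_out_inv N hy, ← actR_mul,
      smul_eq_mul, mul_inv_rev, inv_inv]

/-- An `SL(2, ℤ)`-invariant element of `RN N` is the realisation of a polynomial in `j`. -/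
theorem exists_aeval_of_invariant (f : ↥(RN N)) (hinv : ∀ γ : SL(2, ℤ), actR N γ f = f) :
    ∃ r : ℂ[X], realHom N (RingHom.id ℂ) (aeval (jL ℂ N) r) = algebraMap ↥(RN N) (MerN N) f := by
  have hmem : f ∈ RNk N ⊤ := fun _ _ => Subfield.mem_top _
  obtain ⟨p, hp⟩ := exists_poly_of_mem_RNk N ⊤ hmem hinv
  obtain ⟨g, hg, hg'⟩ := Integral.exists_realHom_aeval_jL N (RingHom.id ℂ)
    (p.map (⊤ : Subfield ℂ).subtype)
  refine ⟨p.map (⊤ : Subfield ℂ).subtype, ?_⟩
  have hgf : g = f := by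
    apply Subtype.ext
    funext τ
    rw [hg' τ, hp τ, Polynomial.map_id]
  rw [hg, hgf]

/-- **Characteristic polynomial.** A `Γ₀(N)`-invariant element of `RN N` is a root of a monic
polynomial of degree `[SL(2, ℤ) : Γ₀(N)]` with coefficients in `ℂ(j)`. -/
theorem exists_monic_root {y : ↥(RN N)} (hy : y ∈ invR N) :
    ∃ p : Polynomial ↥(ℂ⟮jL ℂ N⟯), p.Monic ∧ p.natDegree = Fintype.card (XX N) ∧
      (p.map ((realHom N (RingHom.id ℂ)).comp (algebraMap ↥(ℂ⟮jL ℂ N⟯) (FFL ℂ N)))).eval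
        (algebraMap ↥(RN N) (MerN N) y) = 0 := by
  classical
  let Q : Polynomial ↥(RN N) := ∏ x : XX N, (X - C (actR N (Quotient.out x)⁻¹ y))
  have hinv : ∀ γ : SL(2, ℤ), Q.map (actR N γ) = Q := by
    intro γ
    simp only [Q, Polynomial.map_prod, Polynomial.map_sub, Polynomial.map_X, Polynomial.map_C,
      actR_actR_out_inv N hy]
    exact Fintype.prod_equiv (MulAction.toPerm γ⁻¹) _ _ (fun x => rfl)
  have hcoeff_inv : ∀ (n : ℕ) (γ : SL(2, ℤ)), actR N γ (Q.coeff n) = Q.coeff n := by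
    intro n γ
    rw [← Polynomial.coeff_map, hinv]
  have hQm : Q.Monic := monic_prod_of_monic _ _ fun x _ => monic_X_sub_C _
  have hQdeg : Q.natDegree = Fintype.card (XX N) := by
    simp only [Q]
    rw [natDegree_prod_of_monic _ _ fun x _ => monic_X_sub_C _]
    simp
  have hl : Q.map (algebraMap ↥(RN N) (MerN N)) ∈
      Polynomial.lifts ((realHom N (RingHom.id ℂ)).comp
        (algebraMap ↥(ℂ⟮jL ℂ N⟯) (FFL ℂ N))) := by
    rw [Polynomial.lifts_iff_coeff_lifts]
    intro n
    obtain ⟨r, hr⟩ := exists_aeval_of_invariant N (Q.coeff n) (hcoeff_inv n)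
    refine ⟨Polynomial.aeval (AdjoinSimple.gen ℂ (jL ℂ N)) r, ?_⟩
    rw [Polynomial.coeff_map, RingHom.comp_apply, ← Polynomial.aeval_algebraMap_apply,
      AdjoinSimple.algebraMap_gen, hr]
  have hinjalg : Function.Injective (algebraMap ↥(RN N) (MerN N)) :=
    IsFractionRing.injective ↥(RN N) (MerN N)
  obtain ⟨p, hp, hdeg, hmonic⟩ :=
    Polynomial.lifts_and_natDegree_eq_and_monic hl (hQm.map _)
  refine ⟨p, hmonic, ?_, ?_⟩
  · rw [hdeg, natDegree_map_eq_of_injective hinjalg, hQdeg]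
  · rw [hp, Polynomial.eval_map, Polynomial.eval₂_at_apply]
    have h0 : Q.eval y = 0 := by
      simp only [Q]
      rw [Polynomial.eval_prod]
      apply Finset.prod_eq_zero (Finset.mem_univ (QuotientGroup.mk 1 : XX N))
      rw [Polynomial.eval_sub, Polynomial.eval_X, Polynomial.eval_C, actR_out_inv N hy, inv_one,
        actR_one, sub_self]
    rw [h0, map_zero]

/-- The realisation of an element of the `ℂ`-algebra generated by the `j(dτ)`, `d ∣ N`, is (the
image of) a `Γ₀(N)`-invariant element of `RN N`. -/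
theorem realHom_mem_invM {f : FFL ℂ N} (hf : f ∈ Algebra.adjoin ℂ (jdLSet N ℂ)) :
    realHom N (RingHom.id ℂ) f ∈ invM N := by
  induction hf using Algebra.adjoin_induction with
  | mem b hb =>
    obtain ⟨d, hd, rfl⟩ := hb
    rw [realHom_jdL]
    exact algebraMap_mem_invM N fun γ hγ => actR_JdRN_of_mem N d hd γ hγ
  | algebraMap c =>
    rw [realHom_algebraMap]
    exact algebraMap_mem_invM N fun γ _ => actR_constRN N γ _
  | add a b _ _ ha hb =>
    rw [RingHom.map_add]
    exact add_mem ha hb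
  | mul a b _ _ ha hb =>
    rw [RingHom.map_mul]
    exact mul_mem ha hb

end InvField

open InvField IntermediateField in
/-- A holomorphic `Γ₀(N)`-invariant function of level `N` is a modular function: it lies in the
image of the function field `ℂ(X₀(N))` under the analytic realisation. -/
theorem exists_realHom_eq_of_invariant_hol (N : ℕ) [NeZero N] (y : ↥(RN N))
    (h : ∀ γ ∈ Gamma0 N, actR N γ y = y) :
    ∃ v : FFL ℂ N, realHom N (RingHom.id ℂ) v = algebraMap ↥(RN N) (MerN N) y := by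
  classical
  let _ : Algebra ↥(ℂ⟮jL ℂ N⟯) (MerN N) :=
    ((realHom N (RingHom.id ℂ)).comp (algebraMap ↥(ℂ⟮jL ℂ N⟯) (FFL ℂ N))).toAlgebra
  have hmapK : ∀ k : ↥(ℂ⟮jL ℂ N⟯), algebraMap ↥(ℂ⟮jL ℂ N⟯) (MerN N) k =
      realHom N (RingHom.id ℂ) (k : FFL ℂ N) := fun _ => rfl
  let ψ : FFL ℂ N →ₐ[↥(ℂ⟮jL ℂ N⟯)] MerN N :=
    { toRingHom := realHom N (RingHom.id ℂ)
      commutes' := fun _ => rfl }
  have hψ : ∀ f : FFL ℂ N, ψ f = realHom N (RingHom.id ℂ) f := fun _ => rfl
  have hchar : CharZero ↥(ℂ⟮jL ℂ N⟯) :=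
    charZero_of_injective_algebraMap (algebraMap ℂ ↥(ℂ⟮jL ℂ N⟯)).injective
  have hfdF : FiniteDimensional ↥(ℂ⟮jL ℂ N⟯) (FFL ℂ N) := finiteDimensional_jL N ℂ
  have hrkF : Module.finrank ↥(ℂ⟮jL ℂ N⟯) (FFL ℂ N) = Fintype.card (XX N) := finrank_jL N ℂ
  have hSA : ∀ s ∈ jdLSet N ℂ, ψ s ∈ invM N := fun s hs =>
    realHom_mem_invM N (Algebra.subset_adjoin hs)
  have hA : ∀ b ∈ invM N, ∃ p : Polynomial ↥(ℂ⟮jL ℂ N⟯),
      p.Monic ∧ p.natDegree = Module.finrank ↥(ℂ⟮jL ℂ N⟯) (FFL ℂ N) ∧
        Polynomial.aeval b p = 0 := by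
    rintro b ⟨z, hz, rfl⟩
    obtain ⟨p, hp, hdeg, hp0⟩ := exists_monic_root N hz
    refine ⟨p, hp, hdeg.trans hrkF.symm, ?_⟩
    rw [Polynomial.aeval_def, ← Polynomial.eval_map]
    exact hp0
  have hjA : jL ℂ N ∈ Algebra.adjoin ℂ (jdLSet N ℂ) :=
    Algebra.subset_adjoin (jL_mem_jdLSet N ℂ)
  have hden : ∀ k : ↥(ℂ⟮jL ℂ N⟯), ∃ q : ↥(ℂ⟮jL ℂ N⟯), q ≠ 0 ∧
      algebraMap ↥(ℂ⟮jL ℂ N⟯) (MerN N) q ∈ invM N ∧
      algebraMap ↥(ℂ⟮jL ℂ N⟯) (MerN N) (q * k) ∈ invM N := by
    intro k
    obtain ⟨r, s, hrs⟩ := (IntermediateField.mem_adjoin_simple_iff ℂ (k : FFL ℂ N)).mp k.2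
    by_cases hs : Polynomial.aeval (jL ℂ N) s = 0
    · have hk0 : k = 0 := by
        apply Subtype.ext
        rw [hrs, hs, div_zero]
        rfl
      refine ⟨1, one_ne_zero, ?_, ?_⟩
      · rw [hmapK]
        exact realHom_mem_invM N (one_mem _)
      · rw [hk0, mul_zero, hmapK]
        exact realHom_mem_invM N (zero_mem _)
    · refine ⟨⟨Polynomial.aeval (jL ℂ N) s, DegreeAbs.aeval_mem_adjoin_simple (jL ℂ N) s⟩,
        ?_, ?_, ?_⟩
      · intro h0
        exact hs (congrArg Subtype.val h0)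
      · rw [hmapK]
        exact realHom_mem_invM N (DegreeAbs.aeval_mem_subalgebra _ hjA s)
      · rw [hmapK]
        have e1 : (((⟨Polynomial.aeval (jL ℂ N) s,
            DegreeAbs.aeval_mem_adjoin_simple (jL ℂ N) s⟩ : ↥(ℂ⟮jL ℂ N⟯)) * k :
              ↥(ℂ⟮jL ℂ N⟯)) : FFL ℂ N) = Polynomial.aeval (jL ℂ N) r := by
          show Polynomial.aeval (jL ℂ N) s * (k : FFL ℂ N) = _
          rw [hrs, mul_div_cancel₀ _ hs]
        rw [e1]
        exact realHom_mem_invM N (DegreeAbs.aeval_mem_subalgebra _ hjA r)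
  exact exists_map_eq ψ (invM N) (jdLSet N ℂ) (finite_jdLSet N ℂ)
    (DegreeAbs.adjoin_eq_top_of_le _ _ (adjoin_jdLSet N ℂ)) hSA hA hden _
    (algebraMap_mem_invM N h)

open InvField in
/-- A `Γ₀(N)`-invariant `n`-th root of a modular function is a modular function. -/
theorem exists_realHom_eq_of_invariant_pow (N : ℕ) [NeZero N] (x : MerN N) (n : ℕ) (hn : 0 < n)
    (e : FFL ℂ N) (hx : x ^ n = realHom N (RingHom.id ℂ) e)
    (h : ∀ γ ∈ Gamma0 N, act N γ x = x) :
    ∃ v : FFL ℂ N, realHom N (RingHom.id ℂ) v = x := by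
  have he : e ∈ IntermediateField.adjoin ℂ (jdLSet N ℂ) := by
    rw [adjoin_jdLSet]
    trivial
  obtain ⟨a, ha, b, hb, hab⟩ := IntermediateField.mem_adjoin_iff_div.mp he
  by_cases hb0 : b = 0
  · refine ⟨0, ?_⟩
    rw [hab, hb0, div_zero, RingHom.map_zero] at hx
    rw [RingHom.map_zero]
    exact ((pow_eq_zero_iff hn.ne').mp hx).symm
  · have hrb : realHom N (RingHom.id ℂ) b ≠ 0 := fun h0 =>
      hb0 ((realHom N (RingHom.id ℂ)).injective (h0.trans (RingHom.map_zero _).symm))
    have hpow : (x * realHom N (RingHom.id ℂ) b) ^ n =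
        realHom N (RingHom.id ℂ) (a * b ^ (n - 1)) := by
      obtain ⟨m, rfl⟩ : ∃ m, n = m + 1 := ⟨n - 1, by omega⟩
      have e1 : e * b ^ (m + 1) = a * b ^ (m + 1 - 1) := by
        rw [Nat.add_sub_cancel, hab, pow_succ]
        field_simp
      rw [mul_pow, hx, ← RingHom.map_pow, ← RingHom.map_mul, e1]
    obtain ⟨c, -, hceq⟩ := realHom_mem_invM N
      (Subalgebra.mul_mem _ ha (Subalgebra.pow_mem _ hb (n - 1)))
    obtain ⟨y', hy'⟩ := exists_RN_eq_of_pow N n hn (x * realHom N (RingHom.id ℂ) b) c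
      (by rw [hpow]; exact hceq.symm)
    have hy'inv : ∀ γ ∈ Gamma0 N, actR N γ y' = y' := by
      intro γ hγ
      apply IsFractionRing.injective ↥(RN N) (MerN N)
      rw [← act_algebraMap, hy', RingHom.map_mul, h γ hγ, act_realHom_of_mem N _ γ hγ]
    obtain ⟨v', hv'⟩ := exists_realHom_eq_of_invariant_hol N y' hy'inv
    refine ⟨v' / b, ?_⟩
    rw [map_div₀, hv', hy', mul_div_cancel_right₀ _ hrb]

end Fermat.Agent.S42
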