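import Fermat.Agent.S42.FinClassesCore
import Fermat.Agent.S42.RootDvd
import Fermat.Agent.S42.InvField
import Fermat.Agent.S42.GammaFG

/-!
# P13 part (A), module M4a: finitely many Kummer classes among the coefficient conjugates

Let `v ∈ ℂ(X₀(N))` be a nonzero function all of whose place-orders are divisible by `p`.  The
functions `v_σ` obtained by applying an automorphism `σ` of `ℂ` to the coefficients of `v` fall
into finitely many classes modulo constants and `p`-th powers (`finite_classes`).  The proof is
in `FinClassesCore.lean` (`FinClasses.finite_classes_of`); here its three inputs are supplied: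
existence of `p`-th roots of level `N` (`exists_root_of_dvd_ord`), the fact that an invariant
`p`-th root of a modular function is a modular function (`exists_realHom_eq_of_invariant_pow`)
and the finite generation of `Γ₀(N)` (`gamma0_fg`).  The modulus `p` is an arbitrary nonzero
natural number (no primality is used).
-/

set_option autoImplicit false

namespace Fermat.Agent.S42

open Fermat.Agent.S24 AlgebraicCurve ModularCurve CongruenceSubgroup

/-- The coefficient conjugates `v_σ` of a modular function `v` all of whose orders are divisible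
by `p` fall into finitely many classes modulo constants and `p`-th powers. -/
theorem finite_classes (N : ℕ) [NeZero N] (p : ℕ) [NeZero p] (v : FFL ℂ N) (hv : v ≠ 0)
    (hdiv : ∀ P : Place ℂ (FFL ℂ N), (p : ℤ) ∣ P.ord v) :
    ∃ S : Finset (FFL ℂ N), ∀ σ ∈ autC, ∃ s ∈ S, ∃ (c : ℂ) (w : FFL ℂ N),
      c ≠ 0 ∧ w ≠ 0 ∧
      arithmeticRingAut (modularFunctionFieldFull N) σ v = algebraMap ℂ (FFL ℂ N) c * w ^ p * s := by
  have hp : 0 < p := Nat.pos_of_ne_zero (NeZero.ne p)
  obtain ⟨S, hS⟩ := FinClasses.finite_classes_of N p hp (gamma0_fg N)
    (fun y hy h => exists_root_of_dvd_ord N p hp y hy h)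
    (fun x e hx h => exists_realHom_eq_of_invariant_pow N x p hp e hx h) v hv hdiv
  refine ⟨S, fun σ _ => ?_⟩
  obtain ⟨s, hs, w, hw0, hw⟩ := hS σ
  exact ⟨s, hs, 1, w, one_ne_zero, hw0, by rw [map_one, one_mul]; exact hw⟩

end Fermat.Agent.S42
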