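import Fermat.Agent.S42.ADefs
import Fermat.Agent.S24.Real

/-!
# P13 part (A), module M9: field of definition of a modular function from its `q`-expansion

* `exists_FFLC_of_FFLQ`     : base change `FFL ℚ̄ N → FFL ℂ N` (coefficientwise `embQ`), compatible
                              with the analytic realisations;
* `exists_realHom_embQ_eq`  : an element of `FFL ℂ N` all of whose `q`-expansion coefficients lie
                              in `embQ ℚ̄` comes from `FFL ℚ̄ N`.

The descent is the usual linear-algebra argument: write `v = A / B` with `A`, `B` in the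
`ℂ`-span of the rational function field, and apply coefficientwise a `ℚ̄`-linear functional
`ℂ → ℚ̄` which does not kill a chosen non-zero coefficient of `B`.
-/

set_option autoImplicit false

namespace Fermat.Agent.S42

open Fermat.Agent.S24 ModularCurve

namespace CoeffDescent

section General

variable {K C : Type*} [Field K] [Field C] [Algebra ℚ K] [Algebra ℚ C] (ι : K →+* C)

/-- Coefficientwise `ι` maps the rational series `coeffEmb K x` to `coeffEmb C x`. -/
theorem coeffMap_coeffEmb_hom (x : LaurentSeries ℚ) :
    coeffMap ι (coeffEmb K x) = coeffEmb C x := by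
  rw [coeffEmb, coeffMap_coeffMap]
  exact coeffMap_congr (Subsingleton.elim _ _) x

omit [Algebra ℚ K] [Algebra ℚ C] in
/-- Coefficientwise `ι` maps constants to constants. -/
theorem coeffMap_algebraMap_hom (a : K) :
    coeffMap ι (algebraMap K (LaurentSeries K) a) = algebraMap C (LaurentSeries C) (ι a) := by
  rw [algebraMap_laurentSeries_eq_single, algebraMap_laurentSeries_eq_single, coeffMap_single]

variable (F₀ : IntermediateField ℚ (LaurentSeries ℚ))

/-- Step 1: coefficientwise `ι` maps `laurentBaseChange K F₀` into `laurentBaseChange C F₀`. -/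
theorem coeffMap_mem_laurentBaseChange_hom {x : LaurentSeries K}
    (hx : x ∈ laurentBaseChange K F₀) : coeffMap ι x ∈ laurentBaseChange C F₀ := by
  rw [mem_laurentBaseChange_iff] at hx
  induction hx using Subfield.closure_induction with
  | mem y hy =>
      rcases hy with ⟨a, rfl⟩ | ⟨z, hz, rfl⟩
      · rw [coeffMap_algebraMap_hom]
        exact (laurentBaseChange C F₀).algebraMap_mem _
      · rw [coeffMap_coeffEmb_hom]
        exact coeffEmb_mem_laurentBaseChange C hz
  | one => simp
  | add x y _ _ hx hy => simpa using add_mem hx hy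
  | neg x _ hx => simpa using neg_mem hx
  | inv x _ hx => simpa using inv_mem hx
  | mul x y _ _ hx hy => simpa using mul_mem hx hy

/-- Coefficientwise application of an additive map `C → K` to a Laurent series. -/
noncomputable def mapCoeff (l : C →+ K) (x : LaurentSeries C) : LaurentSeries K :=
  x.map l

omit [Algebra ℚ K] [Algebra ℚ C] in
theorem mapCoeff_coeff (l : C →+ K) (x : LaurentSeries C) (n : ℤ) :
    (mapCoeff l x).coeff n = l (x.coeff n) :=
  rfl

omit [Algebra ℚ K] [Algebra ℚ C] in
theorem mapCoeff_zero (l : C →+ K) : mapCoeff l 0 = 0 := by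
  ext n
  rw [mapCoeff_coeff, HahnSeries.coeff_zero, HahnSeries.coeff_zero, map_zero]

omit [Algebra ℚ K] [Algebra ℚ C] in
theorem mapCoeff_add (l : C →+ K) (x y : LaurentSeries C) :
    mapCoeff l (x + y) = mapCoeff l x + mapCoeff l y := by
  ext n
  rw [mapCoeff_coeff, HahnSeries.coeff_add, HahnSeries.coeff_add, map_add, mapCoeff_coeff,
    mapCoeff_coeff]

omit [Algebra ℚ K] [Algebra ℚ C] in
theorem mapCoeff_single_zero (l : C →+ K) (a : C) :
    mapCoeff l (HahnSeries.single 0 a) = HahnSeries.single 0 (l a) := by
  ext m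
  rw [mapCoeff_coeff]
  rcases eq_or_ne m 0 with rfl | hm
  · rw [HahnSeries.coeff_single_same, HahnSeries.coeff_single_same]
  · rw [HahnSeries.coeff_single_of_ne hm, HahnSeries.coeff_single_of_ne hm, map_zero]

omit [Algebra ℚ K] [Algebra ℚ C] in
/-- A `ι`-semilinear additive map `l : C → K`, applied coefficientwise, is semilinear over the
Laurent series with coefficients in `K`. -/
theorem mapCoeff_mul (l : C →+ K) (hl : ∀ (k : K) (c : C), l (ι k * c) = k * l c)
    (w : LaurentSeries K) (B : LaurentSeries C) :
    mapCoeff l (coeffMap ι w * B) = w * mapCoeff l B := by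
  ext n
  rw [mapCoeff_coeff]
  have h1 : (coeffMap ι w).support ⊆ w.support := by
    intro i hi
    rw [HahnSeries.mem_support] at hi ⊢
    intro h0
    apply hi
    rw [coeffMap_coeff, h0, map_zero]
  have h2 : (mapCoeff l B).support ⊆ B.support := by
    intro i hi
    rw [HahnSeries.mem_support] at hi ⊢
    intro h0
    apply hi
    rw [mapCoeff_coeff, h0, map_zero]
  rw [HahnSeries.coeff_mul_left' w.isPWO_support h1,
    HahnSeries.coeff_mul_right' B.isPWO_support h2, map_sum]
  refine Finset.sum_congr rfl fun ij _ => ?_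
  rw [coeffMap_coeff, hl, mapCoeff_coeff]

/-- The coefficientwise functional on a constant multiple of a rational series. -/
theorem mapCoeff_algebraMap_mul_coeffEmb (l : C →+ K)
    (hl : ∀ (k : K) (c : C), l (ι k * c) = k * l c) (a : C) (x : LaurentSeries ℚ) :
    mapCoeff l (algebraMap C (LaurentSeries C) a * coeffEmb C x) =
      coeffEmb K x * algebraMap K (LaurentSeries K) (l a) := by
  rw [← coeffMap_coeffEmb_hom ι x, mul_comm, mapCoeff_mul ι l hl,
    algebraMap_laurentSeries_eq_single, mapCoeff_single_zero, algebraMap_laurentSeries_eq_single]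

/-- The image of the rational function field is multiplicatively closed. -/
theorem closure_image_eq :
    ((Submonoid.closure (⇑(coeffEmb C) '' (F₀ : Set (LaurentSeries ℚ))) :
      Submonoid (LaurentSeries C)) : Set (LaurentSeries C)) =
      ⇑(coeffEmb C) '' (F₀ : Set (LaurentSeries ℚ)) := by
  have h : (⇑(coeffEmb C) '' (F₀ : Set (LaurentSeries ℚ))) =
      ((Submonoid.map (coeffEmb C) F₀.toSubalgebra.toSubsemiring.toSubmonoid :
        Submonoid (LaurentSeries C)) : Set (LaurentSeries C)) := rfl
  rw [h, Submonoid.closure_eq]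

/-- The coefficientwise functional maps the `C`-algebra generated by the rational function
field (which is its `C`-span) into the function field over `K`. -/
theorem mapCoeff_mem (l : C →+ K) (hl : ∀ (k : K) (c : C), l (ι k * c) = k * l c)
    {A : LaurentSeries C}
    (hA : A ∈ Algebra.adjoin C (⇑(coeffEmb C) '' (F₀ : Set (LaurentSeries ℚ)))) :
    mapCoeff l A ∈ laurentBaseChange K F₀ := by
  have hA' : A ∈ Subalgebra.toSubmodule
      (Algebra.adjoin C (⇑(coeffEmb C) '' (F₀ : Set (LaurentSeries ℚ)))) := hA
  rw [Algebra.adjoin_eq_span] at hA'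
  clear hA
  have key : ∀ a : C,
      mapCoeff l (algebraMap C (LaurentSeries C) a * A) ∈ laurentBaseChange K F₀ := by
    induction hA' using Submodule.span_induction with
    | mem y hy =>
        have hy' : y ∈ ⇑(coeffEmb C) '' (F₀ : Set (LaurentSeries ℚ)) := by
          rw [← closure_image_eq]
          exact hy
        obtain ⟨x, hx, rfl⟩ := hy'
        intro a
        rw [mapCoeff_algebraMap_mul_coeffEmb ι l hl]
        exact mul_mem (coeffEmb_mem_laurentBaseChange K hx)
          ((laurentBaseChange K F₀).algebraMap_mem _)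
    | zero =>
        intro a
        rw [mul_zero, mapCoeff_zero]
        exact zero_mem _
    | add x y _ _ hx hy =>
        intro a
        rw [mul_add, mapCoeff_add]
        exact add_mem (hx a) (hy a)
    | smul b x _ hx =>
        intro a
        rw [Algebra.smul_def, ← mul_assoc, ← map_mul]
        exact hx (a * b)
  have h1 := key 1
  rwa [map_one, one_mul] at h1

omit [Algebra ℚ K] [Algebra ℚ C] in
/-- A non-zero element of `C` is detected by a `ι`-semilinear functional `C → K`. -/
theorem exists_functional {c : C} (hc : c ≠ 0) :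
    ∃ l : C →+ K, (∀ (k : K) (x : C), l (ι k * x) = k * l x) ∧ l c ≠ 0 := by
  let _ : Algebra K C := ι.toAlgebra
  obtain ⟨f, hf⟩ := Module.Projective.exists_dual_ne_zero K hc
  refine ⟨f.toAddMonoidHom, fun k x => ?_, hf⟩
  have h : ι k * x = k • x := rfl
  show f (ι k * x) = k * f x
  rw [h, map_smul, smul_eq_mul]

omit [Algebra ℚ K] [Algebra ℚ C] in
/-- A Laurent series with coefficients in the range of `ι` is the coefficientwise image of a
Laurent series over `K`. -/
theorem exists_coeffMap_eq_of_coeff {v : LaurentSeries C}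
    (h : ∀ n : ℤ, v.coeff n ∈ Set.range ι) : ∃ v₀ : LaurentSeries K, coeffMap ι v₀ = v := by
  classical
  have h0 : Function.invFun ι 0 = 0 := by
    have h1 := Function.leftInverse_invFun ι.injective (0 : K)
    rwa [map_zero] at h1
  let g : ZeroHom C K := ⟨Function.invFun ι, h0⟩
  refine ⟨v.map g, ?_⟩
  ext n
  rw [coeffMap_coeff]
  show ι (Function.invFun ι (v.coeff n)) = v.coeff n
  exact Function.invFun_eq (h n)

/-- Step 2 (descent): an element of `laurentBaseChange C F₀` with all coefficients in the range
of `ι` is the coefficientwise image of an element of `laurentBaseChange K F₀`. -/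
theorem exists_coeffMap_eq {v : LaurentSeries C} (hv : v ∈ laurentBaseChange C F₀)
    (h : ∀ n : ℤ, v.coeff n ∈ Set.range ι) :
    ∃ u ∈ laurentBaseChange K F₀, coeffMap ι u = v := by
  obtain ⟨v₀, rfl⟩ := exists_coeffMap_eq_of_coeff ι h
  refine ⟨v₀, ?_, rfl⟩
  obtain ⟨A, hA, B, hB, hAB⟩ := IntermediateField.mem_adjoin_iff_div.mp hv
  by_cases hB0 : B = 0
  · rw [hB0, div_zero] at hAB
    have h0 : v₀ = 0 := (coeffMap ι).injective (by rw [hAB, map_zero])
    rw [h0]
    exact zero_mem _
  · obtain ⟨n₀, hn₀⟩ : ∃ n, B.coeff n ≠ 0 := by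
      by_contra hcon
      apply hB0
      ext n
      by_contra hn
      exact hcon ⟨n, hn⟩
    obtain ⟨l, hl, hln⟩ := exists_functional ι hn₀
    have hmA := mapCoeff_mem ι F₀ l hl hA
    have hmB := mapCoeff_mem ι F₀ l hl hB
    have key : mapCoeff l A = v₀ * mapCoeff l B := by
      rw [← mapCoeff_mul ι l hl, hAB, div_mul_cancel₀ _ hB0]
    have hmB0 : mapCoeff l B ≠ 0 := by
      intro h0
      apply hln
      have h1 := congrArg (fun x => HahnSeries.coeff x n₀) h0
      exact h1
    have h2 : v₀ = mapCoeff l A / mapCoeff l B := by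
      rw [key, mul_div_cancel_right₀ _ hmB0]
    rw [h2]
    exact div_mem hmA hmB

end General

end CoeffDescent

/-- Base change from `ℚ̄` to `ℂ`: every element of the function field of `X₀(N)` over `ℚ̄` has a
counterpart over `ℂ` with the same analytic realisation, obtained by applying `embQ` to the
coefficients of the `q`-expansion. -/
theorem exists_FFLC_of_FFLQ (N : ℕ) [NeZero N] (u : FFL (AlgebraicClosure ℚ) N) :
    ∃ v : FFL ℂ N, realHom N (RingHom.id ℂ) v = realHom N embQ u ∧
      ∀ n : ℤ, (v : LaurentSeries ℂ).coeff n =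
        embQ ((u : LaurentSeries (AlgebraicClosure ℚ)).coeff n) := by
  refine ⟨⟨coeffMap embQ (u : LaurentSeries (AlgebraicClosure ℚ)),
    CoeffDescent.coeffMap_mem_laurentBaseChange_hom embQ _ u.2⟩, ?_, fun n => rfl⟩
  apply qInfM_injective N
  rw [qInfM_realHom, qInfM_realHom]
  show expMap N (RingHom.id ℂ) (coeffMap embQ (u : LaurentSeries (AlgebraicClosure ℚ))) =
    expMap N embQ (u : LaurentSeries (AlgebraicClosure ℚ))
  rw [expMap, expMap, RingHom.comp_apply, RingHom.comp_apply, coeffMap_id]

/-- Descent from `ℂ` to `ℚ̄`: an element of the function field of `X₀(N)` over `ℂ` all of whose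
`q`-expansion coefficients lie in `embQ ℚ̄` has the same analytic realisation as an element of
the function field over `ℚ̄`. -/
theorem exists_realHom_embQ_eq (N : ℕ) [NeZero N] (v : FFL ℂ N)
    (h : ∀ n : ℤ, (v : LaurentSeries ℂ).coeff n ∈ Set.range embQ) :
    ∃ u : FFL (AlgebraicClosure ℚ) N, realHom N embQ u = realHom N (RingHom.id ℂ) v := by
  obtain ⟨u, hu, huv⟩ := CoeffDescent.exists_coeffMap_eq embQ _ v.2 h
  refine ⟨⟨u, hu⟩, ?_⟩
  apply qInfM_injective N
  rw [qInfM_realHom, qInfM_realHom]
  show expMap N embQ u = expMap N (RingHom.id ℂ) (v : LaurentSeries ℂ)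
  rw [expMap, expMap, RingHom.comp_apply, RingHom.comp_apply, coeffMap_id, huv]

end Fermat.Agent.S42
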