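import Fermat.Agent.S42.ADefs
import Fermat.Agent.S24.LocalCount
import Fermat.Agent.S24.Places

/-!
# P13 part (A), module M3: orders of functions having a root with cuspidal character

If a modular function `u` of level `N` has an `n`-th root among the meromorphic functions of
level `N` which is invariant under the elements of `Γ₀(N)` of trace square at most `4`, then the
order of `u` at every place of the function field is divisible by `n`.
-/

set_option autoImplicit false

namespace Fermat.Agent.S42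

open Fermat.Agent.S24 AlgebraicCurve CongruenceSubgroup
open scoped MatrixGroups

namespace OrdDict

open IntermediateField UpperHalfPlane

/-- Arithmetic core: cancel the ramification index. -/
theorem dvd_of_mul_eq {n E : ℕ} (hE : 0 < E) {m k o : ℤ} (h1 : (n : ℤ) * m * k = E * o)
    (h2 : (E : ℤ) ∣ m * k) : (n : ℤ) ∣ o := by
  obtain ⟨m', hm'⟩ := h2
  refine ⟨m', ?_⟩
  have hE' : (E : ℤ) ≠ 0 := by exact_mod_cast hE.ne'
  apply mul_left_cancel₀ hE'
  rw [← h1, mul_assoc, hm']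
  ring

/-- The trace is invariant under conjugation. -/
theorem trace_conj (g ε : SL(2, ℤ)) :
    ((g⁻¹ * ε * g : SL(2, ℤ)) : Matrix (Fin 2) (Fin 2) ℤ).trace =
      (ε : Matrix (Fin 2) (Fin 2) ℤ).trace := by
  rw [Matrix.SpecialLinearGroup.coe_mul, Matrix.trace_mul_comm, ← Matrix.SpecialLinearGroup.coe_mul,
    ← mul_assoc, mul_inv_cancel, one_mul]

/-- The translate of `f` by `g⁻¹` is invariant under the elements of small trace fixing the
coset of `g`. -/
theorem act_act_inv_eq (N : ℕ) (f : MerN N)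
    (hinv : ∀ γ : ↥(Gamma0 N),
      ((γ : SL(2, ℤ)) : Matrix (Fin 2) (Fin 2) ℤ).trace ^ 2 ≤ 4 → act N (γ : SL(2, ℤ)) f = f)
    (g ε : SL(2, ℤ)) (hfix : ε • (QuotientGroup.mk g : XX N) = QuotientGroup.mk g)
    (htr : (ε : Matrix (Fin 2) (Fin 2) ℤ).trace ^ 2 ≤ 4) :
    act N ε (act N g⁻¹ f) = act N g⁻¹ f := by
  have hmem : g⁻¹ * ε * g ∈ Gamma0 N := by
    rw [smul_mk] at hfix
    have h := QuotientGroup.eq.mp hfix.symm
    rwa [← mul_assoc] at h
  have h1 := hinv ⟨g⁻¹ * ε * g, hmem⟩ (by rw [trace_conj]; exact htr)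
  rw [act_mul, act_mul] at h1
  have h2 := congrArg (act N g⁻¹) h1
  rwa [← act_mul, mul_inv_cancel, act_one] at h2

/-- An additive function on nonzero elements is compatible with powers. -/
theorem ord_pow {M : Type*} [Field M] (ordM : M → ℤ)
    (hmul : ∀ a b : M, a ≠ 0 → b ≠ 0 → ordM (a * b) = ordM a + ordM b) {x : M} (hx : x ≠ 0)
    (n : ℕ) : ordM (x ^ n) = n * ordM x := by
  have hone : ordM 1 = 0 := by
    have h := hmul 1 1 one_ne_zero one_ne_zero
    rw [mul_one] at h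
    linarith
  induction n with
  | zero => rw [pow_zero, hone]; simp
  | succ k ih =>
    rw [pow_succ, hmul _ _ (pow_ne_zero k hx) hx, ih]
    push_cast
    ring

/-- The general step: a local family computed by an additive order function on `MerN N`. -/
theorem dvd_ord_of_family (N : ℕ) [NeZero N] {L : Type*} [Field L] [Algebra ℚ L]
    [IsAlgClosed L] [CharZero L] (ι : L →+* ℂ) (n : ℕ) (w : FFL L N) (hw : w ≠ 0) (f : MerN N)
    (hf : f ^ n = realHom N ι w)
    {y : FFL L N} (hy : Transcendental L y) (hK0 : L⟮y⟯ = L⟮jL L N⟯) {E : ℕ} (hE : 0 < E)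
    {σ : Equiv.Perm (XX N)} {u : XX N → FFL L N → ℤ}
    (hfam : IsLocalFamily L⟮jL L N⟯ y E σ u)
    (ordM : MerN N → ℤ)
    (hu : ∀ (i : XX N) (z : FFL L N), u i z = ordM (conj N ι i z))
    (hmul : ∀ a b : MerN N, a ≠ 0 → b ≠ 0 → ordM (a * b) = ordM a + ordM b)
    (hdvd : f ≠ 0 → ∀ g : SL(2, ℤ), (E : ℤ) ∣
      ordM (act N g⁻¹ f) * (Function.minimalPeriod σ (QuotientGroup.mk g : XX N) : ℤ))
    (P : Place L (FFL L N)) (hP : P ∈ zeroPlaces L y) : (n : ℤ) ∣ P.ord w := by
  have : FiniteDimensional L⟮jL L N⟯ (FFL L N) := finiteDimensional_jL_of_emb N ι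
  obtain ⟨P', -, hsurj, -, -, hord⟩ :=
    exists_place_of_localFamily hy hK0 (finrank_jL_of_emb N ι).symm hE hfam
  obtain ⟨i, rfl⟩ := hsurj P hP
  induction i using QuotientGroup.induction_on with
  | H g =>
    have h1 := hord (QuotientGroup.mk g) w hw
    rw [hu, conj_mk_apply, ← hf, map_pow] at h1
    have hE' : (E : ℤ) ≠ 0 := by exact_mod_cast hE.ne'
    rcases Nat.eq_zero_or_pos n with rfl | hn
    · have hone : ordM 1 = 0 := by
        have h := hmul 1 1 one_ne_zero one_ne_zero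
        rw [mul_one] at h
        linarith
      rw [pow_zero, hone, zero_mul] at h1
      have h0 : (P' (QuotientGroup.mk g)).ord w = 0 := by
        rcases mul_eq_zero.mp h1.symm with h | h
        · exact absurd h hE'
        · exact h
      rw [h0]
      exact dvd_zero _
    · have hf0 : f ≠ 0 := by
        intro h0
        rw [h0, zero_pow hn.ne'] at hf
        exact hw ((map_eq_zero (realHom N ι)).mp hf.symm)
      have hh0 : act N g⁻¹ f ≠ 0 := (map_ne_zero (act N g⁻¹)).mpr hf0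
      rw [ord_pow ordM hmul hh0] at h1
      exact dvd_of_mul_eq hE h1 (hdvd hf0 g)

/-- Additivity of the order at a point of the upper half plane, on `MerN N`. -/
theorem merOrd_toMer_mul (N : ℕ) (τ : ℍ) (a b : MerN N) (ha : a ≠ 0) (hb : b ≠ 0) :
    merOrd τ (toMer N (a * b)) = merOrd τ (toMer N a) + merOrd τ (toMer N b) := by
  rw [map_mul]
  exact merOrd_mul τ ((map_ne_zero (toMer N)).mpr ha) ((map_ne_zero (toMer N)).mpr hb)

/-- The generic fibres. -/
theorem dvd_ord_generic (N : ℕ) [NeZero N] {L : Type*} [Field L] [Algebra ℚ L]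
    [IsAlgClosed L] [CharZero L] (ι : L →+* ℂ) (n : ℕ) (w : FFL L N) (hw : w ≠ 0) (f : MerN N)
    (hf : f ^ n = realHom N ι w) (c : L) (hc0 : c ≠ 0) (hc : c ≠ 1728)
    (P : Place L (FFL L N)) (hP : P ∈ zeroPlaces L (jL L N - algebraMap L (FFL L N) c)) :
    (n : ℤ) ∣ P.ord w := by
  obtain ⟨τ, hτ⟩ := Jfun_surjective (ι c)
  have hx : Transcendental L (jL L N) := transcendental_jL N L
  exact dvd_ord_of_family N ι n w hw f hf (transcendental_sub_algebraMap hx c)
    (adjoin_sub_algebraMap (jL L N) c) one_pos (isLocalFamily_generic N L ι τ c hτ hc0 hc)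
    (fun x => merOrd τ (toMer N x)) (fun _ _ => rfl) (merOrd_toMer_mul N τ)
    (fun _ _ => by rw [Nat.cast_one]; exact one_dvd _) P hP

/-- The multiplier of `S` at `i` has order `4`. -/
theorem two_dvd_of_mult (m : ℤ)
    (h : ((((ModularGroup.S : SL(2, ℤ)) 1 0 : ℤ) : ℂ) * (ptI : ℂ) +
      (((ModularGroup.S : SL(2, ℤ)) 1 1 : ℤ) : ℂ)) ^ (2 * m) = 1) : (2 : ℤ) ∣ m := by
  have h10 : ((ModularGroup.S : SL(2, ℤ)) 1 0 : ℤ) = 1 := by
    simp [ModularGroup.coe_S]
  have h11 : ((ModularGroup.S : SL(2, ℤ)) 1 1 : ℤ) = 0 := by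
    simp [ModularGroup.coe_S]
  rw [h10, h11, coe_ptI] at h
  have h2 : ((-1 : ℂ)) ^ m = 1 := by
    have : (((1 : ℤ) : ℂ) * Complex.I + ((0 : ℤ) : ℂ)) ^ (2 * m) = (-1 : ℂ) ^ m := by
      rw [zpow_mul]
      congr 1
      push_cast
      rw [add_zero, zpow_ofNat, one_mul, Complex.I_sq]
    rw [this] at h
    exact h
  have hev : Even m := by
    by_contra hodd
    rw [Int.not_even_iff_odd] at hodd
    rw [hodd.neg_one_zpow] at h2
    norm_num at h2
  exact even_iff_two_dvd.mp hev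

/-- The fibre over `1728`. -/
theorem dvd_ord_ptI (N : ℕ) [NeZero N] {L : Type*} [Field L] [Algebra ℚ L]
    [IsAlgClosed L] [CharZero L] (ι : L →+* ℂ) (n : ℕ) (w : FFL L N) (hw : w ≠ 0) (f : MerN N)
    (hf : f ^ n = realHom N ι w)
    (hinv : ∀ γ : ↥(Gamma0 N),
      ((γ : SL(2, ℤ)) : Matrix (Fin 2) (Fin 2) ℤ).trace ^ 2 ≤ 4 → act N (γ : SL(2, ℤ)) f = f)
    (P : Place L (FFL L N)) (hP : P ∈ zeroPlaces L (jL L N - algebraMap L (FFL L N) 1728)) :
    (n : ℤ) ∣ P.ord w := by
  have hx : Transcendental L (jL L N) := transcendental_jL N L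
  refine dvd_ord_of_family N ι n w hw f hf (transcendental_sub_algebraMap hx 1728)
    (adjoin_sub_algebraMap (jL L N) 1728) two_pos (isLocalFamily_ptI N L ι)
    (fun x => merOrd ptI (toMer N x)) (fun _ _ => rfl) (merOrd_toMer_mul N ptI) ?_ P hP
  intro hf0 g
  have hk := minimalPeriod_toPerm_S_dvd N (QuotientGroup.mk g : XX N)
  rcases (Nat.dvd_prime Nat.prime_two).mp hk with h1 | h2
  · rw [h1, Nat.cast_one, mul_one]
    have hfix : ModularGroup.S • (QuotientGroup.mk g : XX N) = QuotientGroup.mk g := by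
      have h := pow_minimalPeriod_smul ModularGroup.S (QuotientGroup.mk g : XX N)
      rwa [h1, pow_one] at h
    have hinvS := act_act_inv_eq N f hinv g ModularGroup.S hfix
      (by simp [ModularGroup.coe_S, Matrix.trace_fin_two])
    have hne : toMer N (act N g⁻¹ f) ≠ 0 :=
      (map_ne_zero (toMer N)).mpr ((map_ne_zero (act N g⁻¹)).mpr hf0)
    have hcomp : compSL ModularGroup.S (toMer N (act N g⁻¹ f)) = toMer N (act N g⁻¹ f) := by
      rw [← toMer_act, hinvS]
    exact_mod_cast two_dvd_of_mult _ (merOrd_elliptic ModularGroup.S ptI S_smul_ptI hne hcomp)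
  · rw [h2]
    exact Dvd.intro_left _ rfl

/-- The multiplier of `S * T` at `ρ` has order `6`. -/
theorem three_dvd_of_mult (m : ℤ)
    (h : ((((ModularGroup.S * ModularGroup.T : SL(2, ℤ)) 1 0 : ℤ) : ℂ) * (ptRho : ℂ) +
      (((ModularGroup.S * ModularGroup.T : SL(2, ℤ)) 1 1 : ℤ) : ℂ)) ^ (2 * m) = 1) :
    (3 : ℤ) ∣ m := by
  have h10 : ((ModularGroup.S * ModularGroup.T : SL(2, ℤ)) 1 0 : ℤ) = 1 := by
    simp [ModularGroup.coe_S, ModularGroup.coe_T, Matrix.mul_apply, Fin.sum_univ_two]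
  have h11 : ((ModularGroup.S * ModularGroup.T : SL(2, ℤ)) 1 1 : ℤ) = 1 := by
    simp [ModularGroup.coe_S, ModularGroup.coe_T, Matrix.mul_apply, Fin.sum_univ_two]
  rw [h10, h11] at h
  have hρ2 : (ptRho : ℂ) ^ 2 + (ptRho : ℂ) + 1 = 0 := ptRho_sq_add
  have hρ3 : (ptRho : ℂ) ^ 3 = 1 := by linear_combination ((ptRho : ℂ) - 1) * hρ2
  have hρ1 : (ptRho : ℂ) ≠ 1 := by
    intro h1
    rw [h1] at hρ2
    norm_num at hρ2
  have hprim : IsPrimitiveRoot (ptRho : ℂ) 3 := by
    refine IsPrimitiveRoot.mk_of_lt _ (by norm_num) hρ3 ?_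
    intro l hl0 hl3 hl
    interval_cases l
    · exact hρ1 (by simpa using hl)
    · apply hρ1
      have : (ptRho : ℂ) ^ 3 = (ptRho : ℂ) ^ 2 * (ptRho : ℂ) := by ring
      rw [hρ3, hl, one_mul] at this
      exact this.symm
  have h2 : (ptRho : ℂ) ^ m = 1 := by
    have : (((1 : ℤ) : ℂ) * (ptRho : ℂ) + ((1 : ℤ) : ℂ)) ^ (2 * m) = (ptRho : ℂ) ^ m := by
      rw [zpow_mul]
      congr 1
      push_cast
      rw [zpow_ofNat]
      linear_combination hρ2
    rw [this] at h
    exact h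
  exact_mod_cast (hprim.zpow_eq_one_iff_dvd _).mp h2

/-- The fibre over `0`. -/
theorem dvd_ord_ptRho (N : ℕ) [NeZero N] {L : Type*} [Field L] [Algebra ℚ L]
    [IsAlgClosed L] [CharZero L] (ι : L →+* ℂ) (n : ℕ) (w : FFL L N) (hw : w ≠ 0) (f : MerN N)
    (hf : f ^ n = realHom N ι w)
    (hinv : ∀ γ : ↥(Gamma0 N),
      ((γ : SL(2, ℤ)) : Matrix (Fin 2) (Fin 2) ℤ).trace ^ 2 ≤ 4 → act N (γ : SL(2, ℤ)) f = f)
    (P : Place L (FFL L N)) (hP : P ∈ zeroPlaces L (jL L N - algebraMap L (FFL L N) 0)) :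
    (n : ℤ) ∣ P.ord w := by
  have hx : Transcendental L (jL L N) := transcendental_jL N L
  refine dvd_ord_of_family N ι n w hw f hf (transcendental_sub_algebraMap hx 0)
    (adjoin_sub_algebraMap (jL L N) 0) three_pos (isLocalFamily_ptRho N L ι)
    (fun x => merOrd ptRho (toMer N x)) (fun _ _ => rfl) (merOrd_toMer_mul N ptRho) ?_ P hP
  intro hf0 g
  have hk := minimalPeriod_toPerm_ST_dvd N (QuotientGroup.mk g : XX N)
  rcases (Nat.dvd_prime Nat.prime_three).mp hk with h1 | h2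
  · rw [h1, Nat.cast_one, mul_one]
    have hfix : (ModularGroup.S * ModularGroup.T) • (QuotientGroup.mk g : XX N) =
        QuotientGroup.mk g := by
      have h := pow_minimalPeriod_smul (ModularGroup.S * ModularGroup.T)
        (QuotientGroup.mk g : XX N)
      rwa [h1, pow_one] at h
    have hinvS := act_act_inv_eq N f hinv g (ModularGroup.S * ModularGroup.T) hfix
      (by simp [ModularGroup.coe_S, ModularGroup.coe_T, Matrix.trace_fin_two])
    have hne : toMer N (act N g⁻¹ f) ≠ 0 :=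
      (map_ne_zero (toMer N)).mpr ((map_ne_zero (act N g⁻¹)).mpr hf0)
    have hcomp : compSL (ModularGroup.S * ModularGroup.T) (toMer N (act N g⁻¹ f)) =
        toMer N (act N g⁻¹ f) := by
      rw [← toMer_act, hinvS]
    exact_mod_cast three_dvd_of_mult _
      (merOrd_elliptic (ModularGroup.S * ModularGroup.T) ptRho ST_smul_ptRho hne hcomp)
  · rw [h2]
    exact Dvd.intro_left _ rfl

/-- Translation by `T ^ k` rotates the expansion at `i∞` by `exp(2πik/N)`. -/
theorem qInfM_act_T_pow (N : ℕ) [NeZero N] (k : ℕ) (y : MerN N) :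
    qInfM N (act N (ModularGroup.T ^ k) y) = laurentRot (zetaUnit N ^ k) (qInfM N y) := by
  induction k with
  | zero => rw [pow_zero, act_one, pow_zero, laurentRot_one]
  | succ k ih => rw [pow_succ, act_mul, qInfM_act_T, ih, pow_succ', laurentRot_mul]

/-- The fibre over `∞`. -/
theorem dvd_ord_infty (N : ℕ) [NeZero N] {L : Type*} [Field L] [Algebra ℚ L]
    [IsAlgClosed L] [CharZero L] (ι : L →+* ℂ) (n : ℕ) (w : FFL L N) (hw : w ≠ 0) (f : MerN N)
    (hf : f ^ n = realHom N ι w)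
    (hinv : ∀ γ : ↥(Gamma0 N),
      ((γ : SL(2, ℤ)) : Matrix (Fin 2) (Fin 2) ℤ).trace ^ 2 ≤ 4 → act N (γ : SL(2, ℤ)) f = f)
    (P : Place L (FFL L N)) (hP : P ∈ zeroPlaces L (jL L N)⁻¹) :
    (n : ℤ) ∣ P.ord w := by
  have hx : Transcendental L (jL L N) := transcendental_jL N L
  refine dvd_ord_of_family N ι n w hw f hf (transcendental_inv hx) (adjoin_inv (jL L N))
    (Nat.pos_of_ne_zero (NeZero.ne N)) (isLocalFamily_infty N L ι)
    (fun x => (qInfM N x).order) (fun _ _ => rfl) ?_ ?_ P hP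
  · intro a b ha hb
    rw [map_mul]
    exact HahnSeries.order_mul ((map_ne_zero (qInfM N)).mpr ha) ((map_ne_zero (qInfM N)).mpr hb)
  · intro hf0 g
    obtain ⟨k, hk⟩ : ∃ k : ℕ, k = Function.minimalPeriod
        (MulAction.toPerm ModularGroup.T : Equiv.Perm (XX N)) (QuotientGroup.mk g : XX N) :=
      ⟨_, rfl⟩
    rw [← hk]
    have hfix : ModularGroup.T ^ k • (QuotientGroup.mk g : XX N) = QuotientGroup.mk g := by
      rw [hk]
      exact pow_minimalPeriod_smul ModularGroup.T _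
    have htr : ((ModularGroup.T ^ k : SL(2, ℤ)) : Matrix (Fin 2) (Fin 2) ℤ).trace ^ 2 ≤ 4 := by
      have h := ModularGroup.coe_T_zpow (k : ℤ)
      rw [zpow_natCast] at h
      rw [h, Matrix.trace_fin_two_of]
      norm_num
    have hinvT := act_act_inv_eq N f hinv g (ModularGroup.T ^ k) hfix htr
    have hne : qInfM N (act N g⁻¹ f) ≠ 0 :=
      (map_ne_zero (qInfM N)).mpr ((map_ne_zero (act N g⁻¹)).mpr hf0)
    have hrot : laurentRot (zetaUnit N ^ k) (qInfM N (act N g⁻¹ f)) = qInfM N (act N g⁻¹ f) := by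
      rw [← qInfM_act_T_pow, hinvT]
    have h1 := zpow_order_eq_one_of_laurentRot_eq (zetaUnit N ^ k) (qInfM N (act N g⁻¹ f)) hne hrot
    rw [← zpow_natCast, ← zpow_mul] at h1
    have h2 := ((isPrimitiveRoot_zetaUnit N).zpow_eq_one_iff_dvd _).mp h1
    rwa [mul_comm] at h2

end OrdDict

/-- If `u` has an `n`-th root among the meromorphic functions of level `N` which is invariant
under the elements of `Γ₀(N)` of trace square at most `4`, then `n` divides the order of `u` at
every place. -/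
theorem dvd_ord_of_pow_eq_realHom (N : ℕ) [NeZero N] {L : Type*} [Field L] [Algebra ℚ L]
    [IsAlgClosed L] [CharZero L] (ι : L →+* ℂ) (n : ℕ) (u : FFL L N) (hu : u ≠ 0) (f : MerN N)
    (hf : f ^ n = realHom N ι u)
    (hinv : ∀ γ : ↥(Gamma0 N),
      ((γ : SL(2, ℤ)) : Matrix (Fin 2) (Fin 2) ℤ).trace ^ 2 ≤ 4 → act N (γ : SL(2, ℤ)) f = f)
    (P : Place L (FFL L N)) : (n : ℤ) ∣ P.ord u := by
  have hx : Transcendental L (jL L N) := transcendental_jL N L
  have : FiniteDimensional (IntermediateField.adjoin L {jL L N}) (FFL L N) :=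
    finiteDimensional_jL_of_emb N ι
  rcases place_cases hx P with ⟨c, hc⟩ | hP
  · by_cases hc0 : c = 0
    · subst hc0
      exact OrdDict.dvd_ord_ptRho N ι n u hu f hf hinv P hc
    · by_cases hc1 : c = 1728
      · subst hc1
        exact OrdDict.dvd_ord_ptI N ι n u hu f hf hinv P hc
      · exact OrdDict.dvd_ord_generic N ι n u hu f hf c hc0 hc1 P hc
  · exact OrdDict.dvd_ord_infty N ι n u hu f hf hinv P hP

end Fermat.Agent.S42
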