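import Fermat.Agent.S42.ADefs
import Fermat.Agent.S37.Hecke
import Fermat.Agent.S42.OrdDict
import Fermat.Agent.S42.CoeffDescent

/-!
# P13 part (A): existence of Kummer classes (core)

Every cuspidal additive character `φ : Γ₀(N) → ℤ/p` has a Kummer class in `J₀(N)(ℚ̄)`:

`KummerExist.exists_isKummer_of_cuspidal_of : IsCuspidalHom N φ → ∃ c, IsKummer N p φ c`,

under four hypotheses which are the statements (specialised to `N`, `p`) of theorems proved in
other files: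

* `hchar` (`exists_char_function`, file `EisChar`): a nonzero holomorphic function `f_χ` of
  level `N` on which `Γ₀(N)` acts through a given unitary character `χ` trivial on the elliptic
  and parabolic elements;
* `hhol` (`exists_realHom_eq_of_invariant_hol`, file `InvField`): a `Γ₀(N)`-invariant
  holomorphic function of level `N` is the analytic realisation of an element of the function
  field of `X₀(N)` over `ℂ`;
* `hfin` (`finite_classes`, file `FinClasses`) and `hdesc` (`exists_descent`, file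
  `OrbitDescent`): a function `v` over `ℂ` whose divisor is divisible by `p` is of the form
  `c · w ^ p · v'` where `v'` has its `q`-expansion coefficients in `ℚ̄`.

The proof also uses `dvd_ord_of_pow_eq_realHom` (file `OrdDict`: the divisor of a function which
analytically is a `p`-th power of a function invariant under the elliptic and parabolic elements
is divisible by `p`) and `exists_realHom_embQ_eq` (file `CoeffDescent`: a function over `ℂ` with
`q`-expansion coefficients in `ℚ̄` comes from the function field over `ℚ̄`).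
-/

set_option autoImplicit false

namespace Fermat.Agent.S42

open Fermat.Agent.S24 AlgebraicCurve ModularCurve CongruenceSubgroup
open scoped MatrixGroups

namespace KummerExist

/-! ### Constants in `RN N` and `MerN N` -/

/-- Constant functions, as a ring homomorphism `ℂ →+* RN N`. -/
def constHom (N : ℕ) : ℂ →+* ↥(RN N) where
  toFun := constRN N
  map_one' := rfl
  map_mul' _ _ := rfl
  map_zero' := rfl
  map_add' _ _ := rfl

theorem constHom_apply (N : ℕ) (c : ℂ) : constHom N c = constRN N c := rfl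

theorem constRN_one (N : ℕ) : constRN N 1 = 1 := rfl

theorem constRN_mul (N : ℕ) (a b : ℂ) : constRN N (a * b) = constRN N a * constRN N b := rfl

theorem constRN_pow (N : ℕ) (a : ℂ) (n : ℕ) : constRN N (a ^ n) = constRN N a ^ n := by
  rw [← constHom_apply, ← constHom_apply, map_pow]

theorem cM_eq (N : ℕ) (c : ℂ) :
    cM N c = ((algebraMap ↥(RN N) (MerN N)).comp (constHom N)) c := rfl

theorem cM_one (N : ℕ) : cM N 1 = 1 := by
  rw [cM_eq, map_one]

theorem cM_mul (N : ℕ) (a b : ℂ) : cM N (a * b) = cM N a * cM N b := by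
  rw [cM_eq, cM_eq, cM_eq, map_mul]

theorem cM_pow (N : ℕ) (a : ℂ) (n : ℕ) : cM N (a ^ n) = cM N a ^ n := by
  rw [cM_eq, cM_eq, map_pow]

theorem cM_ne_zero (N : ℕ) {c : ℂ} (hc : c ≠ 0) : cM N c ≠ 0 := by
  intro h
  have h1 : cM N c * cM N c⁻¹ = 1 := by rw [← cM_mul, mul_inv_cancel₀ hc, cM_one]
  rw [h, zero_mul] at h1
  exact zero_ne_one h1

theorem act_cM (N : ℕ) (γ : SL(2, ℤ)) (c : ℂ) : act N γ (cM N c) = cM N c := by
  unfold cM
  rw [act_algebraMap, actR_constRN]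

theorem realHom_algebraMap_eq_cM (N : ℕ) [NeZero N] {L : Type*} [Field L] [Algebra ℚ L]
    (ι : L →+* ℂ) (a : L) : realHom N ι (algebraMap L (FFL L N) a) = cM N (ι a) :=
  realHom_algebraMap N ι a

/-! ### The root of unity `zetaP p` -/

theorem zetaP_isPrimitiveRoot (p : ℕ) (hp : p ≠ 0) : IsPrimitiveRoot (zetaP p) p := by
  unfold zetaP
  exact Complex.isPrimitiveRoot_exp p hp

theorem zetaP_pow_self (p : ℕ) (hp : p ≠ 0) : zetaP p ^ p = 1 :=
  (zetaP_isPrimitiveRoot p hp).pow_eq_one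

theorem zetaP_ne_zero (p : ℕ) : zetaP p ≠ 0 := Complex.exp_ne_zero _

theorem norm_zetaP (p : ℕ) (hp : p ≠ 0) : ‖zetaP p‖ = 1 :=
  Complex.norm_eq_one_of_pow_eq_one (zetaP_pow_self p hp) hp

theorem zetaP_pow_val_add (p : ℕ) [NeZero p] (a b : ZMod p) :
    zetaP p ^ (a + b).val = zetaP p ^ a.val * zetaP p ^ b.val := by
  rw [ZMod.val_add, ← pow_add]
  exact (pow_eq_pow_mod (a.val + b.val) (zetaP_pow_self p (NeZero.ne p))).symm

theorem zetaP_pow_val_pow (p : ℕ) [NeZero p] (a : ZMod p) :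
    (zetaP p ^ a.val) ^ p = 1 := by
  rw [← pow_mul, mul_comm, pow_mul, zetaP_pow_self p (NeZero.ne p), one_pow]

/-! ### The character `ζ_p ^ φ` -/

/-- The character `γ ↦ ζ_p ^ φ γ` of `Γ₀(N)`. -/
theorem exists_char (N p : ℕ) [NeZero p] (φ : Additive ↥(Gamma0 N) →+ ZMod p) :
    ∃ χ : ↥(Gamma0 N) →* ℂˣ,
      ∀ γ : ↥(Gamma0 N), ((χ γ : ℂˣ) : ℂ) = zetaP p ^ (φ (Additive.ofMul γ)).val := by
  refine ⟨{ toFun := fun γ => Units.mk0 (zetaP p ^ (φ (Additive.ofMul γ)).val)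
              (pow_ne_zero _ (zetaP_ne_zero p))
            map_one' := ?_
            map_mul' := ?_ }, fun γ => rfl⟩
  · apply Units.ext
    show zetaP p ^ (φ (Additive.ofMul (1 : ↥(Gamma0 N)))).val = 1
    rw [ofMul_one, map_zero, ZMod.val_zero, pow_zero]
  · intro a b
    apply Units.ext
    show zetaP p ^ (φ (Additive.ofMul (a * b))).val =
      zetaP p ^ (φ (Additive.ofMul a)).val * zetaP p ^ (φ (Additive.ofMul b)).val
    rw [ofMul_mul, map_add, zetaP_pow_val_add]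

/-! ### The analytic input: a `p`-th root with character, of a function over `ℂ` -/

/-- There are a nonzero holomorphic function `g` of level `N` on which `Γ₀(N)` acts through
`ζ_p ^ φ`, and an element `v ≠ 0` of the function field of `X₀(N)` over `ℂ` whose analytic
realisation is `g ^ p`. -/
theorem exists_root_over_C (N p : ℕ) [NeZero N] [NeZero p]
    (hchar : ∀ (χ : ↥(Gamma0 N) →* ℂˣ), (∀ γ, ‖((χ γ : ℂˣ) : ℂ)‖ = 1) →
      (∀ γ : ↥(Gamma0 N),
        ((γ : SL(2, ℤ)) : Matrix (Fin 2) (Fin 2) ℤ).trace ^ 2 ≤ 4 → χ γ = 1) →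
      ∃ f : ↥(RN N), f ≠ 0 ∧ ∀ γ : ↥(Gamma0 N),
        actR N (γ : SL(2, ℤ)) f = constRN N ((χ γ : ℂˣ) : ℂ) * f)
    (hhol : ∀ y : ↥(RN N), (∀ γ ∈ Gamma0 N, actR N γ y = y) →
      ∃ v : FFL ℂ N, realHom N (RingHom.id ℂ) v = algebraMap ↥(RN N) (MerN N) y)
    (φ : Additive ↥(Gamma0 N) →+ ZMod p) (hφ : IsCuspidalHom N φ) :
    ∃ (g : ↥(RN N)) (v : FFL ℂ N), g ≠ 0 ∧ v ≠ 0 ∧
      (∀ γ : ↥(Gamma0 N), actR N (γ : SL(2, ℤ)) g =
        constRN N (zetaP p ^ (φ (Additive.ofMul γ)).val) * g) ∧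
      realHom N (RingHom.id ℂ) v = algebraMap ↥(RN N) (MerN N) g ^ p := by
  have hp0 : p ≠ 0 := NeZero.ne p
  obtain ⟨χ, hχ⟩ := exists_char N p φ
  have hnorm : ∀ γ, ‖((χ γ : ℂˣ) : ℂ)‖ = 1 := by
    intro γ
    rw [hχ γ, norm_pow, norm_zetaP p hp0, one_pow]
  have hcusp : ∀ γ : ↥(Gamma0 N),
      ((γ : SL(2, ℤ)) : Matrix (Fin 2) (Fin 2) ℤ).trace ^ 2 ≤ 4 → χ γ = 1 := by
    intro γ ht
    apply Units.ext
    rw [hχ γ, hφ γ ht, ZMod.val_zero, pow_zero, Units.val_one]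
  obtain ⟨g, hg0, hg⟩ := hchar χ hnorm hcusp
  have hg' : ∀ γ : ↥(Gamma0 N), actR N (γ : SL(2, ℤ)) g =
      constRN N (zetaP p ^ (φ (Additive.ofMul γ)).val) * g := by
    intro γ
    rw [hg γ, hχ γ]
  have hy : ∀ γ ∈ Gamma0 N, actR N γ (g ^ p) = g ^ p := by
    intro γ hγ
    have h : actR N γ g = _ := hg' ⟨γ, hγ⟩
    rw [map_pow, h, mul_pow, ← constRN_pow, zetaP_pow_val_pow, constRN_one, one_mul]
  obtain ⟨v, hv⟩ := hhol (g ^ p) hy
  refine ⟨g, v, hg0, ?_, hg', ?_⟩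
  · rintro rfl
    rw [map_zero] at hv
    have h0 : g ^ p = 0 :=
      IsFractionRing.injective ↥(RN N) (MerN N) (by rw [← hv, map_zero])
    exact hg0 (pow_eq_zero_iff hp0 |>.mp h0)
  · rw [hv, map_pow]

/-! ### Dividing a divisor by `p` -/

/-- If all orders of `u` are divisible by `n ≠ 0`, then `div u = n • D` for a divisor `D` of
degree `0`. -/
theorem exists_divisor_div {K F : Type*} [Field K] [Field F] [Algebra K F]
    [HasPrincipalDivisors K F] (n : ℕ) (hn : n ≠ 0) (u : F) (hu : u ≠ 0)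
    (hdiv : ∀ P : Place K F, (n : ℤ) ∣ P.ord u) :
    ∃ D : Divisor K F, D ∈ Divisor.degZero (K := K) (F := F) ∧
      ∀ P : Place K F, (n : ℤ) * D P = P.ord u := by
  obtain ⟨E, hE, hE0⟩ := HasPrincipalDivisors.exists_divisor (K := K) u hu
  have hD : ∀ P : Place K F,
      (n : ℤ) * (E.mapRange (fun m : ℤ => m / (n : ℤ)) (by simp)) P = P.ord u := by
    intro P
    rw [Finsupp.mapRange_apply, hE P]
    exact Int.mul_ediv_cancel' (hdiv P)
  refine ⟨E.mapRange (fun m : ℤ => m / (n : ℤ)) (by simp), ?_, hD⟩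
  rw [Divisor.mem_degZero]
  have hsm : (n : ℤ) • (E.mapRange (fun m : ℤ => m / (n : ℤ)) (by simp)) = E := by
    ext P
    rw [Finsupp.smul_apply, smul_eq_mul, hD P, hE P]
  have h2 : (n : ℤ) * Divisor.degree (E.mapRange (fun m : ℤ => m / (n : ℤ)) (by simp)) = 0 := by
    rw [← smul_eq_mul, ← map_zsmul, hsm, hE0]
  rcases mul_eq_zero.mp h2 with h | h
  · exact absurd h (Int.natCast_ne_zero.mpr hn)
  · exact h

/-! ### The Kummer class of a cuspidal character -/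

/-- Every cuspidal additive character `φ : Γ₀(N) → ℤ/p` has a Kummer class, given the four
inputs `hchar` (`exists_char_function`), `hhol` (`exists_realHom_eq_of_invariant_hol`), `hfin`
(`finite_classes`) and `hdesc` (`exists_descent`). -/
theorem exists_isKummer_of_cuspidal_of (N p : ℕ) [NeZero N] [NeZero p]
    (hchar : ∀ (χ : ↥(Gamma0 N) →* ℂˣ), (∀ γ, ‖((χ γ : ℂˣ) : ℂ)‖ = 1) →
      (∀ γ : ↥(Gamma0 N),
        ((γ : SL(2, ℤ)) : Matrix (Fin 2) (Fin 2) ℤ).trace ^ 2 ≤ 4 → χ γ = 1) →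
      ∃ f : ↥(RN N), f ≠ 0 ∧ ∀ γ : ↥(Gamma0 N),
        actR N (γ : SL(2, ℤ)) f = constRN N ((χ γ : ℂˣ) : ℂ) * f)
    (hhol : ∀ y : ↥(RN N), (∀ γ ∈ Gamma0 N, actR N γ y = y) →
      ∃ v : FFL ℂ N, realHom N (RingHom.id ℂ) v = algebraMap ↥(RN N) (MerN N) y)
    (hfin : ∀ v : FFL ℂ N, v ≠ 0 → (∀ P : Place ℂ (FFL ℂ N), (p : ℤ) ∣ P.ord v) →
      ∃ S : Finset (FFL ℂ N), ∀ σ ∈ autC, ∃ s ∈ S, ∃ (c : ℂ) (w : FFL ℂ N),
        c ≠ 0 ∧ w ≠ 0 ∧
        arithmeticRingAut (modularFunctionFieldFull N) σ v =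
          algebraMap ℂ (FFL ℂ N) c * w ^ p * s)
    (hdesc : ∀ v : FFL ℂ N, v ≠ 0 → (∀ P : Place ℂ (FFL ℂ N), (p : ℤ) ∣ P.ord v) →
      (∃ S : Finset (FFL ℂ N), ∀ σ ∈ autC, ∃ s ∈ S, ∃ (c : ℂ) (w : FFL ℂ N),
        c ≠ 0 ∧ w ≠ 0 ∧
        arithmeticRingAut (modularFunctionFieldFull N) σ v =
          algebraMap ℂ (FFL ℂ N) c * w ^ p * s) →
      ∃ (c : ℂ) (w v' : FFL ℂ N), c ≠ 0 ∧ w ≠ 0 ∧
        v = algebraMap ℂ (FFL ℂ N) c * w ^ p * v' ∧
        ∀ n : ℤ, (v' : LaurentSeries ℂ).coeff n ∈ Set.range embQ)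
    (φ : Additive ↥(Gamma0 N) →+ ZMod p) (hφ : IsCuspidalHom N φ) : ∃ c, IsKummer N p φ c := by
  have hp0 : p ≠ 0 := NeZero.ne p
  have hppos : 0 < p := Nat.pos_of_ne_zero hp0
  obtain ⟨g, v, hg0, hv0, hg, hv⟩ := exists_root_over_C N p hchar hhol φ hφ
  -- the orders of `v` are divisible by `p`
  have hdiv : ∀ P : Place ℂ (FFL ℂ N), (p : ℤ) ∣ P.ord v := by
    intro P
    refine dvd_ord_of_pow_eq_realHom N (RingHom.id ℂ) p v hv0
      (algebraMap ↥(RN N) (MerN N) g) hv.symm ?_ P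
    intro γ ht
    rw [act_algebraMap, hg γ, hφ γ ht, ZMod.val_zero, pow_zero, constRN_one, one_mul]
  -- descent of `v` up to `p`-th powers and constants
  obtain ⟨c, w, v', hc0, hw0, hvv', hcoeff⟩ := hdesc v hv0 hdiv (hfin v hv0 hdiv)
  have hv'0 : v' ≠ 0 := by
    rintro rfl
    rw [mul_zero] at hvv'
    exact hv0 hvv'
  obtain ⟨u, hu⟩ := exists_realHom_embQ_eq N v' hcoeff
  have hu0 : u ≠ 0 := by
    rintro rfl
    rw [map_zero] at hu
    exact hv'0 ((map_eq_zero (realHom N (RingHom.id ℂ))).mp hu.symm)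
  obtain ⟨c₁, hc₁⟩ := IsAlgClosed.exists_pow_nat_eq c hppos
  have hc₁0 : c₁ ≠ 0 := by
    rintro rfl
    rw [zero_pow hp0] at hc₁
    exact hc0 hc₁.symm
  have hden : cM N c₁ * realHom N (RingHom.id ℂ) w ≠ 0 :=
    mul_ne_zero (cM_ne_zero N hc₁0) ((map_ne_zero (realHom N (RingHom.id ℂ))).mpr hw0)
  -- the `p`-th root of `u`
  have hfp : (algebraMap ↥(RN N) (MerN N) g / (cM N c₁ * realHom N (RingHom.id ℂ) w)) ^ p =
      realHom N embQ u := by
    rw [div_pow, ← hv, hvv', map_mul, map_mul, map_pow, realHom_algebraMap_eq_cM,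
      RingHom.id_apply, ← hc₁, cM_pow, ← mul_pow, hu]
    exact mul_div_cancel_left₀ _ (pow_ne_zero p hden)
  have hact : ∀ γ : ↥(Gamma0 N),
      act N (γ : SL(2, ℤ)) (algebraMap ↥(RN N) (MerN N) g /
        (cM N c₁ * realHom N (RingHom.id ℂ) w)) =
      cM N (zetaP p ^ (φ (Additive.ofMul γ)).val) *
        (algebraMap ↥(RN N) (MerN N) g / (cM N c₁ * realHom N (RingHom.id ℂ) w)) := by
    intro γ
    rw [map_div₀, map_mul, act_algebraMap, hg γ, act_cM,
      act_realHom_of_mem N (RingHom.id ℂ) (γ : SL(2, ℤ)) γ.2 w, map_mul, mul_div_assoc]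
    rfl
  -- the orders of `u` are divisible by `p`
  have hdivu : ∀ P : Place (AlgebraicClosure ℚ) (FFL (AlgebraicClosure ℚ) N),
      (p : ℤ) ∣ P.ord u := by
    intro P
    refine dvd_ord_of_pow_eq_realHom N embQ p u hu0 _ hfp ?_ P
    intro γ ht
    rw [hact γ, hφ γ ht, ZMod.val_zero, pow_zero, cM_one, one_mul]
  obtain ⟨D, hD, hpD⟩ := exists_divisor_div (K := AlgebraicClosure ℚ)
    (F := FFL (AlgebraicClosure ℚ) N) p hp0 u hu0 hdivu
  exact ⟨Pic0.mk ⟨D, hD⟩, D, hD, u, _, hu0, hpD, rfl, hfp, hact⟩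

end KummerExist

end Fermat.Agent.S42
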