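import Fermat.Agent.S42.KummerUniqueCore
import Fermat.Agent.S42.InvField

/-!
# P13 part (A), module M4 (second part): uniqueness of Kummer classes

* `isKummer_unique` : a character has at most one Kummer class.

(The proof is in `KummerUniqueCore.lean`; here the input of module `InvField` is plugged in.)
-/

set_option autoImplicit false

namespace Fermat.Agent.S42

open Fermat.Agent.S24 AlgebraicCurve ModularCurve CongruenceSubgroup
open scoped MatrixGroups

/-- A character has at most one Kummer class. -/
theorem isKummer_unique {N p : ℕ} [NeZero N] [NeZero p] {φ : Additive ↥(Gamma0 N) →+ ZMod p}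
    {c c' : JZero N} (h : IsKummer N p φ c) (h' : IsKummer N p φ c') : c = c' :=
  KummerUniqueCore.isKummer_unique_of
    (fun x e hx hγ =>
      exists_realHom_eq_of_invariant_pow N x p (Nat.pos_of_ne_zero (NeZero.ne p)) e hx hγ) h h'

end Fermat.Agent.S42
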