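import Fermat.Agent.S42.ADefs

/-!
# P13 part (A), module M8: automorphisms of `ℂ` over `ℚ̄`

A complex number with finite orbit under the group `autC` of field automorphisms of `ℂ` fixing
(the image of) `ℚ̄` pointwise lies in (the image of) `ℚ̄`.

The proof is pure field theory.  Let `K → L` be an extension of fields with `L` algebraically
closed, and let `t ∈ L` be transcendental over `K`.  Extend `{t}` to a transcendence basis `B`
of `L` over `K`; the `K`-algebra automorphism `X_b ↦ X_b + c_b` of the polynomial ring
`K[X_b : b ∈ B]` transports to an automorphism of the subalgebra `K[B] ⊆ L`, and extends to an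
automorphism of `L`, because `L` is an algebraic closure of `K[B]`.  Hence for every `c ∈ K`
there is an automorphism of `L` over `K` mapping `t` to `t + c`; in characteristic zero the orbit
of `t` is therefore infinite.  If moreover `K` is algebraically closed, an element of `L` which
is not transcendental over `K` lies in the image of `K`.
-/

set_option autoImplicit false

namespace Fermat.Agent.S42

namespace AutC

section General

variable {K L : Type*} [Field K] [Field L] [Algebra K L]

/-- The `K`-algebra endomorphism `X i ↦ X i + c i` of the polynomial ring. -/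
noncomputable def shiftHom {ι : Type*} (c : ι → K) : MvPolynomial ι K →ₐ[K] MvPolynomial ι K :=
  MvPolynomial.aeval fun i => MvPolynomial.X i + MvPolynomial.C (c i)

theorem shiftHom_X {ι : Type*} (c : ι → K) (i : ι) :
    shiftHom c (MvPolynomial.X i) = MvPolynomial.X i + MvPolynomial.C (c i) := by
  simp [shiftHom]

theorem shiftHom_comp_neg {ι : Type*} (c : ι → K) :
    (shiftHom c).comp (shiftHom (fun i => -c i)) = AlgHom.id K (MvPolynomial ι K) := by
  refine MvPolynomial.algHom_ext fun i => ?_
  rw [AlgHom.comp_apply, shiftHom_X, map_add, shiftHom_X, AlgHom.id_apply,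
    MvPolynomial.algHom_C, MvPolynomial.algebraMap_eq, map_neg]
  ring

/-- The `K`-algebra automorphism `X i ↦ X i + c i` of the polynomial ring. -/
noncomputable def shiftEquiv {ι : Type*} (c : ι → K) : MvPolynomial ι K ≃ₐ[K] MvPolynomial ι K :=
  AlgEquiv.ofAlgHom (shiftHom c) (shiftHom fun i => -c i) (shiftHom_comp_neg c)
    (by simpa using shiftHom_comp_neg fun i => -c i)

theorem shiftEquiv_X {ι : Type*} (c : ι → K) (i : ι) :
    shiftEquiv c (MvPolynomial.X i) = MvPolynomial.X i + MvPolynomial.C (c i) :=
  shiftHom_X c i

/-- If `L` is algebraically closed and `t ∈ L` is transcendental over `K`, then for every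
`c ∈ K` some automorphism of `L` over `K` maps `t` to `t + c`. -/
theorem exists_ringEquiv_add [IsAlgClosed L] (t : L) (ht : Transcendental K t) (c : K) :
    ∃ σ : L ≃+* L, (∀ k : K, σ (algebraMap K L k) = algebraMap K L k) ∧
      σ t = t + algebraMap K L c := by
  classical
  have hs : AlgebraicIndepOn K id ({t} : Set L) :=
    (algebraicIndependent_singleton_iff (⟨t, rfl⟩ : ({t} : Set L))).2 ht
  obtain ⟨B, hB, hx⟩ := exists_isTranscendenceBasis_superset hs
  have htB : t ∈ B := hB rfl
  have := IsAlgClosed.isAlgClosure_of_transcendence_basis (Subtype.val : B → L) hx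
  let e : Algebra.adjoin K (Set.range (Subtype.val : B → L)) ≃ₐ[K]
      Algebra.adjoin K (Set.range (Subtype.val : B → L)) :=
    hx.1.aevalEquiv.symm.trans
      ((shiftEquiv fun b : B => if (b : L) = t then c else 0).trans hx.1.aevalEquiv)
  refine ⟨IsAlgClosure.equivOfEquiv L L e.toRingEquiv, fun k => ?_, ?_⟩
  · have h1 : algebraMap K L k = algebraMap (Algebra.adjoin K (Set.range (Subtype.val : B → L))) L
        (algebraMap K (Algebra.adjoin K (Set.range (Subtype.val : B → L))) k) := rfl
    rw [h1, IsAlgClosure.equivOfEquiv_algebraMap]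
    exact congrArg _ (e.commutes k)
  · have h1 : t = algebraMap (Algebra.adjoin K (Set.range (Subtype.val : B → L))) L
        (hx.1.aevalEquiv (MvPolynomial.X ⟨t, htB⟩)) := by
      rw [AlgebraicIndependent.algebraMap_aevalEquiv, MvPolynomial.aeval_X]
    have h2 : e (hx.1.aevalEquiv (MvPolynomial.X ⟨t, htB⟩)) =
        hx.1.aevalEquiv (MvPolynomial.X ⟨t, htB⟩ + MvPolynomial.C c) := by
      show hx.1.aevalEquiv (shiftEquiv _ (hx.1.aevalEquiv.symm (hx.1.aevalEquiv _))) = _
      rw [AlgEquiv.symm_apply_apply, shiftEquiv_X, if_pos rfl]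
    conv_lhs => rw [h1]
    rw [IsAlgClosure.equivOfEquiv_algebraMap]
    show algebraMap (Algebra.adjoin K (Set.range (Subtype.val : B → L))) L
      (e (hx.1.aevalEquiv (MvPolynomial.X ⟨t, htB⟩))) = _
    rw [h2, AlgebraicIndependent.algebraMap_aevalEquiv, map_add, MvPolynomial.aeval_X,
      MvPolynomial.aeval_C]

/-- Let `K → L` be an extension of algebraically closed fields of characteristic zero.  An
element of `L` whose orbit under the automorphisms of `L` over `K` is finite lies in the image
of `K`. -/
theorem mem_range_of_finite_orbit [IsAlgClosed K] [IsAlgClosed L] [CharZero L] (t : L)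
    (S : Set L) (hS : S.Finite)
    (h : ∀ σ : L ≃+* L, (∀ k : K, σ (algebraMap K L k) = algebraMap K L k) → σ t ∈ S) :
    t ∈ Set.range (algebraMap K L) := by
  by_contra hn
  have ht : Transcendental K t := by
    intro halg
    apply hn
    have hint : IsIntegral K t := halg.isIntegral
    have hdeg := IsAlgClosed.degree_eq_one_of_irreducible K (minpoly.irreducible hint)
    exact minpoly.mem_range_of_degree_eq_one K t hdeg
  have hinf : S.Infinite := by
    refine Set.infinite_of_injective_forall_mem
      (f := fun m : ℕ => t + algebraMap K L (m : K)) ?_ ?_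
    · intro m n hmn
      have h1 : algebraMap K L (m : K) = algebraMap K L (n : K) := add_left_cancel hmn
      rw [map_natCast, map_natCast] at h1
      exact Nat.cast_injective h1
    · intro m
      obtain ⟨σ, hσ, hσt⟩ := exists_ringEquiv_add t ht (m : K)
      show t + algebraMap K L (m : K) ∈ S
      rw [← hσt]
      exact h σ hσ
  exact hinf hS

end General

end AutC

/-- A complex number with finite orbit under the automorphisms of `ℂ` fixing `ℚ̄` pointwise lies
in (the image of) `ℚ̄`. -/
theorem mem_range_embQ_of_finite_orbit (t : ℂ) (S : Set ℂ) (hS : S.Finite)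
    (h : ∀ σ ∈ autC, (σ : ℂ ≃ₐ[ℚ] ℂ) t ∈ S) : t ∈ Set.range embQ := by
  let _ : Algebra (AlgebraicClosure ℚ) ℂ := embQ.toAlgebra
  refine AutC.mem_range_of_finite_orbit (K := AlgebraicClosure ℚ) (L := ℂ) t S hS ?_
  intro σ hσ
  exact h (AlgEquiv.ofRingEquiv (f := σ) fun r => by
    rw [eq_ratCast (algebraMap ℚ ℂ) r, map_ratCast]) fun x => hσ x

end Fermat.Agent.S42
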