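import Fermat.Agent.S42.OrbitDefs

/-!
# P13 part (A), module M10 (orbit descent): boundedness of the `q`-order

For `v ≠ 0`, the `q`-order is bounded above on the nonzero elements of `OrbitDefs.W N p m v`.

The `q`-order is the order function of a place `Pinf` of `FFL ℂ N` (`exists_place_ordQ`), and for
`w ∈ W N p m v`, `w ≠ 0`, the function
`P ↦ p · ord_P w + ord_P v - p · m · min (ord_P j) 0` is nonnegative, has finite support, and its
sum over all places does not depend on `w`; hence its value at `Pinf` is bounded by that sum.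
-/

set_option autoImplicit false

namespace Fermat.Agent.S42

namespace OrbitBound

open Fermat.Agent.S24 AlgebraicCurve ModularCurve

/-- The `q`-expansion of `j` has a simple pole. -/
theorem ordQ_jL (N : ℕ) [NeZero N] : OrbitDefs.ordQ (jL ℂ N) = -1 := by
  show (coeffMap (algebraMap ℚ ℂ) jq).order = -1
  rw [order_coeffMap _ (RingHom.injective _), order_jq]

theorem jL_ne_zero (N : ℕ) [NeZero N] : jL ℂ N ≠ 0 := by
  intro h
  have h1 := ordQ_jL N
  rw [h, OrbitDefs.ordQ_zero] at h1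
  omega

/-- The `q`-order is the order function of a place of `FFL ℂ N`. -/
theorem exists_place_ordQ (N : ℕ) [NeZero N] :
    ∃ Pinf : Place ℂ (FFL ℂ N), ∀ f : FFL ℂ N, f ≠ 0 → Pinf.ord f = OrbitDefs.ordQ f := by
  have hy0 : (jL ℂ N)⁻¹ ≠ 0 := inv_ne_zero (jL_ne_zero N)
  have hy1 : OrbitDefs.ordQ (jL ℂ N)⁻¹ = 1 := by
    rw [OrbitDefs.ordQ_inv, ordQ_jL]
    norm_num
  obtain ⟨w₀, d, hd, hw⟩ := exists_place_of_valuation (K := ℂ) (F := FFL ℂ N)
    (fun f => OrbitDefs.ordQ f)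
    (fun f g hf hg => OrbitDefs.ordQ_mul hf hg)
    (fun f g _ _ hfg => OrbitDefs.min_ordQ_le_ordQ_add hfg)
    (fun a _ => OrbitDefs.ordQ_algebraMap a) hy0 (by rw [hy1]; exact one_pos)
  have h1 : (d : ℤ) * w₀.ord (jL ℂ N)⁻¹ = 1 := by
    rw [← hy1]
    exact (hw _ hy0).symm
  have hd1 : (d : ℤ) = 1 := by
    have hdpos : (0 : ℤ) < (d : ℤ) := by exact_mod_cast hd
    rcases Int.eq_one_or_neg_one_of_mul_eq_one h1 with h | h
    · exact h
    · omega
  refine ⟨w₀, fun f hf => ?_⟩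
  have h2 : OrbitDefs.ordQ f = (d : ℤ) * w₀.ord f := hw f hf
  rw [h2, hd1, one_mul]

/-- An integer `a` with `p * a ≤ B`, `p ≥ 1`, is at most `|B|`. -/
theorem le_abs_of_mul_le {p : ℕ} (hp : 0 < p) {a B : ℤ} (h : (p : ℤ) * a ≤ B) : a ≤ |B| := by
  rcases le_or_gt a 0 with ha | ha
  · exact ha.trans (abs_nonneg B)
  · have hp1 : (1 : ℤ) ≤ (p : ℤ) := by exact_mod_cast hp
    have h1 : a ≤ (p : ℤ) * a := le_mul_of_one_le_left ha.le hp1
    exact (h1.trans h).trans (le_abs_self B)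

/-- The `q`-order is bounded above on the nonzero elements of `W N p m v`. -/
theorem exists_ordQ_le (N : ℕ) [NeZero N] (p : ℕ) (hp : 0 < p) (m : ℕ) (v : FFL ℂ N)
    (hv : v ≠ 0) :
    ∃ B : ℤ, ∀ w ∈ OrbitDefs.W N p m v, w ≠ 0 → OrbitDefs.ordQ w ≤ B := by
  have hx : Transcendental ℂ (jL ℂ N) := transcendental_jL N ℂ
  have hfd : FiniteDimensional (IntermediateField.adjoin ℂ {jL ℂ N}) (FFL ℂ N) :=
    finiteDimensional_jL_of_emb N (RingHom.id ℂ)
  obtain ⟨Pinf, hPinf⟩ := exists_place_ordQ N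
  have hj0 : jL ℂ N ≠ 0 := jL_ne_zero N
  -- finiteness of the supports of the functions independent of `w`
  have hfinj : (Function.support
      fun P : Place ℂ (FFL ℂ N) => (p : ℤ) * (m : ℤ) * min (P.ord (jL ℂ N)) 0).Finite := by
    refine (finite_setOf_ord_ne_zero hx hj0).subset ?_
    intro P hP
    show P.ord (jL ℂ N) ≠ 0
    intro h0
    apply hP
    show (p : ℤ) * (m : ℤ) * min (P.ord (jL ℂ N)) 0 = 0
    rw [h0, min_self, mul_zero]
  have hfinv : (Function.support fun P : Place ℂ (FFL ℂ N) => P.ord v).Finite :=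
    finite_setOf_ord_ne_zero hx hv
  have hsumv : ∑ᶠ P : Place ℂ (FFL ℂ N), P.ord v = 0 := finsum_ord_eq_zero hx hv
  refine ⟨|(-∑ᶠ P : Place ℂ (FFL ℂ N), (p : ℤ) * (m : ℤ) * min (P.ord (jL ℂ N)) 0)
    - OrbitDefs.ordQ v + (p : ℤ) * (m : ℤ) * min (OrbitDefs.ordQ (jL ℂ N)) 0|, ?_⟩
  intro w hw hw0
  have hmem : ∀ P : Place ℂ (FFL ℂ N),
      (p : ℤ) * (m : ℤ) * min (P.ord (jL ℂ N)) 0 ≤ (p : ℤ) * P.ord w + P.ord v := by
    rcases hw with h | h
    · exact absurd h hw0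
    · exact h
  have hfinw : (Function.support fun P : Place ℂ (FFL ℂ N) => P.ord w).Finite :=
    finite_setOf_ord_ne_zero hx hw0
  have hsumw : ∑ᶠ P : Place ℂ (FFL ℂ N), P.ord w = 0 := finsum_ord_eq_zero hx hw0
  have hfinpw : (Function.support fun P : Place ℂ (FFL ℂ N) => (p : ℤ) * P.ord w).Finite := by
    refine hfinw.subset ?_
    intro P hP
    show P.ord w ≠ 0
    intro h0
    apply hP
    show (p : ℤ) * P.ord w = 0
    rw [h0, mul_zero]
  have hfinpwv : (Function.support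
      fun P : Place ℂ (FFL ℂ N) => (p : ℤ) * P.ord w + P.ord v).Finite :=
    (hfinpw.union hfinv).subset (Function.support_add _ _)
  have hfing : (Function.support fun P : Place ℂ (FFL ℂ N) =>
      ((p : ℤ) * P.ord w + P.ord v) - (p : ℤ) * (m : ℤ) * min (P.ord (jL ℂ N)) 0).Finite :=
    (hfinpwv.union hfinj).subset (Function.support_sub _ _)
  have hsum : ∑ᶠ P : Place ℂ (FFL ℂ N),
      (((p : ℤ) * P.ord w + P.ord v) - (p : ℤ) * (m : ℤ) * min (P.ord (jL ℂ N)) 0) =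
      -∑ᶠ P : Place ℂ (FFL ℂ N), (p : ℤ) * (m : ℤ) * min (P.ord (jL ℂ N)) 0 := by
    rw [finsum_sub_distrib hfinpwv hfinj, finsum_add_distrib hfinpw hfinv, ← mul_finsum,
      hsumw, hsumv, mul_zero, add_zero, zero_sub]
  have key := single_le_finsum Pinf hfing (fun P => sub_nonneg.mpr (hmem P))
  rw [hsum] at key
  have key' : (p : ℤ) * Pinf.ord w + Pinf.ord v
      - (p : ℤ) * (m : ℤ) * min (Pinf.ord (jL ℂ N)) 0 ≤
      -∑ᶠ P : Place ℂ (FFL ℂ N), (p : ℤ) * (m : ℤ) * min (P.ord (jL ℂ N)) 0 := key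
  rw [hPinf w hw0, hPinf v hv, hPinf _ hj0] at key'
  refine le_abs_of_mul_le hp ?_
  linarith
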