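import Fermat.Agent.S42.OrbitDefs

/-!
# P13 part (A), module M10 (orbit descent): invariance of `R` on classes

The relation `OrbitDefs.R N p v z` ("`z` is the canonical representative of the class of `v`
modulo constants and `p`-th powers") only depends on the class of `v`:

* `OrbitClass.mem_W_twist` : `w' ∈ W N p m (c · h ^ p · v) ↔ w' * h ∈ W N p m v`;
* `OrbitClass.R_class`     : `R N p v z → R N p (c · h ^ p · v) z`.
-/

set_option autoImplicit false

namespace Fermat.Agent.S42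

namespace OrbitClass

open Fermat.Agent.S24 AlgebraicCurve ModularCurve

/-- The order at a place of a natural power. -/
theorem ord_npow (N : ℕ) [NeZero N] (P : Place ℂ (FFL ℂ N)) (f : FFL ℂ N) (n : ℕ) :
    P.ord (f ^ n) = (n : ℤ) * P.ord f := by
  rw [← zpow_natCast, Place.ord_zpow]

/-- A nonzero constant is a nonzero element of the function field. -/
theorem const_ne_zero (N : ℕ) [NeZero N] {c : ℂ} (hc : c ≠ 0) :
    algebraMap ℂ (FFL ℂ N) c ≠ 0 := by
  intro h0
  apply hc
  have h1 := OrbitDefs.lead_algebraMap (N := N) c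
  rw [h0, OrbitDefs.lead_zero] at h1
  exact h1.symm

/-- The order at a place of `c · h ^ p · v`. -/
theorem ord_twist (N : ℕ) [NeZero N] (P : Place ℂ (FFL ℂ N)) (p : ℕ) {v : FFL ℂ N}
    (hv : v ≠ 0) {c : ℂ} (hc : c ≠ 0) {h : FFL ℂ N} (hh : h ≠ 0) :
    P.ord (algebraMap ℂ (FFL ℂ N) c * h ^ p * v) = (p : ℤ) * P.ord h + P.ord v := by
  have hc' : algebraMap ℂ (FFL ℂ N) c ≠ 0 := const_ne_zero N hc
  have hhp : h ^ p ≠ 0 := pow_ne_zero p hh
  rw [Place.ord_mul P (mul_ne_zero hc' hhp) hv, Place.ord_mul P hc' hhp,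
    Fermat.Agent.S24.ord_algebraMap, ord_npow N P h p, zero_add]

/-- Key lemma: `w' ∈ W N p m (c · h ^ p · v)` if and only if `w' * h ∈ W N p m v`. -/
theorem mem_W_twist (N : ℕ) [NeZero N] (p m : ℕ) {v : FFL ℂ N} (hv : v ≠ 0)
    {c : ℂ} (hc : c ≠ 0) {h : FFL ℂ N} (hh : h ≠ 0) (w' : FFL ℂ N) :
    w' ∈ OrbitDefs.W N p m (algebraMap ℂ (FFL ℂ N) c * h ^ p * v) ↔
      w' * h ∈ OrbitDefs.W N p m v := by
  rw [OrbitDefs.mem_W_iff N, OrbitDefs.mem_W_iff N]
  rcases eq_or_ne w' 0 with rfl | hw'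
  · constructor
    · intro _
      exact Or.inl (zero_mul h)
    · intro _
      exact Or.inl rfl
  · have hwh : w' * h ≠ 0 := mul_ne_zero hw' hh
    constructor
    · rintro (h0 | hP)
      · exact absurd h0 hw'
      · refine Or.inr fun P => ?_
        have h1 := hP P
        rw [ord_twist N P p hv hc hh] at h1
        rw [Place.ord_mul P hw' hh]
        linarith
    · rintro (h0 | hP)
      · exact absurd h0 hwh
      · refine Or.inr fun P => ?_
        have h1 := hP P
        rw [Place.ord_mul P hw' hh] at h1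
        rw [ord_twist N P p hv hc hh]
        linarith

set_option linter.unusedVariables false in
/-- The relation `R` is invariant under `v ↦ c · h ^ p · v` (`c` a nonzero constant, `h ≠ 0`). -/
theorem R_class (N : ℕ) [NeZero N] (p : ℕ) (hp : 0 < p) (v : FFL ℂ N) (hv : v ≠ 0)
    (z : FFL ℂ N) (c : ℂ) (hc : c ≠ 0) (h : FFL ℂ N) (hh : h ≠ 0) (hR : OrbitDefs.R N p v z) :
    OrbitDefs.R N p (algebraMap ℂ (FFL ℂ N) c * h ^ p * v) z := by
  obtain ⟨m, w, hw0, hwW, hmin, hmax, hz⟩ := hR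
  have hc' : algebraMap ℂ (FFL ℂ N) c ≠ 0 := const_ne_zero N hc
  have hwh : w / h * h = w := div_mul_cancel₀ w hh
  refine ⟨m, w / h, div_ne_zero hw0 hh, ?_, ?_, ?_, ?_⟩
  · rw [mem_W_twist N p m hv hc hh, hwh]
    exact hwW
  · intro m' hm' w' hw'
    have h1 := hmin m' hm' (w' * h) ((mem_W_twist N p m' hv hc hh w').mp hw')
    exact (mul_eq_zero.mp h1).resolve_right hh
  · intro w' hw' hw'0
    have h1 := hmax (w' * h) ((mem_W_twist N p m hv hc hh w').mp hw') (mul_ne_zero hw'0 hh)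
    rw [OrbitDefs.ordQ_mul hw'0 hh] at h1
    rw [OrbitDefs.ordQ_div hw0 hh]
    linarith
  · have hhp : h ^ p ≠ 0 := pow_ne_zero p hh
    have key : algebraMap ℂ (FFL ℂ N) c * h ^ p * v * (w / h) ^ p =
        algebraMap ℂ (FFL ℂ N) c * (v * w ^ p) := by
      rw [div_pow, mul_assoc, mul_assoc]
      congr 1
      rw [mul_div_assoc', mul_div_assoc', mul_comm (h ^ p) (v * w ^ p), mul_div_assoc,
        div_self hhp, mul_one]
    rw [key, OrbitDefs.lead_mul, OrbitDefs.lead_algebraMap, map_mul,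
      mul_div_mul_left _ _ hc']
    exact hz

end OrbitClass

end Fermat.Agent.S42
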