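import Fermat.Agent.S42.OrbitDefs

/-!
# P13 part (A), module M10 (orbit descent): equivariance of the relation `R`

For a field automorphism `σ` of `ℂ`, the coefficientwise action
`θ = arithmeticRingAut (modularFunctionFieldFull N) σ` on `𝔽 = FFL ℂ N` fixes `j`, preserves the
`q`-order, transforms the leading coefficient by `σ` and permutes the places of `𝔽`.  Hence it
maps the space `OrbitDefs.W N p m v` onto `OrbitDefs.W N p m (θ v)`, and the relation
`OrbitDefs.R N p` is equivariant: `R v z → R (θ v) (θ z)`.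
-/

set_option autoImplicit false

namespace Fermat.Agent.S42

namespace OrbitEquiv

open Fermat.Agent.S24 AlgebraicCurve ModularCurve

/-- The coefficientwise action of `σ` fixes `j`. -/
theorem theta_jL (N : ℕ) [NeZero N] (σ : ℂ ≃ₐ[ℚ] ℂ) :
    arithmeticRingAut (modularFunctionFieldFull N) σ (jL ℂ N) = jL ℂ N :=
  Subtype.ext (coeffMap_coeffEmb σ jq)

/-- The coefficientwise action of `σ` preserves the `q`-order. -/
theorem ordQ_theta (N : ℕ) (σ : ℂ ≃ₐ[ℚ] ℂ) (x : FFL ℂ N) :
    OrbitDefs.ordQ (arithmeticRingAut (modularFunctionFieldFull N) σ x) = OrbitDefs.ordQ x :=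
  Fermat.Agent.S24.order_coeffMap (σ : ℂ →+* ℂ) σ.injective _

/-- The coefficientwise action of `σ` transforms the leading coefficient by `σ`. -/
theorem lead_theta (N : ℕ) (σ : ℂ ≃ₐ[ℚ] ℂ) (x : FFL ℂ N) :
    OrbitDefs.lead (arithmeticRingAut (modularFunctionFieldFull N) σ x)
      = σ (OrbitDefs.lead x) := by
  rw [OrbitDefs.lead_eq_coeff, OrbitDefs.lead_eq_coeff, ordQ_theta]
  rfl

/-- The order of `θ x` at the transported place `g • P` is the order of `x` at `P`. -/
theorem ord_theta (N : ℕ) (σ : ℂ ≃ₐ[ℚ] ℂ) (P : Place ℂ (FFL ℂ N)) (x : FFL ℂ N) :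
    (arithmeticGalois (modularFunctionFieldFull N) σ • P).ord
      (arithmeticRingAut (modularFunctionFieldFull N) σ x) = P.ord x :=
  SemilinearAut.ord_smul (arithmeticGalois (modularFunctionFieldFull N) σ) P x

/-- The order of `j` at the transported place `g • P` is the order of `j` at `P`. -/
theorem ord_jL_smul (N : ℕ) [NeZero N] (σ : ℂ ≃ₐ[ℚ] ℂ) (P : Place ℂ (FFL ℂ N)) :
    (arithmeticGalois (modularFunctionFieldFull N) σ • P).ord (jL ℂ N) = P.ord (jL ℂ N) := by
  have h := ord_theta N σ P (jL ℂ N)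
  rwa [theta_jL] at h

/-- The coefficientwise action of `σ` maps `W N p m v` onto `W N p m (θ v)`. -/
theorem mem_W_theta (N : ℕ) [NeZero N] (σ : ℂ ≃ₐ[ℚ] ℂ) (p m : ℕ) (v w : FFL ℂ N) :
    w ∈ OrbitDefs.W N p m v ↔
      arithmeticRingAut (modularFunctionFieldFull N) σ w ∈
        OrbitDefs.W N p m (arithmeticRingAut (modularFunctionFieldFull N) σ v) := by
  rw [OrbitDefs.mem_W_iff, OrbitDefs.mem_W_iff]
  constructor
  · rintro (h | h)
    · left
      rw [h, map_zero]
    · right
      intro P
      have h1 := ord_theta N σ ((arithmeticGalois (modularFunctionFieldFull N) σ)⁻¹ • P) w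
      have h2 := ord_theta N σ ((arithmeticGalois (modularFunctionFieldFull N) σ)⁻¹ • P) v
      have h3 := ord_jL_smul N σ ((arithmeticGalois (modularFunctionFieldFull N) σ)⁻¹ • P)
      rw [smul_inv_smul] at h1 h2 h3
      rw [h1, h2, h3]
      exact h _
  · rintro (h | h)
    · left
      exact (map_eq_zero_iff _ (arithmeticRingAut (modularFunctionFieldFull N) σ).injective).mp h
    · right
      intro P
      have h4 := h (arithmeticGalois (modularFunctionFieldFull N) σ • P)
      rwa [ord_theta N σ P w, ord_theta N σ P v, ord_jL_smul N σ P] at h4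

set_option linter.unusedVariables false in
/-- The relation `OrbitDefs.R N p` is equivariant under the coefficientwise action of the field
automorphisms of `ℂ`. -/
theorem R_equivariant (N : ℕ) [NeZero N] (p : ℕ) (hp : 0 < p) (σ : ℂ ≃ₐ[ℚ] ℂ)
    (v : FFL ℂ N) (hv : v ≠ 0) (z : FFL ℂ N) (hR : OrbitDefs.R N p v z) :
    OrbitDefs.R N p (arithmeticRingAut (modularFunctionFieldFull N) σ v)
      (arithmeticRingAut (modularFunctionFieldFull N) σ z) := by
  obtain ⟨m, w, hw0, hwW, hmin, hmax, hz⟩ := hR
  refine ⟨m, arithmeticRingAut (modularFunctionFieldFull N) σ w, ?_, ?_, ?_, ?_, ?_⟩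
  · exact (map_ne_zero_iff _ (arithmeticRingAut (modularFunctionFieldFull N) σ).injective).mpr hw0
  · exact (mem_W_theta N σ p m v w).mp hwW
  · intro m' hm' w' hw'
    have h1 : arithmeticRingAut (modularFunctionFieldFull N) σ
        ((arithmeticRingAut (modularFunctionFieldFull N) σ).symm w') = w' :=
      RingEquiv.apply_symm_apply _ w'
    rw [← h1] at hw'
    have h2 := hmin m' hm' _ ((mem_W_theta N σ p m' v _).mpr hw')
    rw [← h1, h2, map_zero]
  · intro w' hw' hw'0
    have h1 : arithmeticRingAut (modularFunctionFieldFull N) σ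
        ((arithmeticRingAut (modularFunctionFieldFull N) σ).symm w') = w' :=
      RingEquiv.apply_symm_apply _ w'
    rw [← h1] at hw'
    have h2 := hmax _ ((mem_W_theta N σ p m v _).mpr hw') (by
      intro h
      apply hw'0
      rw [← h1, h, map_zero])
    rw [ordQ_theta, ← h1, ordQ_theta]
    exact h2
  · rw [hz, map_div₀, arithmeticRingAut_algebraMap, ← lead_theta, map_mul, map_pow]

end OrbitEquiv

end Fermat.Agent.S42
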