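import Fermat.Agent.S42.OrbitDefs

/-!
# P13 part (A), module M10 (orbit descent): some space `W N p m v` is nonzero

For a nonzero `v` in the function field `FFL ℂ N` and `p ≥ 1` there are `m` and a nonzero
`w ∈ W N p m v = L(div(v)/p + m·(poles of j))`.

The function `w` is a product of powers of functions `j - c` (`c ∈ ℂ`), one factor for each
zero or pole of `v` away from the poles of `j`; such a product has poles only at the poles of `j`.
-/

set_option autoImplicit false

namespace Fermat.Agent.S42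

namespace OrbitExistW

open Fermat.Agent.S24 AlgebraicCurve ModularCurve IntermediateField

section General

variable {K F : Type*} [Field K] [Field F] [Algebra K F]

/-- The order of a power. -/
theorem ord_npow (P : Place K F) (f : F) (n : ℕ) : P.ord (f ^ n) = (n : ℤ) * P.ord f := by
  rw [← zpow_natCast, P.ord_zpow]

/-- `x - c` is regular wherever `x` is. -/
theorem ord_sub_const_nonneg (P : Place K F) {x : F} (c : K) (hx0 : x ≠ 0)
    (ht : x - algebraMap K F c ≠ 0) (h : 0 ≤ P.ord x) :
    0 ≤ P.ord (x - algebraMap K F c) := by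
  rcases eq_or_ne c 0 with rfl | hc
  · rw [map_zero, sub_zero]
    exact h
  · have hc' : algebraMap K F c ≠ 0 := by
      rw [Ne, map_eq_zero]
      exact hc
    have hn : -(algebraMap K F c) ≠ 0 := neg_ne_zero.2 hc'
    have h1 : min (P.ord x) (P.ord (-(algebraMap K F c))) ≤ P.ord (x + -(algebraMap K F c)) :=
      PlacesBasic.min_ord_le_ord_add P hx0 hn (by rwa [← sub_eq_add_neg])
    rw [PlacesBasic.ord_neg, PlacesBasic.ord_algebraMap, ← sub_eq_add_neg] at h1
    exact le_trans (le_min h le_rfl) h1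

/-- `x - c` has the same pole order as `x` at a pole of `x`. -/
theorem ord_sub_const_of_neg (P : Place K F) {x : F} (c : K) (hx0 : x ≠ 0)
    (h : P.ord x < 0) : P.ord (x - algebraMap K F c) = P.ord x := by
  rcases eq_or_ne c 0 with rfl | hc
  · rw [map_zero, sub_zero]
  · have hc' : algebraMap K F c ≠ 0 := by
      rw [Ne, map_eq_zero]
      exact hc
    have hn : -(algebraMap K F c) ≠ 0 := neg_ne_zero.2 hc'
    have hne : P.ord x ≠ P.ord (-(algebraMap K F c)) := by
      rw [PlacesBasic.ord_neg, PlacesBasic.ord_algebraMap]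
      omega
    rw [sub_eq_add_neg, PlacesBasic.ord_add_eq_min P hx0 hn hne, PlacesBasic.ord_neg,
      PlacesBasic.ord_algebraMap]
    exact min_eq_left h.le

variable [IsAlgClosed K] [CharZero K]

/-- For every finite set `T` of places there is a nonzero function `w`, regular away from the
poles of `x`, with `ord_P w ≥ - ord_P v` for the `P ∈ T` which are not poles of `x`, and with
`ord_P w = d · ord_P x` at the poles of `x`. -/
theorem exists_of_finset {x : F} (hx : Transcendental K x) [FiniteDimensional K⟮x⟯ F]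
    (v : F) (T : Finset (Place K F)) :
    ∃ (w : F) (d : ℕ), w ≠ 0 ∧ (∀ P : Place K F, 0 ≤ P.ord x → 0 ≤ P.ord w) ∧
      (∀ P ∈ T, 0 ≤ P.ord x → -(P.ord v) ≤ P.ord w) ∧
      (∀ P : Place K F, P.ord x < 0 → P.ord w = (d : ℤ) * P.ord x) := by
  classical
  have hx0 : x ≠ 0 := by
    intro h
    apply hx
    rw [h]
    exact isAlgebraic_zero
  induction T using Finset.induction_on with
  | empty =>
    refine ⟨1, 0, one_ne_zero, fun P _ => ?_, fun P hP => absurd hP (Finset.notMem_empty P),
      fun P _ => ?_⟩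
    · rw [P.ord_one]
    · rw [P.ord_one, Nat.cast_zero, zero_mul]
  | insert P₀ T hP₀ ih =>
    obtain ⟨w, d, hw, ha, hb, hc⟩ := ih
    by_cases h0 : 0 ≤ P₀.ord x
    · obtain ⟨c, hc1 | hc1⟩ := exists_sub_mem_maximal hx P₀ h0
      · exact absurd (hc1 ▸ isAlgebraic_algebraMap c) hx
      · have ht0 : x - algebraMap K F c ≠ 0 := by
          intro h
          rw [h, P₀.ord_zero] at hc1
          exact lt_irrefl _ hc1
        have hk0 : (x - algebraMap K F c) ^ (P₀.ord v).natAbs ≠ 0 := pow_ne_zero _ ht0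
        refine ⟨w * (x - algebraMap K F c) ^ (P₀.ord v).natAbs, d + (P₀.ord v).natAbs,
          mul_ne_zero hw hk0, ?_, ?_, ?_⟩
        · intro P hP
          rw [P.ord_mul hw hk0, ord_npow]
          have h1 := ha P hP
          have h2 := ord_sub_const_nonneg P c hx0 ht0 hP
          have h3 : 0 ≤ ((P₀.ord v).natAbs : ℤ) * P.ord (x - algebraMap K F c) :=
            mul_nonneg (Int.natCast_nonneg _) h2
          omega
        · intro P hPT hP
          rw [P.ord_mul hw hk0, ord_npow]
          have h1 := ha P hP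
          have h2 := ord_sub_const_nonneg P c hx0 ht0 hP
          have h3 : 0 ≤ ((P₀.ord v).natAbs : ℤ) * P.ord (x - algebraMap K F c) :=
            mul_nonneg (Int.natCast_nonneg _) h2
          rcases Finset.mem_insert.1 hPT with rfl | hPT'
          · have h4 : ((P.ord v).natAbs : ℤ) * 1 ≤
                ((P.ord v).natAbs : ℤ) * P.ord (x - algebraMap K F c) :=
              mul_le_mul_of_nonneg_left (by omega) (Int.natCast_nonneg _)
            omega
          · have h4 := hb P hPT' hP
            omega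
        · intro P hP
          rw [P.ord_mul hw hk0, ord_npow, hc P hP, ord_sub_const_of_neg P c hx0 hP]
          push_cast
          ring
    · refine ⟨w, d, hw, ha, ?_, hc⟩
      intro P hPT hP
      rcases Finset.mem_insert.1 hPT with rfl | hPT'
      · exact absurd hP h0
      · exact hb P hPT' hP

/-- General form of the existence statement: for `v ≠ 0` and `p ≥ 1` there are `m` and `w ≠ 0`
with `p · ord_P w + ord_P v ≥ p · m · min (ord_P x, 0)` at every place `P`. -/
theorem exists_general {x : F} (hx : Transcendental K x) [FiniteDimensional K⟮x⟯ F]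
    (p : ℕ) (hp : 0 < p) {v : F} (hv : v ≠ 0) :
    ∃ (m : ℕ) (w : F), w ≠ 0 ∧ ∀ P : Place K F,
      (p : ℤ) * (m : ℤ) * min (P.ord x) 0 ≤ (p : ℤ) * P.ord w + P.ord v := by
  classical
  have hfin : {P : Place K F | P.ord v ≠ 0}.Finite := finite_setOf_ord_ne_zero hx hv
  obtain ⟨w, d, hw, ha, hb, hc⟩ := exists_of_finset hx v hfin.toFinset
  have hnot : ∀ P : Place K F, P ∉ hfin.toFinset → P.ord v = 0 := by
    intro P hP
    by_contra h
    exact hP (hfin.mem_toFinset.2 h)
  have hM : ∀ P : Place K F,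
      -((∑ Q ∈ hfin.toFinset, (Q.ord v).natAbs : ℕ) : ℤ) ≤ P.ord v := by
    intro P
    by_cases hP : P ∈ hfin.toFinset
    · have h1 : (P.ord v).natAbs ≤ ∑ Q ∈ hfin.toFinset, (Q.ord v).natAbs :=
        Finset.single_le_sum (f := fun Q : Place K F => (Q.ord v).natAbs)
          (fun _ _ => Nat.zero_le _) hP
      omega
    · rw [hnot P hP]
      omega
  have hp' : (1 : ℤ) ≤ (p : ℤ) := by exact_mod_cast hp
  refine ⟨d + ∑ Q ∈ hfin.toFinset, (Q.ord v).natAbs, w, hw, fun P => ?_⟩
  have hM0 : (0 : ℤ) ≤ ((∑ Q ∈ hfin.toFinset, (Q.ord v).natAbs : ℕ) : ℤ) :=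
    Int.natCast_nonneg _
  have hMP := hM P
  by_cases h0 : 0 ≤ P.ord x
  · rw [min_eq_right h0, mul_zero]
    have h1 := ha P h0
    have h2 : -(P.ord v) ≤ P.ord w := by
      by_cases hP : P ∈ hfin.toFinset
      · exact hb P hP h0
      · rw [hnot P hP]
        omega
    have h3 : 1 * P.ord w ≤ (p : ℤ) * P.ord w := mul_le_mul_of_nonneg_right hp' h1
    omega
  · have h0' : P.ord x < 0 := not_le.1 h0
    rw [min_eq_left h0'.le, hc P h0']
    have h2 : (p : ℤ) * ((∑ Q ∈ hfin.toFinset, (Q.ord v).natAbs : ℕ) : ℤ) * P.ord x ≤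
        (p : ℤ) * ((∑ Q ∈ hfin.toFinset, (Q.ord v).natAbs : ℕ) : ℤ) * (-1) :=
      mul_le_mul_of_nonneg_left (by omega) (mul_nonneg (by omega) hM0)
    have h3 : 1 * ((∑ Q ∈ hfin.toFinset, (Q.ord v).natAbs : ℕ) : ℤ) ≤
        (p : ℤ) * ((∑ Q ∈ hfin.toFinset, (Q.ord v).natAbs : ℕ) : ℤ) :=
      mul_le_mul_of_nonneg_right hp' hM0
    have h4 : (p : ℤ) * ((d + ∑ Q ∈ hfin.toFinset, (Q.ord v).natAbs : ℕ) : ℤ) * P.ord x =
        (p : ℤ) * ((d : ℤ) * P.ord x) +
          (p : ℤ) * ((∑ Q ∈ hfin.toFinset, (Q.ord v).natAbs : ℕ) : ℤ) * P.ord x := by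
      push_cast
      ring
    rw [h4]
    omega

end General

/-- Some space `W N p m v` contains a nonzero element. -/
theorem exists_ne_zero_mem_W (N : ℕ) [NeZero N] (p : ℕ) (hp : 0 < p) (v : FFL ℂ N)
    (hv : v ≠ 0) : ∃ (m : ℕ) (w : FFL ℂ N), w ≠ 0 ∧ w ∈ OrbitDefs.W N p m v := by
  have hx : Transcendental ℂ (jL ℂ N) := transcendental_jL N ℂ
  have : FiniteDimensional ℂ⟮jL ℂ N⟯ (FFL ℂ N) :=
    finiteDimensional_jL_of_emb N (RingHom.id ℂ)
  obtain ⟨m, w, hw, h⟩ := exists_general hx p hp hv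
  exact ⟨m, w, hw, Or.inr h⟩

end OrbitExistW

end Fermat.Agent.S42
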