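import Fermat.Agent.S42.OrbitDefs

/-!
# P13 part (A), module M10 (orbit descent): uniqueness of the canonical representative

For `𝔽 = FFL ℂ N` and `v ∈ 𝔽ˣ`, the relation `OrbitDefs.R N p v z` ("`z` is the canonical
representative of the class of `v` modulo `ℂˣ · 𝔽ˣ ^ p`") determines `z`:

* `OrbitUnique.R_unique` : `R N p v z → R N p v z' → z = z'`.

Auxiliary results:

* `OrbitUnique.coeff_sub_const_mul` : `q`-expansion coefficients of `x - a y`, `a ∈ ℂ`;
* `OrbitUnique.sub_const_mul_mem_W` : `W N p m v` is stable under `(w, w') ↦ w' - a w`;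
* `OrbitUnique.ordQ_lt_ordQ_sub` : killing the leading term raises the `q`-order.
-/

set_option autoImplicit false

namespace Fermat.Agent.S42

namespace OrbitUnique

open Fermat.Agent.S24 AlgebraicCurve ModularCurve

/-- The `q`-expansion coefficients of `x - a y` for a constant `a`. -/
theorem coeff_sub_const_mul {N : ℕ} (x y : FFL ℂ N) (a : ℂ) (n : ℤ) :
    ((x - algebraMap ℂ (FFL ℂ N) a * y : FFL ℂ N) : LaurentSeries ℂ).coeff n =
      (x : LaurentSeries ℂ).coeff n - a * (y : LaurentSeries ℂ).coeff n := by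
  have h1 : ((x - algebraMap ℂ (FFL ℂ N) a * y : FFL ℂ N) : LaurentSeries ℂ) =
      (x : LaurentSeries ℂ) - algebraMap ℂ (LaurentSeries ℂ) a * (y : LaurentSeries ℂ) := rfl
  rw [h1, HahnSeries.coeff_sub, FFLAlg.coeff_algebraMap_mul]

/-- The space `W N p m v` is stable under the linear combinations `w' - a w`. -/
theorem sub_const_mul_mem_W (N : ℕ) [NeZero N] {p m : ℕ} {v w w' : FFL ℂ N} (a : ℂ)
    (hw : w ∈ OrbitDefs.W N p m v) (hw' : w' ∈ OrbitDefs.W N p m v) :
    w' - algebraMap ℂ (FFL ℂ N) a * w ∈ OrbitDefs.W N p m v := by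
  by_cases hu : w' - algebraMap ℂ (FFL ℂ N) a * w = 0
  · exact Or.inl hu
  by_cases hcw : algebraMap ℂ (FFL ℂ N) a * w = 0
  · rw [hcw, sub_zero]
    exact hw'
  have hc : algebraMap ℂ (FFL ℂ N) a ≠ 0 := left_ne_zero_of_mul hcw
  have hw0 : w ≠ 0 := right_ne_zero_of_mul hcw
  have hwP := hw.resolve_left hw0
  refine Or.inr fun P => ?_
  have hp : (0 : ℤ) ≤ (p : ℤ) := Int.natCast_nonneg p
  have h1 : P.ord (-(algebraMap ℂ (FFL ℂ N) a * w)) = P.ord w := by
    rw [PlacesBasic.ord_neg, P.ord_mul hc hw0, PlacesBasic.ord_algebraMap, zero_add]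
  by_cases hw'0 : w' = 0
  · rw [hw'0, zero_sub, h1]
    exact hwP P
  have hw'P := hw'.resolve_left hw'0
  have h2 : min (P.ord w') (P.ord (-(algebraMap ℂ (FFL ℂ N) a * w))) ≤
      P.ord (w' + -(algebraMap ℂ (FFL ℂ N) a * w)) :=
    PlacesBasic.min_ord_le_ord_add P hw'0 (neg_ne_zero.2 hcw) (by rwa [← sub_eq_add_neg])
  rw [h1, ← sub_eq_add_neg] at h2
  rcases min_le_iff.1 h2 with h3 | h3
  · have h4 := hw'P P
    have h5 := mul_le_mul_of_nonneg_left h3 hp
    linarith
  · have h4 := hwP P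
    have h5 := mul_le_mul_of_nonneg_left h3 hp
    linarith

/-- If `w` and `w'` have the same `q`-order, then subtracting from `w'` the multiple of `w`
with the same leading term strictly raises the `q`-order (when the difference is nonzero). -/
theorem ordQ_lt_ordQ_sub {N : ℕ} {w w' : FFL ℂ N} (hw0 : w ≠ 0)
    (hord : OrbitDefs.ordQ w' = OrbitDefs.ordQ w)
    (hu : w' - algebraMap ℂ (FFL ℂ N) (OrbitDefs.lead w' / OrbitDefs.lead w) * w ≠ 0) :
    OrbitDefs.ordQ w <
      OrbitDefs.ordQ (w' - algebraMap ℂ (FFL ℂ N) (OrbitDefs.lead w' / OrbitDefs.lead w) * w) := by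
  by_contra hle
  rw [not_lt] at hle
  apply OrbitDefs.lead_ne_zero hu
  rw [OrbitDefs.lead_eq_coeff, coeff_sub_const_mul]
  rcases lt_or_eq_of_le hle with hlt | heq
  · rw [OrbitDefs.coeff_eq_zero_of_lt_ordQ (x := w) hlt,
      OrbitDefs.coeff_eq_zero_of_lt_ordQ (x := w') (hord.symm ▸ hlt), mul_zero, sub_zero]
  · rw [heq]
    have h1 : (w' : LaurentSeries ℂ).coeff (OrbitDefs.ordQ w) = OrbitDefs.lead w' := by
      rw [← hord, OrbitDefs.lead_eq_coeff]
    rw [h1, ← OrbitDefs.lead_eq_coeff, div_mul_cancel₀ _ (OrbitDefs.lead_ne_zero hw0), sub_self]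

set_option linter.unusedVariables false in
/-- **Uniqueness of the canonical representative**: `R N p v z` determines `z`.
(The hypotheses `hp` and `hv` are part of the common interface of the module; the proof does
not use them.) -/
theorem R_unique (N : ℕ) [NeZero N] (p : ℕ) (hp : 0 < p) (v : FFL ℂ N) (hv : v ≠ 0)
    (z z' : FFL ℂ N) (h : OrbitDefs.R N p v z) (h' : OrbitDefs.R N p v z') : z = z' := by
  obtain ⟨m, w, hw0, hwW, hmin, hmax, hz⟩ := h
  obtain ⟨m', w', hw'0, hw'W, hmin', hmax', hz'⟩ := h'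
  -- the two levels coincide
  have hmm : m = m' := by
    rcases lt_trichotomy m m' with hlt | heq | hgt
    · exact absurd (hmin' m hlt w hwW) hw0
    · exact heq
    · exact absurd (hmin m' hgt w' hw'W) hw'0
  subst hmm
  -- the two `q`-orders coincide
  have hord : OrbitDefs.ordQ w' = OrbitDefs.ordQ w :=
    le_antisymm (hmax w' hw'W hw'0) (hmax' w hwW hw0)
  -- hence `w'` is a constant multiple of `w`
  obtain ⟨a, ha0, hw'⟩ : ∃ a : ℂ, a ≠ 0 ∧ w' = algebraMap ℂ (FFL ℂ N) a * w := by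
    refine ⟨OrbitDefs.lead w' / OrbitDefs.lead w,
      div_ne_zero (OrbitDefs.lead_ne_zero hw'0) (OrbitDefs.lead_ne_zero hw0), ?_⟩
    by_contra hne
    have hu : w' - algebraMap ℂ (FFL ℂ N) (OrbitDefs.lead w' / OrbitDefs.lead w) * w ≠ 0 :=
      fun h0 => hne (sub_eq_zero.1 h0)
    exact absurd (hmax _ (sub_const_mul_mem_W N _ hwW hw'W) hu)
      (not_le.2 (ordQ_lt_ordQ_sub hw0 hord hu))
  have hca : algebraMap ℂ (FFL ℂ N) (a ^ p) ≠ 0 := by
    rw [Ne, map_eq_zero]
    exact pow_ne_zero p ha0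
  have hvw : v * w' ^ p = algebraMap ℂ (FFL ℂ N) (a ^ p) * (v * w ^ p) := by
    rw [hw', mul_pow, map_pow]
    ring
  have hlead : OrbitDefs.lead (algebraMap ℂ (FFL ℂ N) (a ^ p) * (v * w ^ p)) =
      a ^ p * OrbitDefs.lead (v * w ^ p) := by
    rw [OrbitDefs.lead_mul, OrbitDefs.lead_algebraMap]
  rw [hz, hz', hvw, hlead, map_mul, mul_div_mul_left _ _ hca]

end OrbitUnique

end Fermat.Agent.S42
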