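import Fermat.Agent.S42.OrbitDefs
import Fermat.Agent.S42.AutC
import Fermat.Agent.S42.OrbitExistW
import Fermat.Agent.S42.OrbitBound
import Fermat.Agent.S42.OrbitUnique
import Fermat.Agent.S42.OrbitClass
import Fermat.Agent.S42.OrbitEquiv

/-!
# P13 part (A), module M10: orbit descent

If the class of `v ∈ 𝔽 = FFL ℂ N` modulo constants and `p`-th powers has finite orbit under the
group `autC` of automorphisms of `ℂ` over `ℚ̄` (acting on `q`-expansion coefficients), then the
class contains an element all of whose `q`-expansion coefficients lie in `ℚ̄`.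

The element is the canonical representative `z` of the class (`OrbitDefs.R N p v z`): it exists
(`OrbitDescent.exists_R`), it is unique, it only depends on the class and it is equivariant, so
its orbit under `autC` is finite; hence each of its coefficients has finite orbit and lies in
`ℚ̄` by `mem_range_embQ_of_finite_orbit`.
-/

set_option autoImplicit false

namespace Fermat.Agent.S42

open Fermat.Agent.S24 AlgebraicCurve ModularCurve

namespace OrbitDescent

open OrbitDefs

/-- Existence of the canonical representative. -/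
theorem exists_R (N : ℕ) [NeZero N] (p : ℕ) (hp : 0 < p) (v : FFL ℂ N) (hv : v ≠ 0) :
    ∃ z : FFL ℂ N, R N p v z := by
  classical
  have hex : ∃ m : ℕ, ∃ w : FFL ℂ N, w ≠ 0 ∧ w ∈ W N p m v :=
    OrbitExistW.exists_ne_zero_mem_W N p hp v hv
  obtain ⟨w₀, hw₀0, hw₀⟩ := Nat.find_spec hex
  obtain ⟨B, hB⟩ := OrbitBound.exists_ordQ_le N p hp (Nat.find hex) v hv
  obtain ⟨t, ⟨w, hwW, hw0, hwt⟩, hmax⟩ := Int.exists_greatest_of_bdd
    (P := fun t : ℤ => ∃ w ∈ W N p (Nat.find hex) v, w ≠ 0 ∧ ordQ w = t)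
    ⟨B, fun t ⟨w, hw, hw0, hwt⟩ => hwt ▸ hB w hw hw0⟩ ⟨ordQ w₀, w₀, hw₀, hw₀0, rfl⟩
  refine ⟨_, Nat.find hex, w, hw0, hwW, ?_, ?_, rfl⟩
  · intro m' hm' w' hw'
    by_contra hne
    exact Nat.find_min hex hm' ⟨w', hne, hw'⟩
  · intro w' hw' hw'0
    rw [hwt]
    exact hmax _ ⟨w', hw', hw'0, rfl⟩

end OrbitDescent

set_option linter.unusedVariables false in
open OrbitDefs in
/-- **Orbit descent.** If the class of `v` modulo constants and `p`-th powers has finite orbit
under `autC`, then it contains an element with `q`-expansion coefficients in `ℚ̄`. -/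
theorem exists_descent (N : ℕ) [NeZero N] (p : ℕ) (hp : 0 < p) (v : FFL ℂ N) (hv : v ≠ 0)
    (hdiv : ∀ P : Place ℂ (FFL ℂ N), (p : ℤ) ∣ P.ord v)
    (hfin : ∃ S : Finset (FFL ℂ N), ∀ σ ∈ autC, ∃ s ∈ S, ∃ (c : ℂ) (w : FFL ℂ N),
      c ≠ 0 ∧ w ≠ 0 ∧
      arithmeticRingAut (modularFunctionFieldFull N) σ v = algebraMap ℂ (FFL ℂ N) c * w ^ p * s) :
    ∃ (c : ℂ) (w v' : FFL ℂ N), c ≠ 0 ∧ w ≠ 0 ∧ v = algebraMap ℂ (FFL ℂ N) c * w ^ p * v' ∧
      ∀ n : ℤ, (v' : LaurentSeries ℂ).coeff n ∈ Set.range embQ := by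
  classical
  obtain ⟨z, hzR⟩ := OrbitDescent.exists_R N p hp v hv
  obtain ⟨S, hS⟩ := hfin
  obtain ⟨m, w, hw0, hwW, hmin, hmax, hzeq⟩ := id hzR
  have hvw : v * w ^ p ≠ 0 := mul_ne_zero hv (pow_ne_zero p hw0)
  have hc0 : lead (v * w ^ p) ≠ 0 := lead_ne_zero hvw
  refine ⟨lead (v * w ^ p), w⁻¹, z, hc0, inv_ne_zero hw0, ?_, ?_⟩
  · have hC : algebraMap ℂ (FFL ℂ N) (lead (v * w ^ p)) ≠ 0 := by
      rwa [Ne, map_eq_zero]
    rw [hzeq, inv_pow]
    field_simp
  · intro n
    let zf : FFL ℂ N → FFL ℂ N := fun s =>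
      if h : ∃ z', R N p s z' then Classical.choose h else 0
    have key : ∀ σ ∈ autC,
        arithmeticRingAut (modularFunctionFieldFull N) σ z ∈ S.image zf := by
      intro σ hσ
      obtain ⟨s, hsS, c, h, hc, hh, heq⟩ := hS σ hσ
      have hθv : arithmeticRingAut (modularFunctionFieldFull N) σ v ≠ 0 := by
        rwa [Ne, map_eq_zero_iff _ (RingEquiv.injective _)]
      have hs0 : s ≠ 0 := by
        rintro rfl
        rw [mul_zero] at heq
        exact hθv heq
      have h1 := OrbitEquiv.R_equivariant N p hp σ v hv z hzR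
      have h2 := OrbitClass.R_class N p hp _ hθv _ c⁻¹ (inv_ne_zero hc) h⁻¹ (inv_ne_zero hh) h1
      have hs : algebraMap ℂ (FFL ℂ N) c⁻¹ * h⁻¹ ^ p *
          arithmeticRingAut (modularFunctionFieldFull N) σ v = s := by
        have hC : algebraMap ℂ (FFL ℂ N) c ≠ 0 := by rwa [Ne, map_eq_zero]
        rw [heq, map_inv₀, inv_pow]
        field_simp
      rw [hs] at h2
      have hex : ∃ z', R N p s z' := ⟨_, h2⟩
      have h3 : zf s = arithmeticRingAut (modularFunctionFieldFull N) σ z := by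
        show (if h : ∃ z', R N p s z' then Classical.choose h else 0) = _
        rw [dif_pos hex]
        exact OrbitUnique.R_unique N p hp s hs0 _ _ (Classical.choose_spec hex) h2
      rw [← h3]
      exact Finset.mem_image_of_mem zf hsS
    refine mem_range_embQ_of_finite_orbit _
      ((fun z' : FFL ℂ N => (z' : LaurentSeries ℂ).coeff n) ''
        ((S.image zf : Finset (FFL ℂ N)) : Set (FFL ℂ N)))
      ((Finset.finite_toSet _).image _) ?_
    intro σ hσ
    exact ⟨_, key σ hσ, rfl⟩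

end Fermat.Agent.S42
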