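import Fermat.Agent.S42.KummerBasic
import Fermat.Agent.S42.KummerUnique
import Fermat.Agent.S42.KummerExist
import Fermat.Agent.S42.EisChar
import Fermat.Agent.S42.InvField
import Fermat.Agent.S42.FinClasses
import Fermat.Agent.S42.OrbitDescent

/-!
# P13 part (A): Kummer classes

This file collects the results on Kummer classes (`IsKummer`, file `ADefs`):

* `exists_isKummer_of_cuspidal` (this file): every cuspidal additive character
  `φ : Γ₀(N) → ℤ/p` has a Kummer class. The proof is in the file `KummerExist`
  (`KummerExist.exists_isKummer_of_cuspidal_of`), whose four inputs are provided by the files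
  `EisChar` (`exists_char_function`), `InvField` (`exists_realHom_eq_of_invariant_hol`),
  `FinClasses` (`finite_classes`) and `OrbitDescent` (`exists_descent`);
* `isKummer_add`, `isKummer_mem_Jp`, `eq_zero_of_isKummer_zero` (file `KummerBasic`);
* `isKummer_unique` (file `KummerUnique`).
-/

set_option autoImplicit false

namespace Fermat.Agent.S42

open Fermat.Agent.S24 AlgebraicCurve ModularCurve CongruenceSubgroup
open scoped MatrixGroups

/-- Every cuspidal additive character `φ : Γ₀(N) → ℤ/p` has a Kummer class. -/
theorem exists_isKummer_of_cuspidal (N p : ℕ) [NeZero N] [NeZero p]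
    (φ : Additive ↥(Gamma0 N) →+ ZMod p) (hφ : IsCuspidalHom N φ) : ∃ c, IsKummer N p φ c :=
  KummerExist.exists_isKummer_of_cuspidal_of N p (exists_char_function N)
    (exists_realHom_eq_of_invariant_hol N) (fun v hv hd => finite_classes N p v hv hd)
    (fun v hv hd hf => exists_descent N p (Nat.pos_of_ne_zero (NeZero.ne p)) v hv hd hf) φ hφ

end Fermat.Agent.S42
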