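import Fermat.Agent.S42.ADefs
import Fermat.Agent.S21.ES
import Fermat.Agent.S42.GammaFG
import Fermat.Agent.S42.HeckeCosets
import Fermat.Agent.S42.PeriodHecke

/-!
# P13 part (A), module M11: the period homomorphism of an eigenform modulo a maximal ideal

Let `g` be a nonzero weight two cusp form of level `Γ₀(N)` and let `𝔪` be a maximal ideal of the
ring `ℤ̄ = integralClosure ℤ ℂ` of algebraic integers.  The values of the period homomorphism
`periodMap N g : Γ₀(N) → ℂ` span a finitely generated nonzero `ℤ̄`-submodule `Λ` of `ℂ`; by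
Nakayama's lemma `𝔪 Λ ≠ Λ`, so there is a `ℤ̄`-linear map `Λ → ℤ̄ ⧸ 𝔪` which does not vanish.
Composing it with the period homomorphism gives a nonzero cuspidal character
`φ : Γ₀(N) → ℤ̄ ⧸ 𝔪` which is an eigenvector of the Hecke operator `T_ℓ` (on characters) with
eigenvalue `a mod 𝔪` whenever `T_ℓ g = a g` with `a ∈ ℤ̄`.

Main statement: `Fermat.Agent.S42.exists_period_eigen`.
-/

set_option autoImplicit false

namespace Fermat.Agent.S42

open ModularCurve CongruenceSubgroup UpperHalfPlane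
open scoped MatrixGroups

namespace PeriodEigen

/-! ### Step 1: the period map of a nonzero cusp form is nonzero -/

/-- The period map of a nonzero cusp form is nonzero. -/
theorem periodMap_ne_zero (N : ℕ) [NeZero N] (g : CuspForm (Gamma0 N) 2) (hg : g ≠ 0) :
    periodMap N g ≠ 0 := by
  intro h0
  obtain ⟨F, hF⟩ := Fermat.Agent.S21.exists_hasEquivariantPrimitive N g
  have hP := Fermat.Agent.S21.periodMap_eq_periodHom_of N g hF
  apply hg
  refine Fermat.Agent.S21.Injective.eq_zero_of_period_relation hF 0 fun γ => ?_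
  have hz : ∀ δ : Gamma0 N, hF.2.2.1.period δ = 0 := by
    intro δ
    have h := DFunLike.congr_fun hP (Additive.ofMul δ)
    rw [h0, Period.IsEquivariantPrimitive.periodHom_apply] at h
    exact h.symm
  rw [hz γ, hz]
  simp

/-! ### Step 2: the period map is cuspidal -/

/-- Cayley–Hamilton for a `2 × 2` integer matrix of determinant `1`. -/
theorem matrix_mul_self (A : Matrix (Fin 2) (Fin 2) ℤ) (hdet : A.det = 1) :
    A * A = A.trace • A - 1 := by
  rw [Matrix.det_fin_two] at hdet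
  ext i j
  fin_cases i <;> fin_cases j <;>
    simp only [Matrix.mul_apply, Fin.sum_univ_two, Matrix.sub_apply, Matrix.smul_apply,
      Matrix.trace_fin_two, smul_eq_mul, Fin.zero_eta, Fin.mk_one, Matrix.one_apply_eq,
      Matrix.one_apply_ne, ne_eq, zero_ne_one, one_ne_zero, not_false_eq_true, sub_zero,
      Fin.isValue] <;>
    first | ring1 | linear_combination (-1 : ℤ) * hdet

/-- A `2 × 2` integer matrix of determinant `1` whose trace has square `< 4` satisfies
`A ^ 12 = 1`. -/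
theorem matrix_pow_twelve (A : Matrix (Fin 2) (Fin 2) ℤ) (hdet : A.det = 1)
    (htr : A.trace ^ 2 < 4) : A ^ 12 = 1 := by
  have hCH := matrix_mul_self A hdet
  have ht : A.trace = 0 ∨ A.trace = 1 ∨ A.trace = -1 := by
    have h1 : -2 < A.trace := by nlinarith
    have h2 : A.trace < 2 := by nlinarith
    omega
  rcases ht with h | h | h
  · rw [h, zero_smul, zero_sub] at hCH
    have h2 : A ^ 2 = -1 := by rw [pow_two, hCH]
    rw [show (12 : ℕ) = 2 * 6 from rfl, pow_mul, h2]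
    exact Even.neg_one_pow ⟨3, rfl⟩
  · rw [h, one_smul] at hCH
    have h3 : A ^ 3 = -1 := by
      rw [pow_succ, pow_two, hCH, sub_mul, hCH, one_mul]
      abel
    rw [show (12 : ℕ) = 3 * 4 from rfl, pow_mul, h3]
    exact Even.neg_one_pow ⟨2, rfl⟩
  · rw [h, neg_one_smul] at hCH
    have h3 : A ^ 3 = 1 := by
      rw [pow_succ, pow_two, hCH, sub_mul, neg_mul, hCH, one_mul]
      abel
    rw [show (12 : ℕ) = 3 * 4 from rfl, pow_mul, h3, one_pow]

/-- An element of `Γ₀(N)` whose trace has square `< 4` has order dividing `12`. -/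
theorem gamma_pow_twelve {N : ℕ} (γ : ↥(Gamma0 N))
    (htr : ((γ : SL(2, ℤ)) : Matrix (Fin 2) (Fin 2) ℤ).trace ^ 2 < 4) : γ ^ 12 = 1 := by
  apply Subtype.ext
  apply Subtype.ext
  have h := matrix_pow_twelve ((γ : SL(2, ℤ)) : Matrix (Fin 2) (Fin 2) ℤ) (γ : SL(2, ℤ)).2 htr
  rw [SubgroupClass.coe_pow, Matrix.SpecialLinearGroup.coe_pow, h]
  rfl

/-- A homomorphism to `ℂ` kills the elements of finite order. -/
theorem hom_eq_zero_of_pow {G : Type*} [Group G] (P : Additive G →+ ℂ) (γ : G) {n : ℕ}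
    (hn : n ≠ 0) (h : γ ^ n = 1) : P (Additive.ofMul γ) = 0 := by
  have h1 : n • P (Additive.ofMul γ) = 0 := by
    rw [← map_nsmul, ← ofMul_pow, h, ofMul_one, map_zero]
  rcases smul_eq_zero.mp h1 with h2 | h2
  · exact absurd h2 hn
  · exact h2

/-- The period map of a cusp form is cuspidal: it kills the elements whose trace has square
at most `4`. -/
theorem periodMap_cuspidal (N : ℕ) [NeZero N] (g : CuspForm (Gamma0 N) 2) :
    IsCuspidalHom N (periodMap N g) := by
  intro γ hγ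
  rcases lt_or_eq_of_le hγ with h | h
  · exact hom_eq_zero_of_pow _ γ (by norm_num) (gamma_pow_twelve γ h)
  · exact Period.mem_parabolicHoms_iff.mp
      (Fermat.Agent.S21.periodMap_mem_parabolicHoms N g) γ h

/-! ### Step 3: Nakayama and a functional on the reduction of the period lattice -/

/-- A finite module over a commutative ring having an element with trivial annihilator is not
equal to `𝔪 M`, for `𝔪` a maximal ideal. -/
theorem exists_not_mem_smul_top {R : Type*} [CommRing R] (𝔪 : Ideal R) [h𝔪 : 𝔪.IsMaximal]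
    {M : Type*} [AddCommGroup M] [Module R M] [Module.Finite R M] (x : M)
    (hx : ∀ r : R, r • x = 0 → r = 0) : ∃ x₀ : M, x₀ ∉ 𝔪 • (⊤ : Submodule R M) := by
  by_contra hcon
  have hle : (⊤ : Submodule R M) ≤ 𝔪 • (⊤ : Submodule R M) :=
    fun y _ => not_not.mp fun hy => hcon ⟨y, hy⟩
  obtain ⟨r, hr1, hr2⟩ := Submodule.exists_sub_one_mem_and_smul_eq_zero_of_fg_of_le_smul 𝔪 ⊤
    Module.Finite.fg_top hle
  have hr0 : r = 0 := hx r (hr2 x Submodule.mem_top)
  rw [hr0, zero_sub] at hr1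
  have h1 : (1 : R) ∈ 𝔪 := by
    have := 𝔪.neg_mem hr1
    rwa [neg_neg] at this
  exact h𝔪.ne_top ((Ideal.eq_top_iff_one 𝔪).mpr h1)

/-- For a maximal ideal `𝔪` of `R` and an element `x₀ ∉ 𝔪 M` of an `R`-module `M` there is an
`R`-linear map `M → R ⧸ 𝔪` not vanishing at `x₀`. -/
theorem exists_linear_apply_ne_zero {R : Type*} [CommRing R] (𝔪 : Ideal R) [𝔪.IsMaximal]
    {M : Type*} [AddCommGroup M] [Module R M] (x₀ : M)
    (hx₀ : x₀ ∉ 𝔪 • (⊤ : Submodule R M)) : ∃ L : M →ₗ[R] (R ⧸ 𝔪), L x₀ ≠ 0 := by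
  let _ : Field (R ⧸ 𝔪) := Ideal.Quotient.field 𝔪
  have hne : (Submodule.Quotient.mk x₀ : M ⧸ 𝔪 • (⊤ : Submodule R M)) ≠ 0 := by
    rw [Ne, Submodule.Quotient.mk_eq_zero]
    exact hx₀
  obtain ⟨f, hf⟩ := Module.Projective.exists_dual_ne_zero (R ⧸ 𝔪) hne
  refine ⟨{ toFun := fun x => f (Submodule.Quotient.mk x), map_add' := ?_, map_smul' := ?_ }, hf⟩
  · intro x y
    rw [Submodule.Quotient.mk_add, map_add]
  · intro r x
    rw [RingHom.id_apply, ← Module.Quotient.mk_smul_mk, map_smul]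
    rfl

/-- The abstract reduction statement: a homomorphism `P` from a finitely generated group to an
`R`-module `V`, one of whose values has trivial annihilator, takes values in a submodule `Λ`
which admits an `R`-linear map to `R ⧸ 𝔪` not vanishing identically on the values of `P`. -/
theorem exists_lattice_functional {R : Type*} [CommRing R] (𝔪 : Ideal R) [𝔪.IsMaximal]
    {V : Type*} [AddCommGroup V] [Module R V] {G : Type*} [Group G] (hG : Group.FG G)
    (P : Additive G →+ V) (γ₀ : Additive G) (hγ₀ : ∀ r : R, r • P γ₀ = 0 → r = 0) :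
    ∃ (Λ : Submodule R V) (hΛ : ∀ γ, P γ ∈ Λ) (L : Λ →ₗ[R] R ⧸ 𝔪),
      ∃ γ, L ⟨P γ, hΛ γ⟩ ≠ 0 := by
  obtain ⟨S, hS, hSfin⟩ := Group.fg_iff.mp hG
  let Λ : Submodule R V := Submodule.span R ((fun s : G => P (Additive.ofMul s)) '' S)
  have hΛfg : Λ.FG := Submodule.fg_span (hSfin.image _)
  have hmem : ∀ γ : G, P (Additive.ofMul γ) ∈ Λ := by
    intro γ
    have hγ : γ ∈ Subgroup.closure S := by
      rw [hS]
      exact Subgroup.mem_top γ
    induction hγ using Subgroup.closure_induction with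
    | mem x hx => exact Submodule.subset_span ⟨x, hx, rfl⟩
    | one => rw [ofMul_one, map_zero]; exact Λ.zero_mem
    | mul x y _ _ hx hy => rw [ofMul_mul, map_add]; exact Λ.add_mem hx hy
    | inv x _ hx => rw [ofMul_inv, map_neg]; exact Λ.neg_mem hx
  have hΛ : ∀ γ : Additive G, P γ ∈ Λ := fun γ => hmem (Additive.toMul γ)
  have _ : Module.Finite R Λ := Module.Finite.iff_fg.mpr hΛfg
  obtain ⟨x₀, hx₀⟩ := exists_not_mem_smul_top 𝔪 (⟨P γ₀, hΛ γ₀⟩ : Λ) (fun r hr => by
    apply hγ₀ r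
    have := congrArg Subtype.val hr
    simpa using this)
  obtain ⟨L, hL⟩ := exists_linear_apply_ne_zero 𝔪 x₀ hx₀
  refine ⟨Λ, hΛ, L, ?_⟩
  by_contra hcon'
  have hcon : ∀ γ, L ⟨P γ, hΛ γ⟩ = 0 := fun γ => not_not.mp fun hγ => hcon' ⟨γ, hγ⟩
  apply hL
  have hL0 : L = 0 := by
    refine LinearMap.ext_on (Submodule.span_span_coe_preimage (R := R)
      (s := (fun s : G => P (Additive.ofMul s)) '' S)) ?_
    rintro ⟨y, hy⟩ ⟨s, -, hs⟩
    have h1 := hcon (Additive.ofMul s)
    have h2 : (⟨P (Additive.ofMul s), hΛ (Additive.ofMul s)⟩ : Λ) = ⟨y, hy⟩ := Subtype.ext hs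
    rw [h2] at h1
    rw [h1]
    rfl
  rw [hL0]
  rfl

end PeriodEigen

/-! ### The main statement -/

/-- **The period character of an eigenform modulo `𝔪`.**  For a nonzero weight two cusp form `g`
of level `Γ₀(N)` and a maximal ideal `𝔪` of the ring of algebraic integers there is a nonzero
cuspidal character `φ : Γ₀(N) → ℤ̄ ⧸ 𝔪` such that, whenever `T_ℓ g = a g` with `a ∈ ℤ̄` and
`ℓ ∤ N` prime, the Hecke transform of `φ` under `T_ℓ` is `(a mod 𝔪) φ`. -/
theorem exists_period_eigen (N : ℕ) [NeZero N] (g : CuspForm (Gamma0 N) 2) (hg : g ≠ 0)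
    (𝔪 : Ideal (integralClosure ℤ ℂ)) [𝔪.IsMaximal] :
    ∃ φ : Additive ↥(Gamma0 N) →+ (integralClosure ℤ ℂ ⧸ 𝔪), φ ≠ 0 ∧ IsCuspidalHom N φ ∧
      ∀ (ℓ : ℕ), ℓ.Prime → ¬ ℓ ∣ N → ∀ a : integralClosure ℤ ℂ,
        (∀ τ : ℍ, ModularForm.heckeT 2 ℓ (g : ℍ → ℂ) τ = (a : ℂ) * g τ) →
        ∀ φ' : Additive ↥(Gamma0 N) →+ (integralClosure ℤ ℂ ⧸ 𝔪), IsHeckeTransform N ℓ φ φ' →
          ∀ γ, φ' γ = Ideal.Quotient.mk 𝔪 a * φ γ := by
  obtain ⟨γ₀, hγ₀⟩ : ∃ γ₀, periodMap N g γ₀ ≠ 0 := by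
    by_contra h
    exact PeriodEigen.periodMap_ne_zero N g hg
      (AddMonoidHom.ext fun γ => not_not.mp fun hγ => h ⟨γ, hγ⟩)
  obtain ⟨Λ, hΛ, L, γ₁, hγ₁⟩ := PeriodEigen.exists_lattice_functional 𝔪 (gamma0_fg N)
    (periodMap N g) γ₀ (fun r hr => by
      rw [Subalgebra.smul_def, smul_eq_mul] at hr
      rcases mul_eq_zero.mp hr with h | h
      · exact Subtype.ext h
      · exact absurd h hγ₀)
  refine ⟨L.toAddMonoidHom.comp ((periodMap N g).codRestrict Λ hΛ), ?_, ?_, ?_⟩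
  · intro h0
    exact hγ₁ (DFunLike.congr_fun h0 γ₁)
  · intro γ hγ
    show L ⟨periodMap N g (Additive.ofMul γ), hΛ _⟩ = 0
    have h0 : (⟨periodMap N g (Additive.ofMul γ), hΛ _⟩ : Λ) = 0 :=
      Subtype.ext (PeriodEigen.periodMap_cuspidal N g γ hγ)
    rw [h0, map_zero]
  · intro ℓ hℓ hℓN a ha φ' hφ' γ
    have hT : IsHeckeTransform N ℓ (periodMap N g) (periodMap N ((a : ℂ) • g)) :=
      periodMap_hecke N hℓ hℓN g ((a : ℂ) • g) (fun τ => by rw [ha τ]; rfl)
    have hlin : periodMap N ((a : ℂ) • g) = (a : ℂ) • periodMap N g := by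
      obtain ⟨pml, hpml⟩ := Fermat.Agent.S21.existsPeriodMapLinear' N
      rw [← hpml, ← hpml, map_smul]
    obtain ⟨π, gi, hdat⟩ := exists_heckeDatum hℓ hℓN (Additive.toMul γ)
    have h1 := hφ' (Additive.toMul γ) π gi hdat
    have h2 := hT (Additive.toMul γ) π gi hdat
    rw [hlin] at h2
    have h3 : (∑ i, (⟨periodMap N g (Additive.ofMul (gi i)), hΛ _⟩ : Λ))
        = a • (⟨periodMap N g γ, hΛ γ⟩ : Λ) := by
      apply Subtype.ext
      rw [AddSubmonoidClass.coe_finsetSum, Submodule.coe_smul]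
      exact h2.symm
    show φ' γ = Ideal.Quotient.mk 𝔪 a * L ⟨periodMap N g γ, hΛ γ⟩
    have h4 : φ' γ = ∑ i, L ⟨periodMap N g (Additive.ofMul (gi i)), hΛ _⟩ := h1
    rw [h4, ← map_sum, h3, map_smul]
    rfl

end Fermat.Agent.S42
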