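import Fermat.Agent.S42.AssemblyACore
import Fermat.Agent.S42.GammaFG
import Fermat.Agent.S42.HeckeCosets
import Fermat.Agent.S42.Kummer
import Fermat.Agent.S42.HeckeKummer
import Fermat.Agent.S42.PeriodEigen

/-!
# P13 part (A), module M12: statement (A★)

The eigensystem of a weight two eigenform `g` of level `Γ₀(N)` modulo a maximal ideal `𝔪` of the
ring of algebraic integers containing `p` occurs in `(ℤ̄ ⧸ 𝔪) ⊗[ℤ] J₀(N)[p]`
(`HasEigenvector N p g 𝔪`).  The algebraic assembly is in `AssemblyACore.lean`; this file feeds it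
with the results of the other modules of part (A):

* `gamma0_fg` (GammaFG), `exists_isHeckeTransform`, `isHeckeTransform_unique` (HeckeCosets);
* `exists_isKummer_of_cuspidal`, `isKummer_add`, `isKummer_unique`, `eq_zero_of_isKummer_zero`,
  `isKummer_mem_Jp` (Kummer), `isKummer_hecke` (HeckeKummer);
* `exists_period_eigen` (PeriodEigen).
-/

set_option autoImplicit false

namespace Fermat.Agent.S42

open ModularCurve CongruenceSubgroup UpperHalfPlane

namespace AssemblyA

/-- The inputs of the assembly, from the other modules of part (A). -/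
theorem inputs (N p : ℕ) [NeZero N] [Fact p.Prime] : Inputs N p where
  fg := gamma0_fg N
  exists_transform := fun _ hℓ hℓN φ => exists_isHeckeTransform hℓ hℓN φ
  transform_unique := fun _ hℓ hℓN _ _ _ h h' => isHeckeTransform_unique hℓ hℓN h h'
  kummer_cuspidal := fun φ hφ => exists_isKummer_of_cuspidal N p φ hφ
  kummer_add := fun _ _ _ _ h h' => isKummer_add h h'
  kummer_unique := fun _ _ _ h h' => isKummer_unique h h'
  kummer_zero := fun _ h => eq_zero_of_isKummer_zero h
  kummer_mem := fun _ _ h => isKummer_mem_Jp h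
  kummer_hecke := fun _ hℓ hℓN _ _ _ h hT => isKummer_hecke hℓ hℓN h hT

end AssemblyA

/-- Statement (A★): the eigensystem of `g` modulo `𝔪` occurs in `(ℤ̄ ⧸ 𝔪) ⊗[ℤ] J₀(N)[p]`. -/
theorem hasEigenvector_of (N p : ℕ) [NeZero N] [Fact p.Prime] (g : CuspForm (Gamma0 N) 2)
    (hg : g ≠ 0) (𝔪 : Ideal (integralClosure ℤ ℂ)) [𝔪.IsMaximal]
    (hp : (p : integralClosure ℤ ℂ) ∈ 𝔪)
    (hT : ∀ (ℓ : ℕ), ℓ.Prime → ¬ ℓ ∣ N * p → ∀ τ : ℍ,
      ModularForm.heckeT 2 ℓ (g : ℍ → ℂ) τ = ModularFormClass.qCoeff g ℓ * g τ) :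
    HasEigenvector N p g 𝔪 :=
  AssemblyA.hasEigenvector_of_inputs N p g 𝔪 hp hT (AssemblyA.inputs N p)
    (exists_period_eigen N g hg 𝔪)

end Fermat.Agent.S42
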