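import Mathlib
import Fermat.Prelude.Def_FLTPrelim_Modularity
import Fermat.Prelude.Def_ModularForm_HeckeOperatorForms
import Fermat.Prelude.Def_CuspForm_IntegralStructure
import Fermat.Prelude.Def_CuspForm_HeckeAlgebra
import Fermat.Prelude.Thm_CuspForm_intLattice_fg
import Fermat.Prelude.Thm_ModularFormClass_qCoeff_heckeT
import Fermat.Prelude.Thm_CuspForm_mem_intLattice_of_mem_heckeAlgebra
import Fermat.Agent.S49.Hecke
import Fermat.Agent.S49.Lifting
import Fermat.Agent.S23.Main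

set_option autoImplicit false

/-!
# S42 (P13 B), module B7: Hecke eigenvalues of a normalised eigenform

For a normalised eigenform `g` of weight `2` and level `Γ₀(N)` (in the sense of the frozen
structure `CuspForm.IsNormalizedEigenform`, a package of identities between `q`-coefficients)
and a prime `ℓ ∤ N`:

* `heckeTLin_eq_qCoeff_smul`: `T_ℓ g = a_ℓ(g) • g`;
* `heckeT_eq_qCoeff_smul`: the same statement for the underlying functions;
* `isIntegral_qCoeff_of_isNormalizedEigenform`: `a_ℓ(g)` is an algebraic integer.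
-/

namespace Fermat.Agent.S42

open CuspForm ModularFormClass CongruenceSubgroup

section EigenIntegral

variable {N : ℕ} [NeZero N]

omit [NeZero N] in
/-- The `q`-coefficients of `T_ℓ f` for a prime `ℓ ∤ N`. -/
theorem ei_qCoeff_heckeTLin {ℓ : ℕ} (hℓ : ℓ.Prime) (hℓN : ¬ ℓ ∣ N)
    (f : CuspForm (Gamma0 N) 2) (n : ℕ) :
    qCoeff ⇑(CuspForm.heckeTLin 2 hℓ hℓN f) n =
      qCoeff ⇑f (n * ℓ) + (if ℓ ∣ n then (ℓ : ℂ) * qCoeff ⇑f (n / ℓ) else 0) := by
  rw [CuspForm.coe_heckeTLin_apply,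
    ModularFormClass.qCoeff_heckeT f (Fermat.Agent.S49.one_mem_periods N) hℓ.ne_zero]
  by_cases h' : ℓ ∣ n
  · simp [ModularForm.coeffHeckeT, h']
  · simp [ModularForm.coeffHeckeT, h']

/-- The coefficient identity behind `T_ℓ g = a_ℓ g` for a normalised eigenform `g`. -/
theorem ei_coeff_identity {g : CuspForm (Gamma0 N) 2} (hg : g.IsNormalizedEigenform)
    {ℓ : ℕ} (hℓ : ℓ.Prime) (hℓN : ¬ ℓ ∣ N) (n : ℕ) :
    qCoeff ⇑g (n * ℓ) + (if ℓ ∣ n then (ℓ : ℂ) * qCoeff ⇑g (n / ℓ) else 0) =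
      qCoeff ⇑g ℓ * qCoeff ⇑g n := by
  rcases Nat.eq_zero_or_pos n with hn | hn
  · subst hn
    simp [Fermat.Agent.S49.qCoeff_zero_cusp]
  · obtain ⟨r, m, hm, rfl⟩ := Nat.exists_eq_pow_mul_and_not_dvd hn.ne' ℓ hℓ.ne_one
    have hcop : ∀ s : ℕ, (ℓ ^ s).Coprime m := fun s =>
      Nat.Coprime.pow_left s ((Nat.Prime.coprime_iff_not_dvd hℓ).2 hm)
    have h1 : ℓ ^ r * m * ℓ = ℓ ^ (r + 1) * m := by ring
    rw [h1, hg.qCoeff_mul_of_coprime _ _ (hcop (r + 1)), hg.qCoeff_mul_of_coprime _ _ (hcop r)]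
    cases r with
    | zero =>
      have hnd : ¬ ℓ ∣ ℓ ^ 0 * m := by simpa using hm
      rw [if_neg hnd]
      simp [hg.qCoeff_one]
    | succ s =>
      have hd : ℓ ∣ ℓ ^ (s + 1) * m := Dvd.dvd.mul_right (dvd_pow_self ℓ (Nat.succ_ne_zero s)) m
      have hdiv : ℓ ^ (s + 1) * m / ℓ = ℓ ^ s * m := by
        rw [pow_succ, mul_assoc, mul_comm ℓ m, ← mul_assoc]
        exact Nat.mul_div_cancel _ hℓ.pos
      rw [if_pos hd, hdiv, hg.qCoeff_mul_of_coprime _ _ (hcop s),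
        hg.qCoeff_prime_pow_of_not_dvd ℓ s hℓ hℓN]
      ring

/-- A normalised eigenform is an eigenvector of `T_ℓ` (`ℓ ∤ N` prime) with eigenvalue its
`ℓ`-th `q`-coefficient. -/
theorem heckeTLin_eq_qCoeff_smul {N : ℕ} [NeZero N]
    {g : CuspForm (CongruenceSubgroup.Gamma0 N) 2} (hg : g.IsNormalizedEigenform)
    {ℓ : ℕ} (hℓ : ℓ.Prime) (hℓN : ¬ ℓ ∣ N) :
    CuspForm.heckeTLin 2 hℓ hℓN g = ModularFormClass.qCoeff g ℓ • g := by
  rw [← sub_eq_zero]
  apply Fermat.Agent.S49.eq_zero_of_forall_qCoeff_eq_zero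
  intro n
  rw [Fermat.Agent.S49.qCoeff_sub_cusp, Fermat.Agent.S49.qCoeff_smul_cusp,
    ei_qCoeff_heckeTLin hℓ hℓN g n, ei_coeff_identity hg hℓ hℓN n, sub_self]

/-- Function-level form of `heckeTLin_eq_qCoeff_smul`. -/
theorem heckeT_eq_qCoeff_smul {N : ℕ} [NeZero N]
    {g : CuspForm (CongruenceSubgroup.Gamma0 N) 2} (hg : g.IsNormalizedEigenform)
    {ℓ : ℕ} (hℓ : ℓ.Prime) (hℓN : ¬ ℓ ∣ N) :
    ModularForm.heckeT 2 ℓ ⇑g = ModularFormClass.qCoeff g ℓ • ⇑g := by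
  have h := congrArg (fun f : CuspForm (CongruenceSubgroup.Gamma0 N) 2 => (⇑f : UpperHalfPlane → ℂ))
    (heckeTLin_eq_qCoeff_smul hg hℓ hℓN)
  simp only [CuspForm.coe_heckeTLin_apply] at h
  rw [h]
  ext z
  simp

/-- A normalised eigenform is nonzero. -/
theorem ei_ne_zero {g : CuspForm (Gamma0 N) 2} (hg : g.IsNormalizedEigenform) : g ≠ 0 := by
  intro h
  have h1 := hg.qCoeff_one
  have h0 : qCoeff ⇑g 1 = 0 := by
    have h2 := Fermat.Agent.S49.qCoeff_smul_cusp (0 : ℂ) g 1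
    rw [zero_smul, zero_mul] at h2
    rw [h]
    exact h2
  rw [h0] at h1
  exact zero_ne_one h1

/-- The space of weight-2 cusp forms on `Γ₀(N)` is finite-dimensional. -/
theorem ei_finiteDimensional (N : ℕ) [NeZero N] :
    FiniteDimensional ℂ (CuspForm (Gamma0 N) 2) := by
  have hint : CuspForm.HasIntegralStructure N 2 := Fermat.Agent.S23.hasIntegralStructure N 2
  obtain ⟨S, hS⟩ := CuspForm.intLattice_fg N 2
  have hspan : Submodule.span ℂ (S : Set (CuspForm (Gamma0 N) 2)) = ⊤ := by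
    rw [← hint, ← hS, Submodule.span_span_of_tower]
  exact ⟨⟨S, hspan⟩⟩

/-- The integral lattice is stable under `T_ℓ`. -/
theorem ei_heckeTLin_mem_intLattice {ℓ : ℕ} (hℓ : ℓ.Prime) (hℓN : ¬ ℓ ∣ N)
    {f : CuspForm (Gamma0 N) 2} (hf : f ∈ CuspForm.intLattice N 2) :
    CuspForm.heckeTLin 2 hℓ hℓN f ∈ CuspForm.intLattice N 2 :=
  CuspForm.mem_intLattice_of_mem_heckeAlgebra (S := (∅ : Set ℕ)) (by norm_num)
    (Algebra.subset_adjoin
      (CuspForm.heckeTLin_mem_heckeGenerators hℓ hℓN (Set.notMem_empty _))) hf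

/-- The Hecke eigenvalue `a_ℓ` (`ℓ ∤ N` prime) of a normalised eigenform is an algebraic
integer. -/
theorem isIntegral_qCoeff_of_isNormalizedEigenform {N : ℕ} [NeZero N]
    {g : CuspForm (CongruenceSubgroup.Gamma0 N) 2} (hg : g.IsNormalizedEigenform)
    {ℓ : ℕ} (hℓ : ℓ.Prime) (hℓN : ¬ ℓ ∣ N) :
    IsIntegral ℤ (ModularFormClass.qCoeff g ℓ) := by
  have : FiniteDimensional ℂ (CuspForm (Gamma0 N) 2) := ei_finiteDimensional N
  refine Fermat.Agent.S49.isIntegral_of_hasEigenvalue_of_lattice (CuspForm.heckeTLin 2 hℓ hℓN)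
    (CuspForm.intLattice N 2) (CuspForm.intLattice_fg N 2)
    (Fermat.Agent.S23.hasIntegralStructure N 2)
    (fun x hx => ei_heckeTLin_mem_intLattice hℓ hℓN hx) ?_
  exact Module.End.hasEigenvalue_of_hasEigenvector
    ⟨Module.End.mem_eigenspace_iff.2 (heckeTLin_eq_qCoeff_smul hg hℓ hℓN), ei_ne_zero hg⟩

end EigenIntegral

end Fermat.Agent.S42
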