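import Fermat.Agent.S42.ADefs
import Fermat.Agent.S24.Places
import Fermat.Agent.S24.FFLAlg

/-!
# P13 part (A), module M14: every point of `J₀(N)(ℚ̄)` is fixed by an open subgroup of `Gal(ℚ̄/ℚ)`

* `FinLevel.fixedFin_fun`     : every function `f ∈ ℚ̄(X₀(N))` is fixed by `Gal(ℚ̄/L)` for some
  finite extension `L / ℚ`;
* `FinLevel.fixedFin_place`   : the same for every place of `ℚ̄(X₀(N))`;
* `FinLevel.fixedFin_divisor` : the same for every divisor;
* `torsionFiniteLevel`        : the same for every class in `J₀(N)(ℚ̄) = Pic⁰`, in particular for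
  the `p`-torsion classes.
-/

set_option autoImplicit false

namespace Fermat.Agent.S42

open Fermat.Agent.S24 AlgebraicCurve ModularCurve IntermediateField

namespace FinLevel

/-- The semilinear automorphism of `ℚ̄(X₀(N))` attached to `σ ∈ Gal(ℚ̄/ℚ)` (it acts on the
coefficients of the `q`-expansions). -/
noncomputable abbrev gal (N : ℕ) (σ : AlgebraicClosure ℚ ≃ₐ[ℚ] AlgebraicClosure ℚ) :
    SemilinearAut (AlgebraicClosure ℚ) (modularFunctionFieldBar N) :=
  arithmeticGalois (modularFunctionFieldFull N) σ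

/-- Every element of `ℚ̄` is integral over `ℚ` (for the canonical `ℚ`-algebra structure of a
field of characteristic zero, which is the one used in the statements). -/
theorem isIntegral_rat (c : AlgebraicClosure ℚ) : IsIntegral ℚ c := by
  have e : (DivisionRing.toRatAlgebra : Algebra ℚ (AlgebraicClosure ℚ))
      = AlgebraicClosure.instAlgebra ℚ := Subsingleton.elim _ _
  rw [e]
  exact ((AlgebraicClosure.isAlgebraic ℚ).isAlgebraic c).isIntegral

/-- Every function on `X₀(N)` over `ℚ̄` is fixed by `Gal(ℚ̄/L)` for a finite extension `L / ℚ`: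
the functions with this property form a subfield containing the constants and the `j(dτ)`. -/
theorem fixedFin_fun (N : ℕ) [NeZero N] (f : modularFunctionFieldBar N) :
    ∃ L : IntermediateField ℚ (AlgebraicClosure ℚ), FiniteDimensional ℚ L ∧
      ∀ σ : AlgebraicClosure ℚ ≃ₐ[ℚ] AlgebraicClosure ℚ, (∀ y ∈ L, σ y = y) →
        gal N σ • f = f := by
  induction f using FFL_induction' with
  | hC c =>
    refine ⟨ℚ⟮c⟯, IntermediateField.adjoin.finiteDimensional (isIntegral_rat c),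
      fun σ hσ => ?_⟩
    rw [SemilinearAut.smul_algebraMap]
    show algebraMap _ _ (σ c) = _
    rw [hσ c (IntermediateField.mem_adjoin_simple_self ℚ c)]
  | hj d hd =>
    refine ⟨⊥, inferInstance, fun σ _ => ?_⟩
    apply Subtype.ext
    rw [coe_arithmeticGalois_smul]
    exact coeffMap_coeffEmb σ _
  | hadd x y hx hy =>
    obtain ⟨L1, h1, hL1⟩ := hx
    obtain ⟨L2, h2, hL2⟩ := hy
    refine ⟨L1 ⊔ L2, IntermediateField.finiteDimensional_sup L1 L2, fun σ hσ => ?_⟩
    rw [smul_add, hL1 σ (fun z hz => hσ z ((le_sup_left : L1 ≤ L1 ⊔ L2) hz)),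
      hL2 σ (fun z hz => hσ z ((le_sup_right : L2 ≤ L1 ⊔ L2) hz))]
  | hneg x hx =>
    obtain ⟨L1, h1, hL1⟩ := hx
    refine ⟨L1, h1, fun σ hσ => ?_⟩
    rw [smul_neg, hL1 σ hσ]
  | hmul x y hx hy =>
    obtain ⟨L1, h1, hL1⟩ := hx
    obtain ⟨L2, h2, hL2⟩ := hy
    refine ⟨L1 ⊔ L2, IntermediateField.finiteDimensional_sup L1 L2, fun σ hσ => ?_⟩
    rw [smul_mul', hL1 σ (fun z hz => hσ z ((le_sup_left : L1 ≤ L1 ⊔ L2) hz)),
      hL2 σ (fun z hz => hσ z ((le_sup_right : L2 ≤ L1 ⊔ L2) hz))]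
  | hinv x hx =>
    obtain ⟨L1, h1, hL1⟩ := hx
    refine ⟨L1, h1, fun σ hσ => ?_⟩
    rw [smul_inv'', hL1 σ hσ]

/-- A finite family of functions is fixed by `Gal(ℚ̄/L)` for a common finite extension `L / ℚ`. -/
theorem fixedFin_finset (N : ℕ) [NeZero N] {ι : Type*} (s : Finset ι)
    (x : ι → modularFunctionFieldBar N) :
    ∃ L : IntermediateField ℚ (AlgebraicClosure ℚ), FiniteDimensional ℚ L ∧
      ∀ σ : AlgebraicClosure ℚ ≃ₐ[ℚ] AlgebraicClosure ℚ, (∀ y ∈ L, σ y = y) →
        ∀ i ∈ s, gal N σ • x i = x i := by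
  classical
  induction s using Finset.induction_on with
  | empty => exact ⟨⊥, inferInstance, fun σ _ i hi => absurd hi (Finset.notMem_empty i)⟩
  | insert a s ha ih =>
    obtain ⟨L1, h1, hL1⟩ := ih
    obtain ⟨L2, h2, hL2⟩ := fixedFin_fun N (x a)
    refine ⟨L1 ⊔ L2, IntermediateField.finiteDimensional_sup L1 L2, fun σ hσ i hi => ?_⟩
    rcases Finset.mem_insert.mp hi with rfl | hi
    · exact hL2 σ (fun z hz => hσ z ((le_sup_right : L2 ≤ L1 ⊔ L2) hz))
    · exact hL1 σ (fun z hz => hσ z ((le_sup_left : L1 ≤ L1 ⊔ L2) hz)) i hi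

/-- Two distinct places are incomparable: there is a function regular at `P` and not at `Q`. -/
theorem exists_mem_not_mem_of_ne {K F : Type*} [Field K] [Field F] [Algebra K F]
    {P Q : Place K F} (h : Q ≠ P) :
    ∃ x : F, x ∈ P.toValuationSubring ∧ x ∉ Q.toValuationSubring := by
  by_contra hcon
  have hcon' : ∀ x : F, x ∈ P.toValuationSubring → x ∈ Q.toValuationSubring := by
    intro x hxP
    by_contra hxQ
    exact hcon ⟨x, hxP, hxQ⟩
  apply h
  symm
  apply place_ext_of_ord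
  intro f hf hPf
  exact (PlacesBasic.mem_iff_ord_nonneg Q hf).1
    (hcon' f ((PlacesBasic.mem_iff_ord_nonneg P hf).2 hPf))

/-- A zero of a function `y` with finitely many zeros is fixed by `Gal(ℚ̄/L)` for a finite
extension `L / ℚ`. -/
theorem fixedFin_place_of_zero (N : ℕ) [NeZero N] (y : modularFunctionFieldBar N)
    (hfin : (zeroPlaces (AlgebraicClosure ℚ) y).Finite)
    (P : Place (AlgebraicClosure ℚ) (modularFunctionFieldBar N))
    (hP : P ∈ zeroPlaces (AlgebraicClosure ℚ) y) :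
    ∃ L : IntermediateField ℚ (AlgebraicClosure ℚ), FiniteDimensional ℚ L ∧
      ∀ σ : AlgebraicClosure ℚ ≃ₐ[ℚ] AlgebraicClosure ℚ, (∀ z ∈ L, σ z = z) →
        gal N σ • P = P := by
  classical
  have hx : ∀ Q : Place (AlgebraicClosure ℚ) (modularFunctionFieldBar N),
      ∃ x : modularFunctionFieldBar N,
        Q ≠ P → x ∈ P.toValuationSubring ∧ x ∉ Q.toValuationSubring := by
    intro Q
    by_cases h : Q = P
    · exact ⟨0, fun h' => absurd h h'⟩
    · obtain ⟨x, hx⟩ := exists_mem_not_mem_of_ne h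
      exact ⟨x, fun _ => hx⟩
  choose x hx using hx
  obtain ⟨L1, h1, hL1⟩ := fixedFin_finset N hfin.toFinset x
  obtain ⟨L2, h2, hL2⟩ := fixedFin_fun N y
  refine ⟨L1 ⊔ L2, IntermediateField.finiteDimensional_sup L1 L2, fun σ hσ => ?_⟩
  have hgy : gal N σ • y = y :=
    hL2 σ (fun z hz => hσ z ((le_sup_right : L2 ≤ L1 ⊔ L2) hz))
  have hmem : gal N σ • P
      ∈ zeroPlaces (AlgebraicClosure ℚ) y := by
    show 0 < (gal N σ • P).ord y
    have h := SemilinearAut.ord_smul (gal N σ) P y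
    rw [hgy] at h
    rw [h]
    exact hP
  by_contra hne
  obtain ⟨hxP, hxQ⟩ := hx (gal N σ • P) hne
  apply hxQ
  have hxg := hL1 σ (fun z hz => hσ z ((le_sup_left : L1 ≤ L1 ⊔ L2) hz))
    (gal N σ • P) (hfin.mem_toFinset.mpr hmem)
  rw [SemilinearAut.smul_toValuationSubring, ← hxg]
  exact ValuationSubring.smul_mem_pointwise_smul _ _ _ hxP

/-- Every place of `X₀(N)` over `ℚ̄` is fixed by `Gal(ℚ̄/L)` for a finite extension `L / ℚ`. -/
theorem fixedFin_place (N : ℕ) [NeZero N]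
    (P : Place (AlgebraicClosure ℚ) (modularFunctionFieldBar N)) :
    ∃ L : IntermediateField ℚ (AlgebraicClosure ℚ), FiniteDimensional ℚ L ∧
      ∀ σ : AlgebraicClosure ℚ ≃ₐ[ℚ] AlgebraicClosure ℚ, (∀ z ∈ L, σ z = z) →
        gal N σ • P = P := by
  have hx : Transcendental (AlgebraicClosure ℚ) (jL (AlgebraicClosure ℚ) N) :=
    transcendental_jL N (AlgebraicClosure ℚ)
  have hfd : FiniteDimensional (AlgebraicClosure ℚ)⟮jL (AlgebraicClosure ℚ) N⟯
      (FFL (AlgebraicClosure ℚ) N) := finiteDimensional_jL N (AlgebraicClosure ℚ)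
  rcases place_cases hx P with ⟨c, hc⟩ | hinf
  · have hy := transcendental_sub_algebraMap hx c
    have hfd' := finiteDimensional_adjoin_of_transcendental hx hy
    exact fixedFin_place_of_zero N _ (zeroPlaces_finite hy) P hc
  · have hy := transcendental_inv hx
    have hfd' := finiteDimensional_adjoin_of_transcendental hx hy
    exact fixedFin_place_of_zero N _ (zeroPlaces_finite hy) P hinf

/-- Every divisor of `X₀(N)` over `ℚ̄` is fixed by `Gal(ℚ̄/L)` for a finite extension `L / ℚ`. -/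
theorem fixedFin_divisor (N : ℕ) [NeZero N]
    (D : Divisor (AlgebraicClosure ℚ) (modularFunctionFieldBar N)) :
    ∃ L : IntermediateField ℚ (AlgebraicClosure ℚ), FiniteDimensional ℚ L ∧
      ∀ σ : AlgebraicClosure ℚ ≃ₐ[ℚ] AlgebraicClosure ℚ, (∀ z ∈ L, σ z = z) →
        gal N σ • D = D := by
  induction D using Finsupp.induction with
  | zero => exact ⟨⊥, inferInstance, fun σ _ => smul_zero _⟩
  | single_add v n D _ _ ih =>
    obtain ⟨L1, h1, hL1⟩ := ih
    obtain ⟨L2, h2, hL2⟩ := fixedFin_place N v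
    refine ⟨L1 ⊔ L2, IntermediateField.finiteDimensional_sup L1 L2, fun σ hσ => ?_⟩
    rw [smul_add, SemilinearAut.smul_single,
      hL1 σ (fun z hz => hσ z ((le_sup_left : L1 ≤ L1 ⊔ L2) hz)),
      hL2 σ (fun z hz => hσ z ((le_sup_right : L2 ≤ L1 ⊔ L2) hz))]

/-- Every class in `J₀(N)(ℚ̄)` is fixed by `Gal(ℚ̄/L)` for a finite extension `L / ℚ`. -/
theorem fixedFin_class (N : ℕ) [NeZero N] (x : JZero N) :
    ∃ L : IntermediateField ℚ (AlgebraicClosure ℚ), FiniteDimensional ℚ L ∧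
      ∀ σ : AlgebraicClosure ℚ ≃ₐ[ℚ] AlgebraicClosure ℚ, (∀ z ∈ L, σ z = z) → σ • x = x := by
  obtain ⟨D, rfl⟩ := Pic0.mk_surjective x
  obtain ⟨L, hL, hfix⟩ := fixedFin_divisor N (D : Divisor _ _)
  refine ⟨L, hL, fun σ hσ => ?_⟩
  rw [galois_smul_pic0_def, SemilinearAut.pic0_smul_mk]
  exact congrArg Pic0.mk (Subtype.ext (by
    rw [SemilinearAut.coe_degZeroSMulHom]
    exact hfix σ hσ))

end FinLevel

/-- Every `p`-torsion class of `J₀(N)(ℚ̄)` (indeed every class) is fixed by an open subgroup of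
`Gal(ℚ̄/ℚ)`. -/
theorem torsionFiniteLevel (N p : ℕ) [NeZero N] : TorsionFiniteLevel N p :=
  fun x _ => FinLevel.fixedFin_class N x

end Fermat.Agent.S42
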