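import Fermat.Agent.S42.TorsionDefs
import Fermat.Agent.S37.Hecke
import Fermat.Prelude.Thm_ModularCurve_coeffMap_qExpand

/-!
# P13 (A), M13: Galois commutes with the Hecke correspondence on `J₀(N)(ℚ̄)`

* General part (`GalHecke.restrictAlong_smul`, `GalHecke.ramificationIndexAlong_smul`,
  `GalHecke.pullbackAlong_smul`, `GalHecke.pushforwardAlong_smul`): if `φ : F →ₐ[K] F'` is an
  integral map of function fields and `g`, `g'` are semilinear automorphisms of `F`, `F'`
  intertwined by `φ`, then restriction of places, ramification indices, pull-back and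
  push-forward of divisors along `φ` are compatible with the actions of `g` and `g'`.
* Modular part: the two degeneracy maps `α`, `β : F_N → F_{Nℓ}` commute with the coefficientwise
  action of `Gal(ℚ̄/ℚ)`, hence so does `heckeDiv N ℓ`, hence so does `heckeOperatorBar N ℓ`.

Main export: `heckeGaloisCommute N p : HeckeGaloisCommute N p`.
-/

set_option autoImplicit false

namespace Fermat.Agent.S42

open ModularCurve AlgebraicCurve

namespace GalHecke

open scoped Pointwise

section General

variable {K F F' : Type*} [Field K] [Field F] [Field F'] [Algebra K F] [Algebra K F']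
variable (φ : F →ₐ[K] F') (hφ : φ.toRingHom.IsIntegral)
variable {g : SemilinearAut K F} {g' : SemilinearAut K F'}

/-- Membership in the valuation ring of the restriction of a place along `φ`. -/
theorem mem_restrictAlong_iff (W : Place K F') (f : F) :
    f ∈ (W.restrictAlong φ hφ).toValuationSubring ↔ φ f ∈ W.toValuationSubring :=
  Iff.rfl

/-- The ramification index along `φ` is the least positive value of `ord_W (φ f)`. -/
theorem ramificationIndexAlong_eq (W : Place K F') :
    Place.ramificationIndexAlong φ W
      = sInf {n : ℕ | 0 < n ∧ ∃ f : F, f ≠ 0 ∧ W.ord (φ f) = n} :=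
  rfl

/-- The intertwining relation in applied form. -/
theorem intertwines_apply (h : SemilinearAut.IntertwinesAlong φ.toRingHom g g') (x : F) :
    g' • φ x = φ (g • x) :=
  h x

/-- `ord_{g' W} (φ f) = ord_W (φ (g⁻¹ f))`. -/
theorem ord_smul_place (h : SemilinearAut.IntertwinesAlong φ.toRingHom g g') (W : Place K F')
    (f : F) : (g' • W).ord (φ f) = W.ord (φ (g⁻¹ • f)) := by
  have h1 : φ f = g' • φ (g⁻¹ • f) := by
    rw [intertwines_apply φ h, smul_inv_smul]
  rw [h1, SemilinearAut.ord_smul]

/-- Restriction of places along `φ` is equivariant. -/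
theorem restrictAlong_smul (h : SemilinearAut.IntertwinesAlong φ.toRingHom g g')
    (W : Place K F') :
    (g' • W).restrictAlong φ hφ = g • (W.restrictAlong φ hφ) := by
  apply Place.ext
  ext f
  rw [mem_restrictAlong_iff, SemilinearAut.smul_toValuationSubring,
    SemilinearAut.smul_toValuationSubring,
    ValuationSubring.mem_pointwise_smul_iff_inv_smul_mem,
    ValuationSubring.mem_pointwise_smul_iff_inv_smul_mem, mem_restrictAlong_iff,
    intertwines_apply φ h.inv]

/-- Ramification indices along `φ` are invariant. -/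
theorem ramificationIndexAlong_smul (h : SemilinearAut.IntertwinesAlong φ.toRingHom g g')
    (W : Place K F') :
    Place.ramificationIndexAlong φ (g' • W) = Place.ramificationIndexAlong φ W := by
  rw [ramificationIndexAlong_eq, ramificationIndexAlong_eq]
  congr 1
  ext n
  constructor
  · rintro ⟨hn, f, hf, hfn⟩
    refine ⟨hn, g⁻¹ • f, ?_, ?_⟩
    · exact (smul_ne_zero_iff_ne g⁻¹).mpr hf
    · rw [← ord_smul_place φ h, hfn]
  · rintro ⟨hn, f, hf, hfn⟩
    refine ⟨hn, g • f, ?_, ?_⟩
    · exact (smul_ne_zero_iff_ne g).mpr hf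
    · rw [ord_smul_place φ h, inv_smul_smul, hfn]

/-- Pull-back of divisors along `φ` is equivariant. -/
theorem pullbackAlong_smul [HasPrincipalDivisors K F']
    (h : SemilinearAut.IntertwinesAlong φ.toRingHom g g') (D : Divisor K F) :
    Divisor.pullbackAlong φ hφ (g • D) = g' • Divisor.pullbackAlong φ hφ D := by
  ext W
  rw [Divisor.pullbackAlong_apply, SemilinearAut.divisor_smul_apply,
    SemilinearAut.divisor_smul_apply, Divisor.pullbackAlong_apply,
    restrictAlong_smul φ hφ h.inv, ramificationIndexAlong_smul φ h.inv]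

/-- Push-forward of divisors along `φ` is equivariant (as soon as the inertia degrees are
invariant, e.g. when they are all equal to one). -/
theorem pushforwardAlong_smul (h : SemilinearAut.IntertwinesAlong φ.toRingHom g g')
    (hdeg : ∀ W : Place K F', (g' • W).inertiaDegAlong φ hφ = W.inertiaDegAlong φ hφ)
    (D : Divisor K F') :
    Divisor.pushforwardAlong φ hφ (g' • D) = g • Divisor.pushforwardAlong φ hφ D := by
  induction D using Finsupp.induction with
  | zero => rw [smul_zero, map_zero, smul_zero]
  | single_add W n D _ _ ih =>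
    rw [smul_add, map_add, map_add, smul_add, ih, SemilinearAut.smul_single,
      Divisor.pushforwardAlong_single, Divisor.pushforwardAlong_single,
      SemilinearAut.smul_single, restrictAlong_smul φ hφ h, hdeg]

end General

section Modular

variable (N ℓ : ℕ) [NeZero N] [NeZero ℓ]
variable (σ : AlgebraicClosure ℚ ≃ₐ[ℚ] AlgebraicClosure ℚ)

/-- The inclusion `α : F_N → F_{Nℓ}` commutes with the coefficientwise Galois action. -/
theorem intertwines_alpha :
    SemilinearAut.IntertwinesAlong (heckeAlphaBar (AlgebraicClosure ℚ) N ℓ).toRingHom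
      (arithmeticGalois (modularFunctionFieldFull N) σ)
      (arithmeticGalois (modularFunctionFieldFull (N * ℓ)) σ) := by
  intro x
  apply Subtype.ext
  show coeffMap (σ : AlgebraicClosure ℚ →+* AlgebraicClosure ℚ)
      ((heckeAlphaBar (AlgebraicClosure ℚ) N ℓ x : modularFunctionFieldBar (N * ℓ)) :
        LaurentSeries (AlgebraicClosure ℚ))
    = ((heckeAlphaBar (AlgebraicClosure ℚ) N ℓ
        (arithmeticGalois (modularFunctionFieldFull N) σ • x) : modularFunctionFieldBar (N * ℓ)) :
        LaurentSeries (AlgebraicClosure ℚ))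
  rw [coe_heckeAlphaBar, coe_heckeAlphaBar, coe_arithmeticGalois_smul]

omit [NeZero N] in
/-- The map `β : F_N → F_{Nℓ}`, `q ↦ q ^ ℓ`, commutes with the coefficientwise Galois action. -/
theorem intertwines_beta :
    SemilinearAut.IntertwinesAlong (heckeBetaBar (AlgebraicClosure ℚ) N ℓ).toRingHom
      (arithmeticGalois (modularFunctionFieldFull N) σ)
      (arithmeticGalois (modularFunctionFieldFull (N * ℓ)) σ) := by
  intro x
  apply Subtype.ext
  show coeffMap (σ : AlgebraicClosure ℚ →+* AlgebraicClosure ℚ)
      ((heckeBetaBar (AlgebraicClosure ℚ) N ℓ x : modularFunctionFieldBar (N * ℓ)) :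
        LaurentSeries (AlgebraicClosure ℚ))
    = ((heckeBetaBar (AlgebraicClosure ℚ) N ℓ
        (arithmeticGalois (modularFunctionFieldFull N) σ • x) : modularFunctionFieldBar (N * ℓ)) :
        LaurentSeries (AlgebraicClosure ℚ))
  rw [coe_heckeBetaBar, coe_heckeBetaBar, coe_arithmeticGalois_smul, coeffMap_qExpand]

/-- The Hecke correspondence on divisors commutes with the Galois action. -/
theorem heckeDiv_smul (D : Divisor (AlgebraicClosure ℚ) (modularFunctionFieldBar N)) :
    S37.heckeDiv N ℓ (arithmeticGalois (modularFunctionFieldFull N) σ • D)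
      = arithmeticGalois (modularFunctionFieldFull N) σ • S37.heckeDiv N ℓ D := by
  rw [S37.heckeDiv_apply, S37.heckeDiv_apply,
    pullbackAlong_smul _ _ (intertwines_beta N ℓ σ),
    pushforwardAlong_smul _ _ (intertwines_alpha N ℓ σ)]
  intro W
  rw [S37.inertiaDegAlong_eq_one (S37.isFF_modularFunctionFieldBar N)
      (S37.isFF_modularFunctionFieldBar (N * ℓ)),
    S37.inertiaDegAlong_eq_one (S37.isFF_modularFunctionFieldBar N)
      (S37.isFF_modularFunctionFieldBar (N * ℓ))]

/-- The Hecke operator `T_ℓ` on `J₀(N)(ℚ̄)` commutes with the action of `Gal(ℚ̄/ℚ)`. -/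
theorem heckeOperatorBar_smul (N : ℕ) [NeZero N] (ℓ : Nat.Primes)
    (σ : AlgebraicClosure ℚ ≃ₐ[ℚ] AlgebraicClosure ℚ) (x : JZero N) :
    heckeOperatorBar N ℓ (σ • x) = σ • heckeOperatorBar N ℓ x := by
  have : NeZero (ℓ : ℕ) := ⟨ℓ.2.ne_zero⟩
  obtain ⟨D, rfl⟩ := Pic0.mk_surjective x
  rw [S37.heckeOperatorBar_mk, galois_smul_pic0_def, galois_smul_pic0_def,
    SemilinearAut.pic0_smul_mk, SemilinearAut.pic0_smul_mk, S37.heckeOperatorBar_mk]
  refine congrArg Pic0.mk (Subtype.ext ?_)
  exact heckeDiv_smul N ℓ σ D

end Modular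

end GalHecke

/-- **Galois commutes with the Hecke correspondence** `T_ℓ` on `J₀(N)(ℚ̄)` (in particular on the
`p`-torsion, for `ℓ ∤ Np`). -/
theorem heckeGaloisCommute (N p : ℕ) [NeZero N] : HeckeGaloisCommute N p :=
  fun ℓ hℓ _ σ x _ => GalHecke.heckeOperatorBar_smul N ⟨ℓ, hℓ⟩ σ x

end Fermat.Agent.S42
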