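import Mathlib
import Fermat.Prelude.Def_ModularCurve_HeckeModule
import Fermat.Prelude.Def_FLTPrelim_Modularity

/-!
# P13 (S42/S29): shared definitions for the `p`-torsion of `J₀(N)` and the (A) ↔ (B) interface

* `Jp N p`      : the `p`-torsion subgroup of `JZero N = Pic⁰(ℚ̄(X₀(N)))` (Prelude `Pic0.torsion`);
* `heckeJp`     : the Prelude Hecke operator `heckeOperatorBar N ℓ` restricted to `Jp N p`;
* `galJp`       : the action of `σ ∈ Gal(ℚ̄/ℚ)` restricted to `Jp N p`;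
* `HasEigenvector N p g 𝔪` : statement (A★) — the eigensystem of `g` mod `𝔪` occurs in
  `(ℤ̄ ⧸ 𝔪) ⊗[ℤ] Jp N p`;
* `TorsionFiniteLevel N p`, `HeckeGaloisCommute N p` : statement (A★★);
* `FrobeniusRelation N p`, `InertiaTrivial N p` : the two facts (E1), (E2) requested from P12.
-/

set_option autoImplicit false

namespace Fermat.Agent.S42

open ModularCurve AlgebraicCurve TensorProduct

/-- The `p`-torsion subgroup of `J₀(N)(ℚ̄)`. -/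
noncomputable abbrev Jp (N p : ℕ) [NeZero N] : AddSubgroup (JZero N) :=
  Pic0.torsion (AlgebraicClosure ℚ) (modularFunctionFieldBar N) p

theorem mem_Jp {N p : ℕ} [NeZero N] {x : JZero N} : x ∈ Jp N p ↔ (p : ℤ) • x = 0 :=
  Pic0.mem_torsion

/-- The Hecke operator `T_ℓ` (Prelude `heckeOperatorBar N ℓ`) restricted to the `p`-torsion. -/
noncomputable def heckeJp (N p : ℕ) [NeZero N] (ℓ : Nat.Primes) : Jp N p →+ Jp N p :=
  (((heckeOperatorBar N ℓ : JZero N →ₗ[ℤ] JZero N).toAddMonoidHom).comp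
      (Jp N p).subtype).codRestrict (Jp N p) (fun x => by
    rw [mem_Jp]
    show (p : ℤ) • heckeOperatorBar N ℓ (x : JZero N) = 0
    rw [← map_zsmul, mem_Jp.mp x.2, map_zero])

@[simp] theorem coe_heckeJp (N p : ℕ) [NeZero N] (ℓ : Nat.Primes) (x : Jp N p) :
    ((heckeJp N p ℓ x : Jp N p) : JZero N) = heckeOperatorBar N ℓ (x : JZero N) := rfl

theorem smul_mem_Jp {N p : ℕ} [NeZero N] (σ : AlgebraicClosure ℚ ≃ₐ[ℚ] AlgebraicClosure ℚ)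
    {x : JZero N} (hx : x ∈ Jp N p) : σ • x ∈ Jp N p := by
  rw [mem_Jp] at hx ⊢
  have h : σ • ((p : ℤ) • x) = (p : ℤ) • (σ • x) :=
    map_zsmul (DistribSMul.toAddMonoidHom (JZero N) σ) (p : ℤ) x
  rw [← h, hx]
  exact smul_zero (A := JZero N) σ

/-- The action of `σ ∈ Gal(ℚ̄/ℚ)` restricted to the `p`-torsion. -/
noncomputable def galJp (N p : ℕ) [NeZero N]
    (σ : AlgebraicClosure ℚ ≃ₐ[ℚ] AlgebraicClosure ℚ) : Jp N p →+ Jp N p :=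
  ((DistribSMul.toAddMonoidHom (JZero N) σ).comp (Jp N p).subtype).codRestrict (Jp N p)
    (fun x => smul_mem_Jp σ x.2)

@[simp] theorem coe_galJp (N p : ℕ) [NeZero N]
    (σ : AlgebraicClosure ℚ ≃ₐ[ℚ] AlgebraicClosure ℚ) (x : Jp N p) :
    ((galJp N p σ x : Jp N p) : JZero N) = σ • (x : JZero N) := rfl

/-- (A★): the eigensystem of `g` modulo `𝔪` occurs in `(ℤ̄ ⧸ 𝔪) ⊗[ℤ] J₀(N)[p]`. -/
def HasEigenvector (N p : ℕ) [NeZero N] (g : CuspForm (CongruenceSubgroup.Gamma0 N) 2)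
    (𝔪 : Ideal (integralClosure ℤ ℂ)) : Prop :=
  ∃ x : (integralClosure ℤ ℂ ⧸ 𝔪) ⊗[ℤ] (Jp N p), x ≠ 0 ∧
    ∀ (ℓ : ℕ) (hℓ : ℓ.Prime), ¬ ℓ ∣ N * p →
      ∀ a : integralClosure ℤ ℂ, (a : ℂ) = ModularFormClass.qCoeff g ℓ →
        ((heckeJp N p ⟨ℓ, hℓ⟩).toIntLinearMap.baseChange (integralClosure ℤ ℂ ⧸ 𝔪)) x
          = (Ideal.Quotient.mk 𝔪 a) • x

/-- (A★★), first half: every `p`-torsion class is fixed by an open subgroup of `Gal(ℚ̄/ℚ)`. -/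
def TorsionFiniteLevel (N p : ℕ) [NeZero N] : Prop :=
  ∀ x : JZero N, x ∈ Jp N p →
    ∃ L : IntermediateField ℚ (AlgebraicClosure ℚ), FiniteDimensional ℚ L ∧
      ∀ σ : AlgebraicClosure ℚ ≃ₐ[ℚ] AlgebraicClosure ℚ, (∀ y ∈ L, σ y = y) → σ • x = x

/-- (A★★), second half: Galois commutes with `T_ℓ` (`ℓ ∤ Np`) on the `p`-torsion. -/
def HeckeGaloisCommute (N p : ℕ) [NeZero N] : Prop :=
  ∀ (ℓ : ℕ) (hℓ : ℓ.Prime), ¬ ℓ ∣ N * p →
    ∀ (σ : AlgebraicClosure ℚ ≃ₐ[ℚ] AlgebraicClosure ℚ) (x : JZero N), x ∈ Jp N p →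
      heckeOperatorBar N ⟨ℓ, hℓ⟩ (σ • x) = σ • heckeOperatorBar N ⟨ℓ, hℓ⟩ x

/-- (E1), requested from P12: the Eichler–Shimura relation for every Frobenius lift at `ℓ ∤ Np`,
on the `p`-torsion. -/
def FrobeniusRelation (N p : ℕ) [NeZero N] : Prop :=
  ∀ (ℓ : ℕ) (hℓ : ℓ.Prime), ¬ ℓ ∣ N * p →
    ∀ A : ValuationSubring (AlgebraicClosure ℚ), A.LiesOverPrime ℓ →
      ∀ σ : AlgebraicClosure ℚ ≃ₐ[ℚ] AlgebraicClosure ℚ, A.IsFrobeniusAt σ ℓ →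
        ∀ x : JZero N, x ∈ Jp N p →
          σ • σ • x - heckeOperatorBar N ⟨ℓ, hℓ⟩ (σ • x) + (ℓ : ℤ) • x = 0

/-- (E2), requested from P12: inertia at `ℓ ∤ Np` acts trivially on the `p`-torsion. -/
def InertiaTrivial (N p : ℕ) [NeZero N] : Prop :=
  ∀ (ℓ : ℕ), ℓ.Prime → ¬ ℓ ∣ N * p →
    ∀ A : ValuationSubring (AlgebraicClosure ℚ), A.LiesOverPrime ℓ →
      ∀ τ ∈ A.inertiaSubgroupIn ℚ, ∀ x : JZero N, x ∈ Jp N p → τ • x = x

end Fermat.Agent.S42
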