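import Mathlib

/-!
# Extraction of a two-dimensional representation from quadratic relations

Pure linear algebra / representation theory over an algebraically closed field
(project P13, part (B), module B5).

* `pow_quadratic`: if `y` satisfies `y² - t y + c = 0` then `y ^ j` satisfies
  `(y^j)² - t' (y^j) + c^j = 0` for a suitable scalar `t'`.
* `exists_two_dim_of_quadratic`: if every `ρ g` of a finite-dimensional nonzero representation
  `ρ` of a group `G` over an algebraically closed field satisfies a quadratic relation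
  `ρ(g)² - t ρ(g) + ε(g) = 0` with `ε` a character, then there is a two-dimensional
  representation `ρ'` of `G` such that the characteristic polynomial of `ρ' g` is
  `X² - t X + ε(g)` for every such `t`, and `ρ' g = 1` whenever `ρ g = 1` and `ε g = 1`.

The proof of the second statement: take a minimal nonzero stable subspace `U`.  By Burnside's
theorem (deduced here from the Jacobson density theorem and Schur's lemma) the `ρ_U g` span
`End U`; together with the identity
`ρ(g)ρ(h) + ρ(h)ρ(g) - t(h)ρ(g) - t(g)ρ(h) = (t(gh) - t(g)t(h))` this forces `dim U ≤ 2`.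
If `dim U = 2` we take `U` itself, if `dim U = 1` we take `ψ ⊕ ε ψ⁻¹` where `ψ` is the
character by which `G` acts on `U`.
-/

set_option autoImplicit false

namespace Fermat.Agent.S42

open Polynomial

/-! ### Powers of a root of a quadratic relation -/

/-- The two-step recursion for power sums in a (noncommutative) ring. -/
theorem ex_pow_add_pow_rec {A : Type*} [Ring A] (y z : A) (n : ℕ) :
    y ^ (n + 1 + 1) + z ^ (n + 1 + 1)
      = (y + z) * (y ^ (n + 1) + z ^ (n + 1)) - (y * z) * z ^ n - (z * y) * y ^ n := by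
  rw [pow_succ' y (n + 1), pow_succ' z (n + 1), pow_succ' y n, pow_succ' z n]
  noncomm_ring

/-- Algebra version of `pow_quadratic`. -/
theorem ex_pow_quadratic_alg {k : Type*} [CommRing k] {A : Type*} [Ring A] [Algebra k A]
    {y : A} {t c : k} (h : y * y - t • y + c • (1 : A) = 0) (j : ℕ) :
    ∃ t' : k, y ^ j * y ^ j - t' • y ^ j + (c ^ j) • (1 : A) = 0 := by
  have hyy : y * y = t • y - c • (1 : A) := by
    rw [eq_sub_iff_add_eq, ← sub_eq_zero, ← h]; abel
  have hyz : y * (t • (1 : A) - y) = c • (1 : A) := by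
    rw [mul_sub, mul_smul_comm, mul_one, hyy]; abel
  have hzy : (t • (1 : A) - y) * y = c • (1 : A) := by
    rw [sub_mul, smul_mul_assoc, one_mul, hyy]; abel
  have hcomm : Commute (t • (1 : A) - y) y := by
    rw [Commute, SemiconjBy, hyz, hzy]
  have hs : ∀ n : ℕ, (∃ s : k, y ^ n + (t • (1 : A) - y) ^ n = s • (1 : A)) ∧
      ∃ s : k, y ^ (n + 1) + (t • (1 : A) - y) ^ (n + 1) = s • (1 : A) := by
    intro n
    induction n with
    | zero =>
      refine ⟨⟨2, ?_⟩, ⟨t, ?_⟩⟩
      · rw [pow_zero, pow_zero, two_smul]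
      · rw [zero_add, pow_one, pow_one]; abel
    | succ n ih =>
      obtain ⟨⟨s, hs⟩, ⟨s', hs'⟩⟩ := ih
      refine ⟨⟨s', hs'⟩, ⟨t * s' - c * s, ?_⟩⟩
      rw [ex_pow_add_pow_rec, hyz, hzy, hs', sub_sub, ← mul_add,
        add_comm ((t • (1 : A) - y) ^ n), hs]
      rw [add_sub_cancel, smul_mul_smul_comm, smul_mul_smul_comm, mul_one, sub_smul]
  obtain ⟨s, hs⟩ := (hs j).1
  refine ⟨s, ?_⟩
  have e2 : s • y ^ j = y ^ j * y ^ j + (c ^ j) • (1 : A) := by
    rw [← one_mul (y ^ j), ← smul_mul_assoc, ← hs, add_mul, one_mul, ← hcomm.mul_pow, hzy,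
      _root_.smul_pow, one_pow]
  rw [e2]; abel

/-- If `y² - t y + c = 0` then every power `y ^ j` satisfies a quadratic relation with
constant term `c ^ j` (characteristic `2` allowed). -/
theorem pow_quadratic {k : Type*} [Field k] {W : Type*} [AddCommGroup W] [Module k W]
    {y : Module.End k W} {t c : k} (h : y * y - t • y + c • (1 : Module.End k W) = 0) (j : ℕ) :
    ∃ t' : k, y ^ j * y ^ j - t' • y ^ j + (c ^ j) • (1 : Module.End k W) = 0 :=
  ex_pow_quadratic_alg h j

/-! ### The key identity -/

/-- The key identity: from the quadratic relations for `a`, `b` and `a * b` (with multiplicative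
constant terms) one gets a relation between `a * b + b * a`, `a`, `b` and `1`. -/
theorem ex_key_identity {k : Type*} [CommRing k] {E : Type*} [Ring E] [Algebra k E]
    {a b a' b' : E} (haa' : a * a' = 1) (hbb' : b * b' = 1)
    {ta tb tab ea eb : k}
    (ha : a * a - ta • a + ea • (1 : E) = 0)
    (hb : b * b - tb • b + eb • (1 : E) = 0)
    (hab : (a * b) * (a * b) - tab • (a * b) + (ea * eb) • (1 : E) = 0) :
    a * b + b * a - tb • a - ta • b = (tab - ta * tb) • (1 : E) := by
  have e1 : (ta • (1 : E) - a) * a = ea • (1 : E) := by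
    have : (ta • (1 : E) - a) * a = ea • (1 : E) - (a * a - ta • a + ea • (1 : E)) := by
      rw [sub_mul, smul_mul_assoc, one_mul]; abel
    rw [this, ha, sub_zero]
  have e2 : (tb • (1 : E) - b) * b = eb • (1 : E) := by
    have : (tb • (1 : E) - b) * b = eb • (1 : E) - (b * b - tb • b + eb • (1 : E)) := by
      rw [sub_mul, smul_mul_assoc, one_mul]; abel
    rw [this, hb, sub_zero]
  have e3 : (tab • (1 : E) - a * b) * (a * b) = (ea * eb) • (1 : E) := by
    have : (tab • (1 : E) - a * b) * (a * b)
        = (ea * eb) • (1 : E) - ((a * b) * (a * b) - tab • (a * b) + (ea * eb) • (1 : E)) := by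
      rw [sub_mul, smul_mul_assoc, one_mul]; abel
    rw [this, hab, sub_zero]
  have e4 : (tb • (1 : E) - b) * (ta • (1 : E) - a) * (a * b) = (ea * eb) • (1 : E) := by
    rw [mul_assoc, ← mul_assoc _ a b, e1, smul_mul_assoc, one_mul, mul_smul_comm, e2, smul_smul]
  have e5 : ((tab • (1 : E) - a * b) - (tb • (1 : E) - b) * (ta • (1 : E) - a)) * (a * b) = 0 := by
    rw [sub_mul, e3, e4, sub_self]
  have e6 : (tab • (1 : E) - a * b) - (tb • (1 : E) - b) * (ta • (1 : E) - a) = 0 := by
    have h := congrArg (· * (b' * a')) e5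
    simp only [zero_mul] at h
    rw [mul_assoc, mul_assoc a b, ← mul_assoc b b', hbb', one_mul, haa', mul_one] at h
    exact h
  have e7 : (tb • (1 : E) - b) * (ta • (1 : E) - a)
      = (tb * ta) • (1 : E) - tb • a - ta • b + b * a := by
    rw [sub_mul, mul_sub, mul_sub, smul_mul_smul_comm, mul_one, smul_mul_assoc, one_mul,
      mul_smul_comm, mul_one]
    abel
  rw [e7] at e6
  rw [sub_smul, mul_comm ta tb]
  have : a * b + b * a - tb • a - ta • b = (tab • (1 : E) - (tb * ta) • (1 : E))
      - (tab • (1 : E) - a * b - ((tb * ta) • (1 : E) - tb • a - ta • b + b * a)) := by abel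
  rw [this, e6, sub_zero]

/-! ### Irreducible families of endomorphisms

A family `σ : G → End U` is *irreducible* if every subspace stable under all `σ g` is `⊥` or
`⊤`; this is spelled out as a hypothesis `hirr` below. -/

section irreducible

variable {k : Type*} [Field k] {G : Type*} {U : Type*} [AddCommGroup U] [Module k U]

/-- Schur's lemma for an irreducible family of endomorphisms over an algebraically closed field:
an endomorphism commuting with the family is a scalar. -/
theorem ex_schur [IsAlgClosed k] [FiniteDimensional k U] [Nontrivial U]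
    (σ : G → Module.End k U)
    (hirr : ∀ N : Submodule k U, (∀ g, ∀ u ∈ N, σ g u ∈ N) → N = ⊥ ∨ N = ⊤)
    (φ : Module.End k U) (hφ : ∀ g u, φ (σ g u) = σ g (φ u)) : ∃ μ : k, ∀ u, φ u = μ • u := by
  obtain ⟨μ, hμ⟩ := φ.exists_eigenvalue
  refine ⟨μ, fun u => ?_⟩
  have hstab : ∀ g, ∀ u ∈ φ.eigenspace μ, σ g u ∈ φ.eigenspace μ := by
    intro g u hu
    rw [Module.End.mem_eigenspace_iff] at hu ⊢
    rw [hφ, hu, map_smul]
  rcases hirr _ hstab with h0 | h1
  · exact absurd h0 hμ
  · have hu : u ∈ φ.eigenspace μ := by rw [h1]; exact Submodule.mem_top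
    exact Module.End.mem_eigenspace_iff.mp hu

/-- Burnside's theorem: the image of an irreducible representation of a monoid on a
finite-dimensional space over an algebraically closed field spans the whole endomorphism
algebra. -/
theorem ex_burnside [IsAlgClosed k] [FiniteDimensional k U] [Nontrivial U] [Monoid G]
    (σ : G →* Module.End k U)
    (hirr : ∀ N : Submodule k U, (∀ g, ∀ u ∈ N, σ g u ∈ N) → N = ⊥ ∨ N = ⊤)
    (x : Module.End k U) : x ∈ Submodule.span k (Set.range σ) := by
  classical
  let A : Subalgebra k (Module.End k U) := Algebra.adjoin k (Set.range σ)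
  have hσA : ∀ g, σ g ∈ A := fun g => Algebra.subset_adjoin ⟨g, rfl⟩
  have hsimple : IsSimpleModule A U := by
    rw [isSimpleModule_iff]
    refine { exists_pair_ne := ⟨⊥, ⊤, bot_ne_top⟩, eq_bot_or_eq_top := fun N => ?_ }
    have hstab : ∀ g, ∀ u ∈ N.restrictScalars k, σ g u ∈ N.restrictScalars k := by
      intro g u hu
      exact N.smul_mem (⟨σ g, hσA g⟩ : A) hu
    rcases hirr _ hstab with h0 | h1
    · left
      exact (Submodule.restrictScalars_eq_bot_iff k A U).mp h0
    · right
      exact (Submodule.restrictScalars_eq_top_iff k A U).mp h1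
  let f : Module.End (Module.End A U) U :=
    { toFun := x
      map_add' := x.map_add
      map_smul' := fun φ u => by
        obtain ⟨μ, hμ⟩ := ex_schur σ hirr (φ.restrictScalars k) (fun g u =>
          φ.map_smul (⟨σ g, hσA g⟩ : A) u)
        show x (φ u) = φ (x u)
        have h1 : φ u = μ • u := hμ u
        have h2 : φ (x u) = μ • x u := hμ (x u)
        rw [h1, h2, map_smul] }
  let b := Module.finBasis k U
  obtain ⟨r, hr⟩ := jacobson_density f (Finset.univ.image b)
  have hxr : x = (r : Module.End k U) := by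
    refine b.ext fun i => ?_
    exact hr (b i) (Finset.mem_image_of_mem _ (Finset.mem_univ i))
  have hxA : x ∈ Subalgebra.toSubmodule A := by
    rw [hxr]; exact r.2
  rw [Algebra.adjoin_eq_span, ← MonoidHom.coe_mrange, Submonoid.closure_eq] at hxA
  rw [← MonoidHom.coe_mrange]
  exact hxA

/-- If a non-scalar endomorphism `H` of a finite-dimensional space `U` has the property that
`x H + H x - t x` lies in the span of `1` and `H` for every endomorphism `x`, then `dim U ≤ 2`. -/
theorem ex_finrank_le_two_of_lambda [FiniteDimensional k U] (H : Module.End k U) (t : k)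
    (hH : ¬ ∃ α : k, H = α • (1 : Module.End k U))
    (hΛ : ∀ x : Module.End k U,
      ∃ α β : k, x * H + H * x - t • x = α • (1 : Module.End k U) + β • H) :
    Module.finrank k U ≤ 2 := by
  classical
  by_contra hd
  rw [not_le] at hd
  -- a vector `u` with `u`, `H u` linearly independent
  obtain ⟨u, hu⟩ : ∃ u, LinearIndependent k ![u, H u] := by
    by_contra hno
    rw [not_exists] at hno
    exact hH (LinearMap.exists_eq_smul_id_of_forall_notLinearIndependent hno)
  rw [LinearIndependent.pair_iff] at hu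
  -- a vector `w` outside the span of `u`, `H u`
  have hP : Module.finrank k (Submodule.span k ({u, H u} : Set U)) ≤ 2 := by
    have h1 := finrank_span_finset_le_card (R := k) ({u, H u} : Finset U)
    have h2 : ({u, H u} : Finset U).card ≤ 2 := Finset.card_le_two
    have h3 : ((({u, H u} : Finset U) : Set U)) = ({u, H u} : Set U) := by
      rw [Finset.coe_insert, Finset.coe_singleton]
    rw [Set.finrank, h3] at h1
    exact h1.trans h2
  obtain ⟨w, hw⟩ : ∃ w : U, w ∉ Submodule.span k ({u, H u} : Set U) := by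
    by_contra hno
    rw [not_exists] at hno
    have htop : Submodule.span k ({u, H u} : Set U) = ⊤ := by
      rw [Submodule.eq_top_iff']
      intro w
      exact not_not.mp (hno w)
    rw [htop, finrank_top] at hP
    omega
  -- a linear form vanishing at `u`, `H u` but not at `w`
  obtain ⟨f, hfw, hf⟩ := Submodule.exists_dual_map_eq_bot_of_notMem hw inferInstance
  have hfu : f u = 0 := by
    have : f u ∈ (Submodule.span k ({u, H u} : Set U)).map f :=
      Submodule.mem_map_of_mem (Submodule.subset_span (Set.mem_insert _ _))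
    rw [hf] at this
    exact (Submodule.mem_bot k).mp this
  have hfHu : f (H u) = 0 := by
    have : f (H u) ∈ (Submodule.span k ({u, H u} : Set U)).map f :=
      Submodule.mem_map_of_mem (Submodule.subset_span (Set.mem_insert_of_mem _ rfl))
    rw [hf] at this
    exact (Submodule.mem_bot k).mp this
  -- apply the hypothesis to the rank one map `v ↦ f v • u`
  obtain ⟨α, β, hαβ⟩ := hΛ (f.smulRight u)
  have hv : ∀ v : U, f (H v) • u + f v • H u - t • f v • u = α • v + β • H v := by
    intro v
    have := congrArg (fun y : Module.End k U => y v) hαβ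
    simpa using this
  have h0 := hv u
  rw [hfu, hfHu, zero_smul, zero_smul, smul_zero, add_zero, sub_zero] at h0
  obtain ⟨hα, hβ⟩ := hu α β h0.symm
  have h1 := hv w
  rw [hα, hβ, zero_smul, zero_smul, add_zero] at h1
  have h2 : (f (H w) - t * f w) • u + f w • H u = 0 := by
    rw [sub_smul, mul_smul, ← h1]; abel
  exact hfw (hu _ _ h2).2

/-- An irreducible family of endomorphisms of a space of dimension `≥ 2` contains a non-scalar
element. -/
theorem ex_exists_not_scalar [FiniteDimensional k U] (σ : G → Module.End k U)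
    (hirr : ∀ N : Submodule k U, (∀ g, ∀ u ∈ N, σ g u ∈ N) → N = ⊥ ∨ N = ⊤)
    (hd : 2 ≤ Module.finrank k U) : ∃ h : G, ¬ ∃ α : k, σ h = α • (1 : Module.End k U) := by
  by_contra hall
  have hall' : ∀ h : G, ∃ α : k, σ h = α • (1 : Module.End k U) := by
    intro h
    by_contra hh
    exact hall ⟨h, hh⟩
  have hnt : Nontrivial U := Module.nontrivial_of_finrank_pos (R := k) (by omega)
  obtain ⟨u, hu⟩ := exists_ne (0 : U)
  have hstab : ∀ g, ∀ v ∈ Submodule.span k ({u} : Set U),
      σ g v ∈ Submodule.span k ({u} : Set U) := by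
    intro g v hv
    obtain ⟨α, hα⟩ := hall' g
    rw [hα]
    exact Submodule.smul_mem _ α hv
  rcases hirr _ hstab with h0 | h1
  · exact hu (Submodule.span_singleton_eq_bot.mp h0)
  · have h2 := finrank_span_singleton (K := k) hu
    rw [h1, finrank_top] at h2
    omega

/-- For an irreducible representation all of whose elements satisfy quadratic relations with
multiplicative constant term, `x ↦ x σ(h) + σ(h) x - t x` has values in the span of `1`, `σ(h)`. -/
theorem ex_lambda [IsAlgClosed k] [FiniteDimensional k U] [Nontrivial U] [Group G]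
    (σ : G →* Module.End k U) (ε : G →* kˣ)
    (hirr : ∀ N : Submodule k U, (∀ g, ∀ u ∈ N, σ g u ∈ N) → N = ⊥ ∨ N = ⊤)
    (hq : ∀ g : G, ∃ t : k,
      σ g * σ g - t • σ g + ((ε g : kˣ) : k) • (1 : Module.End k U) = 0)
    (h : G) (t : k)
    (ht : σ h * σ h - t • σ h + ((ε h : kˣ) : k) • (1 : Module.End k U) = 0)
    (x : Module.End k U) :
    ∃ α β : k, x * σ h + σ h * x - t • x = α • (1 : Module.End k U) + β • σ h := by
  have hx := ex_burnside σ hirr x
  induction hx using Submodule.span_induction with
  | mem x hx =>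
    obtain ⟨g, rfl⟩ := hx
    obtain ⟨tg, htg⟩ := hq g
    obtain ⟨tgh, htgh⟩ := hq (g * h)
    rw [map_mul, map_mul, Units.val_mul] at htgh
    have hg1 : σ g * σ g⁻¹ = 1 := by rw [← map_mul, mul_inv_cancel, map_one]
    have hh1 : σ h * σ h⁻¹ = 1 := by rw [← map_mul, mul_inv_cancel, map_one]
    have key := ex_key_identity hg1 hh1 htg ht htgh
    refine ⟨tgh - tg * t, tg, ?_⟩
    rw [← key]; abel
  | zero =>
    refine ⟨0, 0, ?_⟩
    rw [zero_mul, mul_zero, smul_zero, zero_smul, zero_smul, add_zero, sub_zero]
  | add x y _ _ hx hy =>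
    obtain ⟨α, β, hαβ⟩ := hx
    obtain ⟨α', β', hαβ'⟩ := hy
    refine ⟨α + α', β + β', ?_⟩
    rw [add_mul, mul_add, smul_add, add_smul, add_smul]
    have : x * σ h + y * σ h + (σ h * x + σ h * y) - (t • x + t • y)
        = (x * σ h + σ h * x - t • x) + (y * σ h + σ h * y - t • y) := by abel
    rw [this, hαβ, hαβ']; abel
  | smul c x _ hx =>
    obtain ⟨α, β, hαβ⟩ := hx
    refine ⟨c * α, c * β, ?_⟩
    rw [smul_mul_assoc, mul_smul_comm, smul_comm t c x, ← smul_add, ← smul_sub, hαβ, smul_add,
      smul_smul, smul_smul]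

/-- An irreducible representation all of whose elements satisfy quadratic relations with
multiplicative constant term has dimension at most `2`. -/
theorem ex_finrank_le_two [IsAlgClosed k] [FiniteDimensional k U] [Nontrivial U] [Group G]
    (σ : G →* Module.End k U) (ε : G →* kˣ)
    (hirr : ∀ N : Submodule k U, (∀ g, ∀ u ∈ N, σ g u ∈ N) → N = ⊥ ∨ N = ⊤)
    (hq : ∀ g : G, ∃ t : k,
      σ g * σ g - t • σ g + ((ε g : kˣ) : k) • (1 : Module.End k U) = 0) :
    Module.finrank k U ≤ 2 := by
  by_contra hd
  rw [not_le] at hd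
  obtain ⟨h, hh⟩ := ex_exists_not_scalar (fun g => σ g) hirr (by omega)
  obtain ⟨t, ht⟩ := hq h
  have := ex_finrank_le_two_of_lambda (σ h) t hh (ex_lambda σ ε hirr hq h t ht)
  omega

/-! ### Characteristic polynomials -/

/-- A non-scalar endomorphism is linearly independent of `1`. -/
theorem ex_not_scalar_indep [Nontrivial U] (H : Module.End k U)
    (hH : ¬ ∃ α : k, H = α • (1 : Module.End k U)) {a b : k}
    (hab : a • H + b • (1 : Module.End k U) = 0) : a = 0 ∧ b = 0 := by
  by_cases ha : a = 0
  · subst ha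
    rw [zero_smul, zero_add] at hab
    exact ⟨rfl, (smul_eq_zero.mp hab).resolve_right one_ne_zero⟩
  · exfalso
    apply hH
    refine ⟨-(a⁻¹ * b), ?_⟩
    have h1 : a • H = -(b • (1 : Module.End k U)) := eq_neg_of_add_eq_zero_left hab
    calc H = a⁻¹ • (a • H) := by rw [smul_smul, inv_mul_cancel₀ ha, one_smul]
      _ = -(a⁻¹ * b) • (1 : Module.End k U) := by rw [h1, smul_neg, smul_smul, neg_smul]

/-- The characteristic polynomial of a non-scalar endomorphism of a plane satisfying a monic
quadratic relation is that quadratic polynomial. -/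
theorem ex_charpoly_of_not_scalar [FiniteDimensional k U] (hd : Module.finrank k U = 2)
    (H : Module.End k U) (hH : ¬ ∃ α : k, H = α • (1 : Module.End k U)) (t c : k)
    (hq : H * H - t • H + c • (1 : Module.End k U) = 0) :
    LinearMap.charpoly H = X ^ 2 - C t * X + C c := by
  have hnt : Nontrivial U := Module.nontrivial_of_finrank_pos (R := k) (by omega)
  have hint : IsIntegral k H := LinearMap.isIntegral H
  have h2 : 2 ≤ (minpoly k H).natDegree := by
    rw [minpoly.two_le_natDegree_iff hint]
    rintro ⟨α, hα⟩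
    exact hH ⟨α, by rw [← hα, Algebra.algebraMap_eq_smul_one]⟩
  have hpm : (X ^ 2 - C t * X + C c : k[X]).Monic := by monicity!
  have hpd : (X ^ 2 - C t * X + C c : k[X]).natDegree = 2 := by compute_degree!
  have hp0 : aeval H (X ^ 2 - C t * X + C c : k[X]) = 0 := by
    rw [map_add, map_sub, map_mul, map_pow, aeval_X, aeval_C, aeval_C,
      Algebra.algebraMap_eq_smul_one, Algebra.algebraMap_eq_smul_one, smul_mul_assoc, one_mul,
      pow_two]
    exact hq
  have e1 : (X ^ 2 - C t * X + C c : k[X]) = minpoly k H :=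
    Polynomial.eq_of_monic_of_dvd_of_natDegree_le (minpoly.monic hint) hpm
      (minpoly.dvd k H hp0) (by rw [hpd]; exact h2)
  have e2 : LinearMap.charpoly H = minpoly k H :=
    Polynomial.eq_of_monic_of_dvd_of_natDegree_le (minpoly.monic hint) (LinearMap.charpoly_monic H)
      (LinearMap.minpoly_dvd_charpoly H) (by rw [LinearMap.charpoly_natDegree, hd]; exact h2)
  rw [e2, e1]

/-- The characteristic polynomial of a scalar endomorphism. -/
theorem ex_charpoly_smul_one [FiniteDimensional k U] (α : k) :
    LinearMap.charpoly (α • (1 : Module.End k U)) = (X - C α) ^ Module.finrank k U := by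
  classical
  have b : Module.Basis (Fin (Module.finrank k U)) k U := Module.finBasis k U
  rw [← LinearMap.charpoly_toMatrix _ b, map_smul]
  have h1 : LinearMap.toMatrix b b (1 : Module.End k U) = 1 := LinearMap.toMatrix_one b
  rw [h1, Matrix.smul_one_eq_diagonal, Matrix.charpoly_diagonal, Finset.prod_const,
    Finset.card_univ, Fintype.card_fin]

/-- In an irreducible two-dimensional representation whose elements satisfy quadratic relations
with multiplicative constant term, these relations are the characteristic polynomials. -/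
theorem ex_charpoly_eq [FiniteDimensional k U] [Group G]
    (σ : G →* Module.End k U) (ε : G →* kˣ)
    (hirr : ∀ N : Submodule k U, (∀ g, ∀ u ∈ N, σ g u ∈ N) → N = ⊥ ∨ N = ⊤)
    (hd : Module.finrank k U = 2)
    (hq : ∀ g : G, ∃ t : k,
      σ g * σ g - t • σ g + ((ε g : kˣ) : k) • (1 : Module.End k U) = 0)
    (g : G) (t : k)
    (ht : σ g * σ g - t • σ g + ((ε g : kˣ) : k) • (1 : Module.End k U) = 0) :
    LinearMap.charpoly (σ g) = X ^ 2 - C t * X + C ((ε g : kˣ) : k) := by
  have hnt : Nontrivial U := Module.nontrivial_of_finrank_pos (R := k) (by omega)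
  by_cases hs : ∃ α : k, σ g = α • (1 : Module.End k U)
  · obtain ⟨α, hα⟩ := hs
    obtain ⟨h, hh⟩ := ex_exists_not_scalar (fun g => σ g) hirr (by omega)
    obtain ⟨th, hth⟩ := hq h
    obtain ⟨tgh, htgh⟩ := hq (g * h)
    rw [map_mul, map_mul, Units.val_mul, hα, smul_mul_assoc, one_mul] at htgh
    -- `α² = ε g`
    have e1 : (tgh * α - α ^ 2 * th) • σ h
        + (α ^ 2 * ((ε h : kˣ) : k) - ((ε g : kˣ) : k) * ((ε h : kˣ) : k))
          • (1 : Module.End k U) = 0 := by
      have e2 : (tgh * α - α ^ 2 * th) • σ h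
        + (α ^ 2 * ((ε h : kˣ) : k) - ((ε g : kˣ) : k) * ((ε h : kˣ) : k))
          • (1 : Module.End k U)
        = α ^ 2 • (σ h * σ h - th • σ h + ((ε h : kˣ) : k) • (1 : Module.End k U))
          - (α • σ h * α • σ h - tgh • α • σ h
            + (((ε g : kˣ) : k) * ((ε h : kˣ) : k)) • (1 : Module.End k U)) := by
        rw [smul_mul_smul_comm]
        module
      rw [e2, hth, htgh, smul_zero, sub_zero]
    have e3 := (ex_not_scalar_indep (σ h) hh e1).2
    have hεh : ((ε h : kˣ) : k) ≠ 0 := Units.ne_zero _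
    have hεg : ((ε g : kˣ) : k) ≠ 0 := Units.ne_zero _
    have e4 : α ^ 2 = ((ε g : kˣ) : k) := by
      rw [← sub_mul] at e3
      exact sub_eq_zero.mp ((mul_eq_zero.mp e3).resolve_right hεh)
    have hα0 : α ≠ 0 := by
      rintro rfl
      rw [zero_pow two_ne_zero] at e4
      exact hεg e4.symm
    -- `t = 2 α`
    rw [hα, smul_mul_smul_comm, one_mul, smul_smul, ← sub_smul, ← add_smul] at ht
    have e5 : α * α - t * α + ((ε g : kˣ) : k) = 0 :=
      (smul_eq_zero.mp ht).resolve_right one_ne_zero
    have e6 : t = α + α := by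
      rw [← e4] at e5
      have : α * (α + α - t) = 0 := by rw [← e5]; ring
      have := (mul_eq_zero.mp this).resolve_left hα0
      exact (sub_eq_zero.mp this).symm
    rw [hα, ex_charpoly_smul_one, hd, e6, ← e4, map_add, map_pow]
    ring
  · exact ex_charpoly_of_not_scalar hd (σ g) hs t _ ht

/-- The one-dimensional case: `G` acts on `U` through a character `ψ`, and the diagonal
two-dimensional representation `ψ ⊕ ε ψ⁻¹` has the required properties. -/
theorem ex_one_dim [FiniteDimensional k U] [Group G] (σ : G →* Module.End k U) (ε : G →* kˣ)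
    (hd : Module.finrank k U = 1) :
    ∃ ρ' : G →* Module.End k (k × k),
      (∀ g : G, σ g = 1 → ε g = 1 → ρ' g = 1) ∧
      ∀ (g : G) (t : k),
        σ g * σ g - t • σ g + ((ε g : kˣ) : k) • (1 : Module.End k U) = 0 →
        LinearMap.charpoly (ρ' g) = X ^ 2 - C t * X + C ((ε g : kˣ) : k) := by
  have hnt : Nontrivial U := Module.nontrivial_of_finrank_pos (R := k) (by omega)
  have hsc : ∀ f : Module.End k U, f = LinearMap.det f • (1 : Module.End k U) := by
    intro f
    obtain ⟨a, ha⟩ := LinearMap.exists_eq_smul_id_of_forall_notLinearIndependent (f := f)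
      (fun v hv => by
        have := hv.fintype_card_le_finrank
        rw [hd, Fintype.card_fin] at this
        omega)
    have hdet : LinearMap.det f = a := by
      rw [ha, LinearMap.det_smul, hd, pow_one, map_one, mul_one]
    rw [hdet]
    exact ha
  let ψ : G →* kˣ := (LinearMap.det.comp σ).toHomUnits
  have hψ : ∀ g, σ g = ((ψ g : kˣ) : k) • (1 : Module.End k U) := fun g => hsc (σ g)
  let ρ' : G →* Module.End k (k × k) :=
    { toFun := fun g => LinearMap.prodMap (((ψ g : kˣ) : k) • (1 : Module.End k k))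
        (((ε g * (ψ g)⁻¹ : kˣ) : k) • (1 : Module.End k k))
      map_one' := by
        rw [map_one, map_one, inv_one, mul_one, Units.val_one, one_smul]
        exact LinearMap.prodMap_one
      map_mul' := fun g h => by
        rw [LinearMap.prodMap_mul, smul_mul_smul_comm, smul_mul_smul_comm, one_mul, map_mul,
          map_mul, mul_inv, Units.val_mul, Units.val_mul, Units.val_mul, Units.val_mul,
          Units.val_mul, Units.val_mul]
        congr 2
        ring }
  have hρ' : ∀ g, ρ' g = LinearMap.prodMap (((ψ g : kˣ) : k) • (1 : Module.End k k))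
        (((ε g * (ψ g)⁻¹ : kˣ) : k) • (1 : Module.End k k)) := fun g => rfl
  refine ⟨ρ', fun g hg he => ?_, fun g t ht => ?_⟩
  · have h1 : ψ g = 1 := by
      apply Units.ext
      show LinearMap.det (σ g) = 1
      rw [hg, map_one]
    rw [hρ', h1, he, inv_one, mul_one, Units.val_one, one_smul]
    exact LinearMap.prodMap_one
  · have ha : ((ψ g : kˣ) : k) ≠ 0 := Units.ne_zero _
    rw [hψ g, smul_mul_smul_comm, one_mul, smul_smul, ← sub_smul, ← add_smul] at ht
    have e5 : ((ψ g : kˣ) : k) * ((ψ g : kˣ) : k) - t * ((ψ g : kˣ) : k) + ((ε g : kˣ) : k) = 0 :=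
      (smul_eq_zero.mp ht).resolve_right one_ne_zero
    have hta : t * ((ψ g : kˣ) : k) = ((ψ g : kˣ) : k) * ((ψ g : kˣ) : k) + ((ε g : kˣ) : k) := by
      linear_combination (-1 : k) * e5
    obtain ⟨b, hb⟩ : ∃ b : k, b = ((ε g : kˣ) : k) * (((ψ g : kˣ) : k))⁻¹ := ⟨_, rfl⟩
    have ht' : t = ((ψ g : kˣ) : k) + b := by
      rw [hb, ← mul_inv_cancel_right₀ ha t, hta, add_mul, mul_inv_cancel_right₀ ha]
    have e6 : ((ε g : kˣ) : k) = ((ψ g : kˣ) : k) * b := by
      rw [hb, mul_comm (((ε g : kˣ) : k)), mul_inv_cancel_left₀ ha]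
    rw [hρ', LinearMap.charpoly_prodMap, ex_charpoly_smul_one, ex_charpoly_smul_one,
      Module.finrank_self, pow_one, pow_one, Units.val_mul, Units.val_inv_eq_inv_val, ← hb, e6,
      ht', map_add, map_mul]
    ring

end irreducible

/-! ### Minimal stable subspaces and restriction -/

section restrict

variable {k : Type*} [Field k] {G : Type*} {W : Type*} [AddCommGroup W] [Module k W]

/-- A nonzero stable subspace which is minimal among such. -/
theorem ex_exists_minimal [FiniteDimensional k W] [Nontrivial W] (ρ : G → Module.End k W) :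
    ∃ U : Submodule k W, U ≠ ⊥ ∧ (∀ g, ∀ u ∈ U, ρ g u ∈ U) ∧
      ∀ U' : Submodule k W, U' ≤ U → U' ≠ ⊥ → (∀ g, ∀ u ∈ U', ρ g u ∈ U') → U' = U := by
  have hwf : WellFounded ((· < ·) : Submodule k W → Submodule k W → Prop) := wellFounded_lt
  obtain ⟨U, hU, hmin⟩ := hwf.has_min {U : Submodule k W | U ≠ ⊥ ∧ ∀ g, ∀ u ∈ U, ρ g u ∈ U}
    ⟨⊤, top_ne_bot, fun g u _ => Submodule.mem_top⟩
  refine ⟨U, hU.1, hU.2, fun U' hle h0 hst => ?_⟩
  by_contra hne
  exact hmin U' ⟨h0, hst⟩ (lt_of_le_of_ne hle hne)

/-- Restriction of a representation to a stable subspace. -/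
def ex_restrict [Monoid G] (ρ : G →* Module.End k W) (U : Submodule k W)
    (hU : ∀ g, ∀ u ∈ U, ρ g u ∈ U) : G →* Module.End k U where
  toFun g := (ρ g).restrict (hU g)
  map_one' := by
    ext u
    simp
  map_mul' g h := by
    ext u
    simp

theorem ex_restrict_apply [Monoid G] (ρ : G →* Module.End k W) (U : Submodule k W)
    (hU : ∀ g, ∀ u ∈ U, ρ g u ∈ U) (g : G) (u : U) :
    ((ex_restrict ρ U hU g u : U) : W) = ρ g (u : W) := rfl

/-- The restriction of a representation to a minimal nonzero stable subspace is irreducible. -/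
theorem ex_restrict_irred [Monoid G] (ρ : G →* Module.End k W) (U : Submodule k W)
    (hU : ∀ g, ∀ u ∈ U, ρ g u ∈ U)
    (hmin : ∀ U' : Submodule k W, U' ≤ U → U' ≠ ⊥ → (∀ g, ∀ u ∈ U', ρ g u ∈ U') → U' = U)
    (N : Submodule k U) (hN : ∀ g, ∀ u ∈ N, ex_restrict ρ U hU g u ∈ N) : N = ⊥ ∨ N = ⊤ := by
  by_cases h0 : N = ⊥
  · exact Or.inl h0
  · right
    have hle : N.map U.subtype ≤ U := Submodule.map_subtype_le U N
    have hne : N.map U.subtype ≠ ⊥ := by
      obtain ⟨n, hn, hn0⟩ := (Submodule.ne_bot_iff N).mp h0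
      intro h
      have hmem : (n : W) ∈ N.map U.subtype := ⟨n, hn, rfl⟩
      rw [h, Submodule.mem_bot] at hmem
      exact hn0 (Subtype.ext hmem)
    have hst : ∀ g, ∀ u ∈ N.map U.subtype, ρ g u ∈ N.map U.subtype := by
      rintro g _ ⟨n, hn, rfl⟩
      exact ⟨ex_restrict ρ U hU g n, hN g n hn, rfl⟩
    have heq := hmin _ hle hne hst
    rw [eq_top_iff]
    intro u _
    have hu : (u : W) ∈ N.map U.subtype := by rw [heq]; exact u.2
    obtain ⟨n, hn, hnu⟩ := hu
    have : n = u := Subtype.ext hnu
    rw [← this]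
    exact hn

/-- A quadratic relation restricts to a stable subspace. -/
theorem ex_restrict_quadratic [Monoid G] (ρ : G →* Module.End k W) (U : Submodule k W)
    (hU : ∀ g, ∀ u ∈ U, ρ g u ∈ U) (g : G) (t c : k)
    (h : ρ g * ρ g - t • ρ g + c • (1 : Module.End k W) = 0) :
    ex_restrict ρ U hU g * ex_restrict ρ U hU g - t • ex_restrict ρ U hU g
      + c • (1 : Module.End k U) = 0 := by
  ext u
  have := congrArg (fun y : Module.End k W => y (u : W)) h
  simpa [ex_restrict_apply] using this

end restrict

/-! ### The main statement -/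

/-- Extraction of a two-dimensional representation from quadratic relations: if every `ρ g`
satisfies a relation `ρ(g)² - t ρ(g) + ε(g) = 0`, then there is a two-dimensional representation
`ρ'` with `charpoly (ρ' g) = X² - t X + ε(g)` for all such `t`, trivial at every `g` with
`ρ g = 1` and `ε g = 1`. -/
theorem exists_two_dim_of_quadratic {k : Type} [Field k] [IsAlgClosed k] {G : Type*} [Group G]
    {W : Type} [AddCommGroup W] [Module k W] [FiniteDimensional k W] [Nontrivial W]
    (ρ : G →* Module.End k W) (ε : G →* kˣ)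
    (h : ∀ g : G, ∃ t : k, ρ g * ρ g - t • ρ g + ((ε g : kˣ) : k) • (1 : Module.End k W) = 0) :
    ∃ (V : Type) (_ : AddCommGroup V) (_ : Module k V) (_ : Module.Finite k V)
      (ρ' : G →* Module.End k V),
      Module.finrank k V = 2 ∧
      (∀ g : G, ρ g = 1 → ε g = 1 → ρ' g = 1) ∧
      ∀ (g : G) (t : k), ρ g * ρ g - t • ρ g + ((ε g : kˣ) : k) • (1 : Module.End k W) = 0 →
        LinearMap.charpoly (ρ' g) = X ^ 2 - C t * X + C ((ε g : kˣ) : k) := by
  obtain ⟨U, hU0, hUst, hUmin⟩ := ex_exists_minimal (ρ : G → Module.End k W)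
  have hirr := ex_restrict_irred ρ U hUst hUmin
  have hq : ∀ (g : G) (t : k),
      ρ g * ρ g - t • ρ g + ((ε g : kˣ) : k) • (1 : Module.End k W) = 0 →
      ex_restrict ρ U hUst g * ex_restrict ρ U hUst g - t • ex_restrict ρ U hUst g
        + ((ε g : kˣ) : k) • (1 : Module.End k U) = 0 :=
    fun g t ht => ex_restrict_quadratic ρ U hUst g t _ ht
  have hq' : ∀ g : G, ∃ t : k,
      ex_restrict ρ U hUst g * ex_restrict ρ U hUst g - t • ex_restrict ρ U hUst g
        + ((ε g : kˣ) : k) • (1 : Module.End k U) = 0 :=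
    fun g => (h g).imp (hq g)
  have hnt : Nontrivial U := (Submodule.nontrivial_iff_ne_bot).mpr hU0
  have hle : Module.finrank k U ≤ 2 := ex_finrank_le_two (ex_restrict ρ U hUst) ε hirr hq'
  have hpos : 0 < Module.finrank k U := Module.finrank_pos
  have hone : ∀ g : G, ρ g = 1 → ex_restrict ρ U hUst g = 1 := by
    intro g hg
    ext u
    rw [ex_restrict_apply, hg]
    rfl
  rcases (by omega : Module.finrank k U = 1 ∨ Module.finrank k U = 2) with hd | hd
  · obtain ⟨ρ', h1, h2⟩ := ex_one_dim (ex_restrict ρ U hUst) ε hd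
    refine ⟨k × k, inferInstance, inferInstance, inferInstance, ρ', ?_,
      fun g hg he => h1 g (hone g hg) he, fun g t ht => h2 g t (hq g t ht)⟩
    rw [Module.finrank_prod, Module.finrank_self]
  · exact ⟨U, inferInstance, inferInstance, inferInstance, ex_restrict ρ U hUst, hd,
      fun g hg _ => hone g hg,
      fun g t ht => ex_charpoly_eq (ex_restrict ρ U hUst) ε hirr hd hq' g t (hq g t ht)⟩

end Fermat.Agent.S42
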