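import Mathlib
import Fermat.Prelude.Def_FLTPrelim_Ramification
import Fermat.Prelude.Def_EllipticCurve_FrobeniusTrace
import Fermat.Agent.S54.Frobenius
import Fermat.Agent.S37.FrobBasic
import Fermat.Agent.S42.DensityDefs
import Fermat.Agent.S42.CyclicInert
import Fermat.Agent.S42.FrobQbarCore

set_option autoImplicit false

/-!
# P13 (S42/S29), part (B), module B4: the Frobenius density theorem for valuation subrings of `ℚ̄`

Main result (`Fermat.Agent.S42.exists_frobenius_pow_eq_on`): for a finite Galois extension `L/ℚ`
inside `ℚ̄`, an element `g` of the absolute Galois group and a finite set `S` of numbers, there are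
a prime `ℓ ∉ S`, a valuation subring `A` of `ℚ̄` over `ℓ`, a Frobenius element `σ` at `A` (in the
sense of the frozen definition `ValuationSubring.IsFrobeniusAt`) and an exponent `j` such that
`σ ^ j` and `g` agree on `L`.

The proof (in `FrobQbarCore.lean`) combines the infinitude of inert degree-one primes in cyclic
extensions (`infinite_inertSet`, module B3b) with the existence of Frobenius elements (`S37`), and
an elementary uniqueness statement for Frobenius elements at large primes.
-/

namespace Fermat.Agent.S42

/-- **Frobenius density theorem for valuation subrings of `ℚ̄`.** For a finite Galois extension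
`L/ℚ` inside `ℚ̄`, an element `g` of the absolute Galois group and a finite set `S`, there are a
prime `ℓ ∉ S`, a valuation subring `A` of `ℚ̄` over `ℓ`, a Frobenius element `σ` at `A` and an
exponent `j` such that `σ ^ j` and `g` agree on `L`. -/
theorem exists_frobenius_pow_eq_on (L : IntermediateField ℚ (AlgebraicClosure ℚ))
    [FiniteDimensional ℚ L] [IsGalois ℚ L]
    (g : AlgebraicClosure ℚ ≃ₐ[ℚ] AlgebraicClosure ℚ) (S : Finset ℕ) :
    ∃ (ℓ : ℕ) (A : ValuationSubring (AlgebraicClosure ℚ))
      (σ : AlgebraicClosure ℚ ≃ₐ[ℚ] AlgebraicClosure ℚ) (j : ℕ),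
      ℓ.Prime ∧ ℓ ∉ S ∧ A.LiesOverPrime ℓ ∧ A.IsFrobeniusAt σ ℓ ∧
        ∀ x ∈ L, (σ ^ j) x = g x :=
  fq_exists_frobenius_pow_eq_on_of_inert (fun M L _ _ _ _ _ _ _ => infinite_inertSet M L) L g S

end Fermat.Agent.S42
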