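import Mathlib
import Fermat.Prelude.Def_FLTPrelim_Ramification
import Fermat.Prelude.Def_EllipticCurve_FrobeniusTrace
import Fermat.Agent.S42.Extraction
import Fermat.Agent.S42.Cyclo
import Fermat.Agent.S42.FrobQbar

/-!
# P13 (S42/S29), part (B): the abstract assembly

`exists_rep_of_eigenvector`: let `ρ₀` be a representation of `Gal(ℚ̄/ℚ)` on a vector space `V₀` over
an algebraically closed field `k` of characteristic `p`, with endomorphisms `T ℓ` commuting with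
`ρ₀`, such that every Frobenius lift `σ` at a prime `ℓ ∤ Np` satisfies `σ² - T_ℓ σ + ℓ = 0`, inertia
at `ℓ ∤ Np` acts trivially, and `x ≠ 0` is a vector of finite level with `T_ℓ x = a_ℓ x`.  Then
there is a two-dimensional representation of finite level, unramified outside `Np`, with
`charpoly (ρ σ) = X² - a_ℓ X + ℓ` for every Frobenius lift at every `ℓ ∤ Np`.

Ingredients: the Frobenius density theorem (`exists_frobenius_pow_eq_on`), the extraction lemma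
(`exists_two_dim_of_quadratic`, `pow_quadratic`) and the mod `p` cyclotomic character.
-/

set_option autoImplicit false

namespace Fermat.Agent.S42

open Polynomial

local notation "Γℚ" => (AlgebraicClosure ℚ ≃ₐ[ℚ] AlgebraicClosure ℚ)

theorem asm_isAlgebraicQbar : Algebra.IsAlgebraic ℚ (AlgebraicClosure ℚ) :=
  AlgebraicClosure.isAlgebraic ℚ

theorem asm_isAlgClosureQbar : IsAlgClosure ℚ (AlgebraicClosure ℚ) :=
  ⟨inferInstance, asm_isAlgebraicQbar⟩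

theorem asm_normalQbar : Normal ℚ (AlgebraicClosure ℚ) :=
  @IsAlgClosure.normal ℚ (AlgebraicClosure ℚ) _ _ _ asm_isAlgClosureQbar

/-- A normal intermediate field is stable under every automorphism. -/
theorem asm_mem_of_normal (L : IntermediateField ℚ (AlgebraicClosure ℚ)) [Normal ℚ L]
    (τ : Γℚ) {y : AlgebraicClosure ℚ} (hy : y ∈ L) : τ y ∈ L := by
  have h := AlgEquiv.restrictNormal_commutes τ L ⟨y, hy⟩
  have h2 : τ y = ((τ.restrictNormal L ⟨y, hy⟩ : L) : AlgebraicClosure ℚ) := h.symm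
  rw [h2]
  exact (τ.restrictNormal L ⟨y, hy⟩).2

/-- Conjugates of an automorphism fixing a normal field fix that field. -/
theorem asm_conj_fixes (L : IntermediateField ℚ (AlgebraicClosure ℚ)) [Normal ℚ L]
    (σ τ : Γℚ) (hσ : ∀ y ∈ L, σ y = y) : ∀ y ∈ L, (τ⁻¹ * σ * τ) y = y := by
  intro y hy
  have h1 : σ (τ y) = τ y := hσ _ (asm_mem_of_normal L τ hy)
  show τ⁻¹ (σ (τ y)) = y
  rw [h1]
  exact τ.symm_apply_apply y

/-- Two automorphisms agreeing on `L`: their quotient fixes `L`. -/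
theorem asm_inv_mul_fixes (L : IntermediateField ℚ (AlgebraicClosure ℚ))
    (σ τ : Γℚ) (h : ∀ y ∈ L, σ y = τ y) : ∀ y ∈ L, (σ⁻¹ * τ) y = y := by
  intro y hy
  show σ⁻¹ (τ y) = y
  rw [← h y hy]
  exact σ.symm_apply_apply y

/-- The mod `p` cyclotomic character with values in a field of characteristic `p`. -/
noncomputable def cycloCharField (p : ℕ) [Fact p.Prime] (k : Type*) [Field k] [CharP k p] :
    Γℚ →* kˣ :=
  (Units.map ((ZMod.castHom (dvd_refl p) k : ZMod p →+* k) : ZMod p →* k)).comp (cycloChar p)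

theorem coe_cycloCharField (p : ℕ) [Fact p.Prime] (k : Type*) [Field k] [CharP k p] (σ : Γℚ) :
    ((cycloCharField p k σ : kˣ) : k) =
      (ZMod.castHom (dvd_refl p) k) ((cycloChar p σ : (ZMod p)ˣ) : ZMod p) := rfl

theorem cycloCharField_frobenius (p : ℕ) [Fact p.Prime] (k : Type*) [Field k] [CharP k p]
    {ℓ : ℕ} (hℓ : ℓ.Prime) (hℓp : ℓ ≠ p)
    {A : ValuationSubring (AlgebraicClosure ℚ)} (hA : A.LiesOverPrime ℓ)
    {σ : Γℚ} (hσ : A.IsFrobeniusAt σ ℓ) :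
    ((cycloCharField p k σ : kˣ) : k) = (ℓ : k) := by
  rw [coe_cycloCharField, cycloChar_frobenius p hℓ hℓp hA hσ, map_natCast]

theorem cycloCharField_eq_one (p : ℕ) [Fact p.Prime] (k : Type*) [Field k] [CharP k p]
    {σ : Γℚ} (h : cycloChar p σ = 1) : cycloCharField p k σ = 1 := by
  unfold cycloCharField
  rw [MonoidHom.comp_apply, h, map_one]


section Core

variable {k : Type} [Field k] {V₀ : Type} [AddCommGroup V₀] [Module k V₀]
  (ρ₀ : Γℚ →* Module.End k V₀) (x : V₀)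

/-- The span of the Galois orbit of `x`. -/
def orbitSpan : Submodule k V₀ := Submodule.span k (Set.range fun σ : Γℚ => ρ₀ σ x)

theorem asm_mem_orbitSpan : x ∈ orbitSpan ρ₀ x :=
  Submodule.subset_span ⟨1, by show ρ₀ 1 x = x; rw [map_one]; rfl⟩

theorem asm_map_mem (τ : Γℚ) {w : V₀} (hw : w ∈ orbitSpan ρ₀ x) : ρ₀ τ w ∈ orbitSpan ρ₀ x := by
  induction hw using Submodule.span_induction with
  | mem w hw =>
    obtain ⟨σ, rfl⟩ := hw
    exact Submodule.subset_span ⟨τ * σ, by show ρ₀ (τ * σ) x = ρ₀ τ (ρ₀ σ x); rw [map_mul]; rfl⟩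
  | zero => rw [map_zero]; exact Submodule.zero_mem _
  | add a b _ _ ha hb => rw [map_add]; exact Submodule.add_mem _ ha hb
  | smul c a _ ha => rw [map_smul]; exact Submodule.smul_mem _ c ha

/-- The representation on the span of the orbit. -/
noncomputable def orbitRep : Γℚ →* Module.End k (orbitSpan ρ₀ x) where
  toFun τ := (ρ₀ τ).restrict (fun w hw => asm_map_mem ρ₀ x τ hw)
  map_one' := by
    ext w
    simp [LinearMap.restrict_apply]
  map_mul' σ τ := by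
    ext w
    simp [LinearMap.restrict_apply, map_mul]

@[simp] theorem coe_orbitRep_apply (τ : Γℚ) (w : orbitSpan ρ₀ x) :
    ((orbitRep ρ₀ x τ w : orbitSpan ρ₀ x) : V₀) = ρ₀ τ (w : V₀) := rfl

/-- A property of endomorphisms of `V₀` that holds on the orbit holds on its span. -/
theorem asm_eqOn_orbitSpan {f g : Module.End k V₀}
    (h : ∀ σ : Γℚ, f (ρ₀ σ x) = g (ρ₀ σ x)) {w : V₀} (hw : w ∈ orbitSpan ρ₀ x) : f w = g w := by
  induction hw using Submodule.span_induction with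
  | mem w hw =>
    obtain ⟨σ, rfl⟩ := hw
    exact h σ
  | zero => rw [map_zero, map_zero]
  | add a b _ _ ha hb => rw [map_add, map_add, ha, hb]
  | smul c a _ ha => rw [map_smul, map_smul, ha]

variable {ρ₀ x}

/-- If `x` has level `L` (normal), every element of the span of its orbit has level `L`. -/
theorem asm_fixes_orbitSpan (L : IntermediateField ℚ (AlgebraicClosure ℚ)) [Normal ℚ L]
    (hL : ∀ σ : Γℚ, (∀ y ∈ L, σ y = y) → ρ₀ σ x = x)
    (σ : Γℚ) (hσ : ∀ y ∈ L, σ y = y) {w : V₀} (hw : w ∈ orbitSpan ρ₀ x) : ρ₀ σ w = w := by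
  have key : ∀ τ : Γℚ, (ρ₀ σ) (ρ₀ τ x) = (1 : Module.End k V₀) (ρ₀ τ x) := by
    intro τ
    have h1 : ρ₀ (τ⁻¹ * σ * τ) x = x := hL _ (asm_conj_fixes L σ τ hσ)
    have h2 : σ * τ = τ * (τ⁻¹ * σ * τ) := by group
    rw [Module.End.one_apply, ← Module.End.mul_apply, ← map_mul, h2, map_mul,
      Module.End.mul_apply, h1]
  have := asm_eqOn_orbitSpan ρ₀ x key hw
  rwa [Module.End.one_apply] at this

theorem asm_orbitRep_eq_one (L : IntermediateField ℚ (AlgebraicClosure ℚ)) [Normal ℚ L]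
    (hL : ∀ σ : Γℚ, (∀ y ∈ L, σ y = y) → ρ₀ σ x = x)
    (σ : Γℚ) (hσ : ∀ y ∈ L, σ y = y) : orbitRep ρ₀ x σ = 1 := by
  ext w
  rw [coe_orbitRep_apply, Module.End.one_apply]
  exact asm_fixes_orbitSpan L hL σ hσ w.2

theorem asm_orbitRep_eq_of_eqOn (L : IntermediateField ℚ (AlgebraicClosure ℚ)) [Normal ℚ L]
    (hL : ∀ σ : Γℚ, (∀ y ∈ L, σ y = y) → ρ₀ σ x = x)
    (σ τ : Γℚ) (h : ∀ y ∈ L, σ y = τ y) : orbitRep ρ₀ x σ = orbitRep ρ₀ x τ := by
  have h1 := asm_orbitRep_eq_one L hL (σ⁻¹ * τ) (asm_inv_mul_fixes L σ τ h)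
  have h2 : τ = σ * (σ⁻¹ * τ) := by group
  rw [h2, map_mul, h1, mul_one]

/-- The span of the orbit of a vector of finite level is finite-dimensional. -/
theorem asm_finiteDimensional_orbitSpan (L : IntermediateField ℚ (AlgebraicClosure ℚ))
    [FiniteDimensional ℚ L] [Normal ℚ L]
    (hL : ∀ σ : Γℚ, (∀ y ∈ L, σ y = y) → ρ₀ σ x = x) :
    FiniteDimensional k (orbitSpan ρ₀ x) := by
  classical
  let r : Γℚ → (L →ₐ[ℚ] AlgebraicClosure ℚ) := fun σ => (σ : AlgebraicClosure ℚ →ₐ[ℚ] AlgebraicClosure ℚ).comp L.val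
  have hfac : ∀ σ τ : Γℚ, r σ = r τ → ρ₀ σ x = ρ₀ τ x := by
    intro σ τ hr
    have hστ : ∀ y ∈ L, σ y = τ y := fun y hy => by
      have := congrArg (fun f : L →ₐ[ℚ] AlgebraicClosure ℚ => f ⟨y, hy⟩) hr
      exact this
    have h1 : ρ₀ (σ⁻¹ * τ) x = x := hL _ (asm_inv_mul_fixes L σ τ hστ)
    have h2 : τ = σ * (σ⁻¹ * τ) := by group
    rw [h2, map_mul, Module.End.mul_apply, h1]
  have hfin : (Set.range fun σ : Γℚ => ρ₀ σ x).Finite := by
    let F : (L →ₐ[ℚ] AlgebraicClosure ℚ) → V₀ := fun φ =>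
      if h : ∃ σ : Γℚ, r σ = φ then ρ₀ h.choose x else 0
    refine (Set.finite_range F).subset ?_
    rintro _ ⟨σ, rfl⟩
    refine ⟨r σ, ?_⟩
    have h : ∃ σ' : Γℚ, r σ' = r σ := ⟨σ, rfl⟩
    show (if h : ∃ σ' : Γℚ, r σ' = r σ then ρ₀ h.choose x else 0) = ρ₀ σ x
    rw [dif_pos h]
    exact hfac _ _ h.choose_spec
  exact FiniteDimensional.span_of_finite k hfin

end Core

/-- **Abstract assembly.**  See the module docstring. -/
theorem exists_rep_of_eigenvector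
    {k : Type} [Field k] [IsAlgClosed k] (p : ℕ) [Fact p.Prime] [CharP k p] (N : ℕ) [NeZero N]
    {V₀ : Type} [AddCommGroup V₀] [Module k V₀]
    (ρ₀ : Γℚ →* Module.End k V₀) (T : ℕ → Module.End k V₀) (a : ℕ → k) (x : V₀) (hx : x ≠ 0)
    (hfin : ∃ L : IntermediateField ℚ (AlgebraicClosure ℚ), FiniteDimensional ℚ L ∧
      ∀ σ : Γℚ, (∀ y ∈ L, σ y = y) → ρ₀ σ x = x)
    (heig : ∀ ℓ : ℕ, ℓ.Prime → ¬ ℓ ∣ N * p → T ℓ x = a ℓ • x)
    (hcomm : ∀ ℓ : ℕ, ℓ.Prime → ¬ ℓ ∣ N * p → ∀ σ : Γℚ, T ℓ * ρ₀ σ = ρ₀ σ * T ℓ)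
    (hfrob : ∀ ℓ : ℕ, ℓ.Prime → ¬ ℓ ∣ N * p →
      ∀ A : ValuationSubring (AlgebraicClosure ℚ), A.LiesOverPrime ℓ →
        ∀ σ : Γℚ, A.IsFrobeniusAt σ ℓ →
          ρ₀ σ * ρ₀ σ - T ℓ * ρ₀ σ + (ℓ : k) • (1 : Module.End k V₀) = 0)
    (hinert : ∀ ℓ : ℕ, ℓ.Prime → ¬ ℓ ∣ N * p →
      ∀ A : ValuationSubring (AlgebraicClosure ℚ), A.LiesOverPrime ℓ →
        ∀ τ ∈ A.inertiaSubgroupIn ℚ, ρ₀ τ = 1) :
    ∃ (V : Type) (_ : AddCommGroup V) (_ : Module k V) (_ : Module.Finite k V)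
      (ρ : Γℚ →* Module.End k V),
      Module.finrank k V = 2 ∧
      (∃ L : IntermediateField ℚ (AlgebraicClosure ℚ), FiniteDimensional ℚ L ∧
        ∀ σ : Γℚ, (∀ y ∈ L, σ y = y) → ρ σ = 1) ∧
      (∀ ℓ : ℕ, ℓ.Prime → ¬ ℓ ∣ N * p →
        ∀ A : ValuationSubring (AlgebraicClosure ℚ), A.LiesOverPrime ℓ →
          ∀ σ : Γℚ, A.IsFrobeniusAt σ ℓ →
            LinearMap.charpoly (ρ σ) = X ^ 2 - C (a ℓ) * X + C (ℓ : k)) ∧
      (∀ ℓ : ℕ, ℓ.Prime → ¬ ℓ ∣ N * p →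
        ∀ A : ValuationSubring (AlgebraicClosure ℚ), A.LiesOverPrime ℓ →
          ∀ τ ∈ A.inertiaSubgroupIn ℚ, ρ τ = 1) := by
  classical
  obtain ⟨L₁, hL₁fd, hL₁⟩ := hfin
  obtain ⟨L₂, hL₂fd, hL₂⟩ := exists_finiteLevel_cycloChar p
  obtain ⟨L₃, hL₃fd, hL₃⟩ := cycloChar_eq_of_eqOn p
  -- a finite Galois extension containing everything
  let E : IntermediateField ℚ (AlgebraicClosure ℚ) := L₁ ⊔ L₂ ⊔ L₃
  have hEfd : FiniteDimensional ℚ E := by
    have := hL₁fd; have := hL₂fd; have := hL₃fd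
    show FiniteDimensional ℚ ↥(L₁ ⊔ L₂ ⊔ L₃)
    infer_instance
  let L : IntermediateField ℚ (AlgebraicClosure ℚ) :=
    IntermediateField.normalClosure ℚ E (AlgebraicClosure ℚ)
  have hQn : Normal ℚ (AlgebraicClosure ℚ) := asm_normalQbar
  have hLn : Normal ℚ L := normalClosure.normal ℚ E (AlgebraicClosure ℚ)
  have hLfd : FiniteDimensional ℚ L :=
    normalClosure.is_finiteDimensional ℚ E (AlgebraicClosure ℚ)
  have hLg : IsGalois ℚ L := ⟨⟩
  have hE : E ≤ L := IntermediateField.le_normalClosure E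
  have hL₁L : L₁ ≤ L := le_trans (le_trans le_sup_left le_sup_left) hE
  have hL₂L : L₂ ≤ L := le_trans (le_trans le_sup_right le_sup_left) hE
  have hL₃L : L₃ ≤ L := le_trans le_sup_right hE
  have hLx : ∀ σ : Γℚ, (∀ y ∈ L, σ y = y) → ρ₀ σ x = x :=
    fun σ hσ => hL₁ σ (fun y hy => hσ y (hL₁L hy))
  -- the span of the orbit
  have hWfd : FiniteDimensional k (orbitSpan ρ₀ x) := asm_finiteDimensional_orbitSpan L hLx
  have hWnt : Nontrivial (orbitSpan ρ₀ x) :=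
    ⟨⟨⟨x, asm_mem_orbitSpan ρ₀ x⟩, 0, fun h => hx (congrArg Subtype.val h)⟩⟩
  -- `T ℓ` is the scalar `a ℓ` on the span
  have hT : ∀ ℓ : ℕ, ℓ.Prime → ¬ ℓ ∣ N * p → ∀ w ∈ orbitSpan ρ₀ x, T ℓ w = a ℓ • w := by
    intro ℓ hℓ hℓN w hw
    have key : ∀ σ : Γℚ, (T ℓ) (ρ₀ σ x) = (a ℓ • (1 : Module.End k V₀)) (ρ₀ σ x) := by
      intro σ
      have h1 : T ℓ (ρ₀ σ x) = ρ₀ σ (T ℓ x) :=
        congrArg (fun f : Module.End k V₀ => f x) (hcomm ℓ hℓ hℓN σ)
      rw [h1, heig ℓ hℓ hℓN, map_smul]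
      rfl
    exact asm_eqOn_orbitSpan ρ₀ x key hw
  -- the Frobenius relation on the span
  have hFrobW : ∀ ℓ : ℕ, ℓ.Prime → ¬ ℓ ∣ N * p →
      ∀ A : ValuationSubring (AlgebraicClosure ℚ), A.LiesOverPrime ℓ →
        ∀ σ : Γℚ, A.IsFrobeniusAt σ ℓ →
          orbitRep ρ₀ x σ * orbitRep ρ₀ x σ - a ℓ • orbitRep ρ₀ x σ
            + (ℓ : k) • (1 : Module.End k (orbitSpan ρ₀ x)) = 0 := by
    intro ℓ hℓ hℓN A hA σ hσ
    ext w
    have h : ρ₀ σ (ρ₀ σ (w : V₀)) - T ℓ (ρ₀ σ (w : V₀)) + (ℓ : k) • (w : V₀) = 0 :=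
      congrArg (fun f : Module.End k V₀ => f (w : V₀)) (hfrob ℓ hℓ hℓN A hA σ hσ)
    rw [hT ℓ hℓ hℓN _ (asm_map_mem ρ₀ x σ w.2)] at h
    exact h
  have hne : ∀ ℓ : ℕ, ¬ ℓ ∣ N * p → ℓ ≠ p := fun ℓ h he => h (he ▸ dvd_mul_left _ _)
  -- every element satisfies a quadratic relation (Frobenius density)
  have hQ : ∀ g : Γℚ, ∃ t : k, orbitRep ρ₀ x g * orbitRep ρ₀ x g - t • orbitRep ρ₀ x g
      + ((cycloCharField p k g : kˣ) : k) • (1 : Module.End k (orbitSpan ρ₀ x)) = 0 := by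
    intro g
    obtain ⟨ℓ, A, σ, j, hℓ, hℓS, hA, hσ, hj⟩ :=
      exists_frobenius_pow_eq_on L g (N * p).primeFactors
    have hℓN : ¬ ℓ ∣ N * p := fun hd => hℓS (Nat.mem_primeFactors.mpr
      ⟨hℓ, hd, mul_ne_zero (NeZero.ne N) (Fact.out : p.Prime).ne_zero⟩)
    obtain ⟨t', ht'⟩ := pow_quadratic (hFrobW ℓ hℓ hℓN A hA σ hσ) j
    refine ⟨t', ?_⟩
    have h1 : orbitRep ρ₀ x g = orbitRep ρ₀ x σ ^ j := by
      rw [← map_pow]
      exact (asm_orbitRep_eq_of_eqOn L hLx _ _ hj).symm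
    have h2 : ((cycloCharField p k g : kˣ) : k) = (ℓ : k) ^ j := by
      have h3 : cycloChar p (σ ^ j) = cycloChar p g := hL₃ _ _ (fun y hy => hj y (hL₃L hy))
      have h4 : cycloCharField p k g = cycloCharField p k (σ ^ j) := by
        unfold cycloCharField
        rw [MonoidHom.comp_apply, MonoidHom.comp_apply, h3]
      rw [h4, map_pow, Units.val_pow_eq_pow_val,
        cycloCharField_frobenius p k hℓ (hne ℓ hℓN) hA hσ]
    rw [h1, h2]
    exact ht'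
  obtain ⟨V, i1, i2, i3, ρ', hfr, hker, hchar⟩ :=
    exists_two_dim_of_quadratic (orbitRep ρ₀ x) (cycloCharField p k) hQ
  refine ⟨V, i1, i2, i3, ρ', hfr, ⟨L, hLfd, ?_⟩, ?_, ?_⟩
  · intro σ hσ
    exact hker σ (asm_orbitRep_eq_one L hLx σ hσ)
      (cycloCharField_eq_one p k (hL₂ σ fun y hy => hσ y (hL₂L hy)))
  · intro ℓ hℓ hℓN A hA σ hσ
    have hε := cycloCharField_frobenius p k hℓ (hne ℓ hℓN) hA hσ
    have := hchar σ (a ℓ) (by rw [hε]; exact hFrobW ℓ hℓ hℓN A hA σ hσ)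
    rw [this, hε]
  · intro ℓ hℓ hℓN A hA τ hτ
    refine hker τ ?_ (cycloCharField_eq_one p k (cycloChar_inertia p hℓ (hne ℓ hℓN) hA hτ))
    ext w
    rw [coe_orbitRep_apply, hinert ℓ hℓ hℓN A hA τ hτ]
    rfl

end Fermat.Agent.S42
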