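import Mathlib
import Fermat.Prelude.Def_ModularCurve_HeckeModule
import Fermat.Prelude.Def_FLTPrelim_Modularity
import Fermat.Agent.S42.TorsionDefs
import Fermat.Agent.S42.AssemblyCore

/-!
# P13 (S42/S29), part (B): the assembly for `k ⊗[ℤ] J₀(N)[p]`

`exists_rep_of_torsion_eigenvector`: let `k` be an algebraically closed field of characteristic
`p`, and let `x ≠ 0` in `k ⊗[ℤ] J₀(N)[p]` be an eigenvector of all `T_ℓ`, `ℓ ∤ Np`, with eigenvalues
`a ℓ`.  Given the four structural facts about the `p`-torsion of `J₀(N)` (finite level,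
Hecke/Galois commutation, the Eichler–Shimura relation, triviality of inertia), there is a
two-dimensional representation of `Gal(ℚ̄/ℚ)` over `k` of finite level, unramified outside `Np`,
such that every Frobenius lift at `ℓ ∤ Np` has characteristic polynomial `X² - a_ℓ X + ℓ`.

The base-change bookkeeping is done for an arbitrary abelian group `J` (section `Generic`) and
only then specialised to `J = J₀(N)[p]`.
-/

set_option autoImplicit false

namespace Fermat.Agent.S42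

open ModularCurve AlgebraicCurve TensorProduct Polynomial

local notation "Γℚ" => (AlgebraicClosure ℚ ≃ₐ[ℚ] AlgebraicClosure ℚ)

section Generic

variable {G : Type*} [Monoid G] {J : Type} [AddCommGroup J] (R : Type) [CommRing R]

/-- Base change to `R` of an additive endomorphism of `J`. -/
noncomputable def bcEnd (f : J →+ J) : Module.End R (R ⊗[ℤ] J) :=
  f.toIntLinearMap.baseChange R

@[simp] theorem bcEnd_tmul (f : J →+ J) (c : R) (y : J) :
    bcEnd R f (c ⊗ₜ[ℤ] y) = c ⊗ₜ[ℤ] f y := rfl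

/-- Two endomorphisms of `R ⊗[ℤ] J` that agree on pure tensors are equal. -/
theorem bc_ext {F F' : Module.End R (R ⊗[ℤ] J)}
    (h : ∀ (c : R) (y : J), F (c ⊗ₜ[ℤ] y) = F' (c ⊗ₜ[ℤ] y)) : F = F' := by
  refine LinearMap.ext fun z => ?_
  induction z using TensorProduct.induction_on with
  | zero => rw [map_zero, map_zero]
  | tmul c y => exact h c y
  | add a b ha hb => rw [map_add, map_add, ha, hb]

/-- Base change to `R` of a monoid action by additive endomorphisms. -/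
noncomputable def bcRep (act : G →* AddMonoid.End J) : G →* Module.End R (R ⊗[ℤ] J) where
  toFun σ := bcEnd R (act σ)
  map_one' := by
    refine bc_ext R fun c y => ?_
    rw [bcEnd_tmul, map_one]
    rfl
  map_mul' σ τ := by
    refine bc_ext R fun c y => ?_
    rw [bcEnd_tmul, map_mul]
    rfl

@[simp] theorem bcRep_tmul (act : G →* AddMonoid.End J) (σ : G) (c : R) (y : J) :
    bcRep R act σ (c ⊗ₜ[ℤ] y) = c ⊗ₜ[ℤ] act σ y := rfl

theorem bc_comm (act : G →* AddMonoid.End J) (t : J →+ J) (σ : G)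
    (h : ∀ y : J, t (act σ y) = act σ (t y)) :
    bcEnd R t * bcRep R act σ = bcRep R act σ * bcEnd R t := by
  refine bc_ext R fun c y => ?_
  rw [Module.End.mul_apply, Module.End.mul_apply, bcRep_tmul, bcEnd_tmul, bcEnd_tmul, bcRep_tmul,
    h y]

theorem bc_natCast_smul_tmul (ℓ : ℕ) (c : R) (y : J) :
    (ℓ : R) • (c ⊗ₜ[ℤ] y) = c ⊗ₜ[ℤ] ((ℓ : ℤ) • y) := by
  rw [TensorProduct.smul_tmul', smul_eq_mul, ← TensorProduct.smul_tmul, zsmul_eq_mul,
    Int.cast_natCast]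

theorem bc_frob (act : G →* AddMonoid.End J) (t : J →+ J) (σ : G) (ℓ : ℕ)
    (h : ∀ y : J, act σ (act σ y) - t (act σ y) + (ℓ : ℤ) • y = 0) :
    bcRep R act σ * bcRep R act σ - bcEnd R t * bcRep R act σ
      + (ℓ : R) • (1 : Module.End R (R ⊗[ℤ] J)) = 0 := by
  refine bc_ext R fun c y => ?_
  rw [LinearMap.add_apply, LinearMap.sub_apply, Module.End.mul_apply, Module.End.mul_apply,
    LinearMap.smul_apply, Module.End.one_apply, bcRep_tmul, bcRep_tmul, bcEnd_tmul,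
    bc_natCast_smul_tmul, ← TensorProduct.tmul_sub, ← TensorProduct.tmul_add, h y,
    TensorProduct.tmul_zero, LinearMap.zero_apply]

theorem bc_eq_one (act : G →* AddMonoid.End J) (τ : G) (h : ∀ y : J, act τ y = y) :
    bcRep R act τ = 1 := by
  refine bc_ext R fun c y => ?_
  rw [bcRep_tmul, h y, Module.End.one_apply]

theorem bc_finiteLevel (act : Γℚ →* AddMonoid.End J)
    (h : ∀ y : J, ∃ L : IntermediateField ℚ (AlgebraicClosure ℚ), FiniteDimensional ℚ L ∧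
      ∀ σ : Γℚ, (∀ u ∈ L, σ u = u) → act σ y = y) (x : R ⊗[ℤ] J) :
    ∃ L : IntermediateField ℚ (AlgebraicClosure ℚ), FiniteDimensional ℚ L ∧
      ∀ σ : Γℚ, (∀ u ∈ L, σ u = u) → bcRep R act σ x = x := by
  induction x using TensorProduct.induction_on with
  | zero => exact ⟨⊥, inferInstance, fun σ _ => map_zero _⟩
  | tmul c y =>
    obtain ⟨L, hL, h'⟩ := h y
    refine ⟨L, hL, fun σ hσ => ?_⟩
    rw [bcRep_tmul, h' σ hσ]
  | add a b ha hb =>
    obtain ⟨L₁, hL₁, h₁⟩ := ha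
    obtain ⟨L₂, hL₂, h₂⟩ := hb
    refine ⟨L₁ ⊔ L₂, inferInstance, fun σ hσ => ?_⟩
    rw [map_add, h₁ σ (fun u hu => hσ u ((le_sup_left : L₁ ≤ L₁ ⊔ L₂) hu)),
      h₂ σ (fun u hu => hσ u ((le_sup_right : L₂ ≤ L₁ ⊔ L₂) hu))]

end Generic

section Concrete

variable (N p : ℕ) [NeZero N]

/-- The Galois action on `J₀(N)[p]` as a monoid homomorphism. -/
noncomputable def galJpHom : Γℚ →* AddMonoid.End (Jp N p) where
  toFun σ := galJp N p σ
  map_one' := by
    refine AddMonoidHom.ext fun x => Subtype.ext ?_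
    show ((1 : Γℚ) • (x : JZero N)) = x
    exact one_smul _ _
  map_mul' σ τ := by
    refine AddMonoidHom.ext fun x => Subtype.ext ?_
    show (σ * τ) • (x : JZero N) = σ • τ • (x : JZero N)
    exact mul_smul _ _ _

@[simp] theorem galJpHom_apply (σ : Γℚ) (y : Jp N p) : galJpHom N p σ y = galJp N p σ y := rfl

end Concrete

/-- **Assembly for the `p`-torsion of `J₀(N)`.** -/
theorem exists_rep_of_torsion_eigenvector
    {k : Type} [Field k] [IsAlgClosed k] (N p : ℕ) [NeZero N] [Fact p.Prime] [CharP k p]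
    (a : ℕ → k) (x : k ⊗[ℤ] Jp N p) (hx : x ≠ 0)
    (heig : ∀ (ℓ : ℕ) (hℓ : ℓ.Prime), ¬ ℓ ∣ N * p →
      (heckeJp N p ⟨ℓ, hℓ⟩).toIntLinearMap.baseChange k x = a ℓ • x)
    (h2 : TorsionFiniteLevel N p) (h3 : HeckeGaloisCommute N p)
    (h4 : FrobeniusRelation N p) (h5 : InertiaTrivial N p) :
    ∃ (V : Type) (_ : AddCommGroup V) (_ : Module k V) (_ : Module.Finite k V)
      (ρ : Γℚ →* Module.End k V),
      Module.finrank k V = 2 ∧
      (∃ L : IntermediateField ℚ (AlgebraicClosure ℚ), FiniteDimensional ℚ L ∧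
        ∀ σ : Γℚ, (∀ y ∈ L, σ y = y) → ρ σ = 1) ∧
      (∀ ℓ : ℕ, ℓ.Prime → ¬ ℓ ∣ N * p →
        ∀ A : ValuationSubring (AlgebraicClosure ℚ), A.LiesOverPrime ℓ →
          ∀ σ : Γℚ, A.IsFrobeniusAt σ ℓ →
            LinearMap.charpoly (ρ σ) = X ^ 2 - C (a ℓ) * X + C (ℓ : k)) ∧
      (∀ ℓ : ℕ, ℓ.Prime → ¬ ℓ ∣ N * p →
        ∀ A : ValuationSubring (AlgebraicClosure ℚ), A.LiesOverPrime ℓ →
          ∀ τ ∈ A.inertiaSubgroupIn ℚ, ρ τ = 1) := by
  classical
  -- the Hecke operators, indexed by all natural numbers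
  let T : ℕ → Module.End k (k ⊗[ℤ] Jp N p) := fun ℓ =>
    if h : ℓ.Prime then bcEnd k (heckeJp N p ⟨ℓ, h⟩) else 0
  have hT : ∀ (ℓ : ℕ) (hℓ : ℓ.Prime), T ℓ = bcEnd k (heckeJp N p ⟨ℓ, hℓ⟩) := by
    intro ℓ hℓ
    show (if h : ℓ.Prime then bcEnd k (heckeJp N p ⟨ℓ, h⟩) else 0) = _
    rw [dif_pos hℓ]
  refine exists_rep_of_eigenvector p N (bcRep k (galJpHom N p)) T a x hx ?_ ?_ ?_ ?_ ?_
  · refine bc_finiteLevel k (galJpHom N p) (fun y => ?_) x
    obtain ⟨L, hL, h⟩ := h2 (y : JZero N) y.2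
    exact ⟨L, hL, fun σ hσ => Subtype.ext (h σ hσ)⟩
  · intro ℓ hℓ hℓN
    rw [hT ℓ hℓ]
    exact heig ℓ hℓ hℓN
  · intro ℓ hℓ hℓN σ
    rw [hT ℓ hℓ]
    exact bc_comm k (galJpHom N p) (heckeJp N p ⟨ℓ, hℓ⟩) σ
      (fun y => Subtype.ext (h3 ℓ hℓ hℓN σ (y : JZero N) y.2))
  · intro ℓ hℓ hℓN A hA σ hσ
    rw [hT ℓ hℓ]
    exact bc_frob k (galJpHom N p) (heckeJp N p ⟨ℓ, hℓ⟩) σ ℓ
      (fun y => Subtype.ext (h4 ℓ hℓ hℓN A hA σ hσ (y : JZero N) y.2))
  · intro ℓ hℓ hℓN A hA τ hτ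
    exact bc_eq_one k (galJpHom N p) τ
      (fun y => Subtype.ext (h5 ℓ hℓ hℓN A hA τ hτ (y : JZero N) y.2))

end Fermat.Agent.S42
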