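import Mathlib

/-!
# Trace, determinant and base change of two-dimensional representations

Project P13, part (B), module W2.

* `trace_eq_of_charpoly_eq`, `det_eq_of_charpoly_eq`: if an endomorphism `f` of a
  two-dimensional space has characteristic polynomial `X ^ 2 - C a * X + C b` then its trace
  is `a` and its determinant is `b`.
* `exists_baseChange_rep`: base change of a two-dimensional representation along a ring
  homomorphism of fields, compatible with characteristic polynomials.
-/

set_option autoImplicit false

namespace Fermat.Agent.S42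

open Polynomial

/-- The coefficients of a polynomial `X ^ 2 - C a * X + C b` are determined by it. -/
theorem ct_coeff_eq {K : Type*} [Field K] {a b a' b' : K}
    (h : (X ^ 2 - C a' * X + C b' : K[X]) = X ^ 2 - C a * X + C b) : a' = a ∧ b' = b := by
  have h1 := congrArg (fun p : K[X] => p.coeff 1) h
  have h0 := congrArg (fun p : K[X] => p.coeff 0) h
  simp only [coeff_add, coeff_sub, coeff_X_pow, coeff_C_mul, coeff_X, coeff_C] at h1 h0
  norm_num at h1 h0
  exact ⟨h1, h0⟩

/-- The characteristic polynomial of an endomorphism of a two-dimensional space in terms of its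
trace and determinant. -/
theorem ct_charpoly_eq {K V : Type*} [Field K] [AddCommGroup V] [Module K V]
    [Module.Finite K V] (hV : Module.finrank K V = 2) (f : Module.End K V) :
    LinearMap.charpoly f = X ^ 2 - C (LinearMap.trace K V f) * X + C (LinearMap.det f) := by
  classical
  have b : Module.Basis (Fin 2) K V := Module.finBasisOfFinrankEq K V hV
  rw [← LinearMap.charpoly_toMatrix f b, LinearMap.trace_eq_matrix_trace K b f,
    ← LinearMap.det_toMatrix b f]
  exact Matrix.charpoly_of_card_eq_two _ (Fintype.card_fin 2)

theorem trace_eq_of_charpoly_eq {K V : Type*} [Field K] [AddCommGroup V] [Module K V]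
    [Module.Finite K V] (hV : Module.finrank K V = 2) (f : Module.End K V) (a b : K)
    (h : LinearMap.charpoly f = X ^ 2 - C a * X + C b) : LinearMap.trace K V f = a :=
  (ct_coeff_eq ((ct_charpoly_eq hV f).symm.trans h)).1

theorem det_eq_of_charpoly_eq {K V : Type*} [Field K] [AddCommGroup V] [Module K V]
    [Module.Finite K V] (hV : Module.finrank K V = 2) (f : Module.End K V) (a b : K)
    (h : LinearMap.charpoly f = X ^ 2 - C a * X + C b) : LinearMap.det f = b :=
  (ct_coeff_eq ((ct_charpoly_eq hV f).symm.trans h)).2

theorem exists_baseChange_rep {G : Type*} [Monoid G] {k₀ k : Type} [Field k₀] [Field k]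
    (ι : k₀ →+* k) {V₀ : Type} [AddCommGroup V₀] [Module k₀ V₀] [Module.Finite k₀ V₀]
    (ρ₀ : G →* Module.End k₀ V₀) (h2 : Module.finrank k₀ V₀ = 2) :
    ∃ (V : Type) (_ : AddCommGroup V) (_ : Module k V) (_ : Module.Finite k V)
      (ρ : G →* Module.End k V),
      Module.finrank k V = 2 ∧ (∀ g : G, ρ₀ g = 1 → ρ g = 1) ∧
      ∀ g : G, LinearMap.charpoly (ρ g) = (LinearMap.charpoly (ρ₀ g)).map ι := by
  let _ : Algebra k₀ k := ι.toAlgebra
  refine ⟨TensorProduct k₀ k V₀, inferInstance, inferInstance, inferInstance,
    (MonoidHomClass.toMonoidHom (Module.End.baseChangeHom k₀ k V₀)).comp ρ₀, ?_, ?_, ?_⟩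
  · rw [Module.finrank_baseChange, h2]
  · intro g hg
    show (ρ₀ g).baseChange k = 1
    rw [hg, LinearMap.baseChange_one]
  · intro g
    exact LinearMap.charpoly_baseChange (ρ₀ g) k

end Fermat.Agent.S42
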