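import Mathlib

set_option autoImplicit false

/-!
# S42 (P13 B): residue fields of the ring of all algebraic integers

Let `ℤ̄ := integralClosure ℤ ℂ`.

* `isAlgClosed_quotient_integralClosure`: for a maximal ideal `𝔪` of `ℤ̄`, the field `ℤ̄ ⧸ 𝔪`
  is algebraically closed;
* `charP_quotient_integralClosure`: if moreover the prime number `p` lies in `𝔪`, the quotient
  has characteristic `p`;
* `isMaximal_ker_of_charP`: the kernel of a ring homomorphism from `ℤ̄` to a field of
  characteristic `p` is a maximal ideal;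
* `natCast_mem_ker_of_charP`: this kernel contains `p`.
-/

namespace Fermat.Agent.S42

open Polynomial

/-- A monic polynomial of nonzero degree over the ring of algebraic integers has a root which
is an algebraic integer. -/
theorem rf_exists_root_of_monic (q : (integralClosure ℤ ℂ)[X]) (hq : q.Monic)
    (hdeg : q.degree ≠ 0) : ∃ z : integralClosure ℤ ℂ, q.eval z = 0 := by
  have hdeg' : (q.map (algebraMap (integralClosure ℤ ℂ) ℂ)).degree ≠ 0 := by
    rw [hq.degree_map]
    exact hdeg
  obtain ⟨z, hz⟩ := IsAlgClosed.exists_root _ hdeg'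
  rw [IsRoot, eval_map] at hz
  have hzint : IsIntegral (integralClosure ℤ ℂ) z := ⟨q, hq, hz⟩
  have hzint' : IsIntegral ℤ z := isIntegral_trans z hzint
  refine ⟨⟨z, hzint'⟩, ?_⟩
  have hinj : Function.Injective (algebraMap (integralClosure ℤ ℂ) ℂ) := Subtype.val_injective
  apply hinj
  rw [map_zero, ← eval₂_at_apply]
  exact hz

/-- The residue field of the ring of all algebraic integers at a maximal ideal is algebraically
closed. -/
theorem isAlgClosed_quotient_integralClosure (𝔪 : Ideal (integralClosure ℤ ℂ)) [𝔪.IsMaximal] :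
    @IsAlgClosed (integralClosure ℤ ℂ ⧸ 𝔪) (Ideal.Quotient.field 𝔪) := by
  let := Ideal.Quotient.field 𝔪
  refine IsAlgClosed.of_exists_root _ ?_
  intro p hpm hpirr
  obtain ⟨q, hq, hqdeg, hqm⟩ := lifts_and_degree_eq_and_monic
    (mem_lifts_of_surjective (f := Ideal.Quotient.mk 𝔪) Ideal.Quotient.mk_surjective p) hpm
  have hdeg : q.degree ≠ 0 := by
    rw [hqdeg]
    exact hpirr.degree_pos.ne'
  obtain ⟨z, hz⟩ := rf_exists_root_of_monic q hqm hdeg
  refine ⟨Ideal.Quotient.mk 𝔪 z, ?_⟩
  rw [← hq, eval_map, eval₂_at_apply, hz, map_zero]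

/-- The residue field of the ring of all algebraic integers at a maximal ideal containing the
prime number `p` has characteristic `p`. -/
theorem charP_quotient_integralClosure (𝔪 : Ideal (integralClosure ℤ ℂ)) [𝔪.IsMaximal] (p : ℕ)
    [Fact p.Prime] (hp : (p : integralClosure ℤ ℂ) ∈ 𝔪) : CharP (integralClosure ℤ ℂ ⧸ 𝔪) p := by
  have : Nontrivial (integralClosure ℤ ℂ ⧸ 𝔪) :=
    Ideal.Quotient.nontrivial_iff.2 (Ideal.IsMaximal.ne_top inferInstance)
  rw [CharP.charP_iff_prime_eq_zero (Fact.out : p.Prime), ← map_natCast (Ideal.Quotient.mk 𝔪)]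
  exact Ideal.Quotient.eq_zero_iff_mem.2 hp

/-- A ring homomorphism from the algebraic integers to a ring of characteristic `p` kills `p`. -/
theorem natCast_mem_ker_of_charP {k : Type*} [Field k] (p : ℕ) [CharP k p]
    (φ : integralClosure ℤ ℂ →+* k) : (p : integralClosure ℤ ℂ) ∈ RingHom.ker φ := by
  rw [RingHom.mem_ker, map_natCast, CharP.cast_eq_zero]

/-- The kernel of a ring homomorphism from the ring of all algebraic integers to a field of
characteristic `p` is a maximal ideal. -/
theorem isMaximal_ker_of_charP {k : Type*} [Field k] (p : ℕ) [Fact p.Prime] [CharP k p]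
    (φ : integralClosure ℤ ℂ →+* k) : (RingHom.ker φ).IsMaximal := by
  have hprime : (RingHom.ker φ).IsPrime := RingHom.ker_isPrime φ
  have : Nontrivial (integralClosure ℤ ℂ ⧸ RingHom.ker φ) :=
    Ideal.Quotient.nontrivial_iff.2 hprime.ne_top
  have hchar : CharP (integralClosure ℤ ℂ ⧸ RingHom.ker φ) p := by
    rw [CharP.charP_iff_prime_eq_zero (Fact.out : p.Prime),
      ← map_natCast (Ideal.Quotient.mk (RingHom.ker φ))]
    exact Ideal.Quotient.eq_zero_iff_mem.2 (natCast_mem_ker_of_charP p φ)
  let : Algebra (ZMod p) (integralClosure ℤ ℂ ⧸ RingHom.ker φ) := ZMod.algebra _ p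
  have : Algebra.IsIntegral (ZMod p) (integralClosure ℤ ℂ ⧸ RingHom.ker φ) := by
    constructor
    intro a
    obtain ⟨x, rfl⟩ := Ideal.Quotient.mk_surjective a
    have hx : IsIntegral ℤ x := Algebra.IsIntegral.isIntegral x
    have hx' : IsIntegral ℤ (Ideal.Quotient.mk (RingHom.ker φ) x) :=
      hx.map (Ideal.Quotient.mkₐ ℤ (RingHom.ker φ))
    exact hx'.tower_top
  exact Ideal.Quotient.maximal_of_isField _
    (isField_of_isIntegral_of_isField' (R := ZMod p) (Field.toIsField (ZMod p)))

end Fermat.Agent.S42
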