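import Mathlib
import Fermat.Prelude.Def_GaloisRep_Residual
import Fermat.Agent.S42.Assembly
import Fermat.Agent.S42.ResidueField
import Fermat.Agent.S42.EigenIntegral
import Fermat.Agent.S42.CharpolyTwo

/-!
# P13 (S42/S29), part (B), module W3: the S29 wrapper as conditional theorems

* `s29_core` (level `N ≥ 1`): given the statement (A★) `HasEigenvector N p g 𝔪` for every maximal
  ideal `𝔪 ∋ p` of the ring of algebraic integers and the four structural facts about the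
  `p`-torsion of `J₀(N)` (`TorsionFiniteLevel`, `HeckeGaloisCommute`, `FrobeniusRelation`,
  `InertiaTrivial`), every ring homomorphism `φ : ℤ̄ → k` to a field of characteristic `p` admits
  a residual Galois representation over `k` attached to `g` and unramified outside `N p`.
* `s29_zero` (level `N = 0`): the trivial representation works, all conditions being vacuous.

The construction: `𝔪 := ker φ` is a maximal ideal containing `p`; over the algebraically closed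
residue field `ℤ̄ ⧸ 𝔪` the assembly theorem `exists_rep_of_torsion_eigenvector` gives a
two-dimensional representation (`w29_residue`), which is then base-changed along
`RingHom.kerLift φ : ℤ̄ ⧸ 𝔪 →+* k` by `exists_baseChange_rep`.
-/

set_option autoImplicit false

namespace Fermat.Agent.S42

open Polynomial

/-- The representation over the residue field `ℤ̄ ⧸ 𝔪` for a maximal ideal `𝔪 ∋ p`. -/
theorem w29_residue {N : ℕ} [NeZero N] {g : CuspForm (CongruenceSubgroup.Gamma0 N) 2}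
    (hg : g.IsNormalizedEigenform) {p : ℕ} [Fact p.Prime]
    (𝔪 : Ideal (integralClosure ℤ ℂ)) [𝔪.IsMaximal] (hp : (p : integralClosure ℤ ℂ) ∈ 𝔪)
    (h1 : HasEigenvector N p g 𝔪)
    (h2 : TorsionFiniteLevel N p) (h3 : HeckeGaloisCommute N p)
    (h4 : FrobeniusRelation N p) (h5 : InertiaTrivial N p) :
    letI := Ideal.Quotient.field 𝔪
    ∃ (V : Type) (_ : AddCommGroup V) (_ : Module (integralClosure ℤ ℂ ⧸ 𝔪) V)
      (_ : Module.Finite (integralClosure ℤ ℂ ⧸ 𝔪) V)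
      (ρ : (AlgebraicClosure ℚ ≃ₐ[ℚ] AlgebraicClosure ℚ) →*
        Module.End (integralClosure ℤ ℂ ⧸ 𝔪) V),
      Module.finrank (integralClosure ℤ ℂ ⧸ 𝔪) V = 2 ∧
      (∃ L : IntermediateField ℚ (AlgebraicClosure ℚ), FiniteDimensional ℚ L ∧
        ∀ σ : AlgebraicClosure ℚ ≃ₐ[ℚ] AlgebraicClosure ℚ, (∀ y ∈ L, σ y = y) → ρ σ = 1) ∧
      (∀ ℓ : ℕ, ℓ.Prime → ¬ ℓ ∣ N * p →
        ∀ A : ValuationSubring (AlgebraicClosure ℚ), A.LiesOverPrime ℓ →
          ∀ σ : AlgebraicClosure ℚ ≃ₐ[ℚ] AlgebraicClosure ℚ, A.IsFrobeniusAt σ ℓ →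
            ∃ a : integralClosure ℤ ℂ, (a : ℂ) = ModularFormClass.qCoeff g ℓ ∧
            LinearMap.charpoly (ρ σ) = X ^ 2 - C (Ideal.Quotient.mk 𝔪 a) * X
              + C ((ℓ : ℕ) : integralClosure ℤ ℂ ⧸ 𝔪)) ∧
      (∀ ℓ : ℕ, ℓ.Prime → ¬ ℓ ∣ N * p →
        ∀ A : ValuationSubring (AlgebraicClosure ℚ), A.LiesOverPrime ℓ →
          ∀ τ ∈ A.inertiaSubgroupIn ℚ, ρ τ = 1) := by
  classical
  let _ := Ideal.Quotient.field 𝔪
  have : IsAlgClosed (integralClosure ℤ ℂ ⧸ 𝔪) := isAlgClosed_quotient_integralClosure 𝔪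
  have : CharP (integralClosure ℤ ℂ ⧸ 𝔪) p := charP_quotient_integralClosure 𝔪 p hp
  obtain ⟨x, hx, heig⟩ := h1
  -- the eigenvalues, indexed by all natural numbers
  let a : ℕ → integralClosure ℤ ℂ ⧸ 𝔪 := fun ℓ =>
    if h : IsIntegral ℤ (ModularFormClass.qCoeff g ℓ) then
      Ideal.Quotient.mk 𝔪 ⟨ModularFormClass.qCoeff g ℓ, h⟩ else 0
  have ha : ∀ (ℓ : ℕ) (h : IsIntegral ℤ (ModularFormClass.qCoeff g ℓ)),
      a ℓ = Ideal.Quotient.mk 𝔪 ⟨ModularFormClass.qCoeff g ℓ, h⟩ := by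
    intro ℓ h
    show (if h : IsIntegral ℤ (ModularFormClass.qCoeff g ℓ) then
      Ideal.Quotient.mk 𝔪 ⟨ModularFormClass.qCoeff g ℓ, h⟩ else 0) = _
    rw [dif_pos h]
  have hint : ∀ ℓ : ℕ, ℓ.Prime → ¬ ℓ ∣ N * p → IsIntegral ℤ (ModularFormClass.qCoeff g ℓ) :=
    fun ℓ hℓ hℓNp => isIntegral_qCoeff_of_isNormalizedEigenform hg hℓ
      (fun h => hℓNp (Dvd.dvd.mul_right h p))
  obtain ⟨V, i1, i2, i3, ρ, hfin, hlev, hchar, hin⟩ :=
    exists_rep_of_torsion_eigenvector (k := integralClosure ℤ ℂ ⧸ 𝔪) N p a x hx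
      (fun ℓ hℓ hℓNp => by
        rw [ha ℓ (hint ℓ hℓ hℓNp)]
        exact heig ℓ hℓ hℓNp ⟨ModularFormClass.qCoeff g ℓ, hint ℓ hℓ hℓNp⟩ rfl)
      h2 h3 h4 h5
  refine ⟨V, i1, i2, i3, ρ, hfin, hlev, ?_, hin⟩
  intro ℓ hℓ hℓNp A hA σ hσ
  refine ⟨⟨ModularFormClass.qCoeff g ℓ, hint ℓ hℓ hℓNp⟩, rfl, ?_⟩
  rw [hchar ℓ hℓ hℓNp A hA σ hσ, ha ℓ (hint ℓ hℓ hℓNp)]

/-- **S29, level `N ≥ 1`, conditional on (A★), (A★★), (E1), (E2).** -/
theorem s29_core {N : ℕ} [NeZero N] {g : CuspForm (CongruenceSubgroup.Gamma0 N) 2}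
    (hg : g.IsNormalizedEigenform) {p : ℕ} [Fact p.Prime] {k : Type} [Field k] [CharP k p]
    (φ : integralClosure ℤ ℂ →+* k)
    (h1 : ∀ (𝔪 : Ideal (integralClosure ℤ ℂ)) [𝔪.IsMaximal],
      (p : integralClosure ℤ ℂ) ∈ 𝔪 → HasEigenvector N p g 𝔪)
    (h2 : TorsionFiniteLevel N p) (h3 : HeckeGaloisCommute N p)
    (h4 : FrobeniusRelation N p) (h5 : InertiaTrivial N p) :
    ∃ ρ : ResidualGaloisRep k, ρ.IsAttachedTo g φ ∧
      ∀ ℓ : ℕ, ℓ.Prime → ¬ ℓ ∣ N * p → ρ.IsUnramifiedAt ℓ := by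
  have hmax : (RingHom.ker φ).IsMaximal := isMaximal_ker_of_charP p φ
  have hpm : (p : integralClosure ℤ ℂ) ∈ RingHom.ker φ := natCast_mem_ker_of_charP p φ
  let _ := Ideal.Quotient.field (RingHom.ker φ)
  obtain ⟨V₀, i1, i2, i3, ρ₀, hfin, ⟨L, hL, hlev⟩, hchar, hin⟩ :=
    w29_residue hg (RingHom.ker φ) hpm (h1 (RingHom.ker φ) hpm) h2 h3 h4 h5
  obtain ⟨V, j1, j2, j3, ρ, hfin', hone, hcp⟩ :=
    exists_baseChange_rep (RingHom.kerLift φ) ρ₀ hfin
  refine ⟨@ResidualGaloisRep.mk k _ V j1 j2 hfin' ρ ⟨L, hL, fun σ hσ => hone σ (hlev σ hσ)⟩,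
    ?_, ?_⟩
  · intro ℓ hℓ hℓN hℓk A hA σ hσ
    have hℓNp : ¬ ℓ ∣ N * p := by
      intro hdvd
      rcases (Nat.Prime.dvd_mul hℓ).mp hdvd with h | h
      · exact hℓN h
      · have hℓp : ℓ = p := (Nat.prime_dvd_prime_iff_eq hℓ Fact.out).mp h
        apply hℓk
        rw [hℓp]
        exact CharP.cast_eq_zero k p
    obtain ⟨a, haq, hcha⟩ := hchar ℓ hℓ hℓNp A hA σ hσ
    refine ⟨a, haq, ?_⟩
    show LinearMap.charpoly (ρ σ) = _
    rw [hcp σ, hcha, Polynomial.map_add, Polynomial.map_sub, Polynomial.map_mul,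
      Polynomial.map_pow, Polynomial.map_X, Polynomial.map_C, Polynomial.map_C, map_natCast,
      RingHom.kerLift_mk]
  · intro ℓ hℓ hℓNp A hA τ hτ
    exact hone τ (hin ℓ hℓ hℓNp A hA τ hτ)

/-- **S29, level `N = 0`**: the trivial two-dimensional representation; both conditions are
vacuous because every prime divides `0`. -/
theorem s29_zero {g : CuspForm (CongruenceSubgroup.Gamma0 0) 2} {p : ℕ} {k : Type} [Field k]
    (φ : integralClosure ℤ ℂ →+* k) :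
    ∃ ρ : ResidualGaloisRep k, ρ.IsAttachedTo g φ ∧
      ∀ ℓ : ℕ, ℓ.Prime → ¬ ℓ ∣ 0 * p → ρ.IsUnramifiedAt ℓ := by
  refine ⟨{ V := Fin 2 → k
            finrank_eq := by rw [Module.finrank_fin_fun]
            ρ := 1
            factorsThroughFiniteLevel := ⟨⊥, inferInstance, fun σ _ => rfl⟩ }, ?_, ?_⟩
  · intro ℓ _ hℓ0
    exact absurd (dvd_zero ℓ) hℓ0
  · intro ℓ _ hℓ0
    rw [zero_mul] at hℓ0
    exact absurd (dvd_zero ℓ) hℓ0

end Fermat.Agent.S42
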