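import Mathlib
import Fermat.Prelude.Def_FreyPackage_EigenformResidualAttachment
import Fermat.Agent.S13.Asm
import Fermat.Agent.S13.TorProd

set_option autoImplicit false

/-!
# S42 (P13 B): the mod `p` representation of the Frey curve factors through a finite level

The `p`-torsion of the Frey curve over `ℚ̄` is finite; the field `L` generated over `ℚ` by the
coordinates of its points is a finite extension of `ℚ`, and every automorphism of `ℚ̄` fixing
`L` pointwise acts trivially on the `p`-torsion.
-/

namespace Fermat.Agent.S42

open WeierstrassCurve WeierstrassCurve.Affine WeierstrassCurve.Affine.Point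

/-- Every element of `ℚ̄` is integral over `ℚ` (for the ambient `ℚ`-algebra structure, which is
only propositionally equal to the one `AlgebraicClosure` comes with). -/
theorem ff_isIntegral (x : AlgebraicClosure ℚ) : IsIntegral ℚ x := by
  have h : (DivisionRing.toRatAlgebra : Algebra ℚ (AlgebraicClosure ℚ)) =
      AlgebraicClosure.instAlgebra ℚ := Subsingleton.elim _ _
  have hx : @IsIntegral ℚ (AlgebraicClosure ℚ) _ _ (AlgebraicClosure.instAlgebra ℚ) x :=
    ((AlgebraicClosure.isAlgebraic ℚ).isAlgebraic x).isIntegral
  rw [← h] at hx
  exact hx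

/-- The field generated over `ℚ` by the coordinates of the `p`-torsion points of the Frey
curve. -/
noncomputable def ff_coordField (P : FreyPackage) :
    IntermediateField ℚ (AlgebraicClosure ℚ) :=
  haveI := Fermat.Agent.S13.frey_finite P
  IntermediateField.adjoin ℚ
    (Fermat.Agent.S13.coordSet P.freyCurve P.p : Set (AlgebraicClosure ℚ))

/-- The coordinate field of the `p`-torsion of the Frey curve is a finite extension of `ℚ`. -/
theorem ff_finiteDimensional_coordField (P : FreyPackage) :
    FiniteDimensional ℚ (ff_coordField P) :=
  IntermediateField.finiteDimensional_adjoin (fun x _ => ff_isIntegral x)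

/-- An automorphism fixing the coordinate field fixes every `p`-torsion point of the Frey
curve. -/
theorem ff_smul_eq_self (P : FreyPackage) (σ : AlgebraicClosure ℚ ≃ₐ[ℚ] AlgebraicClosure ℚ)
    (hσ : ∀ x ∈ ff_coordField P, σ x = x)
    (x : Submodule.torsionBy ℤ (P.freyCurve⁄(AlgebraicClosure ℚ)).Point P.p) : σ • x = x := by
  have := Fermat.Agent.S13.frey_finite P
  exact Fermat.Agent.S13.smul_eq_self_of_coordSet σ
    (fun s hs => hσ s (IntermediateField.subset_adjoin ℚ _ hs)) x

/-- The mod `p` Galois representation of the Frey curve factors through the Galois group of a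
finite extension of `ℚ`. -/
theorem frey_factorsThroughFiniteLevel [DecidableEq (AlgebraicClosure ℚ)] (P : FreyPackage) :
    ∃ L : IntermediateField ℚ (AlgebraicClosure ℚ), FiniteDimensional ℚ L ∧
      ∀ σ : AlgebraicClosure ℚ ≃ₐ[ℚ] AlgebraicClosure ℚ, (∀ x ∈ L, σ x = x) →
        WeierstrassCurve.Affine.Point.galoisRepModuleEnd (S := ℚ) (K := AlgebraicClosure ℚ)
          P.freyCurve P.p σ = 1 := by
  obtain rfl : ‹DecidableEq (AlgebraicClosure ℚ)› = instDecEqAlgebraicClosureRat :=
    Subsingleton.elim _ _
  refine ⟨ff_coordField P, ff_finiteDimensional_coordField P, ?_⟩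
  intro σ hσ
  apply LinearMap.ext
  intro x
  rw [galoisRepModuleEnd_apply, Module.End.one_apply]
  exact ff_smul_eq_self P σ hσ x

end Fermat.Agent.S42
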