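import Mathlib
import Fermat.Prelude.Def_FreyPackage_EigenformResidualAttachment
import Fermat.Agent.S54.Frobenius

set_option autoImplicit false

/-!
# P13 (S42/S29), part (B), module W1: a Galois number field through which a finite level factors

`exists_numberField_ker_le`: for every finite subextension `L` of `ℚ̄/ℚ` there is a Galois number
field `F` with an embedding into `ℚ̄` such that every `σ ∈ Gal(ℚ̄/ℚ)` restricting to the identity
of `F` fixes `L` pointwise. (`F` is the normal closure of `L` in `ℚ̄`.) This provides the field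
`F` of `FreyPackage.EigenformResidualAttachmentAt`.
-/

namespace Fermat.Agent.S42

local notation "Γℚ" => (AlgebraicClosure ℚ ≃ₐ[ℚ] AlgebraicClosure ℚ)

/-- Every finite subextension of `ℚ̄/ℚ` is contained in a finite Galois subextension. -/
theorem lf_exists_finite_galois_ge (L : IntermediateField ℚ (AlgebraicClosure ℚ))
    [FiniteDimensional ℚ L] :
    ∃ L' : IntermediateField ℚ (AlgebraicClosure ℚ), L ≤ L' ∧ FiniteDimensional ℚ L' ∧
      IsGalois ℚ L' := by
  refine ⟨IntermediateField.normalClosure ℚ L (AlgebraicClosure ℚ), L.le_normalClosure,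
    normalClosure.is_finiteDimensional ℚ L (AlgebraicClosure ℚ), ?_⟩
  have : Normal ℚ (IntermediateField.normalClosure ℚ L (AlgebraicClosure ℚ)) :=
    normalClosure.normal ℚ L (AlgebraicClosure ℚ)
  exact ⟨⟩

theorem exists_numberField_ker_le (L : IntermediateField ℚ (AlgebraicClosure ℚ))
    [FiniteDimensional ℚ L] :
    ∃ (F : Type) (_ : Field F) (_ : NumberField F) (_ : IsGalois ℚ F)
      (_ : Algebra F (AlgebraicClosure ℚ)) (_ : IsScalarTower ℚ F (AlgebraicClosure ℚ)),
      ∀ σ : Γℚ, σ ∈ (AlgEquiv.restrictNormalHom (F := ℚ) (K₁ := AlgebraicClosure ℚ) F).ker →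
        ∀ y ∈ L, σ y = y := by
  obtain ⟨L', hle, hfin, hgal⟩ := lf_exists_finite_galois_ge L
  have hnorm : Normal ℚ L' := inferInstance
  have hNF : NumberField L' := ⟨⟩
  refine ⟨L', inferInstance, hNF, hgal, inferInstance, inferInstance, fun σ hσ y hy => ?_⟩
  have h1 : σ.restrictNormal L' = 1 := MonoidHom.mem_ker.mp hσ
  have h2 := AlgEquiv.restrictNormal_commutes σ L' (⟨y, hle hy⟩ : L')
  rw [h1] at h2
  exact h2.symm

end Fermat.Agent.S42
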