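import Mathlib
import Fermat.Prelude.Def_FreyPackage_EigenformResidualAttachment
import Fermat.Agent.S42.TorsionDefs
import Fermat.Agent.S42.Assembly
import Fermat.Agent.S42.ResidueField
import Fermat.Agent.S42.EigenIntegral
import Fermat.Agent.S42.CharpolyTwo
import Fermat.Agent.S42.LevelField
import Fermat.Agent.S42.FreyFinite

set_option autoImplicit false

/-!
# P13 (S42), part (B), module W4: the wrapper for the frozen statement S42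

`s42_core`: the frozen proposition `FreyPackage.EigenformResidualAttachmentAt M` follows from

* (A★) `HasEigenvector`: the eigensystem of every normalised eigenform modulo every maximal ideal
  `𝔪 ∋ p` of `ℤ̄` occurs in `(ℤ̄ ⧸ 𝔪) ⊗[ℤ] J₀(M)[p]`;
* (A★★) `TorsionFiniteLevel`, `HeckeGaloisCommute`;
* (E1) `FrobeniusRelation`, (E2) `InertiaTrivial`.

The field is `K = ℤ̄ ⧸ 𝔪`, the representation comes from `exists_rep_of_torsion_eigenvector`, and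
the number field `F` is the normal closure of the compositum of the level fields of the
representation and of the `p`-torsion of the Frey curve.
-/

namespace Fermat.Agent.S42

open Polynomial TensorProduct

local notation "Γℚ" => (AlgebraicClosure ℚ ≃ₐ[ℚ] AlgebraicClosure ℚ)

/-- A prime `ℓ ≠ p` not dividing `M` does not divide `M * p`. -/
theorem w42_not_dvd_mul {ℓ M p : ℕ} (hℓ : ℓ.Prime) (hp : p.Prime) (hℓM : ¬ ℓ ∣ M) (hℓp : ℓ ≠ p) :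
    ¬ ℓ ∣ M * p := fun h =>
  (hℓ.dvd_mul.mp h).elim hℓM fun h' => hℓp ((Nat.prime_dvd_prime_iff_eq hℓ hp).mp h')

/-- The representation attached to an eigenvector in `k ⊗[ℤ] J₀(N)[p]` with the eigensystem of a
normalised eigenform `g` reduced along `ψ : ℤ̄ →+* k`: traces and determinants of Frobenius
elements. (Generic algebraically closed field `k` of characteristic `p`.) -/
theorem w42_rep_of_eigenvector {k : Type} [Field k] [IsAlgClosed k] (N p : ℕ) [NeZero N]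
    [Fact p.Prime] [CharP k p] (ψ : integralClosure ℤ ℂ →+* k)
    {g : CuspForm (CongruenceSubgroup.Gamma0 N) 2} (hg : g.IsNormalizedEigenform)
    (x : k ⊗[ℤ] Jp N p) (hx : x ≠ 0)
    (heig : ∀ (ℓ : ℕ) (hℓ : ℓ.Prime), ¬ ℓ ∣ N * p →
      ∀ a : integralClosure ℤ ℂ, (a : ℂ) = ModularFormClass.qCoeff g ℓ →
        (heckeJp N p ⟨ℓ, hℓ⟩).toIntLinearMap.baseChange k x = ψ a • x)
    (h2 : TorsionFiniteLevel N p) (h3 : HeckeGaloisCommute N p)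
    (h4 : FrobeniusRelation N p) (h5 : InertiaTrivial N p) :
    ∃ (V : Type) (_ : AddCommGroup V) (_ : Module k V) (ρ : Γℚ →* Module.End k V),
      Module.finrank k V = 2 ∧
      (∃ L : IntermediateField ℚ (AlgebraicClosure ℚ), FiniteDimensional ℚ L ∧
        ∀ σ : Γℚ, (∀ y ∈ L, σ y = y) → ρ σ = 1) ∧
      (∀ ℓ : ℕ, ℓ.Prime → ¬ ℓ ∣ N → ℓ ≠ p →
        ∀ A : ValuationSubring (AlgebraicClosure ℚ), A.LiesOverPrime ℓ →
          ∀ τ : Γℚ, A.IsFrobeniusAt τ ℓ →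
            ∃ a : integralClosure ℤ ℂ, (a : ℂ) = ModularFormClass.qCoeff g ℓ ∧
              LinearMap.trace k V (ρ τ) = ψ a) ∧
      (∀ ℓ : ℕ, ℓ.Prime → ¬ ℓ ∣ N → ℓ ≠ p →
        ∀ A : ValuationSubring (AlgebraicClosure ℚ), A.LiesOverPrime ℓ →
          ∀ τ : Γℚ, A.IsFrobeniusAt τ ℓ → LinearMap.det (ρ τ) = (ℓ : k)) := by
  classical
  have hp : p.Prime := Fact.out
  let a : ℕ → k := fun ℓ =>
    if h : IsIntegral ℤ (ModularFormClass.qCoeff g ℓ) then ψ ⟨_, h⟩ else 0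
  have ha : ∀ (ℓ : ℕ) (h : IsIntegral ℤ (ModularFormClass.qCoeff g ℓ)), a ℓ = ψ ⟨_, h⟩ :=
    fun ℓ h => dif_pos h
  have hint : ∀ ℓ : ℕ, ℓ.Prime → ¬ ℓ ∣ N → IsIntegral ℤ (ModularFormClass.qCoeff g ℓ) :=
    fun ℓ hℓ hℓN => isIntegral_qCoeff_of_isNormalizedEigenform hg hℓ hℓN
  have heig' : ∀ (ℓ : ℕ) (hℓ : ℓ.Prime), ¬ ℓ ∣ N * p →
      (heckeJp N p ⟨ℓ, hℓ⟩).toIntLinearMap.baseChange k x = a ℓ • x := by
    intro ℓ hℓ hℓNp
    have hℓN : ¬ ℓ ∣ N := fun h => hℓNp (Dvd.dvd.mul_right h _)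
    rw [ha ℓ (hint ℓ hℓ hℓN)]
    exact heig ℓ hℓ hℓNp ⟨_, hint ℓ hℓ hℓN⟩ rfl
  obtain ⟨V, iV1, iV2, iV3, ρ, hfin, hlevel, hchar, -⟩ :=
    exists_rep_of_torsion_eigenvector N p a x hx heig' h2 h3 h4 h5
  refine ⟨V, iV1, iV2, ρ, hfin, hlevel, ?_, ?_⟩
  · intro ℓ hℓ hℓN hℓp A hA τ hτ
    refine ⟨⟨_, hint ℓ hℓ hℓN⟩, rfl, ?_⟩
    rw [trace_eq_of_charpoly_eq hfin (ρ τ) (a ℓ) (ℓ : k)
      (hchar ℓ hℓ (w42_not_dvd_mul hℓ hp hℓN hℓp) A hA τ hτ), ha ℓ (hint ℓ hℓ hℓN)]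
  · intro ℓ hℓ hℓN hℓp A hA τ hτ
    exact det_eq_of_charpoly_eq hfin (ρ τ) (a ℓ) (ℓ : k)
      (hchar ℓ hℓ (w42_not_dvd_mul hℓ hp hℓN hℓp) A hA τ hτ)

theorem s42_core (P : FreyPackage) (M : ℕ) [NeZero M]
    (h1 : ∀ g : CuspForm (CongruenceSubgroup.Gamma0 M) 2, g.IsNormalizedEigenform →
      ∀ (𝔪 : Ideal (integralClosure ℤ ℂ)) [𝔪.IsMaximal],
        (P.p : integralClosure ℤ ℂ) ∈ 𝔪 → HasEigenvector M P.p g 𝔪)
    (h2 : TorsionFiniteLevel M P.p) (h3 : HeckeGaloisCommute M P.p)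
    (h4 : FrobeniusRelation M P.p) (h5 : InertiaTrivial M P.p) :
    P.EigenformResidualAttachmentAt M := by
  intro g hg 𝔪 h𝔪 hp
  have hfact : Fact P.p.Prime := ⟨P.pp⟩
  have hchar : @CharP (integralClosure ℤ ℂ ⧸ 𝔪) _ P.p := charP_quotient_integralClosure 𝔪 P.p hp
  obtain ⟨x, hx, heig⟩ := h1 g hg 𝔪 hp
  obtain ⟨V, iV1, iV2, ρ, hfin, ⟨L₁, hL₁, hρ⟩, htrace, hdet⟩ :=
    @w42_rep_of_eigenvector (integralClosure ℤ ℂ ⧸ 𝔪) (Ideal.Quotient.field 𝔪)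
      (isAlgClosed_quotient_integralClosure 𝔪) M P.p _ hfact hchar (Ideal.Quotient.mk 𝔪) g hg
      x hx heig h2 h3 h4 h5
  obtain ⟨L₂, hL₂, hfrey⟩ :=
    @frey_factorsThroughFiniteLevel FreyPackage.instDecEqQbarCongruenceRecovery P
  obtain ⟨F, iF1, iF2, iF3, iF4, iF5, hF⟩ := exists_numberField_ker_le (L₁ ⊔ L₂)
  refine ⟨integralClosure ℤ ℂ ⧸ 𝔪, Ideal.Quotient.field 𝔪,
    @ZMod.algebra (integralClosure ℤ ℂ ⧸ 𝔪) _ P.p hchar, V, iV1, iV2, ρ,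
    Ideal.Quotient.mk 𝔪, F, iF1, iF2, iF3, iF4, iF5, ?_, hfin, ?_, htrace, hdet⟩
  · rw [Ideal.mk_ker]
  · intro σ hσ
    have hσL := hF σ hσ
    exact Subgroup.mem_inf.mpr
      ⟨MonoidHom.mem_ker.mpr (hfrey σ fun y hy => hσL y ((le_sup_right : L₂ ≤ L₁ ⊔ L₂) hy)),
        MonoidHom.mem_ker.mpr (hρ σ fun y hy => hσL y ((le_sup_left : L₁ ≤ L₁ ⊔ L₂) hy))⟩

/-- The frozen shape of S42 (`∀ M, 0 < M → P.EigenformResidualAttachmentAt M`) from the five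
inputs at every positive level. -/
theorem w42_forall_level (P : FreyPackage)
    (h1 : ∀ (M : ℕ) [NeZero M] (g : CuspForm (CongruenceSubgroup.Gamma0 M) 2),
      g.IsNormalizedEigenform → ∀ (𝔪 : Ideal (integralClosure ℤ ℂ)) [𝔪.IsMaximal],
        (P.p : integralClosure ℤ ℂ) ∈ 𝔪 → HasEigenvector M P.p g 𝔪)
    (h2 : ∀ (M : ℕ) [NeZero M], TorsionFiniteLevel M P.p)
    (h3 : ∀ (M : ℕ) [NeZero M], HeckeGaloisCommute M P.p)
    (h4 : ∀ (M : ℕ) [NeZero M], FrobeniusRelation M P.p)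
    (h5 : ∀ (M : ℕ) [NeZero M], InertiaTrivial M P.p) :
    ∀ M : ℕ, 0 < M → P.EigenformResidualAttachmentAt M := by
  intro M hM
  have hM' : NeZero M := ⟨hM.ne'⟩
  exact s42_core P M (h1 M) (h2 M) (h3 M) (h4 M) (h5 M)

end Fermat.Agent.S42
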