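import Fermat.Agent.S37.MainAbs
import Fermat.Agent.S37.KronPlace
import Fermat.Agent.S42.TorsionDefs
import Fermat.Agent.S42.WrapS42
import Fermat.Agent.S42.WrapS29
import Fermat.Agent.S42.AssemblyA
import Fermat.Agent.S42.FinLevel
import Fermat.Agent.S42.GalHecke
import Fermat.Agent.S42.EigenIntegral

/-!
# P13 (S42 / S29): the last glue

P12's Eichler–Shimura machinery (`Fermat/Agent/S37/*`) gives (E1) and (E2) on the prime-to-`ℓ`
torsion of `J₀(N)` from the single remaining input `TorsionInj` (injectivity of the reduction map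
on prime-to-`ℓ` torsion).  This file derives `FrobeniusRelation N m` and `InertiaTrivial N m` for
every `m` from it, and then S42 and S29 in their frozen shapes.
-/

set_option autoImplicit false

namespace Fermat.Agent.S42

open ModularCurve AlgebraicCurve

/-- The remaining input from P12, at all levels and all primes not dividing the level: the
reduction map on `J₀(N)` is injective on prime-to-`ℓ` torsion. -/
def TorsionInjAll : Prop :=
  ∀ (N : ℕ) [NeZero N] (ℓ : ℕ) [Fact ℓ.Prime] (A : ValuationSubring (AlgebraicClosure ℚ))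
    (hA : A.LiesOverPrime ℓ), ¬ ℓ ∣ N → Fermat.Agent.S37.TorsionInj N ℓ A hA

theorem e12_not_dvd_left {ℓ N m : ℕ} (h : ¬ ℓ ∣ N * m) : ¬ ℓ ∣ N :=
  fun hd => h (Dvd.dvd.mul_right hd m)

theorem e12_not_dvd_right {ℓ N m : ℕ} (h : ¬ ℓ ∣ N * m) : ¬ ℓ ∣ m :=
  fun hd => h (Dvd.dvd.mul_left hd N)

theorem e12_nsmul_eq_zero {N m : ℕ} [NeZero N] {x : JZero N} (hx : x ∈ Jp N m) : m • x = 0 := by
  have h := mem_Jp.mp hx
  rwa [natCast_zsmul] at h

/-- (E1) at every torsion level, from the Eichler–Shimura relation of P12 in the shape of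
`Fermat.Agent.S37.frobenius_relation_of_torsion_of`. -/
theorem frobeniusRelation_of_E1 (N m : ℕ) [NeZero N]
    (h : ∀ (ℓ : ℕ) (hℓ : ℓ.Prime), ¬ ℓ ∣ N →
      ∀ A : ValuationSubring (AlgebraicClosure ℚ), A.LiesOverPrime ℓ →
        ∀ σ : AlgebraicClosure ℚ ≃ₐ[ℚ] AlgebraicClosure ℚ, A.IsFrobeniusAt σ ℓ →
          ∀ (x : JZero N) (m : ℕ), ¬ ℓ ∣ m → m • x = 0 →
            σ • σ • x - heckeOperatorBar N ⟨ℓ, hℓ⟩ (σ • x) + ℓ • x = 0) :
    FrobeniusRelation N m := by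
  intro ℓ hℓ hℓNm A hA σ hσ x hx
  have h1 := h ℓ hℓ (e12_not_dvd_left hℓNm) A hA σ hσ x m (e12_not_dvd_right hℓNm)
    (e12_nsmul_eq_zero hx)
  rw [natCast_zsmul]
  exact h1

/-- (E2) at every torsion level, from the statement of P12 in the shape of
`Fermat.Agent.S37.inertia_smul_of_torsion_of`. -/
theorem inertiaTrivial_of_E2 (N m : ℕ) [NeZero N]
    (h : ∀ (ℓ : ℕ), ℓ.Prime → ¬ ℓ ∣ N →
      ∀ A : ValuationSubring (AlgebraicClosure ℚ), A.LiesOverPrime ℓ →
        ∀ τ ∈ A.inertiaSubgroupIn ℚ, ∀ (x : JZero N) (m : ℕ), ¬ ℓ ∣ m → m • x = 0 → τ • x = x) :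
    InertiaTrivial N m := by
  intro ℓ hℓ hℓNm A hA τ hτ x hx
  exact h ℓ hℓ (e12_not_dvd_left hℓNm) A hA τ hτ x m (e12_not_dvd_right hℓNm)
    (e12_nsmul_eq_zero hx)

/-- (E1) at every torsion level from `TorsionInjAll`. -/
theorem frobeniusRelation_of_torsionInj (hinj : TorsionInjAll) (N m : ℕ) [NeZero N] :
    FrobeniusRelation N m := by
  refine frobeniusRelation_of_E1 N m ?_
  intro ℓ hℓ hℓN A hA σ hσ x m hm hx
  haveI : Fact ℓ.Prime := ⟨hℓ⟩
  exact Fermat.Agent.S37.frobenius_relation_of_torsion_of hℓ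
    (fun y => Fermat.Agent.S37.redPic_heckeOperatorBar hA hℓN hℓ y) (hinj N ℓ A hA hℓN)
    σ hσ x m hm hx

/-- (E2) at every torsion level from `TorsionInjAll`. -/
theorem inertiaTrivial_of_torsionInj (hinj : TorsionInjAll) (N m : ℕ) [NeZero N] :
    InertiaTrivial N m := by
  refine inertiaTrivial_of_E2 N m ?_
  intro ℓ hℓ hℓN A hA τ hτ x m hm hx
  haveI : Fact ℓ.Prime := ⟨hℓ⟩
  exact Fermat.Agent.S37.inertia_smul_of_torsion_of (hinj N ℓ A hA hℓN) τ hτ x m hm hx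

/-- (A★) for a normalised eigenform. -/
theorem e12_hasEigenvector {N p : ℕ} [NeZero N] [Fact p.Prime]
    {g : CuspForm (CongruenceSubgroup.Gamma0 N) 2} (hg : g.IsNormalizedEigenform)
    (𝔪 : Ideal (integralClosure ℤ ℂ)) [𝔪.IsMaximal] (hp : (p : integralClosure ℤ ℂ) ∈ 𝔪) :
    HasEigenvector N p g 𝔪 := by
  refine hasEigenvector_of N p g (ei_ne_zero hg) 𝔪 hp ?_
  intro ℓ hℓ hℓNp τ
  have h := congrFun (heckeT_eq_qCoeff_smul hg hℓ (e12_not_dvd_left hℓNp)) τ
  rw [h]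
  rfl

/-- **S42** in its frozen shape, from (E1) and (E2) at all levels. -/
theorem s42_of_E12 (P : FreyPackage)
    (h4 : ∀ (M : ℕ) [NeZero M], FrobeniusRelation M P.p)
    (h5 : ∀ (M : ℕ) [NeZero M], InertiaTrivial M P.p) :
    ∀ M : ℕ, 0 < M → P.EigenformResidualAttachmentAt M := by
  haveI : Fact P.p.Prime := ⟨P.pp⟩
  exact w42_forall_level P
    (fun M _ g hg 𝔪 _ hp => e12_hasEigenvector hg 𝔪 hp)
    (fun M _ => torsionFiniteLevel M P.p) (fun M _ => heckeGaloisCommute M P.p) h4 h5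

/-- **S29** in its frozen shape, from (E1) and (E2) at the level of the form. -/
theorem s29_of_E12 {N : ℕ} {g : CuspForm (CongruenceSubgroup.Gamma0 N) 2}
    (hg : g.IsNormalizedEigenform) {p : ℕ} (hp : p.Prime) {k : Type} [Field k] [CharP k p]
    (φ : integralClosure ℤ ℂ →+* k)
    (h4 : ∀ [NeZero N], FrobeniusRelation N p) (h5 : ∀ [NeZero N], InertiaTrivial N p) :
    ∃ ρ : ResidualGaloisRep k, ρ.IsAttachedTo g φ ∧
      ∀ ℓ : ℕ, ℓ.Prime → ¬ ℓ ∣ N * p → ρ.IsUnramifiedAt ℓ := by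
  rcases Nat.eq_zero_or_pos N with rfl | hN
  · exact s29_zero φ
  · haveI : NeZero N := ⟨hN.ne'⟩
    haveI : Fact p.Prime := ⟨hp⟩
    exact s29_core hg φ (fun 𝔪 _ hpm => e12_hasEigenvector hg 𝔪 hpm)
      (torsionFiniteLevel N p) (heckeGaloisCommute N p) h4 h5

end Fermat.Agent.S42
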