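import Fermat.Agent.S37.Main
import Fermat.Agent.S42.E12

/-!
# P13 (S42 / S29), P15 (S30): (E1) and (E2) at every torsion level

`frobeniusRelation N m` and `inertiaTrivial N m` for every level `N ≥ 1` and every `m`, from
P12's `Fermat.Agent.S37.torsionInj` (injectivity of the reduction map on prime-to-`ℓ` torsion of
`J₀(N)`).
-/

set_option autoImplicit false

namespace Fermat.Agent.S42

/-- P12's torsion injectivity, at all levels and all primes not dividing the level. -/
theorem torsionInjAll : TorsionInjAll :=
  fun _ _ _ _ _ hA hℓN => Fermat.Agent.S37.torsionInj hA hℓN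

/-- (E1): the Eichler–Shimura relation for Frobenius lifts on the `m`-torsion of `J₀(N)`. -/
theorem frobeniusRelation (N m : ℕ) [NeZero N] : FrobeniusRelation N m :=
  frobeniusRelation_of_torsionInj torsionInjAll N m

/-- (E2): inertia at `ℓ ∤ N m` acts trivially on the `m`-torsion of `J₀(N)`. -/
theorem inertiaTrivial (N m : ℕ) [NeZero N] : InertiaTrivial N m :=
  inertiaTrivial_of_torsionInj torsionInjAll N m

end Fermat.Agent.S42
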