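import Fermat.Agent.S42.ADefs

/-!
# P13 part (A), module M12 (core): assembly of statement (A★)

This file contains the whole algebraic assembly of statement (A★) (`HasEigenvector`), with the
results of the other modules of part (A) taken as hypotheses (the structure `AssemblyA.Inputs` and
the period character of module M11).  The file `AssemblyA.lean` feeds the actual theorems.

Let `k` be a commutative ring of characteristic `p` (an algebra over `ZMod p`), `Γ = Γ₀(N)`.

* `AssemblyA.evalMap f : k ⊗[ℤ] H →+ k`, `c ⊗ h ↦ f h • c`, for an additive functional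
  `f : H →+ ZMod p`; `AssemblyA.eq_zero_of_evalMap`: a tensor killed by the evaluation maps of a
  jointly injective family of functionals is zero;
* `AssemblyA.charOf ι : k ⊗[ℤ] H →+ (G →+ k)`, `c ⊗ h ↦ (γ ↦ ι h γ • c)`;
* `AssemblyA.realizable I`: the group of characters `Γ → ZMod p` having a Kummer class,
  `AssemblyA.kummerClass I : realizable I →+ Jp N p` (injective) and the Hecke operator
  `AssemblyA.heckeChar I hℓ hℓN` on `realizable I`, which `kummerClass` intertwines with `heckeJp`;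
* `AssemblyA.exists_charR_eq`: every cuspidal character `Γ → k` comes from `k ⊗[ℤ] realizable I`
  (coordinates in a `ZMod p`-basis of `k`; `Γ` is finitely generated);
* `AssemblyA.exists_eigen`: the eigenvector in `k ⊗[ℤ] Jp N p`;
* `AssemblyA.hasEigenvector_of_inputs`: statement (A★) from the inputs.
-/

set_option autoImplicit false

namespace Fermat.Agent.S42

namespace AssemblyA

open Fermat.Agent.S24 AlgebraicCurve ModularCurve UpperHalfPlane CongruenceSubgroup TensorProduct
open scoped MatrixGroups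

/-! ### Linear algebra: tensors with a `ZMod p`-algebra and evaluation maps -/

section LinAlg

variable {p : ℕ} [Fact p.Prime] {k : Type*} [CommRing k] [Algebra (ZMod p) k]
  {H : Type*} [AddCommGroup H]


/-- A scalar of `ZMod p` acts as the integer `val`. -/
theorem zmod_smul_eq_zsmul {M : Type*} [AddCommGroup M] [Module (ZMod p) M] (t : ZMod p) (c : M) :
    t • c = ((t.val : ℕ) : ℤ) • c := by
  rw [← Int.cast_smul_eq_zsmul (ZMod p) ((t.val : ℕ) : ℤ) c, Int.cast_natCast,
    ZMod.natCast_zmod_val]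

/-- The `ℤ`-bilinear map `(c, h) ↦ f h • c` attached to an additive functional
`f : H →+ ZMod p`. -/
noncomputable def evalBil (f : H →+ ZMod p) : k →ₗ[ℤ] H →ₗ[ℤ] k :=
  LinearMap.mk₂ ℤ (fun (c : k) (h : H) => f h • c)
    (fun c₁ c₂ h => smul_add (f h) c₁ c₂)
    (fun n c h => smul_comm (f h) n c)
    (fun c h₁ h₂ => by rw [map_add, add_smul])
    (fun n c h => by rw [map_zsmul, smul_assoc])

/-- The evaluation map `k ⊗[ℤ] H → k`, `c ⊗ h ↦ f h • c`, attached to an additive functional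
`f : H →+ ZMod p`. -/
noncomputable def evalMap (f : H →+ ZMod p) : k ⊗[ℤ] H →+ k :=
  (TensorProduct.lift (evalBil (k := k) f)).toAddMonoidHom

@[simp] theorem evalMap_tmul (f : H →+ ZMod p) (c : k) (h : H) :
    evalMap f (c ⊗ₜ[ℤ] h) = f h • c := by
  show TensorProduct.lift (evalBil (k := k) f) (c ⊗ₜ[ℤ] h) = _
  rw [TensorProduct.lift.tmul]
  rfl

theorem evalMap_smul (f : H →+ ZMod p) (a : k) (z : k ⊗[ℤ] H) :
    evalMap f (a • z) = a * evalMap f z := by
  induction z using TensorProduct.induction_on with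
  | zero => simp
  | tmul c h => rw [TensorProduct.smul_tmul', evalMap_tmul, evalMap_tmul, smul_eq_mul, mul_smul_comm]
  | add z₁ z₂ h₁ h₂ => rw [smul_add, map_add, map_add, h₁, h₂, mul_add]

/-- Joint injectivity of the evaluation maps attached to a jointly injective family of
additive functionals. -/
theorem eq_zero_of_evalMap {I : Type*} (ev : I → H →+ ZMod p)
    (hev : ∀ h : H, (∀ i, ev i h = 0) → h = 0) (z : k ⊗[ℤ] H)
    (hz : ∀ i, evalMap (k := k) (ev i) z = 0) : z = 0 := by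
  classical
  let b := Module.Basis.ofVectorSpace (ZMod p) k
  let G : (Module.Basis.ofVectorSpaceIndex (ZMod p) k →₀ H) →+ k ⊗[ℤ] H :=
    Finsupp.liftAddHom (fun s => (TensorProduct.mk ℤ k H (b s)).toAddMonoidHom)
  have hG : ∀ s h, G (Finsupp.single s h) = b s ⊗ₜ[ℤ] h := by
    intro s h
    simp [G]
  have hsurj : ∀ z : k ⊗[ℤ] H, ∃ w, G w = z := by
    intro z
    induction z using TensorProduct.induction_on with
    | zero => exact ⟨0, map_zero G⟩
    | tmul c h =>
      refine ⟨∑ s ∈ (b.repr c).support, Finsupp.single s ((((b.repr c s).val : ℕ) : ℤ) • h), ?_⟩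
      rw [map_sum]
      simp only [hG]
      conv_rhs => rw [← b.linearCombination_repr c, Finsupp.linearCombination_apply, Finsupp.sum,
        TensorProduct.sum_tmul]
      refine Finset.sum_congr rfl fun s _ => ?_
      rw [zmod_smul_eq_zsmul, TensorProduct.smul_tmul]
    | add z₁ z₂ h₁ h₂ =>
      obtain ⟨w₁, rfl⟩ := h₁
      obtain ⟨w₂, rfl⟩ := h₂
      exact ⟨w₁ + w₂, map_add G w₁ w₂⟩
  obtain ⟨w, rfl⟩ := hsurj z
  have hGw : G w = ∑ s ∈ w.support, b s ⊗ₜ[ℤ] w s := by
    simp [G, Finsupp.sum]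
  have hw : ∀ s ∈ w.support, w s = 0 := by
    intro s hs
    apply hev
    intro i
    have h1 := hz i
    rw [hGw, map_sum] at h1
    simp only [evalMap_tmul] at h1
    exact linearIndependent_iff'.mp b.linearIndependent w.support (fun s => ev i (w s)) h1 s hs
  have : w = 0 := by
    ext s
    by_cases hs : s ∈ w.support
    · exact hw s hs
    · simpa using hs
  rw [this, map_zero]

theorem evalMap_baseChange {H' : Type*} [AddCommGroup H'] (Ψ : H →+ H') (f : H' →+ ZMod p)
    (z : k ⊗[ℤ] H) :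
    evalMap f (Ψ.toIntLinearMap.baseChange k z) = evalMap (f.comp Ψ) z := by
  induction z using TensorProduct.induction_on with
  | zero => simp
  | tmul c h => rw [LinearMap.baseChange_tmul, evalMap_tmul, evalMap_tmul]; rfl
  | add z₁ z₂ h₁ h₂ => rw [map_add, map_add, map_add, h₁, h₂]

omit [Fact p.Prime] [Algebra (ZMod p) k] in
theorem baseChange_baseChange {H' H'' : Type*} [AddCommGroup H'] [AddCommGroup H'']
    (f : H →+ H') (g : H' →+ H'') (z : k ⊗[ℤ] H) :
    g.toIntLinearMap.baseChange k (f.toIntLinearMap.baseChange k z) =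
      (g.comp f).toIntLinearMap.baseChange k z := by
  rw [← LinearMap.comp_apply, ← LinearMap.baseChange_comp]
  rfl

variable {G : Type*} [AddZeroClass G]

/-- The additive map `ZMod p → k`, `t ↦ t • c`. -/
noncomputable def scal (c : k) : ZMod p →+ k := (smulAddHom (ZMod p) k).flip c

@[simp] theorem scal_apply (c : k) (t : ZMod p) : scal c t = t • c := rfl

/-- The `ℤ`-bilinear map `(c, h) ↦ (γ ↦ ι h γ • c)`. -/
noncomputable def charBil (ι : H →+ (G →+ ZMod p)) : k →ₗ[ℤ] H →ₗ[ℤ] (G →+ k) :=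
  LinearMap.mk₂ ℤ (fun (c : k) (h : H) => (scal c).comp (ι h))
    (fun c₁ c₂ h => by ext γ; simp [smul_add])
    (fun n c h => by ext γ; simp [smul_comm])
    (fun c h₁ h₂ => by ext γ; simp [add_smul])
    (fun n c h => by
      ext γ
      show (ι (n • h)) γ • c = n • ((ι h) γ • c)
      rw [map_zsmul]
      show (n • (ι h) γ) • c = n • ((ι h) γ • c)
      rw [smul_assoc])

/-- The character with values in `k` attached to a tensor: `c ⊗ h ↦ (γ ↦ ι h γ • c)`. -/
noncomputable def charOf (ι : H →+ (G →+ ZMod p)) : k ⊗[ℤ] H →+ (G →+ k) :=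
  (TensorProduct.lift (charBil (k := k) ι)).toAddMonoidHom

theorem charOf_tmul (ι : H →+ (G →+ ZMod p)) (c : k) (h : H) :
    charOf ι (c ⊗ₜ[ℤ] h) = (scal c).comp (ι h) := by
  show TensorProduct.lift (charBil (k := k) ι) (c ⊗ₜ[ℤ] h) = _
  rw [TensorProduct.lift.tmul]
  rfl

theorem charOf_apply (ι : H →+ (G →+ ZMod p)) (z : k ⊗[ℤ] H) (γ : G) :
    charOf ι z γ = evalMap ((AddMonoidHom.eval γ).comp ι) z := by
  induction z using TensorProduct.induction_on with
  | zero => simp
  | tmul c h => rw [charOf_tmul, evalMap_tmul]; rfl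
  | add z₁ z₂ h₁ h₂ => rw [map_add, map_add, AddMonoidHom.add_apply, h₁, h₂]

end LinAlg

/-! ### Formal properties of the Hecke transform relation -/

section HeckeRel

variable {N ℓ : ℕ} {A B : Type*} [AddCommGroup A] [AddCommGroup B]

theorem isHeckeTransform_zero :
    IsHeckeTransform N ℓ (0 : Additive ↥(Gamma0 N) →+ A) 0 := by
  intro γ π g _
  simp

theorem isHeckeTransform_add {φ₁ φ₁' φ₂ φ₂' : Additive ↥(Gamma0 N) →+ A}
    (h₁ : IsHeckeTransform N ℓ φ₁ φ₁') (h₂ : IsHeckeTransform N ℓ φ₂ φ₂') :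
    IsHeckeTransform N ℓ (φ₁ + φ₂) (φ₁' + φ₂') := by
  intro γ π g hg
  simp only [AddMonoidHom.add_apply, Finset.sum_add_distrib, h₁ γ π g hg, h₂ γ π g hg]

theorem isHeckeTransform_comp (f : A →+ B) {φ φ' : Additive ↥(Gamma0 N) →+ A}
    (h : IsHeckeTransform N ℓ φ φ') : IsHeckeTransform N ℓ (f.comp φ) (f.comp φ') := by
  intro γ π g hg
  simp only [AddMonoidHom.comp_apply, h γ π g hg, map_sum]

end HeckeRel

/-! ### The inputs of the assembly -/

/-- The inputs of the assembly, provided by the other modules of part (A): finite generation of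
`Γ₀(N)`, existence and uniqueness of Hecke transforms of characters with values in `ZMod p`, and
the properties of Kummer classes. -/
structure Inputs (N p : ℕ) [NeZero N] : Prop where
  fg : Group.FG ↥(Gamma0 N)
  exists_transform : ∀ (ℓ : ℕ), ℓ.Prime → ¬ ℓ ∣ N → ∀ φ : Additive ↥(Gamma0 N) →+ ZMod p,
    ∃ φ' : Additive ↥(Gamma0 N) →+ ZMod p, IsHeckeTransform N ℓ φ φ'
  transform_unique : ∀ (ℓ : ℕ), ℓ.Prime → ¬ ℓ ∣ N →
    ∀ φ φ' φ'' : Additive ↥(Gamma0 N) →+ ZMod p,
      IsHeckeTransform N ℓ φ φ' → IsHeckeTransform N ℓ φ φ'' → φ' = φ''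
  kummer_cuspidal : ∀ φ : Additive ↥(Gamma0 N) →+ ZMod p, IsCuspidalHom N φ →
    ∃ c, IsKummer N p φ c
  kummer_add : ∀ (φ φ' : Additive ↥(Gamma0 N) →+ ZMod p) (c c' : JZero N),
    IsKummer N p φ c → IsKummer N p φ' c' → IsKummer N p (φ + φ') (c + c')
  kummer_unique : ∀ (φ : Additive ↥(Gamma0 N) →+ ZMod p) (c c' : JZero N),
    IsKummer N p φ c → IsKummer N p φ c' → c = c'
  kummer_zero : ∀ φ : Additive ↥(Gamma0 N) →+ ZMod p, IsKummer N p φ 0 → φ = 0
  kummer_mem : ∀ (φ : Additive ↥(Gamma0 N) →+ ZMod p) (c : JZero N),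
    IsKummer N p φ c → c ∈ Jp N p
  kummer_hecke : ∀ (ℓ : ℕ) (hℓ : ℓ.Prime), ¬ ℓ ∣ N →
    ∀ (φ φ' : Additive ↥(Gamma0 N) →+ ZMod p) (c : JZero N),
      IsKummer N p φ c → IsHeckeTransform N ℓ φ φ' →
        IsKummer N p φ' (heckeOperatorBar N ⟨ℓ, hℓ⟩ c)

section Realizable

variable {N p : ℕ} [NeZero N] [Fact p.Prime]

omit [NeZero N] in
theorem char_nsmul_eq_zero (φ : Additive ↥(Gamma0 N) →+ ZMod p) : p • φ = 0 := by
  ext γ
  simp

theorem exists_isKummer_nsmul (I : Inputs N p) {φ : Additive ↥(Gamma0 N) →+ ZMod p}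
    (h : ∃ c, IsKummer N p φ c) (n : ℕ) : ∃ c, IsKummer N p (n • φ) c := by
  induction n with
  | zero =>
    rw [zero_nsmul]
    exact I.kummer_cuspidal 0 (fun _ _ => rfl)
  | succ n ih =>
    obtain ⟨c, hc⟩ := h
    obtain ⟨c', hc'⟩ := ih
    rw [succ_nsmul]
    exact ⟨c' + c, I.kummer_add _ _ _ _ hc' hc⟩

/-- The group of realizable characters: those which have a Kummer class. -/
def realizable (I : Inputs N p) : AddSubgroup (Additive ↥(Gamma0 N) →+ ZMod p) where
  carrier := {φ | ∃ c, IsKummer N p φ c}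
  add_mem' := by
    rintro φ φ' ⟨c, hc⟩ ⟨c', hc'⟩
    exact ⟨c + c', I.kummer_add φ φ' c c' hc hc'⟩
  zero_mem' := I.kummer_cuspidal 0 (fun _ _ => rfl)
  neg_mem' := by
    intro φ hφ
    have h1 : -φ = (p - 1) • φ := by
      have h2 : (p - 1) • φ + φ = 0 := by
        rw [← succ_nsmul, Nat.sub_add_cancel (Fact.out : p.Prime).one_le, char_nsmul_eq_zero]
      exact (eq_neg_of_add_eq_zero_left h2).symm
    show ∃ c, IsKummer N p (-φ) c
    rw [h1]
    exact exists_isKummer_nsmul I hφ (p - 1)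

theorem mem_realizable (I : Inputs N p) {φ : Additive ↥(Gamma0 N) →+ ZMod p} :
    φ ∈ realizable I ↔ ∃ c, IsKummer N p φ c := Iff.rfl

/-- The Kummer class of a realizable character, as an additive map to the `p`-torsion. -/
noncomputable def kummerClass (I : Inputs N p) : realizable I →+ Jp N p :=
  AddMonoidHom.mk'
    (fun φ => ⟨Classical.choose φ.2, I.kummer_mem _ _ (Classical.choose_spec φ.2)⟩) (by
      intro φ φ'
      apply Subtype.ext
      exact I.kummer_unique _ _ _ (Classical.choose_spec (φ + φ').2)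
        (I.kummer_add _ _ _ _ (Classical.choose_spec φ.2) (Classical.choose_spec φ'.2)))

theorem isKummer_kummerClass (I : Inputs N p) (φ : realizable I) :
    IsKummer N p φ.1 (kummerClass I φ : JZero N) :=
  Classical.choose_spec φ.2

theorem kummerClass_injective (I : Inputs N p) : Function.Injective (kummerClass I) := by
  rw [injective_iff_map_eq_zero]
  intro φ h
  apply Subtype.ext
  apply I.kummer_zero
  have h1 := isKummer_kummerClass I φ
  rw [h] at h1
  exact h1

/-- The Hecke operator `T_ℓ` on realizable characters. -/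
noncomputable def heckeChar (I : Inputs N p) {ℓ : ℕ} (hℓ : ℓ.Prime) (hℓN : ¬ ℓ ∣ N) :
    realizable I →+ realizable I :=
  AddMonoidHom.mk'
    (fun φ => ⟨Classical.choose (I.exists_transform ℓ hℓ hℓN φ.1),
      ⟨_, I.kummer_hecke ℓ hℓ hℓN _ _ _ (isKummer_kummerClass I φ)
        (Classical.choose_spec (I.exists_transform ℓ hℓ hℓN φ.1))⟩⟩) (by
      intro φ φ'
      apply Subtype.ext
      exact I.transform_unique ℓ hℓ hℓN _ _ _
        (Classical.choose_spec (I.exists_transform ℓ hℓ hℓN (φ + φ').1))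
        (isHeckeTransform_add (Classical.choose_spec (I.exists_transform ℓ hℓ hℓN φ.1))
          (Classical.choose_spec (I.exists_transform ℓ hℓ hℓN φ'.1))))

theorem isHeckeTransform_heckeChar (I : Inputs N p) {ℓ : ℕ} (hℓ : ℓ.Prime) (hℓN : ¬ ℓ ∣ N)
    (φ : realizable I) : IsHeckeTransform N ℓ φ.1 (heckeChar I hℓ hℓN φ).1 :=
  Classical.choose_spec (I.exists_transform ℓ hℓ hℓN φ.1)

theorem kummerClass_heckeChar (I : Inputs N p) {ℓ : ℕ} (hℓ : ℓ.Prime) (hℓN : ¬ ℓ ∣ N)
    (φ : realizable I) :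
    kummerClass I (heckeChar I hℓ hℓN φ) = heckeJp N p ⟨ℓ, hℓ⟩ (kummerClass I φ) := by
  apply Subtype.ext
  rw [coe_heckeJp]
  exact I.kummer_unique _ _ _ (isKummer_kummerClass I _)
    (I.kummer_hecke ℓ hℓ hℓN _ _ _ (isKummer_kummerClass I φ)
      (isHeckeTransform_heckeChar I hℓ hℓN φ))

end Realizable

/-! ### The eigenvector -/

theorem hom_eq_zero_of_closure {G : Type*} [Group G] {A : Type*} [AddCommGroup A] {S : Set G}
    (hS : Subgroup.closure S = ⊤) (φ : Additive G →+ A)
    (h : ∀ g ∈ S, φ (Additive.ofMul g) = 0) : φ = 0 := by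
  have key : ∀ g : G, φ (Additive.ofMul g) = 0 := by
    intro g
    have hg : g ∈ Subgroup.closure S := by rw [hS]; exact Subgroup.mem_top g
    induction hg using Subgroup.closure_induction with
    | mem x hx => exact h x hx
    | one => exact map_zero φ
    | mul x y _ _ hx hy => rw [ofMul_mul, map_add, hx, hy, add_zero]
    | inv x _ hx => rw [ofMul_inv, map_neg, hx, neg_zero]
  exact AddMonoidHom.ext fun γ => key (Additive.toMul γ)

section Core

variable {N p : ℕ} [NeZero N] [Fact p.Prime] {k : Type*} [CommRing k] [Algebra (ZMod p) k]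

/-- The character with values in `k` attached to an element of `k ⊗[ℤ] realizable I`. -/
noncomputable def charR (I : Inputs N p) :
    k ⊗[ℤ] realizable I →+ (Additive ↥(Gamma0 N) →+ k) :=
  charOf (realizable I).subtype

theorem isHeckeTransform_charR (I : Inputs N p) {ℓ : ℕ} (hℓ : ℓ.Prime) (hℓN : ¬ ℓ ∣ N)
    (z : k ⊗[ℤ] realizable I) :
    IsHeckeTransform N ℓ (charR I z)
      (charR I ((heckeChar I hℓ hℓN).toIntLinearMap.baseChange k z)) := by
  induction z using TensorProduct.induction_on with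
  | zero =>
    rw [map_zero, map_zero]
    exact isHeckeTransform_zero
  | tmul c h =>
    rw [LinearMap.baseChange_tmul]
    show IsHeckeTransform N ℓ (charOf _ (c ⊗ₜ[ℤ] h)) (charOf _ (c ⊗ₜ[ℤ] _))
    rw [charOf_tmul, charOf_tmul]
    exact isHeckeTransform_comp (scal c) (isHeckeTransform_heckeChar I hℓ hℓN h)
  | add z₁ z₂ h₁ h₂ =>
    rw [map_add, map_add, map_add]
    exact isHeckeTransform_add h₁ h₂

theorem exists_charR_eq (I : Inputs N p) (φ : Additive ↥(Gamma0 N) →+ k)
    (hcusp : IsCuspidalHom N φ) : ∃ y : k ⊗[ℤ] realizable I, charR I y = φ := by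
  classical
  let b := Module.Basis.ofVectorSpace (ZMod p) k
  let ψ : Module.Basis.ofVectorSpaceIndex (ZMod p) k → (Additive ↥(Gamma0 N) →+ ZMod p) :=
    fun s => ((b.coord s).toAddMonoidHom).comp φ
  have hψ_apply : ∀ s γ, ψ s γ = b.repr (φ γ) s := fun s γ => rfl
  have hψ : ∀ s, ψ s ∈ realizable I := by
    intro s
    apply I.kummer_cuspidal
    intro γ hγ
    rw [hψ_apply, hcusp γ hγ, map_zero]
    rfl
  obtain ⟨S₀, hS₀, hfin⟩ := Group.fg_iff.mp I.fg
  let S : Finset (Module.Basis.ofVectorSpaceIndex (ZMod p) k) :=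
    hfin.toFinset.biUnion (fun g => (b.repr (φ (Additive.ofMul g))).support)
  have hout : ∀ s, s ∉ S → ψ s = 0 := by
    intro s hs
    apply hom_eq_zero_of_closure hS₀
    intro g hg
    rw [hψ_apply]
    by_contra hne
    apply hs
    rw [Finset.mem_biUnion]
    exact ⟨g, hfin.mem_toFinset.mpr hg, Finsupp.mem_support_iff.mpr hne⟩
  refine ⟨∑ s ∈ S, b s ⊗ₜ[ℤ] (⟨ψ s, hψ s⟩ : realizable I), ?_⟩
  refine AddMonoidHom.ext fun γ => ?_
  rw [map_sum, AddMonoidHom.finsetSum_apply]
  have h1 : ∀ s, charR I (b s ⊗ₜ[ℤ] (⟨ψ s, hψ s⟩ : realizable I)) γ = b.repr (φ γ) s • b s := by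
    intro s
    show charOf _ (b s ⊗ₜ[ℤ] (⟨ψ s, hψ s⟩ : realizable I)) γ = _
    rw [charOf_tmul]
    rfl
  simp only [h1]
  conv_rhs => rw [← b.linearCombination_repr (φ γ), Finsupp.linearCombination_apply]
  symm
  apply Finsupp.sum_of_support_subset
  · intro s hs
    by_contra hsS
    have h2 : ψ s γ = 0 := by rw [hout s hsS]; rfl
    rw [hψ_apply] at h2
    exact Finsupp.mem_support_iff.mp hs h2
  · intro s _
    exact zero_smul _ _

/-- The core of the assembly: a nonzero cuspidal character with values in `k` (a ring of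
characteristic `p`) gives a nonzero element of `k ⊗[ℤ] J₀(N)[p]` on which `T_ℓ` acts through
every scalar `a` by which `T_ℓ` acts on the character. -/
theorem exists_eigen (I : Inputs N p) (φ : Additive ↥(Gamma0 N) →+ k) (hne : φ ≠ 0)
    (hcusp : IsCuspidalHom N φ) :
    ∃ x : k ⊗[ℤ] (Jp N p), x ≠ 0 ∧ ∀ (ℓ : ℕ) (hℓ : ℓ.Prime), ¬ ℓ ∣ N → ∀ a : k,
      (∀ φ' : Additive ↥(Gamma0 N) →+ k, IsHeckeTransform N ℓ φ φ' → ∀ γ, φ' γ = a * φ γ) →
      ((heckeJp N p ⟨ℓ, hℓ⟩).toIntLinearMap.baseChange k) x = a • x := by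
  obtain ⟨y, hy⟩ := exists_charR_eq I φ hcusp
  refine ⟨(kummerClass I).toIntLinearMap.baseChange k y, ?_, ?_⟩
  · intro hx
    apply hne
    have hy0 : y = 0 := by
      refine eq_zero_of_evalMap
        (fun f : Module.Dual (ZMod p) (Jp N p) => f.toAddMonoidHom.comp (kummerClass I)) ?_ y ?_
      · intro h hh
        apply kummerClass_injective I
        rw [map_zero]
        exact (Module.forall_dual_apply_eq_zero_iff (ZMod p) (kummerClass I h)).mp hh
      · intro f
        rw [← evalMap_baseChange, hx, map_zero]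
    rw [← hy, hy0, map_zero]
  · intro ℓ hℓ hℓN a ha
    have key : (heckeChar I hℓ hℓN).toIntLinearMap.baseChange k y = a • y := by
      rw [← sub_eq_zero]
      refine eq_zero_of_evalMap
        (fun γ : Additive ↥(Gamma0 N) => (AddMonoidHom.eval γ).comp (realizable I).subtype)
        ?_ _ ?_
      · intro h hh
        apply Subtype.ext
        exact AddMonoidHom.ext fun γ => hh γ
      · intro γ
        rw [map_sub, evalMap_smul, ← charOf_apply, ← charOf_apply]
        show charR I _ γ - a * charR I y γ = 0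
        rw [hy, sub_eq_zero]
        exact ha _ (hy ▸ isHeckeTransform_charR I hℓ hℓN y) γ
    have comm : (heckeJp N p ⟨ℓ, hℓ⟩).comp (kummerClass I) =
        (kummerClass I).comp (heckeChar I hℓ hℓN) :=
      AddMonoidHom.ext fun h => (kummerClass_heckeChar I hℓ hℓN h).symm
    rw [baseChange_baseChange, comm, ← baseChange_baseChange, key]
    exact LinearMap.map_smul _ a y

end Core

/-! ### Statement (A★) from the inputs -/

/-- Statement (A★), with the results of the other modules of part (A) as hypotheses: the inputs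
`I : Inputs N p` and the period character `hper` of the eigenform `g` modulo `𝔪`. -/
theorem hasEigenvector_of_inputs (N p : ℕ) [NeZero N] [Fact p.Prime] (g : CuspForm (Gamma0 N) 2)
    (𝔪 : Ideal (integralClosure ℤ ℂ)) [𝔪.IsMaximal]
    (hp : (p : integralClosure ℤ ℂ) ∈ 𝔪)
    (hT : ∀ (ℓ : ℕ), ℓ.Prime → ¬ ℓ ∣ N * p → ∀ τ : ℍ,
      ModularForm.heckeT 2 ℓ (g : ℍ → ℂ) τ = ModularFormClass.qCoeff g ℓ * g τ)
    (I : Inputs N p)
    (hper : ∃ φ : Additive ↥(Gamma0 N) →+ (integralClosure ℤ ℂ ⧸ 𝔪), φ ≠ 0 ∧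
      IsCuspidalHom N φ ∧ ∀ (ℓ : ℕ), ℓ.Prime → ¬ ℓ ∣ N → ∀ a : integralClosure ℤ ℂ,
        (∀ τ : ℍ, ModularForm.heckeT 2 ℓ (g : ℍ → ℂ) τ = (a : ℂ) * g τ) →
        ∀ φ' : Additive ↥(Gamma0 N) →+ (integralClosure ℤ ℂ ⧸ 𝔪),
          IsHeckeTransform N ℓ φ φ' → ∀ γ, φ' γ = Ideal.Quotient.mk 𝔪 a * φ γ) :
    HasEigenvector N p g 𝔪 := by
  have hnt : Nontrivial (integralClosure ℤ ℂ ⧸ 𝔪) :=
    Ideal.Quotient.nontrivial_iff.mpr (Ideal.IsMaximal.ne_top inferInstance)
  have hp0 : ((p : ℕ) : integralClosure ℤ ℂ ⧸ 𝔪) = 0 := by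
    rw [← map_natCast (Ideal.Quotient.mk 𝔪) p]
    exact Ideal.Quotient.eq_zero_iff_mem.mpr hp
  have hchar : CharP (integralClosure ℤ ℂ ⧸ 𝔪) p :=
    (CharP.charP_iff_prime_eq_zero (Fact.out : p.Prime)).mpr hp0
  let _ : Algebra (ZMod p) (integralClosure ℤ ℂ ⧸ 𝔪) := ZMod.algebra _ p
  obtain ⟨φ, hne, hcusp, hφ⟩ := hper
  obtain ⟨x, hx0, hx⟩ := exists_eigen I φ hne hcusp
  refine ⟨x, hx0, ?_⟩
  intro ℓ hℓ hℓNp a ha
  have hℓN : ¬ ℓ ∣ N := fun h => hℓNp (Dvd.dvd.mul_right h p)
  refine hx ℓ hℓ hℓN (Ideal.Quotient.mk 𝔪 a) ?_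
  refine hφ ℓ hℓ hℓN a ?_
  intro τ
  rw [ha]
  exact hT ℓ hℓ hℓNp τ

end AssemblyA

end Fermat.Agent.S42
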