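import Fermat.Agent.S42.ADefs
import Fermat.Agent.S37.Hecke

/-!
# P13 part (A), module M4 (first half): formal properties of Kummer classes

* `isKummer_mem_Jp`          : a Kummer class is `p`-torsion;
* `isKummer_add`             : Kummer classes are additive in the character;
* `KummerBasic.isKummer_neg` : the class of the opposite character is the opposite class;
* `eq_zero_of_isKummer_zero` : the Kummer class determines the character.

(The uniqueness of the Kummer class is in `KummerUnique.lean`, the existence in `Kummer.lean`.)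
-/

set_option autoImplicit false

namespace Fermat.Agent.S42

open Fermat.Agent.S24 AlgebraicCurve ModularCurve CongruenceSubgroup
open scoped MatrixGroups

namespace KummerBasic

/-! ### Constants in `MerN N` -/

section Const

variable (N : ℕ)

theorem constRN_one : constRN N 1 = 1 := rfl

theorem constRN_mul (a b : ℂ) : constRN N (a * b) = constRN N a * constRN N b := rfl

theorem constRN_zero : constRN N 0 = 0 := rfl

theorem constRN_add (a b : ℂ) : constRN N (a + b) = constRN N a + constRN N b := rfl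

/-- The constants, as a ring homomorphism `ℂ →+* MerN N`. -/
noncomputable def cMHom : ℂ →+* MerN N where
  toFun c := cM N c
  map_one' := by
    show algebraMap ↥(RN N) (MerN N) (constRN N 1) = 1
    rw [constRN_one, map_one]
  map_mul' a b := by
    show algebraMap ↥(RN N) (MerN N) (constRN N (a * b)) = _
    rw [constRN_mul, map_mul]
    rfl
  map_zero' := by
    show algebraMap ↥(RN N) (MerN N) (constRN N 0) = 0
    rw [constRN_zero, map_zero]
  map_add' a b := by
    show algebraMap ↥(RN N) (MerN N) (constRN N (a + b)) = _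
    rw [constRN_add, map_add]
    rfl

theorem cMHom_apply (c : ℂ) : cMHom N c = cM N c := rfl

theorem cM_one : cM N 1 = 1 := map_one (cMHom N)

theorem cM_mul (a b : ℂ) : cM N (a * b) = cM N a * cM N b := map_mul (cMHom N) a b

theorem cM_pow (a : ℂ) (n : ℕ) : cM N (a ^ n) = cM N a ^ n := map_pow (cMHom N) a n

theorem cM_inv (a : ℂ) : cM N a⁻¹ = (cM N a)⁻¹ := map_inv₀ (cMHom N) a

theorem cM_injective : Function.Injective (cM N) := (cMHom N).injective

theorem cM_ne_zero {c : ℂ} (hc : c ≠ 0) : cM N c ≠ 0 := by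
  rw [← cMHom_apply, Ne, map_eq_zero]
  exact hc

theorem act_cM (γ : SL(2, ℤ)) (c : ℂ) : act N γ (cM N c) = cM N c := by
  rw [cM, act_algebraMap, actR_constRN]

theorem realHom_algebraMap_eq_cM [NeZero N] {L : Type*} [Field L] [Algebra ℚ L] (ι : L →+* ℂ)
    (a : L) : realHom N ι (algebraMap L (FFL L N) a) = cM N (ι a) :=
  realHom_algebraMap N ι a

end Const

/-! ### The root of unity `zetaP p` -/

section Zeta

variable (p : ℕ)

theorem isPrimitiveRoot_zetaP (hp : p ≠ 0) : IsPrimitiveRoot (zetaP p) p :=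
  Complex.isPrimitiveRoot_exp p hp

theorem zetaP_pow (hp : p ≠ 0) : zetaP p ^ p = 1 := (isPrimitiveRoot_zetaP p hp).pow_eq_one

theorem zetaP_pow_val_add [NeZero p] (a b : ZMod p) :
    zetaP p ^ (a + b).val = zetaP p ^ a.val * zetaP p ^ b.val := by
  rw [ZMod.val_add, ← pow_add, ← pow_eq_pow_mod _ (zetaP_pow p (NeZero.ne p))]

theorem zetaP_pow_val_neg [NeZero p] (a : ZMod p) :
    zetaP p ^ (-a).val = (zetaP p ^ a.val)⁻¹ := by
  have h := zetaP_pow_val_add p (-a) a
  rw [neg_add_cancel, ZMod.val_zero, pow_zero] at h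
  exact eq_inv_of_mul_eq_one_left h.symm

theorem zetaP_pow_val_ne_zero [NeZero p] (a : ZMod p) : zetaP p ^ a.val ≠ 0 :=
  pow_ne_zero _ ((isPrimitiveRoot_zetaP p (NeZero.ne p)).ne_zero (NeZero.ne p))

theorem eq_zero_of_zetaP_pow_val_eq_one [NeZero p] (a : ZMod p) (h : zetaP p ^ a.val = 1) :
    a = 0 := by
  have hdvd : p ∣ a.val := (isPrimitiveRoot_zetaP p (NeZero.ne p)).dvd_of_pow_eq_one _ h
  have h0 : a.val = 0 := Nat.eq_zero_of_dvd_of_lt hdvd (ZMod.val_lt a)
  exact (ZMod.val_eq_zero a).mp h0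

/-- In a field receiving `ℂ`, two elements with the same `p`-th power differ by a constant
`p`-th root of unity. -/
theorem exists_eq_zeta_mul_of_pow_eq {R : Type*} [Field R] (g : ℂ →+* R) (hp : p ≠ 0) {x y : R}
    (hy : y ≠ 0) (h : x ^ p = y ^ p) : ∃ k : ℕ, x = g (zetaP p ^ k) * y := by
  have : NeZero p := ⟨hp⟩
  have hprim : IsPrimitiveRoot (g (zetaP p)) p :=
    (isPrimitiveRoot_zetaP p hp).map_of_injective g.injective
  have h1 : (x / y) ^ p = 1 := by
    rw [div_pow, h, div_self (pow_ne_zero _ hy)]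
  obtain ⟨i, -, hi⟩ := hprim.eq_pow_of_pow_eq_one h1
  refine ⟨i, ?_⟩
  rw [map_pow, hi, div_mul_cancel₀ _ hy]

end Zeta

/-! ### Functions without zeros and poles are constant -/

section Constant

variable (N : ℕ) [NeZero N]

theorem exists_algebraMap_eq_of_ord_eq_zero (x : FFL (AlgebraicClosure ℚ) N)
    (h : ∀ P : Place (AlgebraicClosure ℚ) (FFL (AlgebraicClosure ℚ) N), P.ord x = 0) :
    ∃ a : AlgebraicClosure ℚ, x = algebraMap (AlgebraicClosure ℚ) (FFL (AlgebraicClosure ℚ) N) a := by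
  by_contra hne
  have hx' : x ∉ Set.range (algebraMap (AlgebraicClosure ℚ) (FFL (AlgebraicClosure ℚ) N)) := by
    rintro ⟨a, ha⟩
    exact hne ⟨a, ha.symm⟩
  have := finiteDimensional_jL N (AlgebraicClosure ℚ)
  have hj := transcendental_jL N (AlgebraicClosure ℚ)
  have hx : Transcendental (AlgebraicClosure ℚ) x := transcendental_of_not_mem_range hj hx'
  have : FiniteDimensional (IntermediateField.adjoin (AlgebraicClosure ℚ) {x})
      (FFL (AlgebraicClosure ℚ) N) := finiteDimensional_adjoin_of_transcendental hj hx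
  have hsum := sum_ord_zeroPlaces hx
  rw [finsum_mem_eq_zero_of_forall_eq_zero (fun v _ => h v)] at hsum
  have hpos : 0 < Module.finrank (IntermediateField.adjoin (AlgebraicClosure ℚ) {x})
      (FFL (AlgebraicClosure ℚ) N) := Module.finrank_pos
  have : (Module.finrank (IntermediateField.adjoin (AlgebraicClosure ℚ) {x})
      (FFL (AlgebraicClosure ℚ) N) : ℤ) = 0 := hsum.symm
  omega

end Constant

/-! ### The class of a divisor is zero iff the divisor is principal -/

theorem pic0_mk_eq_zero_iff {K F : Type*} [Field K] [Field F] [Algebra K F]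
    (D : Divisor.degZero (K := K) (F := F)) :
    Pic0.mk D = 0 ↔ (D : Divisor K F) ∈ Divisor.principal (K := K) (F := F) := by
  unfold Pic0.mk
  rw [QuotientAddGroup.eq_zero_iff, AddSubgroup.mem_addSubgroupOf]

end KummerBasic

open KummerBasic

/-- A Kummer class is `p`-torsion. -/
theorem isKummer_mem_Jp {N p : ℕ} [NeZero N] {φ : Additive ↥(Gamma0 N) →+ ZMod p}
    {c : JZero N} (h : IsKummer N p φ c) : c ∈ Jp N p := by
  obtain ⟨D, hD, u, f, hu, hord, rfl, -, -⟩ := h
  rw [mem_Jp]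
  have h1 : (p : ℤ) • Pic0.mk (⟨D, hD⟩ : Divisor.degZero (K := AlgebraicClosure ℚ)
      (F := FFL (AlgebraicClosure ℚ) N)) = Pic0.mk ((p : ℤ) • ⟨D, hD⟩) := rfl
  rw [h1, pic0_mk_eq_zero_iff]
  refine ⟨u, hu, fun v => ?_⟩
  rw [← hord v]
  rfl

/-- Kummer classes are additive in the character. -/
theorem isKummer_add {N p : ℕ} [NeZero N] [NeZero p] {φ φ' : Additive ↥(Gamma0 N) →+ ZMod p}
    {c c' : JZero N} (h : IsKummer N p φ c) (h' : IsKummer N p φ' c') :
    IsKummer N p (φ + φ') (c + c') := by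
  obtain ⟨D, hD, u, f, hu, hord, rfl, hfp, hact⟩ := h
  obtain ⟨D', hD', u', f', hu', hord', rfl, hfp', hact'⟩ := h'
  refine ⟨D + D', add_mem hD hD', u * u', f * f', mul_ne_zero hu hu', fun v => ?_, rfl, ?_,
    fun γ => ?_⟩
  · rw [Finsupp.add_apply, mul_add, hord v, hord' v, v.ord_mul hu hu']
  · rw [mul_pow, hfp, hfp', map_mul]
  · rw [map_mul, hact γ, hact' γ, AddMonoidHom.add_apply, zetaP_pow_val_add, cM_mul]
    ring

namespace KummerBasic

/-- The Kummer class of the opposite character is the opposite class. -/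
theorem isKummer_neg {N p : ℕ} [NeZero N] [NeZero p] {φ : Additive ↥(Gamma0 N) →+ ZMod p}
    {c : JZero N} (h : IsKummer N p φ c) : IsKummer N p (-φ) (-c) := by
  obtain ⟨D, hD, u, f, hu, hord, rfl, hfp, hact⟩ := h
  refine ⟨-D, neg_mem hD, u⁻¹, f⁻¹, inv_ne_zero hu, fun v => ?_, rfl, ?_, fun γ => ?_⟩
  · rw [Finsupp.neg_apply, mul_neg, hord v, v.ord_inv]
  · rw [inv_pow, hfp, map_inv₀]
  · rw [map_inv₀, hact γ, AddMonoidHom.neg_apply, zetaP_pow_val_neg, cM_inv, mul_inv]

end KummerBasic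

/-- The Kummer class determines the character: only the trivial character has class `0`. -/
theorem eq_zero_of_isKummer_zero {N p : ℕ} [NeZero N] [NeZero p]
    {φ : Additive ↥(Gamma0 N) →+ ZMod p} (h : IsKummer N p φ 0) : φ = 0 := by
  have hp : p ≠ 0 := NeZero.ne p
  obtain ⟨D, hD, u, f, hu, hord, h0, hfp, hact⟩ := h
  have hf0 : f ≠ 0 := by
    intro h0
    rw [h0, zero_pow hp] at hfp
    exact hu ((map_eq_zero (realHom N embQ)).mp hfp.symm)
  -- `D` is the divisor of a function `w₀`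
  obtain ⟨w₀, hw₀, hDw⟩ := (pic0_mk_eq_zero_iff ⟨D, hD⟩).mp h0.symm
  -- `u / w₀ ^ p` is a constant `a`
  have hconst : ∀ P : Place (AlgebraicClosure ℚ) (FFL (AlgebraicClosure ℚ) N),
      P.ord (u * (w₀ ^ p)⁻¹) = 0 := by
    intro P
    rw [P.ord_mul hu (inv_ne_zero (pow_ne_zero _ hw₀)), P.ord_inv, ← zpow_natCast, P.ord_zpow,
      ← hord P, hDw P]
    ring
  obtain ⟨a, ha⟩ := exists_algebraMap_eq_of_ord_eq_zero N _ hconst
  have hu' : u = algebraMap (AlgebraicClosure ℚ) (FFL (AlgebraicClosure ℚ) N) a * w₀ ^ p := by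
    rw [← ha, inv_mul_cancel_right₀ (pow_ne_zero _ hw₀)]
  have ha0 : a ≠ 0 := by
    intro h0
    rw [h0, map_zero, zero_mul] at hu'
    exact hu hu'
  -- a `p`-th root of `u` invariant under `Γ₀(N)`
  obtain ⟨c₁, hc₁⟩ := IsAlgClosed.exists_pow_nat_eq (embQ a) (Nat.pos_of_ne_zero hp)
  have hc₁0 : c₁ ≠ 0 := by
    intro h0
    rw [h0, zero_pow hp] at hc₁
    exact ha0 ((map_eq_zero embQ).mp hc₁.symm)
  have hw₀' : realHom N embQ w₀ ≠ 0 := by
    rw [Ne, map_eq_zero]
    exact hw₀
  have hg0 : cM N c₁ * realHom N embQ w₀ ≠ 0 := mul_ne_zero (cM_ne_zero N hc₁0) hw₀'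
  have hgp : f ^ p = (cM N c₁ * realHom N embQ w₀) ^ p := by
    rw [hfp, hu', map_mul, map_pow, realHom_algebraMap_eq_cM, mul_pow, ← cM_pow, hc₁]
  obtain ⟨k, hk⟩ := exists_eq_zeta_mul_of_pow_eq p (cMHom N) hp hg0 hgp
  have hinv : ∀ γ : ↥(Gamma0 N), act N (γ : SL(2, ℤ)) f = f := by
    intro γ
    rw [hk, cMHom_apply, map_mul, map_mul, act_cM, act_cM, act_realHom_of_mem N embQ _ γ.2]
  -- conclusion
  have hφ : ∀ γ : ↥(Gamma0 N), φ (Additive.ofMul γ) = 0 := by
    intro γ
    have h1 := hact γ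
    rw [hinv γ] at h1
    have h2 : cM N (zetaP p ^ (φ (Additive.ofMul γ)).val) = cM N 1 := by
      rw [cM_one]
      exact (mul_right_cancel₀ hf0 (h1.symm.trans (one_mul f).symm))
    exact eq_zero_of_zetaP_pow_val_eq_one p _ (cM_injective N h2)
  ext x
  exact hφ (Additive.toMul x)

end Fermat.Agent.S42
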