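import Fermat.Agent.S24.Analytic
import Fermat.Agent.S42.TorsionDefs

/-!
# P13 part (A): shared definitions

* `embQ`            : the fixed embedding `ℚ̄ → ℂ`;
* `cM N c`          : the constant `c` as an element of `MerN N`;
* `zetaP p`         : the root of unity `exp (2 π i / p)`;
* `IsCuspidalHom`   : additive characters of `Γ₀(N)` killing every element of trace square `≤ 4`
                      (parabolic and elliptic elements and `± 1`);
* `IsKummer N p φ c`: the class `c ∈ J₀(N)(ℚ̄)` is the Kummer class of the character `ζ_p ^ φ`;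
* `heckeMat`, `IsHeckeDatum`, `IsHeckeTransform` : the Hecke operator `T_ℓ` on characters of
                      `Γ₀(N)`, as a relation;
* `autC`            : the group of field automorphisms of `ℂ` fixing `embQ ℚ̄` pointwise.
-/

set_option autoImplicit false

namespace Fermat.Agent.S42

open Fermat.Agent.S24 AlgebraicCurve ModularCurve UpperHalfPlane CongruenceSubgroup
open scoped MatrixGroups

/-- The fixed embedding of `ℚ̄` into `ℂ`. -/
noncomputable def embQ : AlgebraicClosure ℚ →+* ℂ :=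
  letI : Algebra ℚ (AlgebraicClosure ℚ) := AlgebraicClosure.instAlgebra ℚ
  (IsAlgClosed.lift : AlgebraicClosure ℚ →ₐ[ℚ] ℂ).toRingHom

/-- The constant function `c` as an element of `MerN N`. -/
noncomputable def cM (N : ℕ) (c : ℂ) : MerN N := algebraMap ↥(RN N) (MerN N) (constRN N c)

/-- The root of unity `exp (2 π i / p)`. -/
noncomputable def zetaP (p : ℕ) : ℂ := Complex.exp (2 * (Real.pi : ℂ) * Complex.I / (p : ℂ))

/-- An additive character of `Γ₀(N)` is *cuspidal* if it kills every element whose trace has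
square at most `4` (the parabolic and elliptic elements and `± 1`). -/
def IsCuspidalHom (N : ℕ) {A : Type*} [AddCommGroup A] (φ : Additive ↥(Gamma0 N) →+ A) : Prop :=
  ∀ γ : ↥(Gamma0 N), ((γ : SL(2, ℤ)) : Matrix (Fin 2) (Fin 2) ℤ).trace ^ 2 ≤ 4 →
    φ (Additive.ofMul γ) = 0

/-- `c ∈ J₀(N)(ℚ̄)` is the Kummer class of the character `γ ↦ ζ_p ^ φ γ` of `Γ₀(N)`: there are a
divisor `D` of degree `0` representing `c`, a function `u ∈ ℚ̄(X₀(N))` with `div u = p D`, and a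
`p`-th root `f` of (the analytic realization of) `u` among the meromorphic functions of level `N`
on which `Γ₀(N)` acts through the character: `f ∘ γ = ζ_p ^ φ γ • f`. -/
def IsKummer (N p : ℕ) [NeZero N] (φ : Additive ↥(Gamma0 N) →+ ZMod p) (c : JZero N) : Prop :=
  ∃ (D : Divisor (AlgebraicClosure ℚ) (FFL (AlgebraicClosure ℚ) N))
    (hD : D ∈ Divisor.degZero (K := AlgebraicClosure ℚ) (F := FFL (AlgebraicClosure ℚ) N))
    (u : FFL (AlgebraicClosure ℚ) N) (f : MerN N),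
    u ≠ 0 ∧ (∀ v : Place (AlgebraicClosure ℚ) (FFL (AlgebraicClosure ℚ) N),
      (p : ℤ) * D v = v.ord u) ∧
    c = Pic0.mk ⟨D, hD⟩ ∧ f ^ p = realHom N embQ u ∧
    ∀ γ : ↥(Gamma0 N),
      act N (γ : SL(2, ℤ)) f = cM N (zetaP p ^ (φ (Additive.ofMul γ)).val) * f

/-- The `ℓ + 1` Hecke matrices `(1 j; 0 ℓ)`, `j < ℓ`, and `(ℓ 0; 0 1)` (index `none`). -/
def heckeMat (ℓ : ℕ) : Option (Fin ℓ) → Matrix (Fin 2) (Fin 2) ℤ
  | none => !![(ℓ : ℤ), 0; 0, 1]
  | some j => !![1, ((j : ℕ) : ℤ); 0, (ℓ : ℤ)]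

/-- `(π, g)` is a Hecke datum for `γ ∈ Γ₀(N)`: `M_i γ = g_i M_{π i}` for all `i`. -/
def IsHeckeDatum (N ℓ : ℕ) (γ : ↥(Gamma0 N)) (π : Equiv.Perm (Option (Fin ℓ)))
    (g : Option (Fin ℓ) → ↥(Gamma0 N)) : Prop :=
  ∀ i, heckeMat ℓ i * ((γ : SL(2, ℤ)) : Matrix (Fin 2) (Fin 2) ℤ) =
    ((g i : SL(2, ℤ)) : Matrix (Fin 2) (Fin 2) ℤ) * heckeMat ℓ (π i)

/-- `φ'` is the transform of the additive character `φ` of `Γ₀(N)` under the Hecke operator
`T_ℓ`: `φ' γ = ∑ i, φ (g_i)` for every Hecke datum `(π, g)` of `γ`. -/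
def IsHeckeTransform (N ℓ : ℕ) {A : Type*} [AddCommGroup A]
    (φ φ' : Additive ↥(Gamma0 N) →+ A) : Prop :=
  ∀ (γ : ↥(Gamma0 N)) (π : Equiv.Perm (Option (Fin ℓ))) (g : Option (Fin ℓ) → ↥(Gamma0 N)),
    IsHeckeDatum N ℓ γ π g → φ' (Additive.ofMul γ) = ∑ i, φ (Additive.ofMul (g i))

/-- The group of field automorphisms of `ℂ` fixing the image of `ℚ̄` pointwise. -/
def autC : Subgroup (ℂ ≃ₐ[ℚ] ℂ) where
  carrier := {σ | ∀ x : AlgebraicClosure ℚ, σ (embQ x) = embQ x}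
  mul_mem' := by
    intro σ τ hσ hτ x
    show σ (τ (embQ x)) = embQ x
    rw [hτ x, hσ x]
  one_mem' := fun _ => rfl
  inv_mem' := by
    intro σ hσ x
    show σ⁻¹ (embQ x) = embQ x
    have h := congrArg (σ⁻¹ : ℂ ≃ₐ[ℚ] ℂ) (hσ x)
    rw [show (σ⁻¹ : ℂ ≃ₐ[ℚ] ℂ) (σ (embQ x)) = embQ x from σ.symm_apply_apply (embQ x)] at h
    exact h.symm

theorem mem_autC {σ : ℂ ≃ₐ[ℚ] ℂ} : σ ∈ autC ↔ ∀ x : AlgebraicClosure ℚ, σ (embQ x) = embQ x :=
  Iff.rfl

end Fermat.Agent.S42
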