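import Mathlib
import Fermat.Agent.S42.DensityDefs
import Fermat.Agent.S42.EulerProductAlt

/-!
# Primes not of degree one contribute a bounded amount (step (4) of module B1b)

For a number field `F` and real `s > 1`,
`∑_{𝔭 not of degree one} N𝔭 ^ (-s) ≤ [F : ℚ] * ∑_n n ^ (-2)`:
such a prime `𝔭` over the rational prime `p` has `N𝔭 ≥ p ^ 2`
(`eulerAlt_sq_le_absNorm_of_not_prime`), and at most `[F : ℚ]` primes lie over a given `p`
(`eulerAlt_card_le_finrank`).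

Main statements: `d2_primeIdealZetaSum_compl_degOne_le'` (explicit bound) and
`d2_primeIdealZetaSum_compl_degOne_le` (existence of a bound uniform in `s > 1`).
-/

set_option autoImplicit false

namespace Fermat.Agent.S42

open NumberField IsDedekindDomain

/-- Summation of a nonnegative summable function `g` on `ℕ` along a map `π` whose fibres (inside
the finite set `u`) have at most `d` elements: `∑ a ∈ u, g (π a) ≤ d * ∑' n, g n`. -/
theorem d2_sum_comp_le {α : Type*} (π : α → ℕ) (g : ℕ → ℝ) (hg : ∀ n, 0 ≤ g n)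
    (hsum : Summable g) (d : ℕ) (u : Finset α)
    (hd : ∀ b : ℕ, ∀ v : Finset α, v ⊆ u → (∀ a ∈ v, π a = b) → v.card ≤ d) :
    ∑ a ∈ u, g (π a) ≤ (d : ℝ) * ∑' n : ℕ, g n := by
  classical
  rw [Finset.sum_comp g π]
  calc ∑ b ∈ Finset.image π u, (Finset.filter (fun a => π a = b) u).card • g b
      ≤ ∑ b ∈ Finset.image π u, (d : ℝ) * g b := by
        refine Finset.sum_le_sum fun b _ => ?_
        rw [nsmul_eq_mul]
        refine mul_le_mul_of_nonneg_right ?_ (hg b)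
        exact_mod_cast hd b _ (Finset.filter_subset _ _) (fun a ha => (Finset.mem_filter.mp ha).2)
    _ = (d : ℝ) * ∑ b ∈ Finset.image π u, g b := by rw [Finset.mul_sum]
    _ ≤ (d : ℝ) * ∑' n : ℕ, g n :=
        mul_le_mul_of_nonneg_left (hsum.sum_le_tsum _ (fun n _ => hg n)) (Nat.cast_nonneg d)

/-- Termwise bound: if `N𝔭` is not prime and `p` is the rational prime below `𝔭`, then
`N𝔭 ^ (-s) ≤ (p ^ 2)⁻¹` for `s ≥ 1`. -/
theorem d2_term_le (F : Type*) [Field F] [NumberField F] (𝔭 : HeightOneSpectrum (𝓞 F))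
    (h : ¬ (Ideal.absNorm 𝔭.asIdeal).Prime) {s : ℝ} (hs : 1 ≤ s) :
    (Ideal.absNorm 𝔭.asIdeal : ℝ) ^ (-s) ≤
      (((Ideal.absNorm (Ideal.under ℤ 𝔭.asIdeal) : ℕ) : ℝ) ^ 2)⁻¹ := by
  have hp := eulerAlt_absNorm_under_prime F 𝔭
  have hsq := eulerAlt_sq_le_absNorm_of_not_prime F 𝔭 h
  have hsq' : ((Ideal.absNorm (Ideal.under ℤ 𝔭.asIdeal) : ℕ) : ℝ) ^ 2 ≤
      (Ideal.absNorm 𝔭.asIdeal : ℝ) := by exact_mod_cast hsq
  have h1 : (1 : ℝ) ≤ ((Ideal.absNorm (Ideal.under ℤ 𝔭.asIdeal) : ℕ) : ℝ) ^ 2 := by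
    have h2 : (1 : ℝ) ≤ ((Ideal.absNorm (Ideal.under ℤ 𝔭.asIdeal) : ℕ) : ℝ) := by
      exact_mod_cast hp.one_lt.le
    exact one_le_pow₀ h2
  calc (Ideal.absNorm 𝔭.asIdeal : ℝ) ^ (-s)
      ≤ (((Ideal.absNorm (Ideal.under ℤ 𝔭.asIdeal) : ℕ) : ℝ) ^ 2) ^ (-s) :=
        Real.rpow_le_rpow_of_nonpos (lt_of_lt_of_le zero_lt_one h1) hsq' (by linarith)
    _ ≤ (((Ideal.absNorm (Ideal.under ℤ 𝔭.asIdeal) : ℕ) : ℝ) ^ 2) ^ (-1 : ℝ) :=
        Real.rpow_le_rpow_of_exponent_le h1 (by linarith)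
    _ = (((Ideal.absNorm (Ideal.under ℤ 𝔭.asIdeal) : ℕ) : ℝ) ^ 2)⁻¹ := Real.rpow_neg_one _

/-- **Primes not of degree one**: explicit bound, uniform in `s > 1`. -/
theorem d2_primeIdealZetaSum_compl_degOne_le' (F : Type*) [Field F] [NumberField F] {s : ℝ}
    (hs : 1 < s) :
    NumberField.Set.primeIdealZetaSum (degOneSet F)ᶜ s ≤
      (Module.finrank ℚ F : ℝ) * ∑' n : ℕ, ((n : ℝ) ^ 2)⁻¹ := by
  classical
  rw [NumberField.Set.primeIdealZetaSum_def]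
  refine Real.tsum_le_of_sum_le (fun 𝔭 => Real.rpow_nonneg (Nat.cast_nonneg _) _) (fun u => ?_)
  have hsum : Summable (fun n : ℕ => ((n : ℝ) ^ 2)⁻¹) :=
    Real.summable_nat_pow_inv.mpr one_lt_two
  calc ∑ 𝔭 ∈ u, (Ideal.absNorm 𝔭.1.asIdeal : ℝ) ^ (-s)
      ≤ ∑ 𝔭 ∈ u, (fun n : ℕ => ((n : ℝ) ^ 2)⁻¹)
          ((fun 𝔮 : ((degOneSet F)ᶜ : Set (HeightOneSpectrum (𝓞 F))) =>
            Ideal.absNorm (Ideal.under ℤ 𝔮.1.asIdeal)) 𝔭) :=
        Finset.sum_le_sum fun 𝔭 _ => d2_term_le F 𝔭.1 𝔭.2 hs.le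
    _ ≤ (Module.finrank ℚ F : ℝ) * ∑' n : ℕ, ((n : ℝ) ^ 2)⁻¹ := by
        refine d2_sum_comp_le _ _ (fun n => inv_nonneg.mpr (sq_nonneg _)) hsum _ u
          (fun b v _ hb => ?_)
        rcases v.eq_empty_or_nonempty with rfl | ⟨a, ha⟩
        · simp
        · have hbp : b.Prime := hb a ha ▸ eulerAlt_absNorm_under_prime F a.1
          have hcard := eulerAlt_card_le_finrank F hbp (v.image Subtype.val) (fun 𝔮 h𝔮 => by
            obtain ⟨c, hc, rfl⟩ := Finset.mem_image.mp h𝔮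
            rw [← hb c hc]
            exact eulerAlt_natCast_absNorm_under_mem F c.1)
          rwa [Finset.card_image_of_injective _ Subtype.val_injective] at hcard

/-- **Primes not of degree one** contribute a bounded amount to `∑_𝔭 N𝔭 ^ (-s)`, uniformly in
`s > 1`. -/
theorem d2_primeIdealZetaSum_compl_degOne_le (F : Type*) [Field F] [NumberField F] :
    ∃ C : ℝ, ∀ s : ℝ, 1 < s → NumberField.Set.primeIdealZetaSum (degOneSet F)ᶜ s ≤ C :=
  ⟨_, fun _ hs => d2_primeIdealZetaSum_compl_degOne_le' F hs⟩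

end Fermat.Agent.S42
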