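import Fermat.Agent.S42.EisDefB

/-!
# Boundedness at `i∞` of the weighted Eisenstein sums of weight `12`

For a weight function `w` with `‖w v‖ ≤ 1` the sum `G w` is bounded on `{im z ≥ 2}`.
-/

set_option autoImplicit false

namespace Fermat.Agent.S42

namespace EisCharB

open UpperHalfPlane EisensteinSeries Matrix
open scoped MatrixGroups Manifold

/-- The termwise bound: a weight of norm at most one does not increase the summand. -/
theorem bdd_norm_term_le {w : (Fin 2 → ℤ) → ℂ} (hw : ∀ v, ‖w v‖ ≤ 1) (z : ℍ) (v : Fin 2 → ℤ) :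
    ‖w v * eisSummand 12 v z‖ ≤ ‖eisSummand 12 v z‖ := by
  rw [norm_mul]
  exact mul_le_of_le_one_left (norm_nonneg _) (hw v)

/-- Absolute summability of the weighted sum. -/
theorem bdd_summable_norm {w : (Fin 2 → ℤ) → ℂ} (hw : ∀ v, ‖w v‖ ≤ 1) (z : ℍ) :
    Summable fun v : Fin 2 → ℤ => ‖w v * eisSummand 12 v z‖ :=
  (summable_norm_eisSummand (by norm_num) z).of_nonneg_of_le (fun _ => norm_nonneg _)
    (bdd_norm_term_le hw z)

/-- The uniform bound on the vertical strip `|re z| ≤ 1`, `2 ≤ im z`. -/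
theorem bdd_strip {w : (Fin 2 → ℤ) → ℂ} (hw : ∀ v, ‖w v‖ ≤ 1) {z : ℍ}
    (hz : z ∈ verticalStrip 1 2) :
    ‖G w z‖ ≤ ∑' x : Fin 2 → ℤ,
      r ⟨⟨1, 2⟩, Nat.ofNat_pos⟩ ^ (-12 : ℤ) * ‖x‖ ^ (-12 : ℤ) := by
  have hk' : (2 : ℝ) < ((12 : ℤ) : ℝ) := by norm_num
  rw [G_apply]
  refine (norm_tsum_le_tsum_norm (bdd_summable_norm hw z)).trans ?_
  refine (bdd_summable_norm hw z).tsum_le_tsum ?_ ?_
  · intro x
    refine (bdd_norm_term_le hw z x).trans ?_
    simp_rw [eisSummand, norm_zpow]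
    exact_mod_cast
      summand_bound_of_mem_verticalStrip (lt_trans two_pos hk').le x two_pos hz
  · exact_mod_cast (summable_one_div_norm_rpow hk').mul_left <|
      r ⟨⟨1, 2⟩, Nat.ofNat_pos⟩ ^ (-(12 : ℤ))

/-- The automorphy factor of (the inverse of) a translation is `1`. -/
theorem bdd_denom_T_zpow_inv (m : ℤ) (z : ℍ) :
    denom ((ModularGroup.T ^ m)⁻¹ : SL(2, ℤ)) z = 1 := by
  rw [← _root_.zpow_neg, ModularGroup.denom_apply, ModularGroup.coe_T_zpow]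
  simp

/-- Weighted Eisenstein sums with weights of norm at most one are bounded at `i∞`. -/
theorem G_bounded (w : (Fin 2 → ℤ) → ℂ) (hw : ∀ v, ‖w v‖ ≤ 1) : IsBoundedAtImInfty (G w) := by
  rw [UpperHalfPlane.isBoundedAtImInfty_iff]
  refine ⟨∑' x : Fin 2 → ℤ, r ⟨⟨1, 2⟩, Nat.ofNat_pos⟩ ^ (-12 : ℤ) * ‖x‖ ^ (-12 : ℤ), 2, ?_⟩
  intro z hz
  obtain ⟨n, hn⟩ := ModularGroup_T_zpow_mem_verticalStrip z one_pos
  have hz' : ModularGroup.T ^ (((1 : ℕ) : ℤ) * n) • z ∈ verticalStrip 1 2 := by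
    have := verticalStrip_anti_right ((1 : ℕ) : ℝ) hz hn
    simpa using this
  have hG : G w z = G w ((ModularGroup.T ^ (((1 : ℕ) : ℤ) * n))⁻¹ •
      (ModularGroup.T ^ (((1 : ℕ) : ℤ) * n) • z)) := by
    rw [inv_smul_smul]
  rw [hG, G_smul, bdd_denom_T_zpow_inv, _root_.one_zpow, one_mul]
  exact bdd_strip (norm_wT_le _ hw) hz'

end EisCharB

end Fermat.Agent.S42
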