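import Fermat.Agent.S42.ADefs
import Mathlib.NumberTheory.ModularForms.EisensteinSeries.IsBoundedAtImInfty
import Mathlib.NumberTheory.ModularForms.EisensteinSeries.MDifferentiable

/-!
# Weighted Eisenstein sums of weight `12` (base file)

For a weight function `w : (Fin 2 → ℤ) → ℂ` we define
`G w τ = ∑' v, w v * (v 0 * τ + v 1) ^ (-12)` and prove its transformation behaviour under
`SL(2, ℤ)`; no summability is needed for this formal identity.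
-/

set_option autoImplicit false

namespace Fermat.Agent.S42

namespace EisCharB

open UpperHalfPlane EisensteinSeries Matrix
open scoped MatrixGroups

/-- The weighted Eisenstein sum of weight `12` with weight function `w`. -/
noncomputable def G (w : (Fin 2 → ℤ) → ℂ) (τ : ℍ) : ℂ :=
  ∑' v : Fin 2 → ℤ, w v * eisSummand 12 v τ

theorem G_apply (w : (Fin 2 → ℤ) → ℂ) (τ : ℍ) :
    G w τ = ∑' v : Fin 2 → ℤ, w v * eisSummand 12 v τ := rfl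

/-- Right multiplication by an element of `SL(2, ℤ)` as a permutation of `ℤ²`. -/
def vmEquiv (δ : SL(2, ℤ)) : (Fin 2 → ℤ) ≃ (Fin 2 → ℤ) where
  toFun v := v ᵥ* (δ : Matrix (Fin 2) (Fin 2) ℤ)
  invFun v := v ᵥ* ((δ⁻¹ : SL(2, ℤ)) : Matrix (Fin 2) (Fin 2) ℤ)
  left_inv v := by
    simp_rw [vecMul_vecMul, ← Matrix.SpecialLinearGroup.coe_mul, mul_inv_cancel,
      Matrix.SpecialLinearGroup.coe_one, vecMul_one]
  right_inv v := by
    simp_rw [vecMul_vecMul, ← Matrix.SpecialLinearGroup.coe_mul, inv_mul_cancel,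
      Matrix.SpecialLinearGroup.coe_one, vecMul_one]

theorem vmEquiv_apply (δ : SL(2, ℤ)) (v : Fin 2 → ℤ) :
    vmEquiv δ v = v ᵥ* (δ : Matrix (Fin 2) (Fin 2) ℤ) := rfl

theorem vecMul_vecMul_inv (δ : SL(2, ℤ)) (v : Fin 2 → ℤ) :
    (v ᵥ* (δ : Matrix (Fin 2) (Fin 2) ℤ)) ᵥ* ((δ⁻¹ : SL(2, ℤ)) : Matrix (Fin 2) (Fin 2) ℤ) = v :=
  (vmEquiv δ).left_inv v

theorem vecMul_inv_vecMul (δ : SL(2, ℤ)) (v : Fin 2 → ℤ) :
    (v ᵥ* ((δ⁻¹ : SL(2, ℤ)) : Matrix (Fin 2) (Fin 2) ℤ)) ᵥ* (δ : Matrix (Fin 2) (Fin 2) ℤ) = v :=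
  (vmEquiv δ).right_inv v

/-- The translated weight function `v ↦ w (v δ⁻¹)`. -/
def wT (δ : SL(2, ℤ)) (w : (Fin 2 → ℤ) → ℂ) : (Fin 2 → ℤ) → ℂ :=
  fun v => w (v ᵥ* ((δ⁻¹ : SL(2, ℤ)) : Matrix (Fin 2) (Fin 2) ℤ))

theorem wT_apply (δ : SL(2, ℤ)) (w : (Fin 2 → ℤ) → ℂ) (v : Fin 2 → ℤ) :
    wT δ w v = w (v ᵥ* ((δ⁻¹ : SL(2, ℤ)) : Matrix (Fin 2) (Fin 2) ℤ)) := rfl

theorem norm_wT_le (δ : SL(2, ℤ)) {w : (Fin 2 → ℤ) → ℂ} (hw : ∀ v, ‖w v‖ ≤ 1) (v : Fin 2 → ℤ) :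
    ‖wT δ w v‖ ≤ 1 := hw _

/-- The slash formula: `G w (δ • τ) = (c τ + d) ^ 12 * G (wT δ w) τ`. -/
theorem G_smul (w : (Fin 2 → ℤ) → ℂ) (δ : SL(2, ℤ)) (τ : ℍ) :
    G w (δ • τ) = denom δ τ ^ (12 : ℤ) * G (wT δ w) τ := by
  rw [G_apply, G_apply, ← tsum_mul_left,
    ← (vmEquiv δ).tsum_eq (fun v => denom δ τ ^ (12 : ℤ) * (wT δ w v * eisSummand 12 v τ))]
  refine tsum_congr fun v => ?_
  rw [eisSummand_SL2_apply, vmEquiv_apply, wT_apply, vecMul_vecMul_inv]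
  ring

/-- Scaling the weight function scales the sum. -/
theorem G_const_mul (c : ℂ) (w : (Fin 2 → ℤ) → ℂ) (τ : ℍ) :
    G (fun v => c * w v) τ = c * G w τ := by
  rw [G_apply, G_apply, ← tsum_mul_left]
  refine tsum_congr fun v => ?_
  ring

end EisCharB

end Fermat.Agent.S42
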