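import Fermat.Agent.S42.EisDefB

/-!
# Holomorphy of the weighted Eisenstein sums of weight `12`

For a bounded weight function `w : (Fin 2 → ℤ) → ℂ` (with `‖w v‖ ≤ 1`) the weighted Eisenstein
sum `G w τ = ∑' v, w v * (v 0 * τ + v 1) ^ (-12)` converges locally uniformly on the upper half
plane, hence is holomorphic there.  The proofs follow the ones for the unweighted Eisenstein
series of Mathlib.
-/

set_option autoImplicit false

namespace Fermat.Agent.S42

namespace EisCharB

open UpperHalfPlane EisensteinSeries Matrix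
open scoped MatrixGroups Manifold

/-- Pointwise bound of a weighted summand by the unweighted one. -/
theorem hol_norm_summand_le {w : (Fin 2 → ℤ) → ℂ} (hw : ∀ v, ‖w v‖ ≤ 1) (v : Fin 2 → ℤ)
    (z : ℍ) : ‖w v * eisSummand 12 v z‖ ≤ ‖eisSummand 12 v z‖ := by
  rw [norm_mul]
  exact mul_le_of_le_one_left (norm_nonneg _) (hw v)

/-- The weighted Eisenstein sum converges locally uniformly on `ℍ`. -/
theorem hol_tendstoLocallyUniformly (w : (Fin 2 → ℤ) → ℂ) (hw : ∀ v, ‖w v‖ ≤ 1) :
    TendstoLocallyUniformly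
      (fun (s : Finset (Fin 2 → ℤ)) ↦ (fun z : ℍ ↦ ∑ x ∈ s, w x * eisSummand 12 x z))
      (G w) Filter.atTop := by
  have hk' : (2 : ℝ) < ((12 : ℤ) : ℝ) := by norm_num
  have p_sum : Summable fun x : Fin 2 → ℤ ↦ ‖x‖ ^ (-(12 : ℤ)) :=
    mod_cast (summable_one_div_norm_rpow hk')
  rw [tendstoLocallyUniformly_iff_forall_isCompact]
  intro K hK
  obtain ⟨A, B, hB, HABK⟩ := subset_verticalStrip_of_isCompact hK
  have hG : G w = fun z : ℍ ↦ ∑' x : Fin 2 → ℤ, w x * eisSummand 12 x z := rfl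
  rw [hG]
  refine (tendstoUniformlyOn_tsum
    (hu := p_sum.mul_left <| r ⟨⟨A, B⟩, hB⟩ ^ (-((12 : ℤ) : ℝ)))
    (fun p z hz ↦ ?_)).mono HABK
  refine (hol_norm_summand_le hw p z).trans ?_
  simpa only [eisSummand, one_div, ← _root_.zpow_neg, norm_zpow, ← Real.rpow_intCast,
    Int.cast_neg] using summand_bound_of_mem_verticalStrip (k := ((12 : ℤ) : ℝ))
      (by positivity) p hB hz

/-- Variant of `hol_tendstoLocallyUniformly` for maps `ℂ → ℂ`. -/
theorem hol_tendstoLocallyUniformlyOn (w : (Fin 2 → ℤ) → ℂ) (hw : ∀ v, ‖w v‖ ≤ 1) :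
    TendstoLocallyUniformlyOn (fun (s : Finset (Fin 2 → ℤ)) ↦
      ↑ₕ(fun (z : ℍ) ↦ ∑ x ∈ s, w x * eisSummand 12 x z)) (↑ₕ(G w))
        Filter.atTop {z : ℂ | 0 < z.im} := by
  rw [← upperHalfPlaneSet, ← range_coe, ← Set.image_univ]
  apply TendstoLocallyUniformlyOn.comp (s := ⊤) _ _ _ (OpenPartialHomeomorph.continuousOn_symm _)
  · simp only [Set.top_eq_univ, tendstoLocallyUniformlyOn_univ]
    exact hol_tendstoLocallyUniformly w hw
  · simp only [Topology.IsOpenEmbedding.toOpenPartialHomeomorph_target, Set.top_eq_univ,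
      Set.mapsTo_range_iff, Set.mem_univ, forall_const]

/-- Each finite partial sum of the weighted Eisenstein sum is holomorphic on the upper half
plane (as a function on `ℂ`). -/
theorem hol_partial_differentiableOn (w : (Fin 2 → ℤ) → ℂ) (s : Finset (Fin 2 → ℤ)) :
    DifferentiableOn ℂ (↑ₕ(fun (z : ℍ) ↦ ∑ x ∈ s, w x * eisSummand 12 x z))
      {z : ℂ | 0 < z.im} := by
  have h : DifferentiableOn ℂ (fun z : ℂ ↦ ∑ x ∈ s, w x * (↑ₕ(eisSummand 12 x)) z)
      {z : ℂ | 0 < z.im} :=
    DifferentiableOn.fun_sum fun x _ ↦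
      (eisSummand_extension_differentiableOn 12 x).const_mul (w x)
  refine h.congr fun z _ ↦ ?_
  simp only [Function.comp_apply]

/-- The weighted Eisenstein sum of weight `12` with a bounded weight function is holomorphic on
the upper half plane. -/
theorem G_mdiff (w : (Fin 2 → ℤ) → ℂ) (hw : ∀ v, ‖w v‖ ≤ 1) : MDiff (G w) := by
  intro τ
  suffices DifferentiableAt ℂ (↑ₕ(G w)) τ.1 by
    have h := MDifferentiableAt.comp τ (DifferentiableAt.mdifferentiableAt this)
      τ.mdifferentiable_coe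
    have hfun : (↑ₕ(G w)) ∘ ((↑) : ℍ → ℂ) = G w := funext fun z ↦ comp_ofComplex (G w) z
    rwa [hfun] at h
  refine DifferentiableOn.differentiableAt ?_ (isOpen_upperHalfPlaneSet.mem_nhds τ.2)
  exact (hol_tendstoLocallyUniformlyOn w hw).differentiableOn
    (Filter.Eventually.of_forall fun s ↦ hol_partial_differentiableOn w s)
    isOpen_upperHalfPlaneSet

end EisCharB

end Fermat.Agent.S42
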