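import Fermat.Agent.S42.EisDefB
import Mathlib.Analysis.Normed.Group.Tannery

/-!
# Non-vanishing of weighted Eisenstein sums of weight `12`

If the weight function `w` is bounded by `1`, takes the value `1` at `(0, 1)` and `(0, -1)` and
vanishes at all other vectors `(0, d)`, then `G w (i (n + 1)) → 2` as `n → ∞` (dominated
convergence); in particular `G w` is not identically zero.
-/

set_option autoImplicit false

namespace Fermat.Agent.S42

namespace EisCharB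

open UpperHalfPlane EisensteinSeries Matrix
open scoped MatrixGroups Manifold

/-- The point `i (n + 1)` of the upper half plane. -/
noncomputable def lim_pt (n : ℕ) : ℍ := ⟨⟨0, n + 1⟩, by positivity⟩

theorem lim_pt_coe (n : ℕ) : ((lim_pt n : ℍ) : ℂ) = ⟨0, n + 1⟩ := rfl

theorem lim_pt_re (n : ℕ) : (lim_pt n).re = 0 := rfl

theorem lim_pt_im (n : ℕ) : (lim_pt n).im = n + 1 := rfl

theorem lim_pt_mem (n : ℕ) : lim_pt n ∈ verticalStrip 0 1 := by
  rw [mem_verticalStrip_iff, lim_pt_re, lim_pt_im]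
  refine ⟨by simp, ?_⟩
  have : (0 : ℝ) ≤ n := Nat.cast_nonneg n
  linarith

/-- The dominating function is summable. -/
theorem lim_summable_bound :
    Summable fun v : Fin 2 → ℤ => r ⟨⟨0, 1⟩, one_pos⟩ ^ (-12 : ℤ) * ‖v‖ ^ (-12 : ℤ) := by
  have hk' : (2 : ℝ) < ((12 : ℤ) : ℝ) := by norm_num
  exact_mod_cast (summable_one_div_norm_rpow hk').mul_left <| r ⟨⟨0, 1⟩, one_pos⟩ ^ (-(12 : ℤ))

/-- The uniform bound for the summands along the points `i (n + 1)`. -/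
theorem lim_norm_le (w : (Fin 2 → ℤ) → ℂ) (hw : ∀ v, ‖w v‖ ≤ 1) (n : ℕ) (v : Fin 2 → ℤ) :
    ‖w v * eisSummand 12 v (lim_pt n)‖ ≤ r ⟨⟨0, 1⟩, one_pos⟩ ^ (-12 : ℤ) * ‖v‖ ^ (-12 : ℤ) := by
  rw [norm_mul]
  refine (mul_le_of_le_one_left (norm_nonneg _) (hw v)).trans ?_
  simp_rw [eisSummand, norm_zpow]
  have hk : (0 : ℝ) ≤ ((12 : ℤ) : ℝ) := by norm_num
  exact_mod_cast summand_bound_of_mem_verticalStrip hk v one_pos (lim_pt_mem n)

/-- If `v 0 ≠ 0`, the linear form `v 0 * τ + v 1` is large at the points `i (n + 1)`. -/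
theorem lim_norm_ge (v : Fin 2 → ℤ) (h : v 0 ≠ 0) (n : ℕ) :
    (n : ℝ) + 1 ≤ ‖(v 0 : ℂ) * (lim_pt n : ℂ) + (v 1 : ℂ)‖ := by
  have h1 : ((v 0 : ℂ) * (lim_pt n : ℂ) + (v 1 : ℂ)).im = (v 0 : ℝ) * ((n : ℝ) + 1) := by
    simp [lim_pt_coe]
  have h2 : (1 : ℝ) ≤ |(v 0 : ℝ)| := by
    exact_mod_cast Int.one_le_abs h
  have h3 : (0 : ℝ) ≤ (n : ℝ) + 1 := by positivity
  calc (n : ℝ) + 1 ≤ |(v 0 : ℝ)| * ((n : ℝ) + 1) := le_mul_of_one_le_left h3 h2
    _ = |(v 0 : ℝ) * ((n : ℝ) + 1)| := by rw [abs_mul, abs_of_nonneg h3]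
    _ = |((v 0 : ℂ) * (lim_pt n : ℂ) + (v 1 : ℂ)).im| := by rw [h1]
    _ ≤ _ := Complex.abs_im_le_norm _

/-- The termwise limit of the summands along the points `i (n + 1)`. -/
theorem lim_tendsto_term (w : (Fin 2 → ℤ) → ℂ) (v : Fin 2 → ℤ) :
    Filter.Tendsto (fun n : ℕ => w v * eisSummand 12 v (lim_pt n)) Filter.atTop
      (nhds (if v 0 = 0 then w v * ((v 1 : ℂ)) ^ (-12 : ℤ) else 0)) := by
  split_ifs with h
  · have hc : ∀ n : ℕ, w v * eisSummand 12 v (lim_pt n) = w v * ((v 1 : ℂ)) ^ (-12 : ℤ) := by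
      intro n
      simp [eisSummand, h]
    simp_rw [hc]
    exact tendsto_const_nhds
  · rw [← mul_zero (w v)]
    refine Filter.Tendsto.const_mul _ ?_
    refine squeeze_zero_norm (a := fun n : ℕ => (((n : ℝ) + 1) ^ 12)⁻¹) (fun n => ?_) ?_
    · have hge := lim_norm_ge v h n
      have h3 : (0 : ℝ) < (n : ℝ) + 1 := by positivity
      rw [eisSummand, norm_zpow, _root_.zpow_neg]
      have hpow : ((n : ℝ) + 1) ^ 12 ≤ ‖(v 0 : ℂ) * (lim_pt n : ℂ) + (v 1 : ℂ)‖ ^ (12 : ℤ) := by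
        exact_mod_cast pow_le_pow_left₀ h3.le hge 12
      exact inv_anti₀ (by positivity) hpow
    · have h1 : Filter.Tendsto (fun n : ℕ => (n : ℝ) + 1) Filter.atTop Filter.atTop :=
        Filter.tendsto_atTop_add_const_right _ _ tendsto_natCast_atTop_atTop
      exact tendsto_inv_atTop_zero.comp
        ((Filter.tendsto_pow_atTop (by norm_num : (12 : ℕ) ≠ 0)).comp h1)

/-- The sum of the termwise limits. -/
theorem lim_tsum (w : (Fin 2 → ℤ) → ℂ)
    (h0 : ∀ v : Fin 2 → ℤ, v 0 = 0 → v 1 ≠ 1 → v 1 ≠ -1 → w v = 0)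
    (h1 : w ![0, 1] = 1) (h2 : w ![0, -1] = 1) :
    ∑' v : Fin 2 → ℤ, (if v 0 = 0 then w v * ((v 1 : ℂ)) ^ (-12 : ℤ) else 0) = 2 := by
  have hne : (![0, 1] : Fin 2 → ℤ) ≠ ![0, -1] := by
    intro h
    have := congrFun h 1
    simp at this
  rw [tsum_eq_sum (s := {![0, 1], ![0, -1]})]
  · rw [Finset.sum_pair hne]
    simp [h1, h2]
    norm_num
  · intro v hv
    simp only [Finset.mem_insert, Finset.mem_singleton, not_or] at hv
    split_ifs with h
    · rw [h0 v h ?_ ?_, zero_mul]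
      · intro h'
        apply hv.1
        ext i
        fin_cases i <;> simp [h, h']
      · intro h'
        apply hv.2
        ext i
        fin_cases i <;> simp [h, h']
    · rfl

/-- The values `G w (i (n + 1))` tend to `2`. -/
theorem lim_tendsto (w : (Fin 2 → ℤ) → ℂ) (hw : ∀ v, ‖w v‖ ≤ 1)
    (h0 : ∀ v : Fin 2 → ℤ, v 0 = 0 → v 1 ≠ 1 → v 1 ≠ -1 → w v = 0)
    (h1 : w ![0, 1] = 1) (h2 : w ![0, -1] = 1) :
    Filter.Tendsto (fun n : ℕ => G w (lim_pt n)) Filter.atTop (nhds 2) := by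
  have key := tendsto_tsum_of_dominated_convergence (𝓕 := Filter.atTop)
    (f := fun (n : ℕ) (v : Fin 2 → ℤ) => w v * eisSummand 12 v (lim_pt n))
    (g := fun v : Fin 2 → ℤ => if v 0 = 0 then w v * ((v 1 : ℂ)) ^ (-12 : ℤ) else 0)
    lim_summable_bound (fun v => lim_tendsto_term w v)
    (Filter.Eventually.of_forall fun n v => lim_norm_le w hw n v)
  rw [lim_tsum w h0 h1 h2] at key
  exact key

/-- A weighted Eisenstein sum whose weight function is bounded by `1`, equals `1` at `(0, ±1)`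
and vanishes at the other vectors `(0, d)` is not identically zero. -/
theorem G_ne_zero (w : (Fin 2 → ℤ) → ℂ) (hw : ∀ v, ‖w v‖ ≤ 1)
    (h0 : ∀ v : Fin 2 → ℤ, v 0 = 0 → v 1 ≠ 1 → v 1 ≠ -1 → w v = 0)
    (h1 : w ![0, 1] = 1) (h2 : w ![0, -1] = 1) : ∃ τ : ℍ, G w τ ≠ 0 := by
  obtain ⟨n, hn⟩ := ((lim_tendsto w hw h0 h1 h2).eventually
    (isOpen_ne.mem_nhds (two_ne_zero : (2 : ℂ) ≠ 0))).exists
  exact ⟨lim_pt n, hn⟩

end EisCharB

end Fermat.Agent.S42
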