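import Fermat.Agent.S42.ADefs

/-!
Weighted Eisenstein sums of weight `12` over the full lattice `ℤ²`, with bounded weights:
holomorphy, boundedness at `i∞`, behaviour under `SL(2, ℤ)` and the limit along the imaginary
axis.
-/

set_option autoImplicit false

namespace Fermat.Agent.S42

namespace EisSum

open UpperHalfPlane EisensteinSeries Matrix Filter Topology ModularForm
open scoped MatrixGroups Manifold

/-- The weighted Eisenstein sum of weight `12`. -/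
noncomputable def G (w : (Fin 2 → ℤ) → ℂ) (z : ℍ) : ℂ :=
  ∑' v : Fin 2 → ℤ, w v * eisSummand 12 v z

theorem coe_mul_inv (A : SL(2, ℤ)) :
    (A : Matrix (Fin 2) (Fin 2) ℤ) * ((A⁻¹ : SL(2, ℤ)) : Matrix (Fin 2) (Fin 2) ℤ) = 1 := by
  have h := congrArg (fun B : SL(2, ℤ) => (B : Matrix (Fin 2) (Fin 2) ℤ)) (mul_inv_cancel A)
  exact h

theorem coe_inv_mul (A : SL(2, ℤ)) :
    ((A⁻¹ : SL(2, ℤ)) : Matrix (Fin 2) (Fin 2) ℤ) * (A : Matrix (Fin 2) (Fin 2) ℤ) = 1 := by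
  have h := congrArg (fun B : SL(2, ℤ) => (B : Matrix (Fin 2) (Fin 2) ℤ)) (inv_mul_cancel A)
  exact h

theorem vecMul_inv_vecMul (A : SL(2, ℤ)) (v : Fin 2 → ℤ) :
    (v ᵥ* (A : Matrix (Fin 2) (Fin 2) ℤ)) ᵥ* ((A⁻¹ : SL(2, ℤ)) : Matrix (Fin 2) (Fin 2) ℤ) = v := by
  rw [vecMul_vecMul, coe_mul_inv, vecMul_one]

theorem vecMul_vecMul_inv (A : SL(2, ℤ)) (v : Fin 2 → ℤ) :
    (v ᵥ* ((A⁻¹ : SL(2, ℤ)) : Matrix (Fin 2) (Fin 2) ℤ)) ᵥ* (A : Matrix (Fin 2) (Fin 2) ℤ) = v := by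
  rw [vecMul_vecMul, coe_inv_mul, vecMul_one]

/-- Right multiplication by an element of `SL(2, ℤ)` as a bijection of `ℤ²`. -/
def vecMulEquiv (A : SL(2, ℤ)) : (Fin 2 → ℤ) ≃ (Fin 2 → ℤ) where
  toFun v := v ᵥ* (A : Matrix (Fin 2) (Fin 2) ℤ)
  invFun v := v ᵥ* ((A⁻¹ : SL(2, ℤ)) : Matrix (Fin 2) (Fin 2) ℤ)
  left_inv v := vecMul_inv_vecMul A v
  right_inv v := vecMul_vecMul_inv A v

theorem vecMulEquiv_apply (A : SL(2, ℤ)) (v : Fin 2 → ℤ) :
    vecMulEquiv A v = v ᵥ* (A : Matrix (Fin 2) (Fin 2) ℤ) := rfl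

/-- Behaviour of the weighted sum under `SL(2, ℤ)`. -/
theorem G_smul (w : (Fin 2 → ℤ) → ℂ) (A : SL(2, ℤ)) (z : ℍ) :
    G w (A • z) = denom A z ^ (12 : ℤ) *
      G (fun v => w (v ᵥ* ((A⁻¹ : SL(2, ℤ)) : Matrix (Fin 2) (Fin 2) ℤ))) z := by
  unfold G
  rw [← tsum_mul_left, ← (vecMulEquiv A).tsum_eq (fun u => denom A z ^ (12 : ℤ) *
    (w (u ᵥ* ((A⁻¹ : SL(2, ℤ)) : Matrix (Fin 2) (Fin 2) ℤ)) * eisSummand 12 u z))]
  refine tsum_congr fun v => ?_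
  rw [vecMulEquiv_apply, vecMul_inv_vecMul, eisSummand_SL2_apply]
  ring

/-- Termwise bound on a vertical strip. -/
theorem norm_term_le {w : (Fin 2 → ℤ) → ℂ} (hw : ∀ v, ‖w v‖ ≤ 1) {A B : ℝ} (hB : 0 < B)
    {z : ℍ} (hz : z ∈ verticalStrip A B) (v : Fin 2 → ℤ) :
    ‖w v * eisSummand 12 v z‖ ≤ r ⟨⟨A, B⟩, hB⟩ ^ (-12 : ℝ) * ‖v‖ ^ (-12 : ℝ) := by
  have h1 := summand_bound_of_mem_verticalStrip (k := 12) (by norm_num) v hB hz
  have h2 : ‖eisSummand 12 v z‖ = ‖(v 0 : ℂ) * (z : ℂ) + v 1‖ ^ (-12 : ℝ) := by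
    rw [eisSummand, norm_zpow, ← Real.rpow_intCast]
    norm_num
  rw [norm_mul, h2]
  calc ‖w v‖ * ‖(v 0 : ℂ) * (z : ℂ) + v 1‖ ^ (-12 : ℝ)
      ≤ 1 * ‖(v 0 : ℂ) * (z : ℂ) + v 1‖ ^ (-12 : ℝ) := by
        gcongr
        exact hw v
    _ ≤ _ := by rw [one_mul]; exact h1

theorem summable_bound (c : ℝ) : Summable fun v : Fin 2 → ℤ => c * ‖v‖ ^ (-12 : ℝ) :=
  (summable_one_div_norm_rpow (k := 12) (by norm_num)).mul_left c

theorem summable_term {w : (Fin 2 → ℤ) → ℂ} (hw : ∀ v, ‖w v‖ ≤ 1) (z : ℍ) :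
    Summable fun v : Fin 2 → ℤ => w v * eisSummand 12 v z := by
  have hz : z ∈ verticalStrip |z.re| z.im := ⟨le_rfl, le_rfl⟩
  exact Summable.of_norm_bounded (summable_bound _) (norm_term_le hw z.im_pos hz)

theorem norm_G_le {w : (Fin 2 → ℤ) → ℂ} (hw : ∀ v, ‖w v‖ ≤ 1) {A B : ℝ} (hB : 0 < B)
    {z : ℍ} (hz : z ∈ verticalStrip A B) :
    ‖G w z‖ ≤ ∑' v : Fin 2 → ℤ, r ⟨⟨A, B⟩, hB⟩ ^ (-12 : ℝ) * ‖v‖ ^ (-12 : ℝ) :=
  tsum_of_norm_bounded (summable_bound _).hasSum (norm_term_le hw hB hz)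

theorem G_tendstoLocallyUniformly {w : (Fin 2 → ℤ) → ℂ} (hw : ∀ v, ‖w v‖ ≤ 1) :
    TendstoLocallyUniformly
      (fun (s : Finset (Fin 2 → ℤ)) (z : ℍ) => ∑ v ∈ s, w v * eisSummand 12 v z) (G w) atTop := by
  rw [tendstoLocallyUniformly_iff_forall_isCompact]
  intro K hK
  obtain ⟨A, B, hB, HABK⟩ := subset_verticalStrip_of_isCompact hK
  exact (tendstoUniformlyOn_tsum (summable_bound (r ⟨⟨A, B⟩, hB⟩ ^ (-12 : ℝ)))
    (fun v z hz => norm_term_le hw hB hz v)).mono HABK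

/-- The weighted sum is holomorphic. -/
theorem G_mdiff {w : (Fin 2 → ℤ) → ℂ} (hw : ∀ v, ‖w v‖ ≤ 1) : MDiff (G w) := by
  rw [UpperHalfPlane.mdifferentiable_iff]
  have hloc : TendstoLocallyUniformlyOn
      (fun (s : Finset (Fin 2 → ℤ)) =>
        (fun z : ℍ => ∑ v ∈ s, w v * eisSummand 12 v z) ∘ ofComplex)
      (G w ∘ ofComplex) atTop {z : ℂ | 0 < z.im} := by
    rw [← upperHalfPlaneSet, ← range_coe, ← Set.image_univ]
    apply TendstoLocallyUniformlyOn.comp (s := ⊤) _ _ _ (OpenPartialHomeomorph.continuousOn_symm _)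
    · simp only [Set.top_eq_univ, tendstoLocallyUniformlyOn_univ]
      exact G_tendstoLocallyUniformly hw
    · simp only [IsOpenEmbedding.toOpenPartialHomeomorph_target, Set.top_eq_univ,
        Set.mapsTo_range_iff, Set.mem_univ, forall_const]
  refine hloc.differentiableOn (Eventually.of_forall fun s => ?_) isOpen_upperHalfPlaneSet
  have hs : ((fun z : ℍ => ∑ v ∈ s, w v * eisSummand 12 v z) ∘ ofComplex) =
      fun x : ℂ => ∑ v ∈ s, w v * ((eisSummand 12 v) ∘ ofComplex) x := by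
    funext x
    simp
  rw [hs]
  exact DifferentiableOn.fun_sum fun v _ =>
    (eisSummand_extension_differentiableOn 12 v).const_mul (w v)

theorem denom_T_zpow (n : ℤ) (z : ℍ) : denom (ModularGroup.T ^ n : SL(2, ℤ)) z = 1 := by
  rw [ModularGroup.denom_apply]
  simp [ModularGroup.coe_T_zpow]

/-- The weighted sum is bounded at `i∞`. -/
theorem G_isBoundedAtImInfty {w : (Fin 2 → ℤ) → ℂ} (hw : ∀ v, ‖w v‖ ≤ 1) :
    IsBoundedAtImInfty (G w) := by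
  rw [UpperHalfPlane.isBoundedAtImInfty_iff]
  refine ⟨∑' v : Fin 2 → ℤ, r ⟨⟨((1 : ℕ) : ℝ), 2⟩, two_pos⟩ ^ (-12 : ℝ) * ‖v‖ ^ (-12 : ℝ), 2,
    fun z hz => ?_⟩
  obtain ⟨n, hn⟩ := ModularGroup_T_zpow_mem_verticalStrip z (N := 1) one_pos
  have h1 := G_smul (fun v => w (v ᵥ* ((ModularGroup.T ^ (((1 : ℕ) : ℤ) * n) : SL(2, ℤ)) :
    Matrix (Fin 2) (Fin 2) ℤ))) (ModularGroup.T ^ (((1 : ℕ) : ℤ) * n)) z
  simp only [vecMul_vecMul_inv] at h1
  rw [denom_T_zpow, _root_.one_zpow, one_mul] at h1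
  rw [← h1]
  exact norm_G_le (fun v => hw _) two_pos (verticalStrip_anti_right _ hz hn)

/-- The points `(n + 1) i` of the upper half plane. -/
noncomputable def pt (n : ℕ) : ℍ := ⟨⟨0, (n : ℝ) + 1⟩, by
  show (0 : ℝ) < (n : ℝ) + 1
  positivity⟩

theorem pt_re (n : ℕ) : (pt n).re = 0 := rfl

theorem pt_im (n : ℕ) : (pt n).im = (n : ℝ) + 1 := rfl

theorem pt_mem (n : ℕ) : pt n ∈ verticalStrip 1 1 := by
  refine ⟨?_, ?_⟩
  · rw [pt_re]; simp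
  · rw [pt_im]; linarith [Nat.cast_nonneg (α := ℝ) n]

theorem tendsto_eisSummand_pt (v : Fin 2 → ℤ) (hv : v 0 ≠ 0) :
    Tendsto (fun n : ℕ => eisSummand 12 v (pt n)) atTop (𝓝 0) := by
  rw [tendsto_zero_iff_norm_tendsto_zero]
  refine squeeze_zero (fun n => norm_nonneg _) (fun n => ?_)
    tendsto_one_div_add_atTop_nhds_zero_nat
  have hn : (0 : ℝ) < (n : ℝ) + 1 := by positivity
  have hx : (n : ℝ) + 1 ≤ ‖(v 0 : ℂ) * ((pt n : ℍ) : ℂ) + (v 1 : ℂ)‖ := by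
    have him : ((v 0 : ℂ) * ((pt n : ℍ) : ℂ) + (v 1 : ℂ)).im = (v 0 : ℝ) * ((n : ℝ) + 1) := by
      have : ((pt n : ℍ) : ℂ) = ⟨0, (n : ℝ) + 1⟩ := rfl
      simp [this]
    have h1 : (1 : ℝ) ≤ |(v 0 : ℝ)| := by
      have : (1 : ℤ) ≤ |v 0| := Int.one_le_abs hv
      exact_mod_cast this
    calc (n : ℝ) + 1 ≤ |(v 0 : ℝ)| * ((n : ℝ) + 1) := le_mul_of_one_le_left hn.le h1
      _ = |((v 0 : ℂ) * ((pt n : ℍ) : ℂ) + (v 1 : ℂ)).im| := by
          rw [him, abs_mul, abs_of_pos hn]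
      _ ≤ _ := Complex.abs_im_le_norm _
  have hx1 : (1 : ℝ) ≤ ‖(v 0 : ℂ) * ((pt n : ℍ) : ℂ) + (v 1 : ℂ)‖ := by
    linarith [Nat.cast_nonneg (α := ℝ) n]
  rw [eisSummand, norm_zpow, _root_.zpow_neg, one_div]
  apply inv_anti₀ hn
  calc (n : ℝ) + 1 ≤ ‖(v 0 : ℂ) * ((pt n : ℍ) : ℂ) + (v 1 : ℂ)‖ := hx
    _ ≤ ‖(v 0 : ℂ) * ((pt n : ℍ) : ℂ) + (v 1 : ℂ)‖ ^ (12 : ℤ) := by
        have := le_self_pow₀ hx1 (by norm_num : (12 : ℕ) ≠ 0)
        exact_mod_cast this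

/-- The limit of the weighted sum along the imaginary axis. -/
theorem tendsto_G_pt {w : (Fin 2 → ℤ) → ℂ} (hw : ∀ v, ‖w v‖ ≤ 1) :
    Tendsto (fun n : ℕ => G w (pt n)) atTop
      (𝓝 (∑' v : Fin 2 → ℤ, if v 0 = 0 then w v * eisSummand 12 v (pt 0) else 0)) := by
  unfold G
  refine tendsto_tsum_of_dominated_convergence
    (summable_bound (r ⟨⟨1, 1⟩, one_pos⟩ ^ (-12 : ℝ))) (fun v => ?_)
    (Eventually.of_forall fun n v => norm_term_le hw one_pos (pt_mem n) v)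
  by_cases hv : v 0 = 0
  · have hc : ∀ n, eisSummand 12 v (pt n) = eisSummand 12 v (pt 0) := by
      intro n
      simp [eisSummand, hv]
    simp only [hv, if_true, hc]
    exact tendsto_const_nhds
  · simp only [hv, if_false]
    have := (tendsto_eisSummand_pt v hv).const_mul (w v)
    simpa using this

/-- The weighted sum does not vanish identically when the weights on the vectors `(0, d)` are
`1` for `d = ± 1` and `0` otherwise. -/
theorem exists_G_ne_zero {w : (Fin 2 → ℤ) → ℂ} (hw : ∀ v, ‖w v‖ ≤ 1)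
    (h1 : w ![0, 1] = 1) (h2 : w ![0, -1] = 1)
    (h0 : ∀ v : Fin 2 → ℤ, v 0 = 0 → v 1 ≠ 1 → v 1 ≠ -1 → w v = 0) :
    ∃ z : ℍ, G w z ≠ 0 := by
  by_contra hcon
  simp only [not_exists, not_not] at hcon
  have hlim := tendsto_G_pt hw
  simp only [hcon] at hlim
  have hL : (∑' v : Fin 2 → ℤ, if v 0 = 0 then w v * eisSummand 12 v (pt 0) else 0) = 2 := by
    rw [tsum_eq_sum (s := {![0, 1], ![0, -1]})]
    · rw [Finset.sum_pair (by decide)]
      simp [h1, h2, eisSummand]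
      norm_num
    · intro v hv
      simp only [Finset.mem_insert, Finset.mem_singleton, not_or] at hv
      by_cases hv0 : v 0 = 0
      · rw [if_pos hv0, h0 v hv0, zero_mul]
        · intro h
          apply hv.1
          ext i
          fin_cases i <;> simp [hv0, h]
        · intro h
          apply hv.2
          ext i
          fin_cases i <;> simp [hv0, h]
      · rw [if_neg hv0]
  rw [hL] at hlim
  have := tendsto_nhds_unique hlim tendsto_const_nhds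
  norm_num at this

end EisSum

end Fermat.Agent.S42
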