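import Fermat.Agent.S42.EisDefB

/-!
# The weight function of the Eisenstein series with character

For a character `χ` of `Γ₀(N)` which is trivial on the elements of trace `±2` (and of norm one)
we construct the weight function `w : ℤ² → ℂ` supported on the bottom rows of `Γ₀(N)` with
`w (bottom row of γ) = χ(γ)⁻¹`.
-/

set_option autoImplicit false

namespace Fermat.Agent.S42

namespace EisCharB

open UpperHalfPlane Matrix CongruenceSubgroup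
open scoped MatrixGroups

/-- The bottom row of an element of `SL(2, ℤ)`. -/
def wt_row (g : SL(2, ℤ)) : Fin 2 → ℤ := (g : Matrix (Fin 2) (Fin 2) ℤ) 1

theorem wt_row_mul (g h : SL(2, ℤ)) :
    wt_row (g * h) = wt_row g ᵥ* (h : Matrix (Fin 2) (Fin 2) ℤ) := by
  unfold wt_row
  rw [Matrix.SpecialLinearGroup.coe_mul, Matrix.mul_apply_eq_vecMul]

theorem wt_row_one : wt_row 1 = ![0, 1] := by
  funext j
  fin_cases j <;> simp [wt_row]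

theorem wt_row_neg_one : wt_row (-1) = ![0, -1] := by
  funext j
  fin_cases j <;> simp [wt_row]

theorem wt_neg_one_mem (N : ℕ) : (-1 : SL(2, ℤ)) ∈ Gamma0 N := by
  rw [Gamma0_mem]
  simp

theorem wt_trace_neg_one :
    (((-1 : SL(2, ℤ)) : SL(2, ℤ)) : Matrix (Fin 2) (Fin 2) ℤ).trace = -2 := by
  rw [Matrix.trace_fin_two]
  simp

theorem wt_trace_of_row (g : SL(2, ℤ)) (h : wt_row g = ![0, 1]) :
    (g : Matrix (Fin 2) (Fin 2) ℤ).trace = 2 := by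
  have h0 : (g : Matrix (Fin 2) (Fin 2) ℤ) 1 0 = 0 := congrFun h 0
  have h1 : (g : Matrix (Fin 2) (Fin 2) ℤ) 1 1 = 1 := congrFun h 1
  have hd := Matrix.SpecialLinearGroup.det_coe g
  rw [Matrix.det_fin_two, h0, h1] at hd
  rw [Matrix.trace_fin_two, h1]
  linarith

/-- An element of `SL(2, ℤ)` whose bottom row is `(0, d)` has `d = ±1`. -/
theorem wt_row_zero (g : SL(2, ℤ)) (h0 : wt_row g 0 = 0) : wt_row g 1 = 1 ∨ wt_row g 1 = -1 := by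
  have h0' : (g : Matrix (Fin 2) (Fin 2) ℤ) 1 0 = 0 := h0
  have hd := Matrix.SpecialLinearGroup.det_coe g
  rw [Matrix.det_fin_two, h0', mul_zero, sub_zero, mul_comm] at hd
  exact Int.eq_one_or_neg_one_of_mul_eq_one hd

/-- The character only depends on the bottom row. -/
theorem wt_chi_eq (N : ℕ) (χ : ↥(CongruenceSubgroup.Gamma0 N) →* ℂˣ)
    (hcusp : ∀ γ : ↥(CongruenceSubgroup.Gamma0 N),
      ((γ : SL(2, ℤ)) : Matrix (Fin 2) (Fin 2) ℤ).trace ^ 2 ≤ 4 → χ γ = 1)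
    (γ γ' : ↥(CongruenceSubgroup.Gamma0 N))
    (h : wt_row (γ : SL(2, ℤ)) = wt_row (γ' : SL(2, ℤ))) : χ γ = χ γ' := by
  have hg : wt_row ((γ' * γ⁻¹ : ↥(CongruenceSubgroup.Gamma0 N)) : SL(2, ℤ)) = ![0, 1] := by
    rw [Subgroup.coe_mul, wt_row_mul, ← h, ← wt_row_mul, Subgroup.coe_inv, mul_inv_cancel,
      wt_row_one]
  have h1 := hcusp (γ' * γ⁻¹) (by rw [wt_trace_of_row _ hg]; norm_num)
  rw [map_mul, map_inv, mul_inv_eq_one] at h1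
  exact h1.symm

open Classical in
/-- The weight function attached to a character of `Γ₀(N)`. -/
noncomputable def wt_w (N : ℕ) (χ : ↥(CongruenceSubgroup.Gamma0 N) →* ℂˣ) (v : Fin 2 → ℤ) : ℂ :=
  if h : ∃ γ : ↥(CongruenceSubgroup.Gamma0 N), wt_row (γ : SL(2, ℤ)) = v then
    (((χ h.choose)⁻¹ : ℂˣ) : ℂ) else 0

theorem wt_w_row (N : ℕ) (χ : ↥(CongruenceSubgroup.Gamma0 N) →* ℂˣ)
    (hcusp : ∀ γ : ↥(CongruenceSubgroup.Gamma0 N),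
      ((γ : SL(2, ℤ)) : Matrix (Fin 2) (Fin 2) ℤ).trace ^ 2 ≤ 4 → χ γ = 1)
    (γ : ↥(CongruenceSubgroup.Gamma0 N)) :
    wt_w N χ (wt_row (γ : SL(2, ℤ))) = (((χ γ)⁻¹ : ℂˣ) : ℂ) := by
  have h : ∃ γ' : ↥(CongruenceSubgroup.Gamma0 N), wt_row (γ' : SL(2, ℤ)) = wt_row (γ : SL(2, ℤ)) :=
    ⟨γ, rfl⟩
  rw [wt_w, dif_pos h, wt_chi_eq N χ hcusp _ _ h.choose_spec]

theorem wt_w_of_not (N : ℕ) (χ : ↥(CongruenceSubgroup.Gamma0 N) →* ℂˣ) (v : Fin 2 → ℤ)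
    (h : ¬ ∃ γ : ↥(CongruenceSubgroup.Gamma0 N), wt_row (γ : SL(2, ℤ)) = v) :
    wt_w N χ v = 0 := by
  rw [wt_w, dif_neg h]

theorem exists_weight (N : ℕ) (χ : ↥(CongruenceSubgroup.Gamma0 N) →* ℂˣ)
    (hnorm : ∀ γ, ‖((χ γ : ℂˣ) : ℂ)‖ = 1)
    (hcusp : ∀ γ : ↥(CongruenceSubgroup.Gamma0 N),
      ((γ : SL(2, ℤ)) : Matrix (Fin 2) (Fin 2) ℤ).trace ^ 2 ≤ 4 → χ γ = 1) :
    ∃ w : (Fin 2 → ℤ) → ℂ, (∀ v, ‖w v‖ ≤ 1) ∧
      (∀ (γ : ↥(CongruenceSubgroup.Gamma0 N)) (v : Fin 2 → ℤ),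
        w (v ᵥ* ((γ : SL(2, ℤ)) : Matrix (Fin 2) (Fin 2) ℤ)) = (((χ γ)⁻¹ : ℂˣ) : ℂ) * w v) ∧
      w ![0, 1] = 1 ∧ w ![0, -1] = 1 ∧
      (∀ v : Fin 2 → ℤ, v 0 = 0 → v 1 ≠ 1 → v 1 ≠ -1 → w v = 0) := by
  refine ⟨wt_w N χ, ?_, ?_, ?_, ?_, ?_⟩
  · intro v
    by_cases h : ∃ γ : ↥(CongruenceSubgroup.Gamma0 N), wt_row (γ : SL(2, ℤ)) = v
    · obtain ⟨γ, rfl⟩ := h
      rw [wt_w_row N χ hcusp, Units.val_inv_eq_inv_val, norm_inv, hnorm, inv_one]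
    · rw [wt_w_of_not N χ v h, norm_zero]
      exact zero_le_one
  · intro γ v
    by_cases h : ∃ γ₁ : ↥(CongruenceSubgroup.Gamma0 N), wt_row (γ₁ : SL(2, ℤ)) = v
    · obtain ⟨γ₁, rfl⟩ := h
      rw [← wt_row_mul, ← Subgroup.coe_mul, wt_w_row N χ hcusp, wt_w_row N χ hcusp, map_mul,
        mul_inv, Units.val_mul, mul_comm]
    · have h' : ¬ ∃ γ₂ : ↥(CongruenceSubgroup.Gamma0 N),
          wt_row (γ₂ : SL(2, ℤ)) = v ᵥ* ((γ : SL(2, ℤ)) : Matrix (Fin 2) (Fin 2) ℤ) := by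
        rintro ⟨γ₂, h₂⟩
        refine h ⟨γ₂ * γ⁻¹, ?_⟩
        rw [Subgroup.coe_mul, wt_row_mul, h₂, Subgroup.coe_inv, vecMul_vecMul_inv]
      rw [wt_w_of_not N χ _ h', wt_w_of_not N χ _ h, mul_zero]
  · have h := wt_w_row N χ hcusp 1
    rw [Subgroup.coe_one, wt_row_one, map_one, inv_one, Units.val_one] at h
    exact h
  · have h := wt_w_row N χ hcusp ⟨-1, wt_neg_one_mem N⟩
    have hχ : χ ⟨-1, wt_neg_one_mem N⟩ = 1 := by
      refine hcusp _ ?_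
      show (((-1 : SL(2, ℤ)) : SL(2, ℤ)) : Matrix (Fin 2) (Fin 2) ℤ).trace ^ 2 ≤ 4
      rw [wt_trace_neg_one]
      norm_num
    rw [hχ, inv_one, Units.val_one] at h
    rw [← wt_row_neg_one]
    exact h
  · intro v h0 h1 h2
    refine wt_w_of_not N χ v ?_
    rintro ⟨γ, rfl⟩
    rcases wt_row_zero _ h0 with h | h
    · exact h1 h
    · exact h2 h

end EisCharB

end Fermat.Agent.S42
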