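import Fermat.Agent.S42.ADefs

/-!
# P13 part (A), module M4a (core): finitely many Kummer classes among the coefficient conjugates

Let `v ∈ ℂ(X₀(N))` be a nonzero function all of whose place-orders are divisible by `p`.  For an
automorphism `σ` of `ℂ` let `v_σ` be the function obtained by applying `σ` to the coefficients
(`ModularCurve.arithmeticRingAut`).  We prove that the functions `v_σ` fall into finitely many
classes modulo `p`-th powers: there is a finite set `S` of functions such that every `v_σ` is of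
the form `w ^ p * s` with `s ∈ S` (`FinClasses.finite_classes_of`).

The three external inputs are taken as hypotheses here (they are provided by the modules
`RootDvd`, `InvField` and `GammaFG`, and plugged in by `FinClasses.lean`):

* `hroot` : a modular function all of whose orders are divisible by `p` has a `p`-th root among
            the meromorphic functions of level `N`;
* `hinv`  : a `Γ₀(N)`-invariant `p`-th root of a modular function is a modular function;
* `hfg`   : `Γ₀(N)` is finitely generated.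

Proof.  Every `v_σ` has again all its orders divisible by `p`, hence has a `p`-th root `f_σ` among
the meromorphic functions of level `N` (`hroot`).  For `γ ∈ Γ₀(N)` the quotient
`(f_σ ∘ γ) / f_σ` is a `p`-th root of unity of the field `MerN N`; there are finitely many of
those.  As `Γ₀(N)` is finitely generated, the family of these quotients for `γ` in a finite
generating set (the *signature* of `σ`) takes finitely many values.  If `σ` and `σ₀` have the same
signature then `f_σ / f_σ₀` is `Γ₀(N)`-invariant, and its `p`-th power is a modular function, so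
it is itself a modular function `w` (`hinv`), and `v_σ = w ^ p * v_σ₀`.
-/

set_option autoImplicit false

namespace Fermat.Agent.S42

open Fermat.Agent.S24 AlgebraicCurve ModularCurve CongruenceSubgroup
open scoped MatrixGroups

namespace FinClasses

/-- Divisibility of all the place-orders is preserved by the coefficientwise action of an
automorphism of `ℂ`. -/
theorem dvd_ord_arithmeticRingAut (N : ℕ) [NeZero N] (n : ℕ) (σ : ℂ ≃ₐ[ℚ] ℂ) (v : FFL ℂ N)
    (hdiv : ∀ P : Place ℂ (FFL ℂ N), (n : ℤ) ∣ P.ord v) (P : Place ℂ (FFL ℂ N)) :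
    (n : ℤ) ∣ P.ord (arithmeticRingAut (modularFunctionFieldFull N) σ v) := by
  have h := SemilinearAut.ord_smul (arithmeticGalois (modularFunctionFieldFull N) σ)
    ((arithmeticGalois (modularFunctionFieldFull N) σ)⁻¹ • P) v
  rw [smul_inv_smul] at h
  have h2 : arithmeticGalois (modularFunctionFieldFull N) σ • v
      = arithmeticRingAut (modularFunctionFieldFull N) σ v := rfl
  rw [h2] at h
  rw [h]
  exact hdiv _

/-- The field `MerN N` contains finitely many `p`-th roots of unity. -/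
theorem finite_pow_eq_one (N : ℕ) (p : ℕ) (hp : 0 < p) : {x : MerN N | x ^ p = 1}.Finite := by
  refine Set.Finite.subset (Multiset.finite_toSet (Polynomial.nthRoots p (1 : MerN N))) ?_
  intro x hx
  exact (Polynomial.mem_nthRoots hp).mpr hx

/-- A `p`-th root `f` of level `N` of a nonzero modular function is nonzero, and `Γ₀(N)`
multiplies `f` by `p`-th roots of unity. -/
theorem root_props (N : ℕ) [NeZero N] (p : ℕ) (hp : 0 < p) (u : FFL ℂ N) (hu : u ≠ 0)
    (f : MerN N) (hf : f ^ p = realHom N (RingHom.id ℂ) u) :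
    f ≠ 0 ∧ ∀ γ ∈ Gamma0 N, (act N γ f / f) ^ p = 1 := by
  have hru : realHom N (RingHom.id ℂ) u ≠ 0 := by
    rw [Ne, map_eq_zero]
    exact hu
  have hf0 : f ≠ 0 := by
    rintro rfl
    rw [zero_pow hp.ne'] at hf
    exact hru hf.symm
  refine ⟨hf0, fun γ hγ => ?_⟩
  rw [div_pow, ← map_pow, hf, act_realHom_of_mem N _ γ hγ, div_self hru]

/-- If the `p`-th roots `f`, `f₀` of two modular functions `u`, `u₀` are multiplied by the same
factors under a generating set of `Γ₀(N)`, then `u / u₀` is a `p`-th power in the function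
field. -/
theorem exists_of_same_mult (N : ℕ) [NeZero N] (p : ℕ) (hp : 0 < p)
    (hinv : ∀ (x : MerN N) (e : FFL ℂ N), x ^ p = realHom N (RingHom.id ℂ) e →
      (∀ γ ∈ Gamma0 N, act N γ x = x) → ∃ w : FFL ℂ N, realHom N (RingHom.id ℂ) w = x)
    (T : Set ↥(Gamma0 N)) (hT : Subgroup.closure T = ⊤)
    (u u₀ : FFL ℂ N) (hu : u ≠ 0) (hu₀ : u₀ ≠ 0) (f f₀ : MerN N) (hf0 : f ≠ 0) (hf₀0 : f₀ ≠ 0)
    (hf : f ^ p = realHom N (RingHom.id ℂ) u) (hf₀ : f₀ ^ p = realHom N (RingHom.id ℂ) u₀)
    (h : ∀ t ∈ T, act N ((t : ↥(Gamma0 N)) : SL(2, ℤ)) f / f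
      = act N ((t : ↥(Gamma0 N)) : SL(2, ℤ)) f₀ / f₀) :
    ∃ w : FFL ℂ N, w ≠ 0 ∧ u = w ^ p * u₀ := by
  have hx : (f / f₀) ^ p = realHom N (RingHom.id ℂ) (u / u₀) := by
    rw [div_pow, hf, hf₀, map_div₀]
  -- the stabiliser of `f / f₀` in `Γ₀(N)`
  let H : Subgroup ↥(Gamma0 N) :=
    { carrier := {γ | act N ((γ : ↥(Gamma0 N)) : SL(2, ℤ)) (f / f₀) = f / f₀}
      mul_mem' := fun {a b} ha hb => by
        show act N ((a * b : ↥(Gamma0 N)) : SL(2, ℤ)) (f / f₀) = f / f₀
        have ha' : act N ((a : ↥(Gamma0 N)) : SL(2, ℤ)) (f / f₀) = f / f₀ := ha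
        have hb' : act N ((b : ↥(Gamma0 N)) : SL(2, ℤ)) (f / f₀) = f / f₀ := hb
        rw [Subgroup.coe_mul, act_mul, ha', hb']
      one_mem' := by
        show act N ((1 : ↥(Gamma0 N)) : SL(2, ℤ)) (f / f₀) = f / f₀
        rw [Subgroup.coe_one, act_one]
      inv_mem' := fun {a} ha => by
        show act N ((a⁻¹ : ↥(Gamma0 N)) : SL(2, ℤ)) (f / f₀) = f / f₀
        have ha' : act N ((a : ↥(Gamma0 N)) : SL(2, ℤ)) (f / f₀) = f / f₀ := ha
        have h1 : act N ((a⁻¹ : ↥(Gamma0 N)) : SL(2, ℤ))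
            (act N ((a : ↥(Gamma0 N)) : SL(2, ℤ)) (f / f₀)) = f / f₀ := by
          rw [← act_mul, Subgroup.coe_inv, mul_inv_cancel, act_one]
        rw [ha'] at h1
        exact h1 }
  have hH : H = ⊤ := by
    rw [eq_top_iff, ← hT, Subgroup.closure_le]
    intro t ht
    show act N ((t : ↥(Gamma0 N)) : SL(2, ℤ)) (f / f₀) = f / f₀
    have h1 := h t ht
    have ha0 : act N ((t : ↥(Gamma0 N)) : SL(2, ℤ)) f₀ ≠ 0 := by
      rw [Ne, map_eq_zero]
      exact hf₀0
    rw [div_eq_div_iff hf0 hf₀0] at h1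
    rw [map_div₀, div_eq_div_iff ha0 hf₀0, h1]
    ring
  have hstab : ∀ γ ∈ Gamma0 N, act N γ (f / f₀) = f / f₀ := by
    intro γ hγ
    have h1 : (⟨γ, hγ⟩ : ↥(Gamma0 N)) ∈ H := by
      rw [hH]
      exact Subgroup.mem_top _
    exact h1
  obtain ⟨w, hw⟩ := hinv (f / f₀) (u / u₀) hx hstab
  have hwp : w ^ p = u / u₀ := by
    apply (realHom N (RingHom.id ℂ)).injective
    rw [map_pow, hw, hx]
  refine ⟨w, ?_, ?_⟩
  · rintro rfl
    rw [zero_pow hp.ne'] at hwp
    exact div_ne_zero hu hu₀ hwp.symm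
  · rw [hwp, div_mul_cancel₀ _ hu₀]

/-- The coefficient conjugates `v_σ` of a modular function `v` all of whose orders are divisible
by `p` fall into finitely many classes modulo `p`-th powers (with the three external inputs as
hypotheses). -/
theorem finite_classes_of (N : ℕ) [NeZero N] (p : ℕ) (hp : 0 < p)
    (hfg : Group.FG ↥(Gamma0 N))
    (hroot : ∀ y : FFL ℂ N, y ≠ 0 → (∀ P : Place ℂ (FFL ℂ N), (p : ℤ) ∣ P.ord y) →
      ∃ f : MerN N, f ^ p = realHom N (RingHom.id ℂ) y)
    (hinv : ∀ (x : MerN N) (e : FFL ℂ N), x ^ p = realHom N (RingHom.id ℂ) e →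
      (∀ γ ∈ Gamma0 N, act N γ x = x) → ∃ w : FFL ℂ N, realHom N (RingHom.id ℂ) w = x)
    (v : FFL ℂ N) (hv : v ≠ 0) (hdiv : ∀ P : Place ℂ (FFL ℂ N), (p : ℤ) ∣ P.ord v) :
    ∃ S : Finset (FFL ℂ N), ∀ σ : ℂ ≃ₐ[ℚ] ℂ, ∃ s ∈ S, ∃ w : FFL ℂ N,
      w ≠ 0 ∧ arithmeticRingAut (modularFunctionFieldFull N) σ v = w ^ p * s := by
  classical
  obtain ⟨T, hT, hTfin⟩ := Group.fg_iff.mp hfg
  -- the conjugates of `v` are nonzero
  have hA0 : ∀ σ : ℂ ≃ₐ[ℚ] ℂ, arithmeticRingAut (modularFunctionFieldFull N) σ v ≠ 0 := fun σ =>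
    (arithmeticRingAut (modularFunctionFieldFull N) σ).map_ne_zero_iff.mpr hv
  -- their `p`-th roots
  choose f hf using fun σ : ℂ ≃ₐ[ℚ] ℂ =>
    hroot (arithmeticRingAut (modularFunctionFieldFull N) σ v) (hA0 σ)
      (dvd_ord_arithmeticRingAut N p σ v hdiv)
  have hf0 : ∀ σ, f σ ≠ 0 := fun σ => (root_props N p hp _ (hA0 σ) (f σ) (hf σ)).1
  have hfγ : ∀ σ, ∀ γ ∈ Gamma0 N, (act N γ (f σ) / f σ) ^ p = 1 := fun σ =>
    (root_props N p hp _ (hA0 σ) (f σ) (hf σ)).2
  -- the signature of `σ`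
  let sig : (ℂ ≃ₐ[ℚ] ℂ) → (↥T → MerN N) :=
    fun σ t => act N ((t : ↥(Gamma0 N)) : SL(2, ℤ)) (f σ) / f σ
  have hTfin' : Finite ↥T := hTfin.to_subtype
  have hrange : (Set.range sig).Finite := by
    refine Set.Finite.subset
      (Set.Finite.pi' (fun _ : ↥T => finite_pow_eq_one N p hp)) ?_
    rintro _ ⟨σ, rfl⟩ t
    exact hfγ σ _ (t : ↥(Gamma0 N)).2
  -- a representative for every signature
  let rep : (↥T → MerN N) → (ℂ ≃ₐ[ℚ] ℂ) := fun e => if h : ∃ σ, sig σ = e then h.choose else 1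
  have hrep : ∀ σ, sig (rep (sig σ)) = sig σ := fun σ => by
    have h : ∃ τ, sig τ = sig σ := ⟨σ, rfl⟩
    simp only [rep, dif_pos h]
    exact h.choose_spec
  refine ⟨(hrange.image
    (fun e => arithmeticRingAut (modularFunctionFieldFull N) (rep e) v)).toFinset, fun σ => ?_⟩
  refine ⟨arithmeticRingAut (modularFunctionFieldFull N) (rep (sig σ)) v, ?_, ?_⟩
  · rw [Set.Finite.mem_toFinset]
    exact ⟨sig σ, ⟨σ, rfl⟩, rfl⟩
  · exact exists_of_same_mult N p hp hinv T hT
      (arithmeticRingAut (modularFunctionFieldFull N) σ v)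
      (arithmeticRingAut (modularFunctionFieldFull N) (rep (sig σ)) v) (hA0 _) (hA0 _)
      (f σ) (f (rep (sig σ))) (hf0 _) (hf0 _) (hf _) (hf _)
      (fun t ht => (congrFun (hrep σ) ⟨t, ht⟩).symm)

end FinClasses

end Fermat.Agent.S42
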