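import Fermat.Agent.S42.KummerBasic
import Fermat.Agent.S42.AutC
import Fermat.Agent.S42.CoeffDescent

/-!
# P13 part (A), module M4 (second part, core): uniqueness of Kummer classes

The statements of this file take the external input `exists_realHom_eq_of_invariant_pow`
(module `InvField`: a `Γ₀(N)`-invariant `p`-th root of a modular function is a modular function)
as a hypothesis `hinv`; the final statement `isKummer_unique` is in `KummerUnique.lean`.

* `KummerUniqueCore.exists_scalar_of_pow_coeff`     : descent of the coefficients of a `p`-th root;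
* `KummerUniqueCore.eq_zero_of_isKummer_of_zero_of` : the class of the trivial character is `0`;
* `KummerUniqueCore.isKummer_unique_of`             : a character has at most one Kummer class.
-/

set_option autoImplicit false

namespace Fermat.Agent.S42

open Fermat.Agent.S24 AlgebraicCurve ModularCurve CongruenceSubgroup
open scoped MatrixGroups

open KummerBasic

namespace KummerUniqueCore

/-! ### Descent of coefficients of a `p`-th root -/

theorem coeffMap_eq_self_of_coeff_mem (σ : ℂ ≃ₐ[ℚ] ℂ) (hσ : σ ∈ autC) (y : LaurentSeries ℂ)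
    (h : ∀ n : ℤ, y.coeff n ∈ Set.range embQ) : coeffMap (σ : ℂ →+* ℂ) y = y := by
  ext n
  rw [coeffMap_coeff]
  obtain ⟨a, ha⟩ := h n
  rw [← ha]
  exact hσ a

/-- If the `p`-th power of a nonzero Laurent series `x` has all its coefficients in `ℚ̄`, then
`x` is a constant `l`, with `l ^ p ∈ ℚ̄`, times a Laurent series with coefficients in `ℚ̄`. -/
theorem exists_scalar_of_pow_coeff (p : ℕ) (hp : p ≠ 0) (x : LaurentSeries ℂ) (hx : x ≠ 0)
    (h : ∀ n : ℤ, (x ^ p).coeff n ∈ Set.range embQ) :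
    ∃ l : ℂ, l ≠ 0 ∧ l ^ p ∈ Set.range embQ ∧ ∀ n : ℤ, l⁻¹ * x.coeff n ∈ Set.range embQ := by
  have : NeZero p := ⟨hp⟩
  have hl0 : x.coeff x.order ≠ 0 := fun h0 => hx (HahnSeries.coeff_order_eq_zero.mp h0)
  -- every automorphism multiplies all coefficients by a common root of unity
  have key : ∀ σ ∈ autC, ∃ k : ℕ, ∀ n : ℤ,
      (σ : ℂ ≃ₐ[ℚ] ℂ) (x.coeff n) = zetaP p ^ k * x.coeff n := by
    intro σ hσ
    have h1 : (coeffMap (σ : ℂ →+* ℂ) x) ^ p = x ^ p := by
      rw [← map_pow]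
      exact coeffMap_eq_self_of_coeff_mem σ hσ _ h
    obtain ⟨k, hk⟩ := exists_eq_zeta_mul_of_pow_eq p
      (HahnSeries.C : ℂ →+* LaurentSeries ℂ) hp hx h1
    refine ⟨k, fun n => ?_⟩
    have h2 := congrArg (fun z : LaurentSeries ℂ => z.coeff n) hk
    simp only [coeffMap_coeff] at h2
    rw [HahnSeries.C_mul_eq_smul, HahnSeries.coeff_smul, smul_eq_mul] at h2
    exact h2
  refine ⟨x.coeff x.order, hl0, ?_, fun n => ?_⟩
  · refine mem_range_embQ_of_finite_orbit _ {x.coeff x.order ^ p} (Set.finite_singleton _) ?_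
    intro σ hσ
    obtain ⟨k, hk⟩ := key σ hσ
    rw [Set.mem_singleton_iff, map_pow, hk, mul_pow, ← pow_mul, mul_comm k p, pow_mul,
      zetaP_pow p hp, one_pow, one_mul]
  · refine mem_range_embQ_of_finite_orbit _ {(x.coeff x.order)⁻¹ * x.coeff n}
      (Set.finite_singleton _) ?_
    intro σ hσ
    obtain ⟨k, hk⟩ := key σ hσ
    have hz : zetaP p ^ k ≠ 0 :=
      pow_ne_zero _ ((isPrimitiveRoot_zetaP p hp).ne_zero hp)
    rw [Set.mem_singleton_iff, map_mul, map_inv₀, hk, hk]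
    field_simp

/-- The class of the trivial character is trivial. -/
theorem eq_zero_of_isKummer_of_zero_of {N p : ℕ} [NeZero N] [NeZero p]
    (hinvpow : ∀ (x : MerN N) (e : FFL ℂ N), x ^ p = realHom N (RingHom.id ℂ) e →
      (∀ γ ∈ Gamma0 N, act N γ x = x) → ∃ w : FFL ℂ N, realHom N (RingHom.id ℂ) w = x)
    {c : JZero N} (h : IsKummer N p (0 : Additive ↥(Gamma0 N) →+ ZMod p) c) : c = 0 := by
  have hp : p ≠ 0 := NeZero.ne p
  obtain ⟨D, hD, u, f, hu, hord, rfl, hfp, hact⟩ := h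
  -- `f` is invariant under `Γ₀(N)`
  have hinv : ∀ γ ∈ Gamma0 N, act N γ f = f := by
    intro γ hγ
    have h1 := hact ⟨γ, hγ⟩
    rw [AddMonoidHom.zero_apply, ZMod.val_zero, pow_zero, cM_one, one_mul] at h1
    exact h1
  have hf0 : f ≠ 0 := by
    intro h0
    rw [h0, zero_pow hp] at hfp
    exact hu ((map_eq_zero (realHom N embQ)).mp hfp.symm)
  -- `f` comes from the function field over `ℂ`
  obtain ⟨v₀, hv₀, hv₀c⟩ := exists_FFLC_of_FFLQ N u
  obtain ⟨v, hv⟩ := hinvpow f v₀ (by rw [hfp, hv₀]) hinv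
  have hvp : v ^ p = v₀ := (realHom N (RingHom.id ℂ)).injective (by rw [map_pow, hv, hfp, hv₀])
  have hv0 : v ≠ 0 := by
    intro h0
    rw [h0, map_zero] at hv
    exact hf0 hv.symm
  have hx0 : (v : LaurentSeries ℂ) ≠ 0 := fun h0 => hv0 (Subtype.ext h0)
  have hxp : ∀ n : ℤ, ((v : LaurentSeries ℂ) ^ p).coeff n ∈ Set.range embQ := by
    intro n
    have h1 : (v : LaurentSeries ℂ) ^ p = (v₀ : LaurentSeries ℂ) := by
      rw [← hvp]
      rfl
    rw [h1, hv₀c n]
    exact ⟨_, rfl⟩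
  obtain ⟨l, hl0, ⟨a, ha⟩, hcoef⟩ := exists_scalar_of_pow_coeff p hp _ hx0 hxp
  -- the normalised root has coefficients in `ℚ̄`
  obtain ⟨u₁, hu₁⟩ := exists_realHom_embQ_eq N (algebraMap ℂ (FFL ℂ N) l⁻¹ * v) (by
    intro n
    have h1 : ((algebraMap ℂ (FFL ℂ N) l⁻¹ * v : FFL ℂ N) : LaurentSeries ℂ)
        = HahnSeries.C l⁻¹ * (v : LaurentSeries ℂ) := by
      show (algebraMap ℂ (LaurentSeries ℂ) l⁻¹) * (v : LaurentSeries ℂ) = _
      rw [algebraMap_laurentSeries_eq_single]
      rfl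
    rw [h1, HahnSeries.C_mul_eq_smul, HahnSeries.coeff_smul, smul_eq_mul]
    exact hcoef n)
  have key : u = algebraMap (AlgebraicClosure ℚ) (FFL (AlgebraicClosure ℚ) N) a * u₁ ^ p := by
    apply (realHom N embQ).injective
    rw [map_mul, map_pow, hu₁, realHom_algebraMap_eq_cM, ha, map_mul, realHom_algebraMap_eq_cM,
      RingHom.id_apply, hv, mul_pow, ← cM_pow, ← mul_assoc, ← cM_mul, ← mul_pow,
      mul_inv_cancel₀ hl0, one_pow, cM_one, one_mul, hfp]
  have ha0 : algebraMap (AlgebraicClosure ℚ) (FFL (AlgebraicClosure ℚ) N) a ≠ 0 := by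
    intro h0
    rw [h0, zero_mul] at key
    exact hu key
  have hu₁0 : u₁ ≠ 0 := by
    intro h0
    rw [h0, zero_pow hp, mul_zero] at key
    exact hu key
  rw [pic0_mk_eq_zero_iff]
  refine ⟨u₁, hu₁0, fun P => ?_⟩
  have h1 := hord P
  rw [key, P.ord_mul ha0 (pow_ne_zero _ hu₁0), ord_algebraMap, zero_add, ← zpow_natCast,
    P.ord_zpow] at h1
  exact mul_left_cancel₀ (Int.natCast_ne_zero.mpr hp) h1

/-- A character has at most one Kummer class. -/
theorem isKummer_unique_of {N p : ℕ} [NeZero N] [NeZero p]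
    (hinvpow : ∀ (x : MerN N) (e : FFL ℂ N), x ^ p = realHom N (RingHom.id ℂ) e →
      (∀ γ ∈ Gamma0 N, act N γ x = x) → ∃ w : FFL ℂ N, realHom N (RingHom.id ℂ) w = x)
    {φ : Additive ↥(Gamma0 N) →+ ZMod p} {c c' : JZero N}
    (h : IsKummer N p φ c) (h' : IsKummer N p φ c') : c = c' := by
  have h1 := isKummer_add h (isKummer_neg h')
  rw [add_neg_cancel] at h1
  exact add_neg_eq_zero.mp (eq_zero_of_isKummer_of_zero_of hinvpow h1)

end KummerUniqueCore

end Fermat.Agent.S42
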