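import Fermat.Agent.S42.OrbitDefs
import Fermat.Agent.S24.Places
import Fermat.Agent.S24.LaurentOrder
import Fermat.Agent.S24.Degree

/-!
# P13 part (A), module M10 (orbit descent): boundedness of the `q`-order on `W N p m v`

`exists_ordQ_le` : the `q`-orders of the non-zero elements of the space
`OrbitDefs.W N p m v = L(div(v)/p + m·(poles of j))` are bounded above.

The `q`-order is the order function of a place `Pinf` of `FFL ℂ N` (the cusp `∞`), and for
`w ∈ W`, `w ≠ 0`, the function `P ↦ p · ord_P w + ord_P v - p · m · min (ord_P j) 0` is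
non-negative with total sum `- p · m · ∑ min (ord_P j) 0`, which does not depend on `w`; so its
value at `Pinf` is bounded.
-/

set_option autoImplicit false

namespace Fermat.Agent.S42

namespace OrbitBoundB

open Fermat.Agent.S24 AlgebraicCurve ModularCurve IntermediateField

section Aux

variable (N : ℕ) [NeZero N]

/-- The `q`-expansion of `j` has a simple pole. -/
theorem ordQ_jL : OrbitDefs.ordQ (jL ℂ N) = -1 := by
  rw [OrbitDefs.ordQ_def]
  show (coeffMap (algebraMap ℚ ℂ) jq).order = -1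
  rw [order_coeffMap _ (RingHom.injective _), order_jq]

theorem jL_ne_zero : jL ℂ N ≠ 0 := by
  intro h
  have h1 := ordQ_jL N
  rw [h, OrbitDefs.ordQ_zero] at h1
  omega

/-- The `q`-order is the order function of a place of `FFL ℂ N`. -/
theorem exists_place_ordQ :
    ∃ Pinf : Place ℂ (FFL ℂ N), ∀ f : FFL ℂ N, f ≠ 0 → Pinf.ord f = OrbitDefs.ordQ f := by
  have hy0 : (jL ℂ N)⁻¹ ≠ 0 := inv_ne_zero (jL_ne_zero N)
  have hy1 : OrbitDefs.ordQ (jL ℂ N)⁻¹ = 1 := by
    rw [OrbitDefs.ordQ_inv, ordQ_jL]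
    norm_num
  have hy : 0 < OrbitDefs.ordQ (jL ℂ N)⁻¹ := by
    rw [hy1]
    exact one_pos
  obtain ⟨w, d, -, hw⟩ := exists_place_of_valuation (K := ℂ) (F := FFL ℂ N) OrbitDefs.ordQ
    (fun f g hf hg => OrbitDefs.ordQ_mul hf hg)
    (fun f g _ _ hfg => OrbitDefs.min_ordQ_le_ordQ_add hfg)
    (fun a _ => OrbitDefs.ordQ_algebraMap a) hy0 hy
  have h1 := hw _ hy0
  rw [hy1] at h1
  have hd1 : d = 1 := by
    have h3 : ((d : ℕ) : ℤ) ∣ ((1 : ℕ) : ℤ) := ⟨_, by rw [Nat.cast_one]; exact h1⟩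
    exact Nat.dvd_one.mp (Int.natCast_dvd_natCast.mp h3)
  refine ⟨w, fun f hf => ?_⟩
  rw [hw f hf, hd1, Nat.cast_one, one_mul]

end Aux

/-- The `q`-orders of the non-zero elements of `W N p m v` are bounded above. -/
theorem exists_ordQ_le (N : ℕ) [NeZero N] (p : ℕ) (hp : 0 < p) (m : ℕ)
    (v : FFL ℂ N) (hv : v ≠ 0) :
    ∃ B : ℤ, ∀ w ∈ OrbitDefs.W N p m v, w ≠ 0 → OrbitDefs.ordQ w ≤ B := by
  classical
  have hx : Transcendental ℂ (jL ℂ N) := transcendental_jL N ℂ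
  have : FiniteDimensional ℂ⟮jL ℂ N⟯ (FFL ℂ N) := finiteDimensional_jL_of_emb N (RingHom.id ℂ)
  obtain ⟨Pinf, hPinf⟩ := exists_place_ordQ N
  have hj0 := jL_ne_zero N
  have hfv := finite_setOf_ord_ne_zero hx hv
  have hfj := finite_setOf_ord_ne_zero hx hj0
  refine ⟨|(-((p : ℤ) * (m : ℤ) * ∑ᶠ P : Place ℂ (FFL ℂ N), min (P.ord (jL ℂ N)) 0))
    - Pinf.ord v + (p : ℤ) * (m : ℤ) * min (Pinf.ord (jL ℂ N)) 0|, ?_⟩
  intro w hw hw0
  rcases hw with hw | hw
  · exact absurd hw hw0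
  have hfw := finite_setOf_ord_ne_zero hx hw0
  let T : Finset (Place ℂ (FFL ℂ N)) :=
    insert Pinf (hfw.toFinset ∪ (hfv.toFinset ∪ hfj.toFinset))
  have hTw : (Function.support fun P : Place ℂ (FFL ℂ N) => P.ord w) ⊆ ↑T := by
    intro P hP
    have hP' : P.ord w ≠ 0 := hP
    simp only [T, Finset.coe_insert, Finset.coe_union, Set.Finite.coe_toFinset]
    exact Or.inr (Or.inl hP')
  have hTv : (Function.support fun P : Place ℂ (FFL ℂ N) => P.ord v) ⊆ ↑T := by
    intro P hP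
    have hP' : P.ord v ≠ 0 := hP
    simp only [T, Finset.coe_insert, Finset.coe_union, Set.Finite.coe_toFinset]
    exact Or.inr (Or.inr (Or.inl hP'))
  have hTj : (Function.support fun P : Place ℂ (FFL ℂ N) => min (P.ord (jL ℂ N)) 0) ⊆ ↑T := by
    intro P hP
    have hP' : P.ord (jL ℂ N) ≠ 0 := by
      intro h0
      apply hP
      show min (P.ord (jL ℂ N)) 0 = 0
      rw [h0, min_self]
    simp only [T, Finset.coe_insert, Finset.coe_union, Set.Finite.coe_toFinset]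
    exact Or.inr (Or.inr (Or.inr hP'))
  have h1 : ∑ P ∈ T, P.ord w = 0 := by
    rw [← finsum_eq_sum_of_support_subset _ hTw]
    exact finsum_ord_eq_zero hx hw0
  have h2 : ∑ P ∈ T, P.ord v = 0 := by
    rw [← finsum_eq_sum_of_support_subset _ hTv]
    exact finsum_ord_eq_zero hx hv
  have h3 : ∑ P ∈ T, min (P.ord (jL ℂ N)) 0 =
      ∑ᶠ P : Place ℂ (FFL ℂ N), min (P.ord (jL ℂ N)) 0 :=
    (finsum_eq_sum_of_support_subset _ hTj).symm
  have h4 : (p : ℤ) * Pinf.ord w + Pinf.ord v - (p : ℤ) * (m : ℤ) * min (Pinf.ord (jL ℂ N)) 0 ≤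
      ∑ P ∈ T, ((p : ℤ) * P.ord w + P.ord v - (p : ℤ) * (m : ℤ) * min (P.ord (jL ℂ N)) 0) :=
    Finset.single_le_sum
      (f := fun P : Place ℂ (FFL ℂ N) =>
        (p : ℤ) * P.ord w + P.ord v - (p : ℤ) * (m : ℤ) * min (P.ord (jL ℂ N)) 0)
      (fun P _ => sub_nonneg.mpr (hw P)) (Finset.mem_insert_self _ _)
  rw [Finset.sum_sub_distrib, Finset.sum_add_distrib, ← Finset.mul_sum, ← Finset.mul_sum, h1, h2,
    h3, hPinf w hw0] at h4
  rcases le_or_gt (OrbitDefs.ordQ w) 0 with h5 | h5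
  · exact h5.trans (abs_nonneg _)
  · refine le_trans ?_ (le_abs_self _)
    have hp1 : (1 : ℤ) ≤ (p : ℤ) := by exact_mod_cast hp
    nlinarith

end OrbitBoundB

end Fermat.Agent.S42
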