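import Fermat.Agent.S42.ADefs
import Fermat.Agent.S37.HeckeFF

/-!
# P13 part (A), module M10 (orbit descent): shared definitions

For the function field `𝔽 = FFL ℂ N ⊆ ℂ((q))` of `X₀(N)` over `ℂ`:

* `OrbitDefs.ordQ x`, `OrbitDefs.lead x` : order and leading coefficient of the `q`-expansion;
* `OrbitDefs.W N p m v` : the space `L(div(v)/p + m·(poles of j))`;
* `OrbitDefs.R N p v z` : `z` is the canonical representative of the class of `v` in
  `𝔽ˣ / (ℂˣ · 𝔽ˣ ^ p)`;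

together with the basic properties of `ordQ` and `lead`.
-/

set_option autoImplicit false

namespace Fermat.Agent.S42

namespace OrbitDefs

open Fermat.Agent.S24 AlgebraicCurve ModularCurve

variable {N : ℕ}

/-- The order at `q = 0` of the `q`-expansion of `x`. -/
noncomputable def ordQ (x : FFL ℂ N) : ℤ := (x : LaurentSeries ℂ).order

/-- The leading coefficient of the `q`-expansion of `x`. -/
noncomputable def lead (x : FFL ℂ N) : ℂ := (x : LaurentSeries ℂ).leadingCoeff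

theorem ordQ_def (x : FFL ℂ N) : ordQ x = (x : LaurentSeries ℂ).order := rfl

theorem lead_def (x : FFL ℂ N) : lead x = (x : LaurentSeries ℂ).leadingCoeff := rfl

theorem lead_eq_coeff (x : FFL ℂ N) : lead x = (x : LaurentSeries ℂ).coeff (ordQ x) :=
  HahnSeries.leadingCoeff_eq

theorem coe_ne_zero {x : FFL ℂ N} (hx : x ≠ 0) : (x : LaurentSeries ℂ) ≠ 0 := by
  intro h
  exact hx (Subtype.ext h)

theorem lead_ne_zero {x : FFL ℂ N} (hx : x ≠ 0) : lead x ≠ 0 :=
  HahnSeries.leadingCoeff_ne_zero.mpr (coe_ne_zero hx)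

@[simp]
theorem lead_zero : lead (0 : FFL ℂ N) = 0 := HahnSeries.leadingCoeff_zero

@[simp]
theorem ordQ_zero : ordQ (0 : FFL ℂ N) = 0 := HahnSeries.order_zero

theorem ordQ_mul {x y : FFL ℂ N} (hx : x ≠ 0) (hy : y ≠ 0) :
    ordQ (x * y) = ordQ x + ordQ y :=
  HahnSeries.order_mul (coe_ne_zero hx) (coe_ne_zero hy)

theorem lead_mul (x y : FFL ℂ N) : lead (x * y) = lead x * lead y :=
  HahnSeries.leadingCoeff_mul (x : LaurentSeries ℂ) (y : LaurentSeries ℂ)

theorem coe_algebraMap (c : ℂ) :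
    ((algebraMap ℂ (FFL ℂ N) c : FFL ℂ N) : LaurentSeries ℂ) = HahnSeries.single 0 c :=
  algebraMap_laurentSeries_eq_single ℂ c

@[simp]
theorem ordQ_algebraMap (c : ℂ) : ordQ (algebraMap ℂ (FFL ℂ N) c) = 0 := by
  rw [ordQ_def, coe_algebraMap]
  rcases eq_or_ne c 0 with rfl | hc
  · simp
  · exact HahnSeries.order_single hc

@[simp]
theorem lead_algebraMap (c : ℂ) : lead (algebraMap ℂ (FFL ℂ N) c) = c := by
  rw [lead_def, coe_algebraMap]
  exact HahnSeries.leadingCoeff_of_single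

@[simp]
theorem lead_one : lead (1 : FFL ℂ N) = 1 := by
  have h := lead_algebraMap (N := N) 1
  rwa [map_one] at h

@[simp]
theorem ordQ_one : ordQ (1 : FFL ℂ N) = 0 := by
  have h := ordQ_algebraMap (N := N) 1
  rwa [map_one] at h

theorem lead_pow (x : FFL ℂ N) (n : ℕ) : lead (x ^ n) = lead x ^ n := by
  induction n with
  | zero => simp
  | succ n ih => rw [pow_succ, lead_mul, ih, pow_succ]

theorem ordQ_pow (x : FFL ℂ N) (n : ℕ) : ordQ (x ^ n) = n * ordQ x := by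
  rcases eq_or_ne x 0 with rfl | hx
  · rcases Nat.eq_zero_or_pos n with rfl | hn
    · simp
    · rw [zero_pow hn.ne']
      simp
  induction n with
  | zero => simp
  | succ n ih =>
    rw [pow_succ, ordQ_mul (pow_ne_zero n hx) hx, ih]
    push_cast
    ring

theorem lead_inv (x : FFL ℂ N) : lead x⁻¹ = (lead x)⁻¹ := by
  rcases eq_or_ne x 0 with rfl | hx
  · simp
  have h := lead_mul x x⁻¹
  rw [mul_inv_cancel₀ hx, lead_one] at h
  exact eq_inv_of_mul_eq_one_right h.symm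

theorem ordQ_inv (x : FFL ℂ N) : ordQ x⁻¹ = -ordQ x := by
  rcases eq_or_ne x 0 with rfl | hx
  · simp
  have h := ordQ_mul hx (inv_ne_zero hx)
  rw [mul_inv_cancel₀ hx, ordQ_one] at h
  omega

theorem lead_div (x y : FFL ℂ N) : lead (x / y) = lead x / lead y := by
  rw [div_eq_mul_inv, lead_mul, lead_inv, div_eq_mul_inv]

theorem ordQ_div {x y : FFL ℂ N} (hx : x ≠ 0) (hy : y ≠ 0) :
    ordQ (x / y) = ordQ x - ordQ y := by
  rw [div_eq_mul_inv, ordQ_mul hx (inv_ne_zero hy), ordQ_inv, sub_eq_add_neg]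

theorem min_ordQ_le_ordQ_add {x y : FFL ℂ N} (hxy : x + y ≠ 0) :
    min (ordQ x) (ordQ y) ≤ ordQ (x + y) :=
  HahnSeries.min_order_le_order_add (coe_ne_zero hxy)

theorem coeff_eq_zero_of_lt_ordQ {x : FFL ℂ N} {n : ℤ} (hn : n < ordQ x) :
    (x : LaurentSeries ℂ).coeff n = 0 :=
  HahnSeries.coeff_eq_zero_of_lt_order hn

variable (N)
variable [NeZero N]

/-- `FFL ℂ N` is a function field in one variable over `ℂ`. -/
theorem isFF : Fermat.Agent.S37.IsFF ℂ (FFL ℂ N) :=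
  ⟨jL ℂ N, transcendental_jL N ℂ, finiteDimensional_jL_of_emb N (RingHom.id ℂ)⟩

/-- The space `L(div(v)/p + m·(poles of j))` (as a set): the functions `w` with
`p · ord_P w + ord_P v ≥ p · m · min (ord_P j, 0)` at every place `P`, together with `0`. -/
def W (p m : ℕ) (v : FFL ℂ N) : Set (FFL ℂ N) :=
  {w | w = 0 ∨ ∀ P : Place ℂ (FFL ℂ N),
    (p : ℤ) * (m : ℤ) * min (P.ord (jL ℂ N)) 0 ≤ (p : ℤ) * P.ord w + P.ord v}

theorem mem_W_iff {p m : ℕ} {v w : FFL ℂ N} :
    w ∈ W N p m v ↔ w = 0 ∨ ∀ P : Place ℂ (FFL ℂ N),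
      (p : ℤ) * (m : ℤ) * min (P.ord (jL ℂ N)) 0 ≤ (p : ℤ) * P.ord w + P.ord v :=
  Iff.rfl

theorem zero_mem_W (p m : ℕ) (v : FFL ℂ N) : (0 : FFL ℂ N) ∈ W N p m v := Or.inl rfl

/-- `z` is the canonical representative of the class of `v` modulo constants and `p`-th powers:
`z = v w ^ p / lead (v w ^ p)`, where `w ≠ 0` has maximal `q`-order in the first nonzero space
`W N p m v`. -/
def R (p : ℕ) (v z : FFL ℂ N) : Prop :=
  ∃ (m : ℕ) (w : FFL ℂ N), w ≠ 0 ∧ w ∈ W N p m v ∧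
    (∀ m' : ℕ, m' < m → ∀ w' ∈ W N p m' v, w' = 0) ∧
    (∀ w' ∈ W N p m v, w' ≠ 0 → ordQ w' ≤ ordQ w) ∧
    z = (v * w ^ p) / algebraMap ℂ (FFL ℂ N) (lead (v * w ^ p))

end OrbitDefs

end Fermat.Agent.S42
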