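import Fermat.Agent.S42.OrbitDefs

/-!
# P13 part (A), module M10 (orbit descent): the spaces `W N p m v` are eventually nonzero

For a nonzero function `v` on `X₀(N)` over `ℂ` and `p > 0`, some space
`W N p m v = L(div(v)/p + m·(poles of j))` contains a nonzero function
(`OrbitExistWB.exists_ne_zero_mem_W`).

The proof is a statement about a function field `F / K(j)` (`K` algebraically closed of
characteristic zero, `j` transcendental, `F / K(j)` finite).  Every place `P₀` which is not a pole
of `j` is a zero of `j - c` for some constant `c`, and `j - c` has no poles outside the poles of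
`j`, where its pole order is at most that of `j`.  A suitable product `w` of powers of such
functions `j - c` vanishes to order at least `-ord_P v` at each of the finitely many zeros and
poles `P` of `v` outside the poles of `j`, is regular outside the poles of `j`, and has pole order
at most `d · (pole order of j)` at the poles of `j`.  Then `w ∈ W N p m v` for `m` large.
-/

set_option autoImplicit false

namespace Fermat.Agent.S42

namespace OrbitExistWB

open Fermat.Agent.S24 AlgebraicCurve ModularCurve IntermediateField

section General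

variable {K F : Type*} [Field K] [Field F] [Algebra K F]

/-- The order of a power at a place. -/
theorem ord_pow_eq (P : Place K F) (f : F) (n : ℕ) : P.ord (f ^ n) = (n : ℤ) * P.ord f := by
  rcases eq_or_ne f 0 with rfl | hf
  · rcases Nat.eq_zero_or_pos n with rfl | hn
    · simp
    · rw [zero_pow hn.ne']
      simp
  induction n with
  | zero => simp
  | succ n ih =>
    rw [pow_succ, P.ord_mul (pow_ne_zero n hf) hf, ih]
    push_cast
    ring

/-- Subtracting a constant from `j` creates no new poles and does not increase the pole order. -/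
theorem min_ord_le_ord_sub_const (P : Place K F) {j : F} (c : K)
    (ht : j - algebraMap K F c ≠ 0) : min (P.ord j) 0 ≤ P.ord (j - algebraMap K F c) := by
  rcases eq_or_ne c 0 with rfl | hc
  · rw [map_zero, sub_zero]
    exact min_le_left _ _
  · have hc' : algebraMap K F c ≠ 0 := by rwa [Ne, map_eq_zero]
    rcases eq_or_ne j 0 with rfl | hj
    · rw [zero_sub, PlacesBasic.ord_neg, PlacesBasic.ord_algebraMap]
      exact min_le_right _ _
    · have key := PlacesBasic.min_ord_le_ord_add P hj (neg_ne_zero.mpr hc')
        (by rwa [← sub_eq_add_neg])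
      rwa [PlacesBasic.ord_neg, PlacesBasic.ord_algebraMap, ← sub_eq_add_neg] at key

variable [IsAlgClosed K] [CharZero K]

/-- For a finite set `T` of places there is a nonzero function `w`, regular outside the poles of
`j`, with `ord_P w ≥ -ord_P v` at the places of `T` which are not poles of `j`, and with pole
order at most `d` times that of `j` at the poles of `j`. -/
theorem exists_aux {j : F} (hj : Transcendental K j) [FiniteDimensional K⟮j⟯ F] (v : F)
    (T : Finset (Place K F)) :
    ∃ (w : F) (d : ℕ), w ≠ 0 ∧ (∀ P : Place K F, 0 ≤ P.ord j → 0 ≤ P.ord w) ∧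
      (∀ P ∈ T, 0 ≤ P.ord j → -(P.ord v) ≤ P.ord w) ∧
      (∀ P : Place K F, P.ord j < 0 → (d : ℤ) * P.ord j ≤ P.ord w) := by
  classical
  induction T using Finset.induction_on with
  | empty =>
    exact ⟨1, 0, one_ne_zero, fun P _ => by simp, fun P hP => absurd hP (Finset.notMem_empty P),
      fun P _ => by simp⟩
  | insert P₀ T hP₀ ih =>
    obtain ⟨w, d, hw, ha, hb, hc⟩ := ih
    by_cases h0 : 0 ≤ P₀.ord j
    · obtain ⟨c, hc0 | hc0⟩ := exists_sub_mem_maximal hj P₀ h0
      · exact absurd (hc0 ▸ isAlgebraic_algebraMap c) hj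
      · have ht : j - algebraMap K F c ≠ 0 := by
          intro h
          rw [h, Place.ord_zero] at hc0
          exact lt_irrefl _ hc0
        have hmin : ∀ P : Place K F, min (P.ord j) 0 ≤ P.ord (j - algebraMap K F c) :=
          fun P => min_ord_le_ord_sub_const P c ht
        have hord : ∀ P : Place K F,
            P.ord (w * (j - algebraMap K F c) ^ (P₀.ord v).natAbs) =
              P.ord w + ((P₀.ord v).natAbs : ℤ) * P.ord (j - algebraMap K F c) := by
          intro P
          rw [P.ord_mul hw (pow_ne_zero _ ht), ord_pow_eq]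
        have hk : (0 : ℤ) ≤ ((P₀.ord v).natAbs : ℤ) := Int.natCast_nonneg _
        refine ⟨w * (j - algebraMap K F c) ^ (P₀.ord v).natAbs, d + (P₀.ord v).natAbs,
          mul_ne_zero hw (pow_ne_zero _ ht), ?_, ?_, ?_⟩
        · intro P hP
          rw [hord]
          have h1 : 0 ≤ P.ord (j - algebraMap K F c) := by
            have := hmin P
            rwa [min_eq_right hP] at this
          exact add_nonneg (ha P hP) (mul_nonneg hk h1)
        · intro P hPT hP
          rw [hord]
          have h1 : 0 ≤ P.ord (j - algebraMap K F c) := by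
            have := hmin P
            rwa [min_eq_right hP] at this
          have h2 : 0 ≤ ((P₀.ord v).natAbs : ℤ) * P.ord (j - algebraMap K F c) :=
            mul_nonneg hk h1
          rcases Finset.mem_insert.mp hPT with hPP | hPT'
          · have h3 := ha P hP
            have h4 : ((P₀.ord v).natAbs : ℤ) * 1 ≤
                ((P₀.ord v).natAbs : ℤ) * P.ord (j - algebraMap K F c) := by
              apply mul_le_mul_of_nonneg_left _ hk
              rw [hPP]
              exact hc0
            rw [hPP] at h4 ⊢
            rw [hPP] at h3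
            omega
          · have h3 := hb P hPT' hP
            omega
        · intro P hP
          rw [hord]
          have h1 : P.ord j ≤ P.ord (j - algebraMap K F c) := by
            have := hmin P
            rwa [min_eq_left hP.le] at this
          have h2 := hc P hP
          have h3 : ((P₀.ord v).natAbs : ℤ) * P.ord j ≤
              ((P₀.ord v).natAbs : ℤ) * P.ord (j - algebraMap K F c) :=
            mul_le_mul_of_nonneg_left h1 hk
          rw [Nat.cast_add, add_mul]
          exact add_le_add h2 h3
    · refine ⟨w, d, hw, ha, ?_, hc⟩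
      intro P hPT hP
      rcases Finset.mem_insert.mp hPT with hPP | hPT'
      · rw [hPP] at hP
        exact absurd hP h0
      · exact hb P hPT' hP

/-- In a function field `F / K(j)`: for `v ≠ 0` and `p > 0` there are `m` and `w ≠ 0` with
`p · ord_P w + ord_P v ≥ p · m · min (ord_P j, 0)` at every place `P`. -/
theorem exists_general {j : F} (hj : Transcendental K j) [FiniteDimensional K⟮j⟯ F] (p : ℕ)
    (hp : 0 < p) (v : F) (hv : v ≠ 0) :
    ∃ (m : ℕ) (w : F), w ≠ 0 ∧ ∀ P : Place K F,
      (p : ℤ) * (m : ℤ) * min (P.ord j) 0 ≤ (p : ℤ) * P.ord w + P.ord v := by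
  classical
  have hfin : {P : Place K F | P.ord v ≠ 0}.Finite := finite_setOf_ord_ne_zero hj hv
  obtain ⟨w, d, hw, ha, hb, hc⟩ := exists_aux hj v hfin.toFinset
  have hMle : ∀ P : Place K F,
      (P.ord v).natAbs ≤ ∑ Q ∈ hfin.toFinset, (Q.ord v).natAbs := by
    intro P
    by_cases hP : P.ord v = 0
    · rw [hP]
      exact Nat.zero_le _
    · have hPT : P ∈ hfin.toFinset := by
        rw [Set.Finite.mem_toFinset]
        exact hP
      exact Finset.single_le_sum (f := fun Q : Place K F => (Q.ord v).natAbs)
        (fun _ _ => Nat.zero_le _) hPT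
  refine ⟨d + ∑ Q ∈ hfin.toFinset, (Q.ord v).natAbs, w, hw, fun P => ?_⟩
  generalize (∑ Q ∈ hfin.toFinset, (Q.ord v).natAbs) = M at hMle ⊢
  have hp1 : (1 : ℤ) ≤ (p : ℤ) := by exact_mod_cast hp
  have hp0 : (0 : ℤ) ≤ (p : ℤ) := by omega
  have hM0 : (0 : ℤ) ≤ (M : ℤ) := Int.natCast_nonneg _
  have hMP := hMle P
  rcases lt_or_ge (P.ord j) 0 with hneg | hnn
  · rw [min_eq_left hneg.le]
    have h1 := hc P hneg
    have h2 : (p : ℤ) * ((d : ℤ) * P.ord j) ≤ (p : ℤ) * P.ord w :=
      mul_le_mul_of_nonneg_left h1 hp0
    have h3 : (p : ℤ) * P.ord j ≤ 1 * (-1) :=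
      mul_le_mul_of_nonneg_of_nonpos' hp1 (by omega) (by omega) (by omega)
    have h4 : (M : ℤ) * ((p : ℤ) * P.ord j) ≤ (M : ℤ) * (1 * (-1)) :=
      mul_le_mul_of_nonneg_left h3 hM0
    have h5 : -(M : ℤ) ≤ P.ord v := by omega
    have h6 : (p : ℤ) * ((d + M : ℕ) : ℤ) * P.ord j =
        (p : ℤ) * ((d : ℤ) * P.ord j) + (M : ℤ) * ((p : ℤ) * P.ord j) := by
      push_cast
      ring
    rw [h6]
    omega
  · rw [min_eq_right hnn, mul_zero]
    have h1 := ha P hnn
    by_cases hP : P.ord v = 0
    · rw [hP, add_zero]
      exact mul_nonneg hp0 h1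
    · have hPT : P ∈ hfin.toFinset := by
        rw [Set.Finite.mem_toFinset]
        exact hP
      have h2 := hb P hPT hnn
      have h3 : 1 * P.ord w ≤ (p : ℤ) * P.ord w := mul_le_mul_of_nonneg_right hp1 h1
      omega

end General

/-- For `v ≠ 0` and `p > 0`, some space `W N p m v` contains a nonzero function. -/
theorem exists_ne_zero_mem_W (N : ℕ) [NeZero N] (p : ℕ) (hp : 0 < p) (v : FFL ℂ N)
    (hv : v ≠ 0) : ∃ (m : ℕ) (w : FFL ℂ N), w ≠ 0 ∧ w ∈ OrbitDefs.W N p m v := by
  have : FiniteDimensional ℂ⟮jL ℂ N⟯ (FFL ℂ N) := finiteDimensional_jL_of_emb N (RingHom.id ℂ)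
  obtain ⟨m, w, hw, h⟩ := exists_general (transcendental_jL N ℂ) p hp v hv
  exact ⟨m, w, hw, Or.inr h⟩

end OrbitExistWB

end Fermat.Agent.S42
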